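import Fermat.Agent.S34x.C0two.Pair
import Fermat.Prelude.Def_AlgebraicCurve_DivisorClassGroup

/-!
# P-S34: the normalisation lemma of (T4)/(T5)

A function `w` whose two reductions are nonzero *constants* `(c₁, c₂)` is divided by `e ^ m`,
`e` a unit of the small ring with `res e = (d₁, d₂)`, `d_i ^ m = c_i`, so that the quotient has
reduction `(1, 1)`.

* pure ring level: if the constants lift along `res : O →+* κ₁ × κ₂` and `(0, 1)` is in the range
  of `res`, then `k × k` is in the range (`exists_res_eq_pair`), and over an algebraically closed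
  `k` every pair of constants is `res (e ^ m)` (`exists_res_pow_eq`);
* for a `RedSetup2 A S k (κ₁ × κ₂)`: `exists_normalise`; the invertibility hypothesis holds for the
  small ring of two valuation subrings (`inv_mem_twoVal`, `exists_normalise_twoVal`);
* bookkeeping: `dvd_ord_div_pow` (divisibility of the orders is preserved) and
  `map_div_self_eq` / `smul_div_self_eq` / `smul_div_self_eq_const_mul_pow` (the Kummer quotient
  `σ w / w` changes by an `m`-th power).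
-/

set_option autoImplicit false

namespace Fermat.Agent.S34x.Normalise

open Fermat.Agent.S34x.C0two

/-! ### Pure ring level -/

section ring

variable {O k κ₁ κ₂ : Type*} [CommRing O] [Field k] [CommRing κ₁] [CommRing κ₂]
  [Algebra k κ₁] [Algebra k κ₂] (res : O →+* κ₁ × κ₂)

/-- If the constants lift and `(0, 1)` is a reduction, every pair of constants is a reduction. -/
theorem exists_res_eq_pair (hconst : ∀ c : k, ∃ x : O, res x = algebraMap k (κ₁ × κ₂) c)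
    (hsep : ∃ s : O, res s = (0, 1)) (c₁ c₂ : k) :
    ∃ e : O, res e = (algebraMap k κ₁ c₁, algebraMap k κ₂ c₂) := by
  obtain ⟨s, hs⟩ := hsep
  obtain ⟨x₁, hx₁⟩ := hconst c₁
  obtain ⟨x₂, hx₂⟩ := hconst c₂
  refine ⟨x₁ * (1 - s) + x₂ * s, ?_⟩
  rw [map_add, map_mul, map_mul, map_sub, map_one, hs, hx₁, hx₂]
  refine Prod.ext ?_ ?_
  · simp [Prod.algebraMap_apply]
  · simp [Prod.algebraMap_apply]

/-- Over an algebraically closed `k`: every pair of constants is the reduction of an `m`-th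
power `e ^ m`, where `res e` is a pair of constants (`m`-th roots). -/
theorem exists_res_pow_eq [IsAlgClosed k]
    (hconst : ∀ c : k, ∃ x : O, res x = algebraMap k (κ₁ × κ₂) c)
    (hsep : ∃ s : O, res s = (0, 1)) {m : ℕ} (hm : 0 < m) (c₁ c₂ : k) :
    ∃ (e : O) (d₁ d₂ : k), d₁ ^ m = c₁ ∧ d₂ ^ m = c₂ ∧
      res e = (algebraMap k κ₁ d₁, algebraMap k κ₂ d₂) ∧
      res (e ^ m) = (algebraMap k κ₁ c₁, algebraMap k κ₂ c₂) := by
  obtain ⟨d₁, hd₁⟩ := IsAlgClosed.exists_pow_nat_eq c₁ hm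
  obtain ⟨d₂, hd₂⟩ := IsAlgClosed.exists_pow_nat_eq c₂ hm
  obtain ⟨e, he⟩ := exists_res_eq_pair res hconst hsep d₁ d₂
  refine ⟨e, d₁, d₂, hd₁, hd₂, he, ?_⟩
  rw [map_pow, he, Prod.pow_mk, ← map_pow, ← map_pow, hd₁, hd₂]

end ring

/-! ### In a `RedSetup2` with residue ring `κ₁ × κ₂` -/

section redsetup

variable {K : Type*} [Field K] {A : ValuationSubring K} {F : Type*} [Field F] [Algebra K F]
  {S : SmallRing F} {k κ₁ κ₂ : Type*} [Field k] [Field κ₁] [Field κ₂]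
  [Algebra k κ₁] [Algebra k κ₂] (R : RedSetup2 A S k (κ₁ × κ₂))

include R in
/-- The constants lift to the small ring. -/
theorem exists_res_eq_algebraMap (c : k) :
    ∃ x : S.O, R.res x = algebraMap k (κ₁ × κ₂) c := by
  obtain ⟨a, rfl⟩ := R.π_surj c
  exact ⟨⟨algebraMap K F a, R.algebraMap_mem a⟩, R.res_algebraMap a⟩

/-- **Normalisation.** If `res w = (c₁, c₂)` with nonzero constants `c₁ c₂ : k`, then there is a
unit `e` of the small ring such that `w / e ^ m` has reduction `1 = (1, 1)`. -/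
theorem exists_normalise [IsAlgClosed k]
    (hinv : ∀ x : S.O, (R.res x).1 ≠ 0 → (R.res x).2 ≠ 0 → ((x : F))⁻¹ ∈ S.O)
    (hsep : ∃ s : S.O, R.res s = (0, 1)) {m : ℕ} (hm : 0 < m) {w : F} (hw : w ∈ S.O)
    {c₁ c₂ : k} (hc₁ : c₁ ≠ 0) (hc₂ : c₂ ≠ 0)
    (hres : R.res ⟨w, hw⟩ = (algebraMap k κ₁ c₁, algebraMap k κ₂ c₂)) :
    ∃ e : F, e ≠ 0 ∧ e ∈ S.O ∧ e⁻¹ ∈ S.O ∧
      ∃ h : w / e ^ m ∈ S.O, R.res ⟨w / e ^ m, h⟩ = 1 := by
  obtain ⟨e, d₁, d₂, hd₁, hd₂, he, hem⟩ :=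
    exists_res_pow_eq R.res (exists_res_eq_algebraMap R) hsep hm c₁ c₂
  have hd₁0 : d₁ ≠ 0 := by
    rintro rfl
    exact hc₁ (by rw [← hd₁, zero_pow hm.ne'])
  have hd₂0 : d₂ ≠ 0 := by
    rintro rfl
    exact hc₂ (by rw [← hd₂, zero_pow hm.ne'])
  have h1 : (R.res e).1 ≠ 0 := by
    rw [he]
    exact (map_ne_zero_iff _ (algebraMap k κ₁).injective).mpr hd₁0
  have h2 : (R.res e).2 ≠ 0 := by
    rw [he]
    exact (map_ne_zero_iff _ (algebraMap k κ₂).injective).mpr hd₂0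
  have he0 : (e : F) ≠ 0 := by
    intro h0
    have : e = 0 := Subtype.ext h0
    rw [this, map_zero] at h1
    exact h1 rfl
  have hei : ((e : F))⁻¹ ∈ S.O := hinv e h1 h2
  have hmem : w / (e : F) ^ m ∈ S.O := by
    rw [div_eq_mul_inv, ← inv_pow]
    exact S.O.mul_mem hw (S.O.pow_mem hei m)
  refine ⟨(e : F), he0, e.2, hei, hmem, ?_⟩
  -- `res (w / e ^ m) * res (e ^ m) = res w = res (e ^ m)` and `res (e ^ m)` is a unit
  have hmul : (⟨w / (e : F) ^ m, hmem⟩ : S.O) * e ^ m = ⟨w, hw⟩ := by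
    apply Subtype.ext
    show w / (e : F) ^ m * (e : F) ^ m = w
    exact div_mul_cancel₀ w (pow_ne_zero m he0)
  have h3 : R.res ⟨w / (e : F) ^ m, hmem⟩ * R.res (e ^ m) = R.res (e ^ m) := by
    rw [← map_mul, hmul, hres, hem]
  have hc₁' : algebraMap k κ₁ c₁ ≠ 0 :=
    (map_ne_zero_iff _ (algebraMap k κ₁).injective).mpr hc₁
  have hc₂' : algebraMap k κ₂ c₂ ≠ 0 :=
    (map_ne_zero_iff _ (algebraMap k κ₂).injective).mpr hc₂
  rw [hem] at h3
  refine Prod.ext ?_ ?_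
  · have := congrArg Prod.fst h3
    simp only [Prod.fst_mul] at this
    exact mul_right_cancel₀ hc₁' (this.trans (one_mul _).symm)
  · have := congrArg Prod.snd h3
    simp only [Prod.snd_mul] at this
    exact mul_right_cancel₀ hc₂' (this.trans (one_mul _).symm)

end redsetup

/-! ### The small ring of two valuation subrings -/

section twoval

variable {K : Type*} [Field K] {A : ValuationSubring K} {F : Type*} [Field F] [Algebra K F]
  {O₁ O₂ : ValuationSubring F} {k κ₁ κ₂ : Type*} [Field k] [Field κ₁] [Field κ₂]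
  [Algebra k κ₁] [Algebra k κ₂]

/-- An element of `O₁ ⊓ O₂` whose two reductions are nonzero is a unit of `O₁ ⊓ O₂`. -/
theorem inv_mem_twoVal (R₁ : Gateway.C0.RedSetup A O₁ k κ₁) (R₂ : Gateway.C0.RedSetup A O₂ k κ₂)
    (hπ : R₁.π = R₂.π) (x : (twoVal O₁ O₂).O)
    (h1 : ((redSetupTwoVal R₁ R₂ hπ).res x).1 ≠ 0)
    (h2 : ((redSetupTwoVal R₁ R₂ hπ).res x).2 ≠ 0) :
    ((x : F))⁻¹ ∈ (twoVal O₁ O₂).O := by
  have key : ∀ (O : ValuationSubring F) (y : F), y ∈ O → ¬ O.valuation y < 1 → y⁻¹ ∈ O := by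
    intro O y hy hlt
    have hle : O.valuation y ≤ 1 := (O.valuation_le_one_iff y).mpr hy
    have h1 : O.valuation y = 1 := le_antisymm hle (not_lt.mp hlt)
    rw [← O.valuation_le_one_iff, map_inv₀, h1, inv_one]
  refine ⟨key O₁ _ x.2.1 fun hlt => h1 ?_, key O₂ _ x.2.2 fun hlt => h2 ?_⟩
  · exact (R₁.res_ker ⟨x.1, x.2.1⟩).mpr hlt
  · exact (R₂.res_ker ⟨x.1, x.2.2⟩).mpr hlt

/-- **Normalisation for two valuation subrings.** -/
theorem exists_normalise_twoVal [IsAlgClosed k] (R₁ : Gateway.C0.RedSetup A O₁ k κ₁)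
    (R₂ : Gateway.C0.RedSetup A O₂ k κ₂) (hπ : R₁.π = R₂.π)
    (hsep : ∃ s : (twoVal O₁ O₂).O, (redSetupTwoVal R₁ R₂ hπ).res s = (0, 1))
    {m : ℕ} (hm : 0 < m) {w : F} (hw : w ∈ (twoVal O₁ O₂).O)
    {c₁ c₂ : k} (hc₁ : c₁ ≠ 0) (hc₂ : c₂ ≠ 0)
    (hres : (redSetupTwoVal R₁ R₂ hπ).res ⟨w, hw⟩ = (algebraMap k κ₁ c₁, algebraMap k κ₂ c₂)) :
    ∃ e : F, e ≠ 0 ∧ e ∈ (twoVal O₁ O₂).O ∧ e⁻¹ ∈ (twoVal O₁ O₂).O ∧
      ∃ h : w / e ^ m ∈ (twoVal O₁ O₂).O, (redSetupTwoVal R₁ R₂ hπ).res ⟨w / e ^ m, h⟩ = 1 :=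
  exists_normalise (redSetupTwoVal R₁ R₂ hπ) (inv_mem_twoVal R₁ R₂ hπ) hsep hm hw hc₁ hc₂ hres

end twoval

/-! ### Bookkeeping: orders and Kummer quotients -/

section bookkeeping

open AlgebraicCurve

variable {L F : Type*} [Field L] [Field F] [Algebra L F]

/-- Dividing by an `m`-th power preserves divisibility of the orders by `m`:
`div (w / e ^ m) = m (D_w - div e)`. -/
theorem ord_div_pow (P : Place L F) {w e : F} (hw : w ≠ 0) (he : e ≠ 0) (m : ℕ) :
    P.ord (w / e ^ m) = P.ord w - m * P.ord e := by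
  rw [div_eq_mul_inv, P.ord_mul hw (inv_ne_zero (pow_ne_zero m he)), P.ord_inv]
  have := P.ord_zpow e (m : ℤ)
  rw [zpow_natCast] at this
  rw [this]
  ring

theorem dvd_ord_div_pow (P : Place L F) {w e : F} (hw : w ≠ 0) (he : e ≠ 0) (m : ℕ)
    (h : (m : ℤ) ∣ P.ord w) : (m : ℤ) ∣ P.ord (w / e ^ m) := by
  rw [ord_div_pow P hw he m]
  exact dvd_sub h (dvd_mul_right _ _)

theorem div_pow_ne_zero {w e : F} (hw : w ≠ 0) (he : e ≠ 0) (m : ℕ) : w / e ^ m ≠ 0 :=
  div_ne_zero hw (pow_ne_zero m he)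

/-- The Kummer quotient `σ w / w` of `w` and of `w / e ^ m` differ by the `m`-th power
`(σ e / e) ^ m`. -/
theorem map_div_self_eq {G : Type*} [FunLike G F F] [MonoidWithZeroHomClass G F F] (σ : G)
    {w e : F} (hw : w ≠ 0) (he : e ≠ 0) (m : ℕ) :
    σ w / w = σ (w / e ^ m) / (w / e ^ m) * (σ e / e) ^ m := by
  have hσe : σ e ≠ 0 := fun h => he ((map_eq_zero σ).mp h)
  rw [map_div₀, map_pow, div_pow]
  field_simp

/-- If the Kummer quotient of `w / e ^ m` is a constant times an `m`-th power, so is the one of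
`w`. -/
theorem map_div_self_eq_const_mul_pow {G : Type*} [FunLike G F F] [MonoidWithZeroHomClass G F F]
    (σ : G) {w e : F} (hw : w ≠ 0) (he : e ≠ 0) (m : ℕ) {c v : F}
    (h : σ (w / e ^ m) / (w / e ^ m) = c * v ^ m) :
    σ w / w = c * (v * (σ e / e)) ^ m := by
  rw [map_div_self_eq σ hw he m, h, mul_pow, mul_assoc]

/-- Action form of `map_div_self_eq`. -/
theorem smul_div_self_eq {G : Type*} [Group G] [MulSemiringAction G F] (τ : G)
    {w e : F} (hw : w ≠ 0) (he : e ≠ 0) (m : ℕ) :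
    (τ • w) / w = (τ • (w / e ^ m)) / (w / e ^ m) * ((τ • e) / e) ^ m :=
  map_div_self_eq (MulSemiringAction.toRingHom G F τ) hw he m

/-- Action form of `map_div_self_eq_const_mul_pow`. -/
theorem smul_div_self_eq_const_mul_pow {G : Type*} [Group G] [MulSemiringAction G F] (τ : G)
    {w e : F} (hw : w ≠ 0) (he : e ≠ 0) (m : ℕ) {c v : F}
    (h : (τ • (w / e ^ m)) / (w / e ^ m) = c * v ^ m) :
    (τ • w) / w = c * (v * ((τ • e) / e)) ^ m :=
  map_div_self_eq_const_mul_pow (MulSemiringAction.toRingHom G F τ) hw he m h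

end bookkeeping

end Fermat.Agent.S34x.Normalise
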