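import Mathlib

/-!
# Linear algebra at the nodes of a two-component reduction

Abstract lemmas for the semistable-reduction argument at a prime `q ∥ N`.

* `exists_graph_of_codim_le` (Lemma A): a `k`-subspace `N` of `V`, of codimension at most the
  number of nodes, on which the two evaluations at every node have equal `m`-th powers, is the
  set of vectors whose two evaluations differ by a nonzero constant `c j` at every node `j`.
* `one_mem_mul_of_graph`, `one_mem_mul` (Lemma B): two such subspaces of `B₁ × B₂` whose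
  product lies in the glued ring have product containing `1`.
* `finite_and_finrank_quotient_le_of_exhaustion`: the codimension bound from an exhaustion.
* `goursat`: a subalgebra of `B₁ × B₂` with surjective projections is a fibre product.
* `isReduced_of_forall_exists_pow_eq`: a Noetherian ring in which every element is a `p`-th
  power (`p ≥ 2`) is reduced.
* `algEquivPiOfIsReduced`: a reduced finite-dimensional algebra over an algebraically closed
  field is a finite power of the field.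
-/

namespace Fermat.Agent.S34x.NodeLinAlg

open Module

section LemmaA

variable {k : Type*} [Field k] {ι : Type*}
variable {V : Type*} [AddCommGroup V] [Module k V]

/-- Step 1: at every node the image of `N` lies in the kernel of a nonzero functional. -/
theorem exists_functional (ev : V →ₗ[k] (ι → k) × (ι → k)) (N : Submodule k V)
    {m : ℕ} (hm : m ≠ 0)
    (hpow : ∀ n ∈ N, ∀ j, ((ev n).1 j) ^ m = ((ev n).2 j) ^ m) (j : ι) :
    ∃ α β : k, (α ≠ 0 ∨ β ≠ 0) ∧ ∀ n ∈ N, β * (ev n).1 j = α * (ev n).2 j := by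
  by_cases h : ∃ n ∈ N, ((ev n).1 j ≠ 0 ∨ (ev n).2 j ≠ 0)
  · obtain ⟨n₀, hn₀, hne⟩ := h
    refine ⟨(ev n₀).1 j, (ev n₀).2 j, hne, fun n hn => ?_⟩
    have hw : (ev n).2 j • n₀ - (ev n₀).2 j • n ∈ N :=
      N.sub_mem (N.smul_mem _ hn₀) (N.smul_mem _ hn)
    have := hpow _ hw j
    simp only [map_sub, map_smul, Prod.fst_sub, Prod.snd_sub, Prod.smul_fst, Prod.smul_snd,
      Pi.sub_apply, Pi.smul_apply, smul_eq_mul] at this
    rw [mul_comm ((ev n₀).2 j) ((ev n).2 j), sub_self, zero_pow hm] at this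
    have h0 := pow_eq_zero_iff hm |>.1 this
    linear_combination -h0
  · push Not at h
    refine ⟨1, 0, Or.inl one_ne_zero, fun n hn => ?_⟩
    rw [(h n hn).2]
    ring

/-- **Lemma A.**  Let `ev : V → k^ι × k^ι` be a surjective linear map (the two evaluations at
the nodes `j : ι`) and `N ≤ V` a subspace of codimension at most the number of nodes such that
the two evaluations of every element of `N` have the same `m`-th power at every node.  Then
`N` is exactly the set of vectors whose second evaluation is `c j` times the first at every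
node `j`, for suitable `c j ∈ kˣ` with `c j ^ m = 1`. -/
theorem exists_graph_of_codim_le [Fintype ι] (ev : V →ₗ[k] (ι → k) × (ι → k))
    (hev : Function.Surjective ev) (N : Submodule k V) [Module.Finite k (V ⧸ N)]
    (hcodim : finrank k (V ⧸ N) ≤ Fintype.card ι) {m : ℕ} (hm : m ≠ 0)
    (hpow : ∀ n ∈ N, ∀ j, ((ev n).1 j) ^ m = ((ev n).2 j) ^ m) :
    ∃ c : ι → kˣ, (∀ j, c j ^ m = 1) ∧
      ∀ v, v ∈ N ↔ ∀ j, (ev v).2 j = (c j : k) * (ev v).1 j := by
  classical
  have h1 := fun j => exists_functional ev N hm hpow j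
  choose α β hne hker using h1
  -- the functional
  let Λ : V →ₗ[k] (ι → k) := LinearMap.pi fun j =>
    β j • ((LinearMap.proj j).comp ((LinearMap.fst k (ι → k) (ι → k)).comp ev)) -
      α j • ((LinearMap.proj j).comp ((LinearMap.snd k (ι → k) (ι → k)).comp ev))
  have hΛ : ∀ v j, Λ v j = β j * (ev v).1 j - α j * (ev v).2 j := fun v j => rfl
  have hΛsurj : Function.Surjective Λ := by
    intro t
    have : ∀ j, ∃ x y : k, β j * x - α j * y = t j := by
      intro j
      rcases hne j with h | h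
      · exact ⟨0, -(t j / α j), by field_simp; ring⟩
      · exact ⟨t j / β j, 0, by field_simp; ring⟩
    choose x y hxy using this
    obtain ⟨v, hv⟩ := hev (x, y)
    refine ⟨v, funext fun j => ?_⟩
    rw [hΛ, hv]
    exact hxy j
  have hle : N ≤ LinearMap.ker Λ := by
    intro n hn
    rw [LinearMap.mem_ker]
    funext j
    rw [hΛ, hker j n hn, sub_self]
    rfl
  -- the induced map on the quotient is bijective
  have hqsurj : Function.Surjective (N.liftQ Λ hle) := by
    intro t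
    obtain ⟨v, rfl⟩ := hΛsurj t
    exact ⟨N.mkQ v, rfl⟩
  have hfin : finrank k (V ⧸ N) = finrank k (ι → k) := by
    apply le_antisymm
    · rw [Module.finrank_fintype_fun_eq_card]
      exact hcodim
    · exact LinearMap.finrank_le_finrank_of_surjective hqsurj
  have hqinj : Function.Injective (N.liftQ Λ hle) :=
    (LinearMap.injective_iff_surjective_of_finrank_eq_finrank hfin).2 hqsurj
  have hmem : ∀ v, v ∈ N ↔ ∀ j, β j * (ev v).1 j = α j * (ev v).2 j := by
    intro v
    constructor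
    · intro hv j
      exact hker j v hv
    · intro hv
      have h0 : N.liftQ Λ hle (N.mkQ v) = 0 := by
        show Λ v = 0
        funext j
        rw [hΛ, hv j, sub_self]
        rfl
      have := hqinj (h0.trans (map_zero _).symm)
      exact (Submodule.Quotient.mk_eq_zero N).1 this
  -- the vector with evaluations `(α, β)` lies in `N`
  obtain ⟨v₀, hv₀⟩ := hev (α, β)
  have hv₀N : v₀ ∈ N := (hmem v₀).2 fun j => by rw [hv₀]; ring
  have hαβ : ∀ j, α j ^ m = β j ^ m := fun j => by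
    have := hpow v₀ hv₀N j
    rwa [hv₀] at this
  have hα : ∀ j, α j ≠ 0 := by
    intro j h
    have h2 : β j ^ m = 0 := by rw [← hαβ, h, zero_pow hm]
    have h3 : β j = 0 := (pow_eq_zero_iff hm).1 h2
    rcases hne j with h' | h'
    · exact h' h
    · exact h' h3
  have hβ : ∀ j, β j ≠ 0 := by
    intro j h
    have h2 : α j ^ m = 0 := by rw [hαβ, h, zero_pow hm]
    exact hα j ((pow_eq_zero_iff hm).1 h2)
  refine ⟨fun j => Units.mk0 (β j / α j) (div_ne_zero (hβ j) (hα j)), fun j => ?_, fun v => ?_⟩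
  · apply Units.ext
    simp only [Units.val_pow_eq_pow_val, Units.val_mk0, Units.val_one, div_pow]
    rw [hαβ j, div_self (pow_ne_zero m (hβ j))]
  · rw [hmem v]
    refine forall_congr' fun j => ?_
    simp only [Units.val_mk0]
    have := hα j
    constructor
    · intro h
      field_simp
      linear_combination -h
    · intro h
      rw [h]
      field_simp

end LemmaA

section LemmaB

variable {k : Type*} [Field k] {ι : Type*}
variable {B₁ B₂ : Type*} [CommRing B₁] [CommRing B₂] [Algebra k B₁] [Algebra k B₂]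

/-- The pair of evaluations `B₁ × B₂ → k^ι × k^ι` as a linear map. -/
def evPair (ρ₁ : B₁ →ₐ[k] (ι → k)) (ρ₂ : B₂ →ₐ[k] (ι → k)) :
    B₁ × B₂ →ₗ[k] (ι → k) × (ι → k) :=
  LinearMap.prodMap ρ₁.toLinearMap ρ₂.toLinearMap

@[simp] theorem evPair_apply (ρ₁ : B₁ →ₐ[k] (ι → k)) (ρ₂ : B₂ →ₐ[k] (ι → k)) (x : B₁ × B₂) :
    evPair ρ₁ ρ₂ x = (ρ₁ x.1, ρ₂ x.2) := rfl

theorem evPair_surjective {ρ₁ : B₁ →ₐ[k] (ι → k)} {ρ₂ : B₂ →ₐ[k] (ι → k)}
    (h₁ : Function.Surjective ρ₁) (h₂ : Function.Surjective ρ₂) :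
    Function.Surjective (evPair ρ₁ ρ₂) := fun ⟨x, y⟩ => by
  obtain ⟨a, rfl⟩ := h₁ x
  obtain ⟨b, rfl⟩ := h₂ y
  exact ⟨(a, b), rfl⟩

/-- **Lemma B** (graph form).  Two subspaces of `B₁ × B₂` cut out by gluing constants `c`, `c'`
at the nodes, whose product lies in the glued ring `{ρ₁ f = ρ₂ g}`, have product containing
`1`. -/
theorem one_mem_mul_of_graph (ρ₁ : B₁ →ₐ[k] (ι → k)) (ρ₂ : B₂ →ₐ[k] (ι → k))
    (h₁ : Function.Surjective ρ₁) (h₂ : Function.Surjective ρ₂)
    (N N' : Submodule k (B₁ × B₂)) (c c' : ι → kˣ)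
    (hN : ∀ v, v ∈ N ↔ ∀ j, ρ₂ v.2 j = (c j : k) * ρ₁ v.1 j)
    (hN' : ∀ v, v ∈ N' ↔ ∀ j, ρ₂ v.2 j = (c' j : k) * ρ₁ v.1 j)
    (hmul : ∀ n ∈ N, ∀ n' ∈ N', ρ₁ (n.1 * n'.1) = ρ₂ (n.2 * n'.2)) :
    (1 : B₁ × B₂) ∈ N * N' := by
  -- elements with prescribed evaluations
  obtain ⟨g, hg⟩ := h₂ (fun j => (c j : k))
  obtain ⟨g', hg'⟩ := h₂ (fun j => (c' j : k))
  obtain ⟨f', hf'⟩ := h₁ (fun j => ((c' j)⁻¹ : kˣ))
  have hn : ((1 : B₁), g) ∈ N := (hN _).2 fun j => by simp [hg]
  have hn' : ((1 : B₁), g') ∈ N' := (hN' _).2 fun j => by simp [hg']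
  have hn'' : (f', (1 : B₂)) ∈ N' := (hN' _).2 fun j => by simp [hf']
  -- the constants are inverse to each other
  have hcc : ∀ j, (c j : k) * (c' j : k) = 1 := fun j => by
    have := congrFun (hmul _ hn _ hn') j
    simp only [mul_one, map_one, Pi.one_apply, map_mul, Pi.mul_apply, hg, hg'] at this
    exact this.symm
  -- the defect lies in the kernel of the evaluations
  have hz₁ : ((0 : B₁), 1 - g * g') ∈ N := (hN _).2 fun j => by
    simp [hg, hg', hcc j]
  have hz₂ : ((0 : B₁), 1 - g * g') * (f', (1 : B₂)) = ((0 : B₁), 1 - g * g') := by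
    ext <;> simp
  have e : (1 : B₁ × B₂) = ((1 : B₁), g) * ((1 : B₁), g') +
      ((0 : B₁), 1 - g * g') * (f', (1 : B₂)) := by
    ext <;> simp
  rw [e]
  exact Submodule.add_mem _ (Submodule.mul_mem_mul hn hn') (Submodule.mul_mem_mul hz₁ hn'')

/-- **Lemma B.**  Let `ρᵢ : Bᵢ → k^ι` be surjective `k`-algebra maps and `N, N' ≤ B₁ × B₂`
subspaces of codimension at most `#ι` such that the `m`-th (resp. `m'`-th) power of every
element of `N` (resp. `N'`) and every product `n * n'` lie in the glued ring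
`{(f, g) | ρ₁ f = ρ₂ g}`.  Then `1 ∈ N * N'`. -/
theorem one_mem_mul [Fintype ι] (ρ₁ : B₁ →ₐ[k] (ι → k)) (ρ₂ : B₂ →ₐ[k] (ι → k))
    (h₁ : Function.Surjective ρ₁) (h₂ : Function.Surjective ρ₂)
    (N N' : Submodule k (B₁ × B₂)) [Module.Finite k ((B₁ × B₂) ⧸ N)]
    [Module.Finite k ((B₁ × B₂) ⧸ N')]
    (hcodim : finrank k ((B₁ × B₂) ⧸ N) ≤ Fintype.card ι)
    (hcodim' : finrank k ((B₁ × B₂) ⧸ N') ≤ Fintype.card ι)
    {m m' : ℕ} (hm : m ≠ 0) (hm' : m' ≠ 0)
    (hpow : ∀ n ∈ N, ρ₁ (n.1 ^ m) = ρ₂ (n.2 ^ m))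
    (hpow' : ∀ n ∈ N', ρ₁ (n.1 ^ m') = ρ₂ (n.2 ^ m'))
    (hmul : ∀ n ∈ N, ∀ n' ∈ N', ρ₁ (n.1 * n'.1) = ρ₂ (n.2 * n'.2)) :
    (1 : B₁ × B₂) ∈ N * N' := by
  obtain ⟨c, -, hc⟩ := exists_graph_of_codim_le (evPair ρ₁ ρ₂) (evPair_surjective h₁ h₂) N
    hcodim hm (fun n hn j => by
      have := congrFun (hpow n hn) j
      simpa using this)
  obtain ⟨c', -, hc'⟩ := exists_graph_of_codim_le (evPair ρ₁ ρ₂) (evPair_surjective h₁ h₂) N'
    hcodim' hm' (fun n hn j => by
      have := congrFun (hpow' n hn) j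
      simpa using this)
  exact one_mem_mul_of_graph ρ₁ ρ₂ h₁ h₂ N N' c c' hc hc' hmul

end LemmaB

section Exhaustion

variable {k : Type*} [Field k] {V : Type*} [AddCommGroup V] [Module k V]

/-- The image of a finite-dimensional subspace `P` in `V ⧸ N` has dimension at most
`dim P - dim N₀` for every subspace `N₀ ≤ N ⊓ P`. -/
theorem finrank_range_mkQ_le (N P N₀ : Submodule k V) [FiniteDimensional k P]
    (h₀N : N₀ ≤ N) (h₀P : N₀ ≤ P) :
    finrank k (LinearMap.range (N.mkQ.comp P.subtype)) + finrank k N₀ ≤ finrank k P := by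
  have h1 := LinearMap.finrank_range_add_finrank_ker (N.mkQ.comp P.subtype)
  have h2 : finrank k N₀ ≤ finrank k (LinearMap.ker (N.mkQ.comp P.subtype)) := by
    rw [← (Submodule.comapSubtypeEquivOfLe h₀P).finrank_eq]
    apply Submodule.finrank_mono
    intro x hx
    rw [LinearMap.mem_ker, LinearMap.comp_apply, Submodule.mkQ_apply,
      Submodule.Quotient.mk_eq_zero]
    exact h₀N hx
  omega

/-- **Codimension from an exhaustion.**  If `V` is the union of an increasing chain of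
finite-dimensional subspaces `P b`, and `N` contains subspaces `Nb b ≤ P b` with
`dim (P b) ≤ dim (Nb b) + δ` for all large `b`, then `N` has codimension at most `δ`. -/
theorem finite_and_finrank_quotient_le_of_exhaustion (N : Submodule k V)
    (P : ℕ → Submodule k V) (hmono : Monotone P) (htop : ∀ v, ∃ b, v ∈ P b)
    [∀ b, FiniteDimensional k (P b)] (Nb : ℕ → Submodule k V) (hNb : ∀ b, Nb b ≤ N)
    (hNP : ∀ b, Nb b ≤ P b) (δ b₀ : ℕ)
    (hdim : ∀ b, b₀ ≤ b → finrank k (P b) ≤ finrank k (Nb b) + δ) :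
    Module.Finite k (V ⧸ N) ∧ finrank k (V ⧸ N) ≤ δ := by
  classical
  have hrank : Module.rank k (V ⧸ N) ≤ (δ : ℕ) := by
    apply rank_le
    intro s hs
    -- all elements of `s` come from a single `P b`
    have hlift : ∀ w : V ⧸ N, ∃ b, b₀ ≤ b ∧ w ∈ LinearMap.range (N.mkQ.comp (P b).subtype) := by
      intro w
      obtain ⟨v, rfl⟩ := N.mkQ_surjective w
      obtain ⟨b, hb⟩ := htop v
      exact ⟨max b b₀, le_max_right _ _, ⟨⟨v, hmono (le_max_left _ _) hb⟩, rfl⟩⟩
    have hrange_mono : ∀ {b b' : ℕ}, b ≤ b' →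
        LinearMap.range (N.mkQ.comp (P b).subtype) ≤
          LinearMap.range (N.mkQ.comp (P b').subtype) := by
      rintro b b' hbb' _ ⟨x, rfl⟩
      exact ⟨⟨x.1, hmono hbb' x.2⟩, rfl⟩
    have hall : ∃ b, b₀ ≤ b ∧ ∀ w ∈ s, w ∈ LinearMap.range (N.mkQ.comp (P b).subtype) := by
      induction s using Finset.induction_on with
      | empty => exact ⟨b₀, le_rfl, fun w hw => absurd hw (Finset.notMem_empty w)⟩
      | insert a s _ ih =>
        obtain ⟨b, hb, hbs⟩ := ih (hs.comp (fun i : s => (⟨i.1, Finset.mem_insert_of_mem i.2⟩ :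
          (insert a s : Finset (V ⧸ N)))) (fun x y h => by
            apply Subtype.ext
            exact congrArg (fun z : (insert a s : Finset (V ⧸ N)) => z.1) h))
        obtain ⟨b', hb', hab'⟩ := hlift a
        refine ⟨max b b', hb.trans (le_max_left _ _), fun w hw => ?_⟩
        rcases Finset.mem_insert.1 hw with rfl | hw
        · exact hrange_mono (le_max_right _ _) hab'
        · exact hrange_mono (le_max_left _ _) (hbs w hw)
    obtain ⟨b, hb, hbs⟩ := hall
    set R := LinearMap.range (N.mkQ.comp (P b).subtype) with hR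
    have hli : LinearIndependent k (fun i : s => (⟨i.1, hbs i.1 i.2⟩ : R)) := by
      apply LinearIndependent.of_comp R.subtype
      exact hs
    have h1 := hli.fintype_card_le_finrank
    rw [Fintype.card_coe] at h1
    have h2 : finrank k R + finrank k (Nb b) ≤ finrank k (P b) :=
      finrank_range_mkQ_le N (P b) (Nb b) (hNb b) (hNP b)
    have h3 := hdim b hb
    omega
  have hfin : Module.Finite k (V ⧸ N) :=
    Module.rank_lt_aleph0_iff.1 (lt_of_le_of_lt hrank (Cardinal.natCast_lt_aleph0))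
  exact ⟨hfin, finrank_le_of_rank_le hrank⟩

end Exhaustion

section Goursat

variable {k : Type*} [CommRing k] {B₁ B₂ : Type*} [CommRing B₁] [CommRing B₂]
variable [Algebra k B₁] [Algebra k B₂]

/-- The ideal `{g | (0, g) ∈ S}` of `B₂` attached to a subalgebra `S ≤ B₁ × B₂` whose second
projection is surjective. -/
def sndIdeal (S : Subalgebra k (B₁ × B₂)) (h₂ : ∀ g, ∃ f, (f, g) ∈ S) : Ideal B₂ where
  carrier := {g | ((0 : B₁), g) ∈ S}
  zero_mem' := S.zero_mem
  add_mem' := fun {a b} ha hb => by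
    have := S.add_mem ha hb
    simpa using this
  smul_mem' := fun b g hg => by
    obtain ⟨f, hf⟩ := h₂ b
    have := S.mul_mem hf hg
    simpa using this

theorem mem_sndIdeal {S : Subalgebra k (B₁ × B₂)} {h₂ : ∀ g, ∃ f, (f, g) ∈ S} {g : B₂} :
    g ∈ sndIdeal S h₂ ↔ ((0 : B₁), g) ∈ S := Iff.rfl

variable (S : Subalgebra k (B₁ × B₂)) (h₁ : ∀ f, ∃ g, (f, g) ∈ S) (h₂ : ∀ g, ∃ f, (f, g) ∈ S)

theorem mk_choose_eq (f : B₁) (g : B₂) (hfg : (f, g) ∈ S) :
    Ideal.Quotient.mk (sndIdeal S h₂) (h₁ f).choose = Ideal.Quotient.mk (sndIdeal S h₂) g := by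
  rw [Ideal.Quotient.eq, mem_sndIdeal]
  have := S.sub_mem (h₁ f).choose_spec hfg
  simpa using this

/-- The gluing homomorphism `B₁ → B₂ ⧸ I₂` of Goursat's lemma. -/
noncomputable def gluingHom : B₁ →ₐ[k] B₂ ⧸ sndIdeal S h₂ where
  toFun f := Ideal.Quotient.mk (sndIdeal S h₂) (h₁ f).choose
  map_one' := by
    rw [mk_choose_eq S h₁ h₂ 1 1 S.one_mem, map_one]
  map_mul' f f' := by
    rw [mk_choose_eq S h₁ h₂ (f * f') ((h₁ f).choose * (h₁ f').choose)
      (S.mul_mem (h₁ f).choose_spec (h₁ f').choose_spec), map_mul]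
  map_zero' := by
    rw [mk_choose_eq S h₁ h₂ 0 0 S.zero_mem, map_zero]
  map_add' f f' := by
    rw [mk_choose_eq S h₁ h₂ (f + f') ((h₁ f).choose + (h₁ f').choose)
      (S.add_mem (h₁ f).choose_spec (h₁ f').choose_spec), map_add]
  commutes' r := by
    rw [mk_choose_eq S h₁ h₂ (algebraMap k B₁ r) (algebraMap k B₂ r) (S.algebraMap_mem r)]
    rfl

theorem gluingHom_eq {f : B₁} {g : B₂} (hfg : (f, g) ∈ S) :
    gluingHom S h₁ h₂ f = Ideal.Quotient.mk (sndIdeal S h₂) g :=
  mk_choose_eq S h₁ h₂ f g hfg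

theorem gluingHom_surjective : Function.Surjective (gluingHom S h₁ h₂) := by
  intro r
  obtain ⟨g, rfl⟩ := Ideal.Quotient.mk_surjective r
  obtain ⟨f, hf⟩ := h₂ g
  exact ⟨f, gluingHom_eq S h₁ h₂ hf⟩

/-- **Goursat's lemma** for subalgebras of a product with surjective projections: `S` is the
fibre product of `B₁` and `B₂` over `B₂ ⧸ I₂`. -/
theorem mem_iff_gluingHom (x : B₁ × B₂) :
    x ∈ S ↔ gluingHom S h₁ h₂ x.1 = Ideal.Quotient.mk (sndIdeal S h₂) x.2 := by
  constructor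
  · intro hx
    exact gluingHom_eq S h₁ h₂ hx
  · intro hx
    have h0 : (h₁ x.1).choose - x.2 ∈ sndIdeal S h₂ := Ideal.Quotient.eq.1 hx
    have := S.sub_mem (h₁ x.1).choose_spec (mem_sndIdeal.1 h0)
    simpa using this

/-- The difference map `(f, g) ↦ ρ₁ f - [g]`, whose kernel is `S`. -/
noncomputable def diffMap : B₁ × B₂ →ₗ[k] B₂ ⧸ sndIdeal S h₂ :=
  (gluingHom S h₁ h₂).toLinearMap.comp (LinearMap.fst k B₁ B₂) -
    (Ideal.Quotient.mkₐ k (sndIdeal S h₂)).toLinearMap.comp (LinearMap.snd k B₁ B₂)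

theorem diffMap_apply (x : B₁ × B₂) :
    diffMap S h₁ h₂ x = gluingHom S h₁ h₂ x.1 - Ideal.Quotient.mk (sndIdeal S h₂) x.2 := rfl

theorem diffMap_surjective : Function.Surjective (diffMap S h₁ h₂) := by
  intro r
  obtain ⟨f, rfl⟩ := gluingHom_surjective S h₁ h₂ r
  exact ⟨(f, 0), by simp [diffMap_apply]⟩

theorem ker_diffMap : LinearMap.ker (diffMap S h₁ h₂) = Subalgebra.toSubmodule S := by
  ext x
  rw [LinearMap.mem_ker, diffMap_apply, sub_eq_zero, Subalgebra.mem_toSubmodule,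
    mem_iff_gluingHom S h₁ h₂]

/-- The quotient of the product by the glued subalgebra is the gluing ring, as a module. -/
noncomputable def quotientEquiv :
    ((B₁ × B₂) ⧸ Subalgebra.toSubmodule S) ≃ₗ[k] B₂ ⧸ sndIdeal S h₂ :=
  (Submodule.quotEquivOfEq _ _ (ker_diffMap S h₁ h₂).symm).trans
    ((diffMap S h₁ h₂).quotKerEquivOfSurjective (diffMap_surjective S h₁ h₂))

end Goursat

section Reduced

/-- A Noetherian commutative ring in which every element is a `p`-th power, `p ≥ 2`, is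
reduced. -/
theorem isReduced_of_forall_exists_pow_eq {R : Type*} [CommRing R] [IsNoetherianRing R]
    {p : ℕ} (hp : 2 ≤ p) (h : ∀ x : R, ∃ y, y ^ p = x) : IsReduced R := by
  obtain ⟨n, hn⟩ := IsNoetherianRing.isNilpotent_nilradical R
  have hiter : ∀ t : ℕ, ∀ x : R, ∃ y, y ^ (p ^ t) = x := by
    intro t
    induction t with
    | zero => exact fun x => ⟨x, by simp⟩
    | succ t ih =>
      intro x
      obtain ⟨y, hy⟩ := ih x
      obtain ⟨z, hz⟩ := h y
      exact ⟨z, by rw [pow_succ, mul_comm, pow_mul, hz, hy]⟩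
  refine ⟨fun x hx => ?_⟩
  obtain ⟨y, hy⟩ := hiter n x
  have hpos : p ^ n ≠ 0 := pow_ne_zero n (by omega)
  have hynil : IsNilpotent y := by
    rw [← hy] at hx
    exact (IsNilpotent.pow_iff_pos hpos).1 hx
  have hyn : y ^ n = 0 := by
    have : y ^ n ∈ nilradical R ^ n := Ideal.pow_mem_pow (mem_nilradical.2 hynil) n
    rw [hn] at this
    exact this
  have hle : n ≤ p ^ n := (Nat.lt_pow_self (by omega : 1 < p)).le
  rw [← hy, ← Nat.sub_add_cancel hle, pow_add, hyn, mul_zero]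

variable (k : Type*) [Field k] [IsAlgClosed k] (R : Type*) [CommRing R] [Algebra k R]
variable [FiniteDimensional k R] [IsReduced R]

/-- A reduced finite-dimensional commutative algebra over an algebraically closed field is a
finite power of the field (indexed by its maximal ideals). -/
noncomputable def algEquivPiOfIsReduced :
    haveI : IsArtinianRing R := IsArtinianRing.of_finite k R
    R ≃ₐ[k] (MaximalSpectrum R → k) := by
  haveI : IsArtinianRing R := IsArtinianRing.of_finite k R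
  let e₁ : R ≃ₐ[k] (∀ I : MaximalSpectrum R, R ⧸ I.asIdeal) :=
    { (IsArtinianRing.equivPi R).toRingEquiv with
      commutes' := fun r => by
        funext I
        rfl }
  have hbij : ∀ I : MaximalSpectrum R, Function.Bijective (algebraMap k (R ⧸ I.asIdeal)) := by
    intro I
    have := I.isMaximal
    have : IsDomain (R ⧸ I.asIdeal) := Ideal.Quotient.isDomain I.asIdeal
    have : Algebra.IsIntegral k (R ⧸ I.asIdeal) := Algebra.IsIntegral.of_finite k _
    exact IsAlgClosed.algebraMap_bijective_of_isIntegral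
  let e₂ : (∀ I : MaximalSpectrum R, R ⧸ I.asIdeal) ≃ₐ[k] (MaximalSpectrum R → k) :=
    AlgEquiv.piCongrRight fun I =>
      (AlgEquiv.ofBijective (Algebra.ofId k (R ⧸ I.asIdeal)) (hbij I)).symm
  exact e₁.trans e₂

end Reduced

section Main

variable {k : Type*} [Field k] [IsAlgClosed k]
variable {B₁ B₂ : Type*} [CommRing B₁] [CommRing B₂] [Algebra k B₁] [Algebra k B₂]

/-- **Invertibility of the twisted lattices at the nodes** (abstract form).
Let `S ≤ B₁ × B₂` be a subalgebra of finite codimension with surjective projections such that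
every element of the gluing ring `B₂ ⧸ {g | (0, g) ∈ S}` is a `p`-th power (`p ≥ 2`); so `S` is
the ring of a curve with two components `B₁`, `B₂` crossing at ordinary nodes.  If `N`, `N'`
are `k`-subspaces of `B₁ × B₂` of codimension at most that of `S`, such that `n ^ m ∈ S`,
`n' ^ m' ∈ S` and `n * n' ∈ S` for all `n ∈ N`, `n' ∈ N'`, then `1 ∈ N * N'`. -/
theorem one_mem_mul_of_subalgebra (S : Subalgebra k (B₁ × B₂))
    (h₁ : ∀ f, ∃ g, (f, g) ∈ S) (h₂ : ∀ g, ∃ f, (f, g) ∈ S)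
    [Module.Finite k ((B₁ × B₂) ⧸ Subalgebra.toSubmodule S)]
    {p : ℕ} (hp : 2 ≤ p) (hpth : ∀ g : B₂, ∃ g' : B₂, ((0 : B₁), g - g' ^ p) ∈ S)
    (N N' : Submodule k (B₁ × B₂)) [Module.Finite k ((B₁ × B₂) ⧸ N)]
    [Module.Finite k ((B₁ × B₂) ⧸ N')]
    (hcodim : finrank k ((B₁ × B₂) ⧸ N) ≤ finrank k ((B₁ × B₂) ⧸ Subalgebra.toSubmodule S))
    (hcodim' : finrank k ((B₁ × B₂) ⧸ N') ≤ finrank k ((B₁ × B₂) ⧸ Subalgebra.toSubmodule S))
    {m m' : ℕ} (hm : m ≠ 0) (hm' : m' ≠ 0)
    (hpow : ∀ n ∈ N, n ^ m ∈ S) (hpow' : ∀ n ∈ N', n ^ m' ∈ S)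
    (hmul : ∀ n ∈ N, ∀ n' ∈ N', n * n' ∈ S) :
    (1 : B₁ × B₂) ∈ N * N' := by
  classical
  let I₂ := sndIdeal S h₂
  let E := quotientEquiv S h₁ h₂
  have : FiniteDimensional k (B₂ ⧸ I₂) := Module.Finite.equiv E
  have : IsArtinianRing (B₂ ⧸ I₂) := IsArtinianRing.of_finite k _
  have : IsReduced (B₂ ⧸ I₂) := by
    apply isReduced_of_forall_exists_pow_eq hp
    intro r
    obtain ⟨g, rfl⟩ := Ideal.Quotient.mk_surjective r
    obtain ⟨g', hg'⟩ := hpth g
    refine ⟨Ideal.Quotient.mk I₂ g', ?_⟩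
    rw [← map_pow]
    exact (Ideal.Quotient.eq.2 (mem_sndIdeal.2 hg')).symm
  let e := algEquivPiOfIsReduced k (B₂ ⧸ I₂)
  let _ : Fintype (MaximalSpectrum (B₂ ⧸ I₂)) := Fintype.ofFinite _
  let ρ₁ : B₁ →ₐ[k] (MaximalSpectrum (B₂ ⧸ I₂) → k) :=
    (e : (B₂ ⧸ I₂) →ₐ[k] _).comp (gluingHom S h₁ h₂)
  let ρ₂ : B₂ →ₐ[k] (MaximalSpectrum (B₂ ⧸ I₂) → k) :=
    (e : (B₂ ⧸ I₂) →ₐ[k] _).comp (Ideal.Quotient.mkₐ k I₂)
  have hρ₁ : Function.Surjective ρ₁ := e.surjective.comp (gluingHom_surjective S h₁ h₂)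
  have hρ₂ : Function.Surjective ρ₂ := e.surjective.comp (Ideal.Quotient.mkₐ_surjective k I₂)
  have hS : ∀ x : B₁ × B₂, x ∈ S → ρ₁ x.1 = ρ₂ x.2 := by
    intro x hx
    show e (gluingHom S h₁ h₂ x.1) = e (Ideal.Quotient.mk I₂ x.2)
    rw [(mem_iff_gluingHom S h₁ h₂ x).1 hx]
  have hcard : finrank k ((B₁ × B₂) ⧸ Subalgebra.toSubmodule S) =
      Fintype.card (MaximalSpectrum (B₂ ⧸ I₂)) := by
    rw [E.finrank_eq, e.toLinearEquiv.finrank_eq, Module.finrank_fintype_fun_eq_card]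
  have hc : finrank k ((B₁ × B₂) ⧸ N) ≤ Fintype.card (MaximalSpectrum (B₂ ⧸ I₂)) := by
    rw [← hcard]; exact hcodim
  have hc' : finrank k ((B₁ × B₂) ⧸ N') ≤ Fintype.card (MaximalSpectrum (B₂ ⧸ I₂)) := by
    rw [← hcard]; exact hcodim'
  have hp1 : ∀ n ∈ N, ρ₁ (n.1 ^ m) = ρ₂ (n.2 ^ m) := by
    intro n hn
    have := hS _ (hpow n hn)
    rwa [Prod.pow_fst, Prod.pow_snd] at this
  have hp2 : ∀ n ∈ N', ρ₁ (n.1 ^ m') = ρ₂ (n.2 ^ m') := by
    intro n hn
    have := hS _ (hpow' n hn)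
    rwa [Prod.pow_fst, Prod.pow_snd] at this
  have hp3 : ∀ n ∈ N, ∀ n' ∈ N', ρ₁ (n.1 * n'.1) = ρ₂ (n.2 * n'.2) := by
    intro n hn n' hn'
    have := hS _ (hmul n hn n' hn')
    rwa [Prod.fst_mul, Prod.snd_mul] at this
  exact one_mem_mul ρ₁ ρ₂ hρ₁ hρ₂ N N' hc hc' hm hm' hp1 hp2 hp3

end Main

end Fermat.Agent.S34x.NodeLinAlg
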