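/-
P-S34, WP5 (helper43): the commutative algebra of twisted lattices on a nodal curve, idea (N2) of the
board plan `S34_PLAN`, in a global, purely linear-algebraic form.

`T` is a commutative `k`-algebra (the normalisation `B̃ = B̄_∞ × B̄_0`), `ι` the finite set of nodes,
`ev s, ev' s : T →ₐ[k] k` the evaluations at the two branches of the node `s`, all `2·|ι|`
characters being pairwise distinct.  `B = {x | ∀ s, ev s x = ev' s x}` is the glued ring (`= B̄`).

For `k`-subspaces `N, N' ⊆ T` which are `B`-stable, of codimension `≤ |ι|`, with `N^(e+1) ⊆ B`,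
`N'^(e'+1) ⊆ B` and `N * N' ⊆ B` we prove `N * N' = B`, in particular `1 ∈ N * N'`
(`one_mem_mul`).  No localisation, lengths or Dedekind hypotheses are needed.
-/
import Mathlib

set_option autoImplicit false
set_option linter.unusedSectionVars false

namespace Fermat.Agent.S34x.LocalNode

open Module

/-- The nodes of a glued ring: two families of characters `ev s, ev' s : T →ₐ[k] k` together with
half-bumps `f s, f' s` (`ev s (f s) = 1`, `ev' s (f' s) = 1`, all other evaluations vanish). -/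
structure NodeData (k T ι : Type*) [Field k] [CommRing T] [Algebra k T] where
  /-- evaluation at the first branch of the node -/
  ev : ι → T →ₐ[k] k
  /-- evaluation at the second branch of the node -/
  ev' : ι → T →ₐ[k] k
  /-- half-bump at the first branch -/
  f : ι → T
  /-- half-bump at the second branch -/
  f' : ι → T
  ev_f_self : ∀ s, ev s (f s) = 1
  ev_f_ne : ∀ s t, t ≠ s → ev t (f s) = 0
  ev'_f : ∀ s t, ev' t (f s) = 0
  ev_f' : ∀ s t, ev t (f' s) = 0
  ev'_f'_self : ∀ s, ev' s (f' s) = 1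
  ev'_f'_ne : ∀ s t, t ≠ s → ev' t (f' s) = 0

namespace NodeData

variable {k T ι : Type*} [Field k] [CommRing T] [Algebra k T] (D : NodeData k T ι)

/-- The glued subalgebra `B = {x | ∀ s, ev s x = ev' s x}`. -/
def B : Subalgebra k T where
  carrier := {x | ∀ s, D.ev s x = D.ev' s x}
  mul_mem' hx hy s := by rw [map_mul, map_mul, hx s, hy s]
  add_mem' hx hy s := by rw [map_add, map_add, hx s, hy s]
  algebraMap_mem' r s := by rw [AlgHom.commutes, AlgHom.commutes]

theorem mem_B {x : T} : x ∈ D.B ↔ ∀ s, D.ev s x = D.ev' s x := Iff.rfl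

/-- The conductor: the elements vanishing at all branches of all nodes. -/
def cond : Ideal T where
  carrier := {x | ∀ s, D.ev s x = 0 ∧ D.ev' s x = 0}
  add_mem' hx hy s := by
    rw [map_add, map_add, (hx s).1, (hx s).2, (hy s).1, (hy s).2, add_zero]
    exact ⟨rfl, rfl⟩
  zero_mem' s := by
    rw [map_zero, map_zero]
    exact ⟨rfl, rfl⟩
  smul_mem' c x hx s := by
    rw [smul_eq_mul, map_mul, map_mul, (hx s).1, (hx s).2, mul_zero, mul_zero]
    exact ⟨rfl, rfl⟩

theorem mem_cond {x : T} : x ∈ D.cond ↔ ∀ s, D.ev s x = 0 ∧ D.ev' s x = 0 := Iff.rfl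

theorem cond_le_B {x : T} (hx : x ∈ D.cond) : x ∈ D.B := fun s => by
  rw [(hx s).1, (hx s).2]

/-- The bump at the node `s` (an element of `B`). -/
def e (s : ι) : T := D.f s + D.f' s

theorem ev_e_self (s : ι) : D.ev s (D.e s) = 1 := by
  rw [e, map_add, D.ev_f_self, D.ev_f', add_zero]

theorem ev_e_ne (s t : ι) (h : t ≠ s) : D.ev t (D.e s) = 0 := by
  rw [e, map_add, D.ev_f_ne s t h, D.ev_f', add_zero]

theorem ev'_e_self (s : ι) : D.ev' s (D.e s) = 1 := by
  rw [e, map_add, D.ev'_f, D.ev'_f'_self, zero_add]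

theorem ev'_e_ne (s t : ι) (h : t ≠ s) : D.ev' t (D.e s) = 0 := by
  rw [e, map_add, D.ev'_f, D.ev'_f'_ne s t h, add_zero]

theorem e_mem_B (s : ι) : D.e s ∈ D.B := fun t => by
  by_cases h : t = s
  · subst h
    rw [D.ev_e_self, D.ev'_e_self]
  · rw [D.ev_e_ne s t h, D.ev'_e_ne s t h]

theorem f'_eq (s : ι) : D.f' s = D.e s - D.f s := by
  rw [e, add_sub_cancel_left]

/-- `e t * f s - [t = s] f s` lies in the conductor. -/
theorem e_mul_f_sub_mem_cond_self (s : ι) : D.e s * D.f s - D.f s ∈ D.cond := fun r => by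
  constructor
  · rw [map_sub, map_mul]
    by_cases h : r = s
    · subst h
      rw [D.ev_e_self, one_mul, sub_self]
    · rw [D.ev_f_ne s r h, mul_zero, sub_zero]
  · rw [map_sub, map_mul, D.ev'_f, mul_zero, sub_zero]

theorem e_mul_f_mem_cond_of_ne (s t : ι) (h : t ≠ s) : D.e t * D.f s ∈ D.cond := fun r => by
  constructor
  · rw [map_mul]
    by_cases hr : r = s
    · subst hr
      rw [D.ev_e_ne t r (Ne.symm h), zero_mul]
    · rw [D.ev_f_ne s r hr, mul_zero]
  · rw [map_mul, D.ev'_f, mul_zero]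

/-! ### Lattices -/

section Lattice

variable [Fintype ι] (N : Submodule k T)

/-- The node `s` is *full* for `N` if `N` is stable under the half-bump `f s`. -/
def Full (s : ι) : Prop := ∀ n ∈ N, D.f s * n ∈ N

variable {D N}

theorem mul_f'_mem (hBN : ∀ b ∈ D.B, ∀ n ∈ N, b * n ∈ N) {s : ι} (hs : D.Full N s) {n : T}
    (hn : n ∈ N) : D.f' s * n ∈ N := by
  rw [D.f'_eq, sub_mul]
  exact N.sub_mem (hBN _ (D.e_mem_B s) n hn) (hs n hn)

/-- At a full node every element of `N` vanishes on both branches. -/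
theorem ev_eq_zero_of_full (hBN : ∀ b ∈ D.B, ∀ n ∈ N, b * n ∈ N) {e : ℕ}
    (hpow : ∀ n₀ ∈ N, ∀ n ∈ N, n₀ * n ^ e ∈ D.B) {s : ι} (hs : D.Full N s) {n : T}
    (hn : n ∈ N) : D.ev s n = 0 ∧ D.ev' s n = 0 := by
  constructor
  · have h := hpow _ (hs n hn) n hn s
    rw [map_mul, map_mul, map_mul, map_mul, D.ev_f_self, D.ev'_f, one_mul, zero_mul, zero_mul,
      map_pow, ← pow_succ'] at h
    exact pow_eq_zero_iff (Nat.succ_ne_zero e) |>.1 h
  · have h := hpow _ (mul_f'_mem hBN hs hn) n hn s
    rw [map_mul, map_mul, map_mul, map_mul, D.ev_f', D.ev'_f'_self, one_mul, zero_mul, zero_mul,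
      map_pow, ← pow_succ'] at h
    exact pow_eq_zero_iff (Nat.succ_ne_zero e) |>.1 h.symm

theorem exists_of_not_full {s : ι} (h : ¬ D.Full N s) : ∃ n ∈ N, D.f s * n ∉ N := by
  by_contra h'
  apply h
  intro n hn
  by_contra h2
  exact h' ⟨n, hn, h2⟩

variable (D N)

open Classical in
/-- auxiliary multiplier: `1` at a full node, an `n ∈ N` with `f s * n ∉ N` at a free node. -/
noncomputable def mult (s : ι) : T :=
  if h : D.Full N s then 1 else (exists_of_not_full h).choose

variable {D N}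

theorem mult_of_full {s : ι} (h : D.Full N s) : D.mult N s = 1 := dif_pos h

theorem mult_mem {s : ι} (h : ¬ D.Full N s) : D.mult N s ∈ N := by
  rw [mult, dif_neg h]
  exact (exists_of_not_full h).choose_spec.1

theorem f_mul_mult_not_mem {s : ι} (h : ¬ D.Full N s) : D.f s * D.mult N s ∉ N := by
  rw [mult, dif_neg h]
  exact (exists_of_not_full h).choose_spec.2

variable (D N)

/-- The test family in `T ⧸ N`: `f s * mult s` for all nodes and `f' s` for the full nodes. -/
noncomputable def testFam : ι ⊕ {s // D.Full N s} → T ⧸ N :=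
  Sum.elim (fun s => N.mkQ (D.f s * D.mult N s)) (fun s => N.mkQ (D.f' s.1))

variable {D N}

theorem linearIndependent_testFam (hBN : ∀ b ∈ D.B, ∀ n ∈ N, b * n ∈ N) {e : ℕ}
    (hpow : ∀ n₀ ∈ N, ∀ n ∈ N, n₀ * n ^ e ∈ D.B) : LinearIndependent k (D.testFam N) := by
  classical
  rw [Fintype.linearIndependent_iff]
  intro c hc
  set X : T := ∑ s, c (Sum.inl s) • (D.f s * D.mult N s) +
    ∑ s : {s // D.Full N s}, c (Sum.inr s) • D.f' s.1 with hX
  have hXN : X ∈ N := by
    rw [← Submodule.Quotient.mk_eq_zero, ← Submodule.mkQ_apply, hX, map_add, map_sum, map_sum]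
    rw [Fintype.sum_sum_type] at hc
    simpa only [testFam, Sum.elim_inl, Sum.elim_inr, map_smul] using hc
  -- evaluations of `X`
  have hev : ∀ t, D.ev t X = c (Sum.inl t) * D.ev t (D.mult N t) := by
    intro t
    rw [hX, map_add, map_sum, map_sum]
    rw [Finset.sum_eq_single t, Finset.sum_eq_zero, add_zero, map_smul, smul_eq_mul, map_mul,
      D.ev_f_self, one_mul]
    · intro s _
      rw [map_smul, D.ev_f', smul_zero]
    · intro s _ hs
      rw [map_smul, map_mul, D.ev_f_ne s t (Ne.symm hs), zero_mul, smul_zero]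
    · intro h
      exact absurd (Finset.mem_univ t) h
  have hev' : ∀ t (ht : D.Full N t), D.ev' t X = c (Sum.inr ⟨t, ht⟩) := by
    intro t ht
    rw [hX, map_add, map_sum, map_sum]
    rw [Finset.sum_eq_zero, zero_add, Finset.sum_eq_single ⟨t, ht⟩, map_smul, smul_eq_mul,
      D.ev'_f'_self, mul_one]
    · intro s _ hs
      have : t ≠ s.1 := fun h => hs (Subtype.ext h.symm)
      rw [map_smul, D.ev'_f'_ne s.1 t this, smul_zero]
    · intro h
      exact absurd (Finset.mem_univ _) h
    · intro s _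
      rw [map_smul, map_mul, D.ev'_f, zero_mul, smul_zero]
  -- the coefficients at the full nodes vanish
  have hfull : ∀ t (ht : D.Full N t), c (Sum.inl t) = 0 ∧ c (Sum.inr ⟨t, ht⟩) = 0 := by
    intro t ht
    obtain ⟨h1, h2⟩ := ev_eq_zero_of_full hBN hpow ht hXN
    rw [hev t, mult_of_full ht, map_one, mul_one] at h1
    rw [hev' t ht] at h2
    exact ⟨h1, h2⟩
  -- the coefficients at the free nodes vanish
  have hfree : ∀ t, ¬ D.Full N t → c (Sum.inl t) = 0 := by
    intro t ht
    by_contra hct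
    apply f_mul_mult_not_mem ht
    have h1 : D.e t * X ∈ N := hBN _ (D.e_mem_B t) X hXN
    have h2 : D.e t * X - c (Sum.inl t) • (D.f t * D.mult N t) ∈ N := by
      have hsum : D.e t * X - c (Sum.inl t) • (D.f t * D.mult N t) =
          ∑ s, c (Sum.inl s) •
            ((D.e t * D.f s - if s = t then D.f s else 0) * D.mult N s) := by
        have hX' : X = ∑ s, c (Sum.inl s) • (D.f s * D.mult N s) := by
          rw [hX, Finset.sum_eq_zero (s := Finset.univ)
            (f := fun s : {s // D.Full N s} => c (Sum.inr s) • D.f' s.1), add_zero]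
          intro s _
          rw [(hfull s.1 s.2).2, zero_smul]
        rw [hX', Finset.mul_sum]
        have : c (Sum.inl t) • (D.f t * D.mult N t) =
            ∑ s, c (Sum.inl s) • ((if s = t then D.f s else 0) * D.mult N s) := by
          rw [Finset.sum_eq_single t]
          · rw [if_pos rfl]
          · intro s _ hs
            rw [if_neg hs, zero_mul, smul_zero]
          · intro h
            exact absurd (Finset.mem_univ t) h
        rw [this, ← Finset.sum_sub_distrib]
        refine Finset.sum_congr rfl fun s _ => ?_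
        rw [mul_smul_comm, ← smul_sub, sub_mul, mul_assoc]
      rw [hsum]
      refine N.sum_mem fun s _ => ?_
      by_cases hs : D.Full N s
      · rw [(hfull s hs).1, zero_smul]
        exact N.zero_mem
      · refine N.smul_mem _ (hBN _ (D.cond_le_B ?_) _ (mult_mem hs))
        by_cases hst : s = t
        · subst hst
          rw [if_pos rfl]
          exact D.e_mul_f_sub_mem_cond_self s
        · rw [if_neg hst, sub_zero]
          exact D.e_mul_f_mem_cond_of_ne s t (Ne.symm hst)
    have h3 : c (Sum.inl t) • (D.f t * D.mult N t) ∈ N := by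
      have := N.sub_mem h1 h2
      rwa [sub_sub_cancel] at this
    have h4 := N.smul_mem (c (Sum.inl t))⁻¹ h3
    rwa [smul_smul, inv_mul_cancel₀ hct, one_smul] at h4
  rintro (t | ⟨t, ht⟩)
  · by_cases ht : D.Full N t
    · exact (hfull t ht).1
    · exact hfree t ht
  · exact (hfull t ht).2

/-! ### No full nodes -/

section Count

variable [Module.Finite k (T ⧸ N)]

theorem not_full (hBN : ∀ b ∈ D.B, ∀ n ∈ N, b * n ∈ N) {e : ℕ}
    (hpow : ∀ n₀ ∈ N, ∀ n ∈ N, n₀ * n ^ e ∈ D.B)
    (hcodim : finrank k (T ⧸ N) ≤ Fintype.card ι) (s : ι) : ¬ D.Full N s := by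
  classical
  intro hs
  have hcard := (linearIndependent_testFam hBN hpow).fintype_card_le_finrank
  rw [Fintype.card_sum] at hcard
  have : 0 < Fintype.card {s // D.Full N s} := Fintype.card_pos_iff.2 ⟨⟨s, hs⟩⟩
  omega

/-- `N` generates the unit ideal of `T`. -/
theorem top_mul_eq_top (hBN : ∀ b ∈ D.B, ∀ n ∈ N, b * n ∈ N) {e : ℕ}
    (hpow : ∀ n₀ ∈ N, ∀ n ∈ N, n₀ * n ^ e ∈ D.B)
    (hcodim : finrank k (T ⧸ N) ≤ Fintype.card ι) : (⊤ : Submodule k T) * N = ⊤ := by
  classical
  have hnf := not_full hBN hpow hcodim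
  have hli : LinearIndependent k (fun s : ι => N.mkQ (D.f s * D.mult N s)) :=
    (linearIndependent_testFam hBN hpow).comp Sum.inl Sum.inl_injective
  have hcard : Fintype.card ι = finrank k (T ⧸ N) :=
    le_antisymm hli.fintype_card_le_finrank hcodim
  have hspan := hli.span_eq_top_of_card_eq_finrank' hcard
  have hle : N ≤ (⊤ : Submodule k T) * N := fun n hn => by
    have := Submodule.mul_mem_mul (Submodule.mem_top (R := k) (x := (1 : T))) hn
    rwa [one_mul] at this
  rw [eq_top_iff]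
  intro x _
  have hx : N.mkQ x ∈ Submodule.span k (Set.range fun s : ι => N.mkQ (D.f s * D.mult N s)) := by
    rw [hspan]
    trivial
  obtain ⟨c, hc⟩ := (Submodule.mem_span_range_iff_exists_fun k).1 hx
  have hmem : x - ∑ s, c s • (D.f s * D.mult N s) ∈ N := by
    rw [← Submodule.Quotient.mk_eq_zero, ← Submodule.mkQ_apply, map_sub, map_sum, sub_eq_zero]
    simp only [map_smul]
    exact hc.symm
  have hsum : ∑ s, c s • (D.f s * D.mult N s) ∈ (⊤ : Submodule k T) * N :=
    Submodule.sum_mem _ fun s _ => Submodule.smul_mem _ _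
      (Submodule.mul_mem_mul Submodule.mem_top (mult_mem (hnf s)))
  have := Submodule.add_mem _ (hle hmem) hsum
  rwa [sub_add_cancel] at this

/-- The conductor is contained in `N`. -/
theorem cond_le (hBN : ∀ b ∈ D.B, ∀ n ∈ N, b * n ∈ N) {e : ℕ}
    (hpow : ∀ n₀ ∈ N, ∀ n ∈ N, n₀ * n ^ e ∈ D.B)
    (hcodim : finrank k (T ⧸ N) ≤ Fintype.card ι) {c : T} (hc : c ∈ D.cond) : c ∈ N := by
  have h1 : (1 : T) ∈ (⊤ : Submodule k T) * N := by
    rw [top_mul_eq_top hBN hpow hcodim]
    trivial
  have key : ∀ y ∈ (⊤ : Submodule k T) * N, c * y ∈ N := by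
    intro y hy
    refine Submodule.mul_induction_on hy ?_ ?_
    · intro t _ n hn
      rw [← mul_assoc]
      exact hBN _ (D.cond_le_B (D.cond.mul_mem_right t hc)) n hn
    · intro x y hx hy
      rw [mul_add]
      exact N.add_mem hx hy
  have := key 1 h1
  rwa [mul_one] at this

/-- At every node some element of `N` does not vanish on the first branch. -/
theorem exists_ev_ne_zero (hBN : ∀ b ∈ D.B, ∀ n ∈ N, b * n ∈ N) {e : ℕ}
    (hpow : ∀ n₀ ∈ N, ∀ n ∈ N, n₀ * n ^ e ∈ D.B)
    (hcodim : finrank k (T ⧸ N) ≤ Fintype.card ι) (s : ι) : ∃ n ∈ N, D.ev s n ≠ 0 := by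
  by_contra h
  have h0 : ∀ n ∈ N, D.ev s n = 0 := by
    intro n hn
    by_contra h2
    exact h ⟨n, hn, h2⟩
  have h1 : (1 : T) ∈ (⊤ : Submodule k T) * N := by
    rw [top_mul_eq_top hBN hpow hcodim]
    trivial
  have key : ∀ y ∈ (⊤ : Submodule k T) * N, D.ev s y = 0 := by
    intro y hy
    refine Submodule.mul_induction_on hy ?_ ?_
    · intro t _ n hn
      rw [map_mul, h0 n hn, mul_zero]
    · intro x y hx hy
      rw [map_add, hx, hy, add_zero]
  have := key 1 h1
  rw [map_one] at this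
  exact one_ne_zero this

end Count

end Lattice

/-! ### The main theorem -/

section Main

variable [Fintype ι] {D} {N N' : Submodule k T} [Module.Finite k (T ⧸ N)]
  [Module.Finite k (T ⧸ N')]

/-- **(N2), global form**: two `B`-stable lattices `N, N' ⊆ T` of codimension at most the number
of nodes, with `N^(e+1) ⊆ B`, `N'^(e'+1) ⊆ B` and `N * N' ⊆ B`, satisfy `1 ∈ N * N'`. -/
theorem one_mem_mul (hBN : ∀ b ∈ D.B, ∀ n ∈ N, b * n ∈ N) (hBN' : ∀ b ∈ D.B, ∀ n ∈ N', b * n ∈ N')
    {e e' : ℕ} (hpow : ∀ n₀ ∈ N, ∀ n ∈ N, n₀ * n ^ e ∈ D.B)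
    (hpow' : ∀ n₀ ∈ N', ∀ n ∈ N', n₀ * n ^ e' ∈ D.B)
    (hcodim : finrank k (T ⧸ N) ≤ Fintype.card ι)
    (hcodim' : finrank k (T ⧸ N') ≤ Fintype.card ι)
    (hNN' : ∀ n ∈ N, ∀ n' ∈ N', n * n' ∈ D.B) : (1 : T) ∈ N * N' := by
  classical
  -- `N * N'` is contained in `B` and `B`-stable
  have hPB : ∀ y ∈ N * N', y ∈ D.B := by
    intro y hy
    refine Submodule.mul_induction_on hy hNN' ?_
    intro x y hx hy
    exact D.B.add_mem hx hy
  have hBP : ∀ b ∈ D.B, ∀ y ∈ N * N', b * y ∈ N * N' := by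
    intro b hb y hy
    refine Submodule.mul_induction_on hy ?_ ?_
    · intro n hn n' hn'
      rw [← mul_assoc]
      exact Submodule.mul_mem_mul (hBN b hb n hn) hn'
    · intro x y hx hy
      rw [mul_add]
      exact Submodule.add_mem _ hx hy
  -- the conductor is contained in `N * N'`
  have hcP : ∀ c ∈ D.cond, c ∈ N * N' := by
    intro c hc
    have h1 : (1 : T) ∈ (⊤ : Submodule k T) * N' := by
      rw [top_mul_eq_top hBN' hpow' hcodim']
      trivial
    have key : ∀ y ∈ (⊤ : Submodule k T) * N', c * y ∈ N * N' := by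
      intro y hy
      refine Submodule.mul_induction_on hy ?_ ?_
      · intro t _ n' hn'
        rw [← mul_assoc]
        exact Submodule.mul_mem_mul (cond_le hBN hpow hcodim (D.cond.mul_mem_right t hc)) hn'
      · intro x y hx hy
        rw [mul_add]
        exact Submodule.add_mem _ hx hy
    have := key 1 h1
    rwa [mul_one] at this
  -- bumps in `N * N'`
  choose n hn hne using exists_ev_ne_zero hBN hpow hcodim
  choose n' hn' hne' using exists_ev_ne_zero hBN' hpow' hcodim'
  set p : ι → T := fun s => (D.ev s (n s * n' s))⁻¹ • (D.e s * (n s * n' s)) with hp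
  have hpP : ∀ s, p s ∈ N * N' := fun s =>
    Submodule.smul_mem _ _ (hBP _ (D.e_mem_B s) _ (Submodule.mul_mem_mul (hn s) (hn' s)))
  have hev : ∀ s t, D.ev t (p s) = if t = s then 1 else 0 := by
    intro s t
    show D.ev t ((D.ev s (n s * n' s))⁻¹ • (D.e s * (n s * n' s))) = _
    rw [map_smul, smul_eq_mul, map_mul (D.ev t) (D.e s) (n s * n' s)]
    by_cases h : t = s
    · subst h
      rw [if_pos rfl, D.ev_e_self, one_mul, inv_mul_cancel₀]
      rw [map_mul]
      exact mul_ne_zero (hne t) (hne' t)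
    · rw [if_neg h, D.ev_e_ne s t h, zero_mul, mul_zero]
  have hmem : (1 : T) - ∑ s, p s ∈ D.cond := by
    have h1 : ∀ t, D.ev t ((1 : T) - ∑ s, p s) = 0 := by
      intro t
      rw [map_sub, map_one, map_sum, Finset.sum_eq_single t, hev t t, if_pos rfl, sub_self]
      · intro s _ hs
        rw [hev s t, if_neg (Ne.symm hs)]
      · intro h
        exact absurd (Finset.mem_univ t) h
    have hB : (1 : T) - ∑ s, p s ∈ D.B :=
      D.B.sub_mem D.B.one_mem (D.B.sum_mem fun s _ => hPB _ (hpP s))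
    intro t
    exact ⟨h1 t, (hB t).symm.trans (h1 t)⟩
  have hsum : ∑ s, p s ∈ N * N' := Submodule.sum_mem _ fun s _ => hpP s
  have := Submodule.add_mem _ (hcP _ hmem) hsum
  rwa [sub_add_cancel] at this

/-- **(N2)**: `N * N' = B`. -/
theorem mul_eq_B (hBN : ∀ b ∈ D.B, ∀ n ∈ N, b * n ∈ N) (hBN' : ∀ b ∈ D.B, ∀ n ∈ N', b * n ∈ N')
    {e e' : ℕ} (hpow : ∀ n₀ ∈ N, ∀ n ∈ N, n₀ * n ^ e ∈ D.B)
    (hpow' : ∀ n₀ ∈ N', ∀ n ∈ N', n₀ * n ^ e' ∈ D.B)
    (hcodim : finrank k (T ⧸ N) ≤ Fintype.card ι)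
    (hcodim' : finrank k (T ⧸ N') ≤ Fintype.card ι)
    (hNN' : ∀ n ∈ N, ∀ n' ∈ N', n * n' ∈ D.B) : N * N' = Subalgebra.toSubmodule D.B := by
  have h1 := one_mem_mul hBN hBN' hpow hpow' hcodim hcodim' hNN'
  apply le_antisymm
  · intro y hy
    refine Submodule.mul_induction_on hy hNN' ?_
    intro x y hx hy
    exact D.B.add_mem hx hy
  · intro b hb
    have key : ∀ y ∈ N * N', b * y ∈ N * N' := by
      intro y hy
      refine Submodule.mul_induction_on hy ?_ ?_
      · intro n hn n' hn'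
        rw [← mul_assoc]
        exact Submodule.mul_mem_mul (hBN b hb n hn) hn'
      · intro x y hx hy
        rw [mul_add]
        exact Submodule.add_mem _ hx hy
    have := key 1 h1
    rwa [mul_one] at this

/-- Element form of `one_mem_mul`: `1 = ∑ j, a j * b j` with `a j ∈ N`, `b j ∈ N'`. -/
theorem exists_sum_mul_eq_one (hBN : ∀ b ∈ D.B, ∀ n ∈ N, b * n ∈ N)
    (hBN' : ∀ b ∈ D.B, ∀ n ∈ N', b * n ∈ N')
    {e e' : ℕ} (hpow : ∀ n₀ ∈ N, ∀ n ∈ N, n₀ * n ^ e ∈ D.B)
    (hpow' : ∀ n₀ ∈ N', ∀ n ∈ N', n₀ * n ^ e' ∈ D.B)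
    (hcodim : finrank k (T ⧸ N) ≤ Fintype.card ι)
    (hcodim' : finrank k (T ⧸ N') ≤ Fintype.card ι)
    (hNN' : ∀ n ∈ N, ∀ n' ∈ N', n * n' ∈ D.B) :
    ∃ (r : ℕ) (a b : Fin r → T), (∀ j, a j ∈ N) ∧ (∀ j, b j ∈ N') ∧ ∑ j, a j * b j = 1 := by
  have h1 := one_mem_mul hBN hBN' hpow hpow' hcodim hcodim' hNN'
  have key : ∀ y ∈ N * N', ∃ (r : ℕ) (a b : Fin r → T), (∀ j, a j ∈ N) ∧ (∀ j, b j ∈ N') ∧
      ∑ j, a j * b j = y := by
    intro y hy
    refine Submodule.mul_induction_on hy ?_ ?_
    · intro n hn n' hn'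
      exact ⟨1, fun _ => n, fun _ => n', fun _ => hn, fun _ => hn', by simp⟩
    · rintro x y ⟨r, a, b, ha, hb, rfl⟩ ⟨r', a', b', ha', hb', rfl⟩
      refine ⟨r + r', Fin.append a a', Fin.append b b', ?_, ?_, ?_⟩
      · intro j
        refine Fin.addCases (fun i => ?_) (fun i => ?_) j
        · rw [Fin.append_left]
          exact ha i
        · rw [Fin.append_right]
          exact ha' i
      · intro j
        refine Fin.addCases (fun i => ?_) (fun i => ?_) j
        · rw [Fin.append_left]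
          exact hb i
        · rw [Fin.append_right]
          exact hb' i
      · rw [Fin.sum_univ_add]
        simp only [Fin.append_left, Fin.append_right]
  exact key 1 h1

end Main

end NodeData

/-! ### Construction of node data -/

section Construct

variable {k T : Type*} [Field k] [CommRing T] [Algebra k T]

/-- Finitely many pairwise distinct characters `T →ₐ[k] k` are jointly surjective (Dedekind's
independence of characters). -/
theorem exists_forall_eval_eq {J : Type*} [Finite J] (χ : J → T →ₐ[k] k)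
    (hχ : Function.Injective χ) (a : J → k) : ∃ x : T, ∀ j, χ j x = a j := by
  classical
  have := Fintype.ofFinite J
  set Φ : T →ₗ[k] (J → k) := LinearMap.pi fun j => (χ j).toLinearMap with hΦ
  have hsurj : LinearMap.range Φ = ⊤ := by
    by_contra hne
    obtain ⟨φ, hφ0, hφ⟩ := (LinearMap.range Φ).exists_le_ker_of_lt_top (lt_top_iff_ne_top.2 hne)
    -- the relation between the characters
    have hrel : ∀ x : T, ∑ j, φ (Pi.single j 1) * χ j x = 0 := by
      intro x
      have h1 : φ (Φ x) = 0 := hφ (LinearMap.mem_range_self Φ x)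
      have h2 : Φ x = ∑ j, χ j x • (Pi.single j 1 : J → k) := by
        funext i
        rw [Finset.sum_apply, Finset.sum_eq_single i]
        · simp [hΦ]
        · intro j _ hj
          simp [Pi.single_eq_of_ne (Ne.symm hj)]
        · intro h
          exact absurd (Finset.mem_univ i) h
      rw [h2, map_sum] at h1
      simpa only [map_smul, smul_eq_mul, mul_comm] using h1
    -- Dedekind
    have hli := linearIndependent_monoidHom T k
    have hli' : LinearIndependent k (fun j : J => ((χ j : T →* k) : T → k)) := by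
      refine hli.comp (fun j : J => ((χ j : T →ₐ[k] k) : T →* k)) ?_
      intro i j hij
      apply hχ
      ext x
      exact DFunLike.congr_fun hij x
    have hzero := (Fintype.linearIndependent_iff.1 hli') (fun j => φ (Pi.single j 1)) (by
      funext x
      simpa using hrel x)
    apply hφ0
    apply LinearMap.ext
    intro y
    have hy : y = ∑ j, y j • (Pi.single j 1 : J → k) := by
      funext i
      rw [Finset.sum_apply, Finset.sum_eq_single i]
      · simp
      · intro j _ hj
        simp [Pi.single_eq_of_ne (Ne.symm hj)]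
      · intro h
        exact absurd (Finset.mem_univ i) h
    rw [hy, map_sum]
    simp [hzero]
  have ha : a ∈ LinearMap.range Φ := by
    rw [hsurj]
    trivial
  obtain ⟨x, hx⟩ := ha
  exact ⟨x, fun j => congrFun hx j⟩

variable {ι : Type*}

open Classical in
/-- Node data from jointly surjective evaluations. -/
noncomputable def NodeData.ofSurjective (ev ev' : ι → T →ₐ[k] k)
    (h : ∀ a a' : ι → k, ∃ x : T, ∀ s, ev s x = a s ∧ ev' s x = a' s) : NodeData k T ι where
  ev := ev
  ev' := ev'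
  f s := (h (Pi.single s 1) 0).choose
  f' s := (h 0 (Pi.single s 1)).choose
  ev_f_self s := by rw [((h (Pi.single s 1) 0).choose_spec s).1, Pi.single_eq_same]
  ev_f_ne s t hts := by rw [((h (Pi.single s 1) 0).choose_spec t).1, Pi.single_eq_of_ne hts]
  ev'_f s t := by rw [((h (Pi.single s 1) 0).choose_spec t).2, Pi.zero_apply]
  ev_f' s t := by rw [((h 0 (Pi.single s 1)).choose_spec t).1, Pi.zero_apply]
  ev'_f'_self s := by rw [((h 0 (Pi.single s 1)).choose_spec s).2, Pi.single_eq_same]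
  ev'_f'_ne s t hts := by rw [((h 0 (Pi.single s 1)).choose_spec t).2, Pi.single_eq_of_ne hts]

@[simp]
theorem NodeData.ofSurjective_ev (ev ev' : ι → T →ₐ[k] k)
    (h : ∀ a a' : ι → k, ∃ x : T, ∀ s, ev s x = a s ∧ ev' s x = a' s) :
    (NodeData.ofSurjective ev ev' h).ev = ev := rfl

@[simp]
theorem NodeData.ofSurjective_ev' (ev ev' : ι → T →ₐ[k] k)
    (h : ∀ a a' : ι → k, ∃ x : T, ∀ s, ev s x = a s ∧ ev' s x = a' s) :
    (NodeData.ofSurjective ev ev' h).ev' = ev' := rfl

/-- Pairwise distinct evaluations are jointly surjective. -/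
theorem jointly_surjective_of_injective [Finite ι] (ev ev' : ι → T →ₐ[k] k)
    (hinj : Function.Injective (Sum.elim ev ev')) (a a' : ι → k) :
    ∃ x : T, ∀ s, ev s x = a s ∧ ev' s x = a' s := by
  obtain ⟨x, hx⟩ := exists_forall_eval_eq (Sum.elim ev ev') hinj (Sum.elim a a')
  exact ⟨x, fun s => ⟨hx (Sum.inl s), hx (Sum.inr s)⟩⟩

/-- Node data from pairwise distinct evaluations. -/
noncomputable def NodeData.ofInjective [Finite ι] (ev ev' : ι → T →ₐ[k] k)
    (hinj : Function.Injective (Sum.elim ev ev')) : NodeData k T ι :=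
  NodeData.ofSurjective ev ev' (jointly_surjective_of_injective ev ev' hinj)

end Construct

/-! ### The main theorem in unbundled form -/

section Unbundled

variable {k T ι : Type*} [Field k] [CommRing T] [Algebra k T] [Fintype ι]

/-- **(N2) of `S34_PLAN`, unbundled**: `T` a commutative `k`-algebra with `2 |ι|` pairwise distinct
characters `ev s, ev' s`; `N, N'` subspaces of `T` of codimension `≤ |ι|`, stable under the glued
ring `B = {x | ∀ s, ev s x = ev' s x}`, with `n₀ * n ^ e ∈ B` on `N`, `n₀ * n ^ e' ∈ B` on `N'` and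
`N * N' ⊆ B`.  Then `1 = ∑ j, a j * b j` with `a j ∈ N`, `b j ∈ N'`. -/
theorem exists_sum_mul_eq_one_of_injective (ev ev' : ι → T →ₐ[k] k)
    (hinj : Function.Injective (Sum.elim ev ev')) (N N' : Submodule k T)
    [Module.Finite k (T ⧸ N)] [Module.Finite k (T ⧸ N')]
    (hBN : ∀ b : T, (∀ s, ev s b = ev' s b) → ∀ n ∈ N, b * n ∈ N)
    (hBN' : ∀ b : T, (∀ s, ev s b = ev' s b) → ∀ n ∈ N', b * n ∈ N')
    {e e' : ℕ} (hpow : ∀ n₀ ∈ N, ∀ n ∈ N, ∀ s, ev s (n₀ * n ^ e) = ev' s (n₀ * n ^ e))
    (hpow' : ∀ n₀ ∈ N', ∀ n ∈ N', ∀ s, ev s (n₀ * n ^ e') = ev' s (n₀ * n ^ e'))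
    (hcodim : finrank k (T ⧸ N) ≤ Fintype.card ι)
    (hcodim' : finrank k (T ⧸ N') ≤ Fintype.card ι)
    (hNN' : ∀ n ∈ N, ∀ n' ∈ N', ∀ s, ev s (n * n') = ev' s (n * n')) :
    ∃ (r : ℕ) (a b : Fin r → T), (∀ j, a j ∈ N) ∧ (∀ j, b j ∈ N') ∧ ∑ j, a j * b j = 1 :=
  NodeData.exists_sum_mul_eq_one (D := NodeData.ofInjective ev ev' hinj) hBN hBN' hpow hpow'
    hcodim hcodim' hNN'

end Unbundled

end Fermat.Agent.S34x.LocalNode
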