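/-
P-S34, WP4-abstract (helper43): Goursat's lemma for a subalgebra of a product of two rings with
surjective projections, the reducedness criterion (N1) of the board plan `S34_PLAN`, and the
resulting node data.

* `Goursat`: for `Bb ≤ B1 × B2` with both projections surjective, `I1 = {f | (f,0) ∈ Bb}`,
  `I2 = {g | (0,g) ∈ Bb}`, `R = B2 ⧸ I2`, `φ : B1 →ₐ R`, `ψ : B2 →ₐ R` surjective and
  `Bb = {(f,g) | φ f = ψ g}`; `(B1 × B2) ⧸ Bb ≃ₗ R`.
* `(N1)`: a finite-dimensional algebra in which every element is a `p`-th power (`p ≥ 2`) is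
  reduced; a reduced finite-dimensional algebra over an algebraically closed field is separated by
  its (finitely many) characters, whose number is the dimension.
* `nodeData`: the node data (`S34x/LocalNode.lean`) of `Bb`.
-/
import Mathlib
import Fermat.Agent.S34x.LocalNode

set_option autoImplicit false
set_option linter.unusedSectionVars false
set_option linter.style.haveILetI false

namespace Fermat.Agent.S34x.Goursat

open Module

section Goursat

variable {k B1 B2 : Type*} [Field k] [CommRing B1] [CommRing B2] [Algebra k B1] [Algebra k B2]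
  (Bb : Subalgebra k (B1 × B2))
  (h1 : ∀ f : B1, ∃ g : B2, (f, g) ∈ Bb) (h2 : ∀ g : B2, ∃ f : B1, (f, g) ∈ Bb)

/-- The ideal `I2 = {g | (0, g) ∈ Bb}` of `B2`. -/
def I2 : Ideal B2 where
  carrier := {g | ((0 : B1), g) ∈ Bb}
  add_mem' {a b} ha hb := by
    have := Bb.add_mem ha hb
    simpa using this
  zero_mem' := Bb.zero_mem
  smul_mem' c g hg := by
    obtain ⟨f, hf⟩ := h2 c
    have := Bb.mul_mem hf hg
    simpa using this

/-- The ideal `I1 = {f | (f, 0) ∈ Bb}` of `B1`. -/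
def I1 : Ideal B1 where
  carrier := {f | (f, (0 : B2)) ∈ Bb}
  add_mem' {a b} ha hb := by
    have := Bb.add_mem ha hb
    simpa using this
  zero_mem' := Bb.zero_mem
  smul_mem' c f hf := by
    obtain ⟨g, hg⟩ := h1 c
    have := Bb.mul_mem hg hf
    simpa using this

theorem mem_I2 {g : B2} : g ∈ I2 Bb h2 ↔ ((0 : B1), g) ∈ Bb := Iff.rfl

theorem mem_I1 {f : B1} : f ∈ I1 Bb h1 ↔ (f, (0 : B2)) ∈ Bb := Iff.rfl

/-- The glueing ring `R = B2 ⧸ I2`. -/
abbrev R : Type _ := B2 ⧸ I2 Bb h2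

theorem sub_mem_I2 {f : B1} {g g' : B2} (hg : (f, g) ∈ Bb) (hg' : (f, g') ∈ Bb) :
    g - g' ∈ I2 Bb h2 := by
  have := Bb.sub_mem hg hg'
  rw [mem_I2]
  simpa using this

/-- A chosen second coordinate over `f`. -/
noncomputable def lift (f : B1) : B2 := (h1 f).choose

theorem lift_spec (f : B1) : (f, lift Bb h1 f) ∈ Bb := (h1 f).choose_spec

/-- The underlying function of `φ`. -/
noncomputable def φfun (f : B1) : R Bb h2 := Ideal.Quotient.mk _ (lift Bb h1 f)

theorem φfun_eq {f : B1} {g : B2} (hg : (f, g) ∈ Bb) :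
    φfun Bb h1 h2 f = Ideal.Quotient.mk _ g :=
  Ideal.Quotient.eq.2 (sub_mem_I2 Bb h2 (lift_spec Bb h1 f) hg)

/-- The first structure map `φ : B1 →ₐ[k] R`. -/
noncomputable def φ : B1 →ₐ[k] R Bb h2 where
  toFun := φfun Bb h1 h2
  map_one' := by
    rw [φfun_eq Bb h1 h2 (g := 1) Bb.one_mem, map_one]
  map_mul' f f' := by
    have := Bb.mul_mem (lift_spec Bb h1 f) (lift_spec Bb h1 f')
    rw [φfun_eq Bb h1 h2 (f := f * f') (g := lift Bb h1 f * lift Bb h1 f') this, map_mul]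
    rfl
  map_zero' := by
    rw [φfun_eq Bb h1 h2 (g := 0) Bb.zero_mem, map_zero]
  map_add' f f' := by
    have := Bb.add_mem (lift_spec Bb h1 f) (lift_spec Bb h1 f')
    rw [φfun_eq Bb h1 h2 (f := f + f') (g := lift Bb h1 f + lift Bb h1 f') this, map_add]
    rfl
  commutes' r := by
    have := Bb.algebraMap_mem r
    rw [φfun_eq Bb h1 h2 (f := algebraMap k B1 r) (g := algebraMap k B2 r) this]
    rfl

/-- The second structure map `ψ : B2 →ₐ[k] R`. -/
noncomputable def ψ : B2 →ₐ[k] R Bb h2 := Ideal.Quotient.mkₐ k _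

theorem φ_eq {f : B1} {g : B2} (hg : (f, g) ∈ Bb) : φ Bb h1 h2 f = ψ Bb h2 g :=
  φfun_eq Bb h1 h2 hg

theorem ψ_surjective : Function.Surjective (ψ Bb h2) := Ideal.Quotient.mk_surjective

theorem φ_surjective : Function.Surjective (φ Bb h1 h2) := by
  intro r
  obtain ⟨g, rfl⟩ := ψ_surjective Bb h2 r
  obtain ⟨f, hf⟩ := h2 g
  exact ⟨f, φ_eq Bb h1 h2 hf⟩

/-- **Goursat**: `Bb` is the fibre product `B1 ×_R B2`. -/
theorem mem_iff (x : B1 × B2) : x ∈ Bb ↔ φ Bb h1 h2 x.1 = ψ Bb h2 x.2 := by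
  constructor
  · intro hx
    exact φ_eq Bb h1 h2 hx
  · intro hx
    have h0 := lift_spec Bb h1 x.1
    rw [φ_eq Bb h1 h2 h0] at hx
    have h3 : x.2 - lift Bb h1 x.1 ∈ I2 Bb h2 := by
      rw [← Ideal.Quotient.eq]
      exact hx.symm
    rw [mem_I2] at h3
    have := Bb.add_mem h0 h3
    simpa using this

/-- The difference map `(f, g) ↦ φ f - ψ g`. -/
noncomputable def diff : (B1 × B2) →ₗ[k] R Bb h2 :=
  (φ Bb h1 h2).toLinearMap.comp (LinearMap.fst k B1 B2) -
    (ψ Bb h2).toLinearMap.comp (LinearMap.snd k B1 B2)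

theorem diff_apply (x : B1 × B2) : diff Bb h1 h2 x = φ Bb h1 h2 x.1 - ψ Bb h2 x.2 := rfl

theorem diff_surjective : Function.Surjective (diff Bb h1 h2) := by
  intro r
  obtain ⟨g, rfl⟩ := ψ_surjective Bb h2 r
  refine ⟨(0, -g), ?_⟩
  rw [diff_apply, map_zero, map_neg, zero_sub, neg_neg]

theorem ker_diff : LinearMap.ker (diff Bb h1 h2) = Subalgebra.toSubmodule Bb := by
  ext x
  rw [LinearMap.mem_ker, diff_apply, sub_eq_zero, Subalgebra.mem_toSubmodule, mem_iff Bb h1 h2]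

/-- `(B1 × B2) ⧸ Bb ≃ R` as `k`-vector spaces. -/
noncomputable def quotEquiv : ((B1 × B2) ⧸ Subalgebra.toSubmodule Bb) ≃ₗ[k] R Bb h2 :=
  (Submodule.quotEquivOfEq _ _ (ker_diff Bb h1 h2).symm).trans
    ((diff Bb h1 h2).quotKerEquivOfSurjective (diff_surjective Bb h1 h2))

end Goursat

/-! ### (N1): reducedness and characters -/

section Reduced

variable {k R : Type*} [Field k] [CommRing R] [Algebra k R] [Module.Finite k R]

include k in
/-- **(N1)**: a finite-dimensional algebra in which every element is a `p`-th power (`p ≥ 2`) is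
reduced. -/
theorem isReduced_of_forall_exists_pow_eq (p : ℕ) (hp : 2 ≤ p) (h : ∀ x : R, ∃ y : R, y ^ p = x) :
    IsReduced R := by
  haveI : IsArtinianRing R := IsArtinianRing.of_finite k R
  obtain ⟨N, hN⟩ := IsArtinianRing.isNilpotent_nilradical (R := R)
  have h1 : nilradical R ≤ nilradical R ^ p := by
    intro x hx
    obtain ⟨y, rfl⟩ := h x
    have hy : y ∈ nilradical R := by
      rw [mem_nilradical] at hx ⊢
      exact hx.of_pow
    exact Ideal.pow_mem_pow hy p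
  have h2 : ∀ j : ℕ, nilradical R ≤ nilradical R ^ (p ^ j) := by
    intro j
    induction j with
    | zero => simp
    | succ j ih =>
      calc nilradical R ≤ nilradical R ^ p := h1
        _ ≤ (nilradical R ^ (p ^ j)) ^ p := Ideal.pow_right_mono ih p
        _ = nilradical R ^ (p ^ (j + 1)) := by rw [← pow_mul, pow_succ]
  have h3 : nilradical R ≤ ⊥ := by
    calc nilradical R ≤ nilradical R ^ (p ^ N) := h2 N
      _ ≤ nilradical R ^ N := Ideal.pow_le_pow_right (Nat.lt_pow_self (by omega)).le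
      _ = ⊥ := by rw [hN, Ideal.zero_eq_bot]
  refine ⟨fun x hx => ?_⟩
  have := h3 (mem_nilradical.2 hx)
  simpa using this

variable [IsAlgClosed k]

/-- A character with prescribed maximal kernel. -/
theorem exists_algHom_ker_eq (m : Ideal R) [hm : m.IsMaximal] :
    ∃ χ : R →ₐ[k] k, ∀ x, χ x = 0 ↔ x ∈ m := by
  letI : Field (R ⧸ m) := Ideal.Quotient.field m
  haveI : Algebra.IsIntegral k (R ⧸ m) := Algebra.IsIntegral.of_finite k (R ⧸ m)
  have hbij : Function.Bijective (algebraMap k (R ⧸ m)) :=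
    IsAlgClosed.algebraMap_bijective_of_isIntegral
  let E : k ≃ₐ[k] (R ⧸ m) := AlgEquiv.ofBijective (Algebra.ofId k (R ⧸ m)) hbij
  refine ⟨(E.symm : (R ⧸ m) →ₐ[k] k).comp (Ideal.Quotient.mkₐ k m), fun x => ?_⟩
  show E.symm (Ideal.Quotient.mk m x) = 0 ↔ x ∈ m
  rw [EmbeddingLike.map_eq_zero_iff, Ideal.Quotient.eq_zero_iff_mem]

variable [IsReduced R]

/-- The characters of a reduced finite-dimensional algebra over an algebraically closed field
separate its elements. -/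
theorem eq_of_forall_algHom_eq {x y : R} (h : ∀ χ : R →ₐ[k] k, χ x = χ y) : x = y := by
  haveI : IsArtinianRing R := IsArtinianRing.of_finite k R
  have hj : x - y ∈ Ideal.jacobson (⊥ : Ideal R) := by
    rw [Ideal.jacobson, Ideal.mem_sInf]
    rintro m ⟨-, hm⟩
    obtain ⟨χ, hχ⟩ := exists_algHom_ker_eq (k := k) m
    rw [← hχ, map_sub, h χ, sub_self]
  obtain ⟨n, hn⟩ := IsArtinianRing.isNilpotent_jacobson_bot (R := R)
  have h0 : (x - y) ^ n ∈ (Ideal.jacobson (⊥ : Ideal R)) ^ n := Ideal.pow_mem_pow hj n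
  rw [hn, Ideal.zero_eq_bot, Ideal.mem_bot] at h0
  have := IsReduced.eq_zero (x - y) ⟨n, h0⟩
  exact sub_eq_zero.1 this

/-- The evaluation map `R → ((R →ₐ[k] k) → k)`. -/
noncomputable def evalAll : R →ₗ[k] ((R →ₐ[k] k) → k) :=
  LinearMap.pi fun χ => χ.toLinearMap

theorem evalAll_bijective : Function.Bijective (evalAll (k := k) (R := R)) := by
  constructor
  · intro x y hxy
    exact eq_of_forall_algHom_eq fun χ => congrFun hxy χ
  · intro a
    obtain ⟨x, hx⟩ := LocalNode.exists_forall_eval_eq (fun χ : R →ₐ[k] k => χ)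
      Function.injective_id a
    exact ⟨x, funext hx⟩

/-- The number of characters is the dimension. -/
theorem card_algHom_eq_finrank : Nat.card (R →ₐ[k] k) = finrank k R := by
  have := Fintype.ofFinite (R →ₐ[k] k)
  have e : R ≃ₗ[k] ((R →ₐ[k] k) → k) := LinearEquiv.ofBijective _ evalAll_bijective
  rw [e.finrank_eq, Module.finrank_fintype_fun_eq_card, Nat.card_eq_fintype_card]

end Reduced

/-! ### The nodes of a glued ring -/

section Nodes

variable {k B1 B2 : Type*} [Field k] [CommRing B1] [CommRing B2] [Algebra k B1] [Algebra k B2]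
  (Bb : Subalgebra k (B1 × B2))
  (h1 : ∀ f : B1, ∃ g : B2, (f, g) ∈ Bb) (h2 : ∀ g : B2, ∃ f : B1, (f, g) ∈ Bb)

include h1 in
/-- Finite codimension of `Bb` means that `R` is finite-dimensional. -/
theorem finite_R [Module.Finite k ((B1 × B2) ⧸ Subalgebra.toSubmodule Bb)] :
    Module.Finite k (R Bb h2) :=
  Module.Finite.equiv (quotEquiv Bb h1 h2)

include h1 in
theorem finrank_R :
    finrank k (R Bb h2) = finrank k ((B1 × B2) ⧸ Subalgebra.toSubmodule Bb) :=
  (quotEquiv Bb h1 h2).finrank_eq.symm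

/-- The set of nodes: the characters of the glueing ring. -/
abbrev Nodes : Type _ := R Bb h2 →ₐ[k] k

/-- Evaluation at the first branch of a node. -/
noncomputable def ev (s : Nodes Bb h2) : (B1 × B2) →ₐ[k] k :=
  (s.comp (φ Bb h1 h2)).comp (AlgHom.fst k B1 B2)

/-- Evaluation at the second branch of a node. -/
noncomputable def ev' (s : Nodes Bb h2) : (B1 × B2) →ₐ[k] k :=
  (s.comp (ψ Bb h2)).comp (AlgHom.snd k B1 B2)

theorem ev_apply (s : Nodes Bb h2) (x : B1 × B2) : ev Bb h1 h2 s x = s (φ Bb h1 h2 x.1) := rfl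

theorem ev'_apply (s : Nodes Bb h2) (x : B1 × B2) : ev' Bb h2 s x = s (ψ Bb h2 x.2) := rfl

/-- The `2 |Nodes|` evaluations are pairwise distinct. -/
theorem injective_sumElim_ev :
    Function.Injective (Sum.elim (ev Bb h1 h2) (ev' Bb h2)) := by
  rintro (s | s) (t | t) hst
  · congr 1
    ext r
    obtain ⟨f, rfl⟩ := φ_surjective Bb h1 h2 r
    have := DFunLike.congr_fun hst (f, 0)
    simpa only [Sum.elim_inl, ev_apply] using this
  · exfalso
    have := DFunLike.congr_fun hst (0, 1)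
    simp only [Sum.elim_inl, Sum.elim_inr, ev_apply, ev'_apply, map_zero, map_one] at this
    exact zero_ne_one this
  · exfalso
    have := DFunLike.congr_fun hst (0, 1)
    simp only [Sum.elim_inl, Sum.elim_inr, ev_apply, ev'_apply, map_zero, map_one] at this
    exact one_ne_zero this
  · congr 1
    ext r
    obtain ⟨g, rfl⟩ := ψ_surjective Bb h2 r
    have := DFunLike.congr_fun hst (0, g)
    simpa only [Sum.elim_inr, ev'_apply] using this

variable [IsAlgClosed k] [Module.Finite k ((B1 × B2) ⧸ Subalgebra.toSubmodule Bb)]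

/-- If `R` is reduced, `Bb` is the equaliser of the evaluations at the two branches of the
nodes. -/
theorem mem_iff_forall_ev_eq [IsReduced (R Bb h2)] (x : B1 × B2) :
    x ∈ Bb ↔ ∀ s : Nodes Bb h2, ev Bb h1 h2 s x = ev' Bb h2 s x := by
  haveI := finite_R Bb h1 h2
  rw [mem_iff Bb h1 h2]
  constructor
  · intro h s
    rw [ev_apply, ev'_apply, h]
  · intro h
    exact eq_of_forall_algHom_eq (k := k) h

include h1 in
theorem finite_nodes : Finite (Nodes Bb h2) :=
  haveI := finite_R Bb h1 h2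
  Finite.algHom k (R Bb h2) k

include h1 in
/-- The number of nodes is the codimension of `Bb` (if `R` is reduced). -/
theorem card_nodes [IsReduced (R Bb h2)] :
    Nat.card (Nodes Bb h2) = finrank k ((B1 × B2) ⧸ Subalgebra.toSubmodule Bb) := by
  haveI := finite_R Bb h1 h2
  rw [card_algHom_eq_finrank, finrank_R Bb h1 h2]

/-- The node data of `Bb` (`S34x/LocalNode.lean`). -/
noncomputable def nodeData : LocalNode.NodeData k (B1 × B2) (Nodes Bb h2) :=
  haveI := finite_nodes Bb h1 h2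
  LocalNode.NodeData.ofInjective (ev Bb h1 h2) (ev' Bb h2) (injective_sumElim_ev Bb h1 h2)

theorem nodeData_ev : (nodeData Bb h1 h2).ev = ev Bb h1 h2 := rfl

theorem nodeData_ev' : (nodeData Bb h1 h2).ev' = ev' Bb h2 := rfl

/-- The glued ring of the node data is `Bb`. -/
theorem nodeData_B [IsReduced (R Bb h2)] : (nodeData Bb h1 h2).B = Bb := by
  ext x
  rw [LocalNode.NodeData.mem_B, mem_iff_forall_ev_eq Bb h1 h2]
  rfl

include h1 in
/-- (N1) in the form used by the plan: if every element of `B2` is a `p`-th power modulo `I2`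
(`p ≥ 2`), then `R` is reduced. -/
theorem isReduced_R (p : ℕ) (hp : 2 ≤ p)
    (hpow : ∀ g : B2, ∃ g' : B2, ((0 : B1), g - g' ^ p) ∈ Bb) : IsReduced (R Bb h2) := by
  haveI := finite_R Bb h1 h2
  refine isReduced_of_forall_exists_pow_eq (k := k) p hp fun r => ?_
  obtain ⟨g, rfl⟩ := ψ_surjective Bb h2 r
  obtain ⟨g', hg'⟩ := hpow g
  refine ⟨ψ Bb h2 g', ?_⟩
  rw [← map_pow]
  symm
  exact Ideal.Quotient.eq.2 hg'

include h1 h2 in
/-- **(N1) + (N2) combined**: `Bb ≤ B1 × B2` a subalgebra of finite codimension `δ` with surjective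
projections, over an algebraically closed field, such that every element of `B2` is a `p`-th power
modulo `I2` (`p ≥ 2`).  If `N, N'` are `Bb`-stable subspaces of `B1 × B2` of codimension `≤ δ`
with `n₀ * n ^ e ∈ Bb` on `N`, `n₀ * n ^ e' ∈ Bb` on `N'` and `N * N' ⊆ Bb`, then `N * N' = Bb`. -/
theorem mul_eq_of_glued (p : ℕ) (hp : 2 ≤ p)
    (hpow : ∀ g : B2, ∃ g' : B2, ((0 : B1), g - g' ^ p) ∈ Bb)
    (N N' : Submodule k (B1 × B2)) [Module.Finite k ((B1 × B2) ⧸ N)]
    [Module.Finite k ((B1 × B2) ⧸ N')]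
    (hBN : ∀ b ∈ Bb, ∀ n ∈ N, b * n ∈ N) (hBN' : ∀ b ∈ Bb, ∀ n ∈ N', b * n ∈ N')
    {e e' : ℕ} (hpowN : ∀ n₀ ∈ N, ∀ n ∈ N, n₀ * n ^ e ∈ Bb)
    (hpowN' : ∀ n₀ ∈ N', ∀ n ∈ N', n₀ * n ^ e' ∈ Bb)
    (hcodim : finrank k ((B1 × B2) ⧸ N) ≤ finrank k ((B1 × B2) ⧸ Subalgebra.toSubmodule Bb))
    (hcodim' : finrank k ((B1 × B2) ⧸ N') ≤ finrank k ((B1 × B2) ⧸ Subalgebra.toSubmodule Bb))
    (hNN' : ∀ n ∈ N, ∀ n' ∈ N', n * n' ∈ Bb) :
    N * N' = Subalgebra.toSubmodule Bb := by
  haveI := isReduced_R Bb h1 h2 p hp hpow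
  haveI := finite_nodes Bb h1 h2
  letI := Fintype.ofFinite (Nodes Bb h2)
  have hB := nodeData_B Bb h1 h2
  have hcard : Fintype.card (Nodes Bb h2) =
      finrank k ((B1 × B2) ⧸ Subalgebra.toSubmodule Bb) := by
    rw [← Nat.card_eq_fintype_card, card_nodes Bb h1 h2]
  rw [← hB]
  refine LocalNode.NodeData.mul_eq_B (D := nodeData Bb h1 h2) (e := e) (e' := e') ?_ ?_ ?_ ?_ ?_ ?_
    ?_
  · rw [hB]
    exact hBN
  · rw [hB]
    exact hBN'
  · rw [hB]
    exact hpowN
  · rw [hB]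
    exact hpowN'
  · rw [hcard]
    exact hcodim
  · rw [hcard]
    exact hcodim'
  · rw [hB]
    exact hNN'

include h1 h2 in
/-- Element form of `mul_eq_of_glued`: `1 = ∑ j, a j * b j` with `a j ∈ N`, `b j ∈ N'`. -/
theorem exists_sum_mul_eq_one_of_glued (p : ℕ) (hp : 2 ≤ p)
    (hpow : ∀ g : B2, ∃ g' : B2, ((0 : B1), g - g' ^ p) ∈ Bb)
    (N N' : Submodule k (B1 × B2)) [Module.Finite k ((B1 × B2) ⧸ N)]
    [Module.Finite k ((B1 × B2) ⧸ N')]
    (hBN : ∀ b ∈ Bb, ∀ n ∈ N, b * n ∈ N) (hBN' : ∀ b ∈ Bb, ∀ n ∈ N', b * n ∈ N')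
    {e e' : ℕ} (hpowN : ∀ n₀ ∈ N, ∀ n ∈ N, n₀ * n ^ e ∈ Bb)
    (hpowN' : ∀ n₀ ∈ N', ∀ n ∈ N', n₀ * n ^ e' ∈ Bb)
    (hcodim : finrank k ((B1 × B2) ⧸ N) ≤ finrank k ((B1 × B2) ⧸ Subalgebra.toSubmodule Bb))
    (hcodim' : finrank k ((B1 × B2) ⧸ N') ≤ finrank k ((B1 × B2) ⧸ Subalgebra.toSubmodule Bb))
    (hNN' : ∀ n ∈ N, ∀ n' ∈ N', n * n' ∈ Bb) :
    ∃ (r : ℕ) (a b : Fin r → B1 × B2), (∀ j, a j ∈ N) ∧ (∀ j, b j ∈ N') ∧
      ∑ j, a j * b j = 1 := by
  haveI := isReduced_R Bb h1 h2 p hp hpow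
  haveI := finite_nodes Bb h1 h2
  letI := Fintype.ofFinite (Nodes Bb h2)
  have hB := nodeData_B Bb h1 h2
  have hcard : Fintype.card (Nodes Bb h2) =
      finrank k ((B1 × B2) ⧸ Subalgebra.toSubmodule Bb) := by
    rw [← Nat.card_eq_fintype_card, card_nodes Bb h1 h2]
  refine LocalNode.NodeData.exists_sum_mul_eq_one (D := nodeData Bb h1 h2) (e := e) (e' := e')
    ?_ ?_ ?_ ?_ ?_ ?_ ?_
  · rw [hB]
    exact hBN
  · rw [hB]
    exact hBN'
  · rw [hB]
    exact hpowN
  · rw [hB]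
    exact hpowN'
  · rw [hcard]
    exact hcodim
  · rw [hcard]
    exact hcodim'
  · rw [hB]
    exact hNN'

end Nodes

end Fermat.Agent.S34x.Goursat
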