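import Mathlib
import Fermat.Agent.Gateway.C0.ValModule

/-!
# P-S34, WP-UB (U5): the Čech `H¹` of a twisted bifiltered lattice system is finitely generated

Abstract consumer side of the graded Nakayama argument (notes 804, 829).  Data: a commutative
`A`-algebra `F`, a unit `t` of `F` (`t * s = 1`), and a bifiltered family of `A`-submodules
`M a c` (`= Lam(D₀ + a C₀ + c C∞)`, `div t = C₀ - C∞`) with

* `hM   : x ∈ M a c ↔ t ^ a * x ∈ M 0 (a + c)`                (`M(a,c) = t⁻ᵃ M(0,a+c)`),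
* `hmono: b ≤ b' → M 0 b ≤ M 0 b'`,
* `ht   : x ∈ M 0 b → t * x ∈ M 0 (b + 1)`,
* `hS1  : b₁ ≤ b → ∀ x ∈ M 0 (b + 1), ∃ y z ∈ M 0 b, x = y + t * z`   (graded Nakayama (S1)).

Conclusions:

* `le_sup_three : M a c ≤ M b₁ b₁ ⊔ M 0 c ⊔ M a 0` for all `a c` (the statement
  `TwistSystem.le_sup_three` of `Gateway/C0/Twist.lean`, which is all that `exists_global` there
  uses from the jump hypotheses);
* `exists_sum_pow_mul : x ∈ M 0 (b₁ + n) → x = ∑ j ≤ n, t ^ j * f j` with `f j ∈ M 0 b₁`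
  (the chart ring is generated over `A[t]` by `M 0 b₁`);
* `chartX_le`, `fg_map_mkQ_chartX`: `H¹ = Bx / (B + B')` is a finitely generated `A`-module;
* `exists_ne_zero_smul_mem`: over a valuation ring the torsion of `H¹` is killed by one `c ≠ 0`.
-/

set_option autoImplicit false
set_option linter.unusedSectionVars false

namespace Fermat.Agent.S34x.H1Fg

open Submodule

variable {A : Type*} [CommRing A] {F : Type*} [CommRing F] [Algebra A F]
variable {t s : F} {M : ℕ → ℕ → Submodule A F}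

section basic

variable (hM : ∀ a c x, x ∈ M a c ↔ t ^ a * x ∈ M 0 (a + c))
  (hmono : ∀ b b' : ℕ, b ≤ b' → M 0 b ≤ M 0 b')
  (ht : ∀ b x, x ∈ M 0 b → t * x ∈ M 0 (b + 1))

include ht in
theorem pow_mul_mem (j : ℕ) {b : ℕ} {x : F} (hx : x ∈ M 0 b) : t ^ j * x ∈ M 0 (b + j) := by
  induction j with
  | zero => simpa using hx
  | succ j ih =>
    have := ht _ _ ih
    rw [← mul_assoc, ← pow_succ'] at this
    exact this

include hM hmono ht in
/-- The family is monotone in both indices. -/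
theorem M_mono {a c a' c' : ℕ} (ha : a ≤ a') (hc : c ≤ c') : M a c ≤ M a' c' := by
  intro x hx
  rw [hM] at hx ⊢
  obtain ⟨d, rfl⟩ := Nat.exists_eq_add_of_le ha
  have h1 := pow_mul_mem ht d hx
  rw [← mul_assoc, ← pow_add, add_comm d a] at h1
  exact hmono _ _ (by omega) h1

end basic

section three

variable (hts : t * s = 1)
  (hM : ∀ a c x, x ∈ M a c ↔ t ^ a * x ∈ M 0 (a + c))
  (hmono : ∀ b b' : ℕ, b ≤ b' → M 0 b ≤ M 0 b')
  (ht : ∀ b x, x ∈ M 0 b → t * x ∈ M 0 (b + 1))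
  {b₁ : ℕ}
  (hS1 : ∀ b, b₁ ≤ b → ∀ x ∈ M 0 (b + 1), ∃ y ∈ M 0 b, ∃ z ∈ M 0 b, x = y + t * z)

include hts in
theorem pow_mul_pow_eq_one (a : ℕ) : t ^ a * s ^ a = 1 := by
  rw [← mul_pow, hts, one_pow]

include hts hM hmono ht hS1 in
theorem le_sup_three_aux (n : ℕ) :
    ∀ a c : ℕ, a + c ≤ b₁ + n → M a c ≤ M b₁ b₁ ⊔ M 0 c ⊔ M a 0 := by
  induction n with
  | zero =>
    intro a c hac
    exact le_sup_of_le_left (le_sup_of_le_left
      (M_mono hM hmono ht (by omega) (by omega)))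
  | succ n ih =>
    intro a c hac
    rcases Nat.lt_or_ge (a + c) (b₁ + n + 1) with hlt | hge
    · exact ih a c (by omega)
    have hac' : a + c = b₁ + n + 1 := by omega
    rcases Nat.eq_zero_or_pos a with rfl | ha
    · exact le_sup_of_le_left le_sup_right
    rcases Nat.eq_zero_or_pos c with rfl | hc
    · exact le_sup_right
    intro x hx
    have hx' := (hM a c x).mp hx
    rw [hac'] at hx'
    obtain ⟨y, hy, z, hz, hxyz⟩ := hS1 (b₁ + n) (Nat.le_add_right _ _) _ hx'
    -- the two pieces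
    have e1 : x = s ^ a * y + s ^ (a - 1) * z := by
      have h1 : x = s ^ a * (t ^ a * x) := by
        rw [← mul_assoc, mul_comm (s ^ a), pow_mul_pow_eq_one hts, one_mul]
      have h2 : s ^ a * t = s ^ (a - 1) := by
        obtain ⟨a', rfl⟩ := Nat.exists_eq_succ_of_ne_zero ha.ne'
        rw [Nat.succ_sub_one, pow_succ, mul_assoc, mul_comm s t, hts, mul_one]
      rw [h1, hxyz, mul_add, ← mul_assoc, h2]
    have hy' : s ^ a * y ∈ M a (c - 1) := by
      rw [hM, ← mul_assoc, pow_mul_pow_eq_one hts, one_mul]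
      have : a + (c - 1) = b₁ + n := by omega
      rwa [this]
    have hz' : s ^ (a - 1) * z ∈ M (a - 1) c := by
      rw [hM, ← mul_assoc, pow_mul_pow_eq_one hts, one_mul]
      have : a - 1 + c = b₁ + n := by omega
      rwa [this]
    have hy'' := ih a (c - 1) (by omega) hy'
    have hz'' := ih (a - 1) c (by omega) hz'
    have hle1 : M b₁ b₁ ⊔ M 0 (c - 1) ⊔ M a 0 ≤ M b₁ b₁ ⊔ M 0 c ⊔ M a 0 :=
      sup_le_sup_right (sup_le_sup_left (hmono _ _ (Nat.sub_le _ _)) _) _
    have hle2 : M b₁ b₁ ⊔ M 0 c ⊔ M (a - 1) 0 ≤ M b₁ b₁ ⊔ M 0 c ⊔ M a 0 :=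
      sup_le_sup_left (M_mono hM hmono ht (Nat.sub_le _ _) le_rfl) _
    rw [e1]
    exact add_mem (hle1 hy'') (hle2 hz'')

include hts hM hmono ht hS1 in
/-- **The truncated Čech `H¹` stabilises**: everything is generated by `M b₁ b₁` modulo the two
charts.  (`TwistSystem.le_sup_three` of `Gateway/C0/Twist.lean`, without the jump hypotheses.) -/
theorem le_sup_three (a c : ℕ) : M a c ≤ M b₁ b₁ ⊔ M 0 c ⊔ M a 0 :=
  le_sup_three_aux hts hM hmono ht hS1 (a + c) a c (Nat.le_add_left _ _)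

include hS1 in
/-- The chart ring is generated over `A[t]` by `M 0 b₁`. -/
theorem exists_sum_pow_mul (n : ℕ) :
    ∀ x ∈ M 0 (b₁ + n), ∃ f : ℕ → F, (∀ j, f j ∈ M 0 b₁) ∧
      x = ∑ j ∈ Finset.range (n + 1), t ^ j * f j := by
  induction n with
  | zero =>
    intro x hx
    refine ⟨fun j => if j = 0 then x else 0, fun j => ?_, ?_⟩
    · by_cases hj : j = 0
      · simpa [hj] using hx
      · simp [hj]
    · simp
  | succ n ih =>
    intro x hx
    obtain ⟨y, hy, z, hz, rfl⟩ := hS1 (b₁ + n) (Nat.le_add_right _ _) x hx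
    obtain ⟨f, hf, hyf⟩ := ih y hy
    obtain ⟨g, hg, hzg⟩ := ih z hz
    refine ⟨fun j => (if j ≤ n then f j else 0) + (if j = 0 then 0 else g (j - 1)),
      fun j => add_mem ?_ ?_, ?_⟩
    · by_cases hj : j ≤ n
      · simpa [hj] using hf j
      · simp [hj]
    · by_cases hj : j = 0
      · simp [hj]
      · simpa [hj] using hg (j - 1)
    · simp only [mul_add, Finset.sum_add_distrib]
      congr 1
      · rw [Finset.sum_range_succ, hyf]
        have : ¬ (n + 1 ≤ n) := by omega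
        simp only [this, if_false, mul_zero, add_zero]
        refine Finset.sum_congr rfl fun j hj => ?_
        have : j ≤ n := by
          have := Finset.mem_range.mp hj
          omega
        simp [this]
      · rw [Finset.sum_range_succ', hzg, Finset.mul_sum]
        simp only [if_true, mul_zero, add_zero, Nat.add_sub_cancel]
        refine Finset.sum_congr rfl fun j _ => ?_
        rw [if_neg (Nat.succ_ne_zero j), pow_succ']
        ring

end three

/-! ### The three chart modules and `H¹` -/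

/-- the chart `t ≠ ∞`: `B = ⋃ M 0 c` -/
def chartU (M : ℕ → ℕ → Submodule A F) : Submodule A F := ⨆ c, M 0 c

/-- the chart `t ≠ 0`: `B' = ⋃ M a 0` -/
def chartU' (M : ℕ → ℕ → Submodule A F) : Submodule A F := ⨆ a, M a 0

/-- the overlap: `Bx = ⋃ M a c` -/
def chartX (M : ℕ → ℕ → Submodule A F) : Submodule A F := ⨆ a, ⨆ c, M a c

theorem le_chartU (c : ℕ) : M 0 c ≤ chartU M := le_iSup (fun c => M 0 c) c

theorem le_chartU' (a : ℕ) : M a 0 ≤ chartU' M := le_iSup (fun a => M a 0) a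

theorem le_chartX (a c : ℕ) : M a c ≤ chartX M :=
  le_trans (le_iSup (fun c => M a c) c) (le_iSup (fun a => ⨆ c, M a c) a)

theorem chartU_le_chartX : chartU M ≤ chartX M := iSup_le fun c => le_chartX 0 c

theorem chartU'_le_chartX : chartU' M ≤ chartX M := iSup_le fun a => le_chartX a 0

section h1

variable (hts : t * s = 1)
  (hM : ∀ a c x, x ∈ M a c ↔ t ^ a * x ∈ M 0 (a + c))
  (hmono : ∀ b b' : ℕ, b ≤ b' → M 0 b ≤ M 0 b')
  (ht : ∀ b x, x ∈ M 0 b → t * x ∈ M 0 (b + 1))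
  {b₁ : ℕ}
  (hS1 : ∀ b, b₁ ≤ b → ∀ x ∈ M 0 (b + 1), ∃ y ∈ M 0 b, ∃ z ∈ M 0 b, x = y + t * z)

include hts hM hmono ht hS1 in
/-- `Bx = M b₁ b₁ + B + B'`. -/
theorem chartX_le : chartX M ≤ M b₁ b₁ ⊔ (chartU M ⊔ chartU' M) := by
  refine iSup_le fun a => iSup_le fun c => ?_
  refine (le_sup_three hts hM hmono ht hS1 a c).trans ?_
  rw [sup_assoc]
  exact sup_le_sup_left (sup_le_sup (le_chartU c) (le_chartU' a)) _

include hts hM hmono ht hS1 in
/-- **`H¹ = Bx / (B + B')` is a finitely generated `A`-module** (stated for the image of `Bx` in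
`F / (B + B')`). -/
theorem fg_map_mkQ_chartX (hfg : (M b₁ b₁).FG) :
    ((chartX M).map (chartU M ⊔ chartU' M).mkQ).FG := by
  have h : (chartX M).map (chartU M ⊔ chartU' M).mkQ =
      (M b₁ b₁).map (chartU M ⊔ chartU' M).mkQ := by
    apply le_antisymm
    · refine (Submodule.map_mono (chartX_le hts hM hmono ht hS1)).trans ?_
      rw [Submodule.map_sup]
      refine sup_le le_rfl ?_
      rw [Submodule.map_le_iff_le_comap]
      intro x hx
      rw [Submodule.mem_comap, Submodule.mkQ_apply, (Submodule.Quotient.mk_eq_zero _).mpr hx]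
      exact Submodule.zero_mem _
    · exact Submodule.map_mono (le_chartX b₁ b₁)
  rw [h]
  exact hfg.map _

include hts hM hmono ht hS1 in
/-- **Bounded torsion of `H¹`**: over a valuation ring, a single `c ≠ 0` kills every torsion
class of `Bx / (B + B')`. -/
theorem exists_ne_zero_smul_mem [IsDomain A] [ValuationRing A] [Module.IsTorsionFree A F]
    (hfg : (M b₁ b₁).FG) :
    ∃ c : A, c ≠ 0 ∧ ∀ γ ∈ chartX M,
      (∃ d : A, d ≠ 0 ∧ d • γ ∈ chartU M ⊔ chartU' M) → c • γ ∈ chartU M ⊔ chartU' M := by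
  obtain ⟨c, hc0, hc⟩ := Fermat.Agent.Gateway.C0.exists_ne_zero_smul_mem_of_saturation
    (S := chartU M ⊔ chartU' M) (T := M b₁ b₁) hfg
  refine ⟨c, hc0, fun γ hγ ⟨d, hd0, hd⟩ => ?_⟩
  obtain ⟨γ₁, hγ₁, β, hβ, rfl⟩ := Submodule.mem_sup.mp (chartX_le hts hM hmono ht hS1 hγ)
  have h1 : d • γ₁ ∈ chartU M ⊔ chartU' M := by
    have : d • γ₁ = d • (γ₁ + β) - d • β := by rw [smul_add]; ring
    rw [this]
    exact sub_mem hd (Submodule.smul_mem _ _ hβ)
  rw [smul_add]
  exact add_mem (hc γ₁ hγ₁ ⟨d, hd0, h1⟩) (Submodule.smul_mem _ _ hβ)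

end h1

end Fermat.Agent.S34x.H1Fg
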