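import Mathlib

/-!
# Finite generation of a Rees-type module and eventual generation in degree one

Let `E` be a commutative algebra over a field `k`, `T : E`, and `P V : ℕ → Submodule k E` two
increasing filtrations stable under multiplication by `T` (`T * P b ⊆ P (b+1)`, same for `V`),
with `V b ≤ P b`, every `P b` finite-dimensional and `P (b+1) = P b + T * P b` for `b ≥ b₀`.
Then `V (b+1) = V b + T * V b` for all sufficiently large `b`
(`exists_forall_eq_add_mul`).

Proof: `{p ∈ E[X] | coeff p b ∈ P b}` is a finitely generated module over the Noetherian ring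
`k[X, T X] ⊆ E[X]`; the analogous module for `V` is a submodule, hence finitely generated, by
polynomials of degree `≤ b₁`; compare coefficients.
-/

namespace Fermat.Agent.S34x.ReesFG

open Polynomial

variable (k : Type*) [Field k] {E : Type*} [CommRing E] [Algebra k E]

/-- The base ring `k[X, T X] ⊆ E[X]`. -/
noncomputable def baseRing (T : E) : Subalgebra k E[X] := Algebra.adjoin k {X, C T * X}

theorem X_mem_baseRing (T : E) : (X : E[X]) ∈ baseRing k T :=
  Algebra.subset_adjoin (Set.mem_insert _ _)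

theorem CTX_mem_baseRing (T : E) : (C T * X : E[X]) ∈ baseRing k T :=
  Algebra.subset_adjoin (Set.mem_insert_of_mem _ rfl)

theorem isNoetherianRing_baseRing (T : E) : IsNoetherianRing (baseRing k T) := by
  classical
  have hfg : (baseRing k T).FG := by
    have := Subalgebra.fg_adjoin_finset (R := k) ({X, C T * X} : Finset E[X])
    simpa [baseRing] using this
  have : Algebra.FiniteType k (baseRing k T) := (Subalgebra.fg_iff_finiteType _).1 hfg
  exact Algebra.FiniteType.isNoetherianRing k _

variable {k}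

/-- A `k`-subspace of `E[X]` stable under multiplication by `X` and by `T X` is stable under the
base ring. -/
theorem mul_mem_of_mem_baseRing (T : E) (A : Submodule k E[X]) (hX : ∀ p ∈ A, X * p ∈ A)
    (hT : ∀ p ∈ A, C T * X * p ∈ A) {r : E[X]} (hr : r ∈ baseRing k T) :
    ∀ p ∈ A, r * p ∈ A := by
  induction hr using Algebra.adjoin_induction with
  | mem x hx =>
    rcases hx with rfl | hx
    · exact hX
    · rw [Set.mem_singleton_iff] at hx
      subst hx
      exact hT
  | algebraMap c =>
    intro p hp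
    rw [← Algebra.smul_def]
    exact A.smul_mem c hp
  | add x y _ _ hx hy =>
    intro p hp
    rw [add_mul]
    exact A.add_mem (hx p hp) (hy p hp)
  | mul x y _ _ hx hy =>
    intro p hp
    rw [mul_assoc]
    exact hx _ (hy p hp)

/-- The module over the base ring with the same underlying set. -/
noncomputable def toBase (T : E) (A : Submodule k E[X]) (hX : ∀ p ∈ A, X * p ∈ A)
    (hT : ∀ p ∈ A, C T * X * p ∈ A) : Submodule (baseRing k T) E[X] where
  carrier := A
  zero_mem' := A.zero_mem
  add_mem' := A.add_mem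
  smul_mem' r p hp := mul_mem_of_mem_baseRing T A hX hT r.2 p hp

theorem mem_toBase {T : E} {A : Submodule k E[X]} {hX : ∀ p ∈ A, X * p ∈ A}
    {hT : ∀ p ∈ A, C T * X * p ∈ A} {p : E[X]} : p ∈ toBase T A hX hT ↔ p ∈ A := Iff.rfl

/-- Polynomials whose `b`-th coefficient lies in `W b`. -/
def coeffSub (W : ℕ → Submodule k E) : Submodule k E[X] where
  carrier := {p | ∀ b, p.coeff b ∈ W b}
  zero_mem' b := by simp
  add_mem' {p q} hp hq b := by
    rw [coeff_add]
    exact (W b).add_mem (hp b) (hq b)
  smul_mem' c p hp b := by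
    rw [coeff_smul]
    exact (W b).smul_mem c (hp b)

theorem mem_coeffSub {W : ℕ → Submodule k E} {p : E[X]} :
    p ∈ coeffSub W ↔ ∀ b, p.coeff b ∈ W b := Iff.rfl

section Stable

variable {T : E} {W : ℕ → Submodule k E} (hmono : ∀ b, W b ≤ W (b + 1))
  (hT : ∀ b, ∀ v ∈ W b, T * v ∈ W (b + 1))

include hmono in
theorem X_mul_mem_coeffSub : ∀ p ∈ coeffSub W, X * p ∈ coeffSub W := by
  intro p hp b
  cases b with
  | zero => simp
  | succ b =>
    rw [coeff_X_mul]
    exact hmono b (hp b)

include hT in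
theorem CTX_mul_mem_coeffSub : ∀ p ∈ coeffSub W, C T * X * p ∈ coeffSub W := by
  intro p hp b
  rw [mul_assoc, coeff_C_mul]
  cases b with
  | zero => simp
  | succ b =>
    rw [coeff_X_mul]
    exact hT b _ (hp b)

end Stable

variable (T : E) (P V : ℕ → Submodule k E)

/-- **Eventual generation in degree one.**  See the module docstring. -/
theorem exists_forall_eq_add_mul (hVP : ∀ b, V b ≤ P b) (hVmono : ∀ b, V b ≤ V (b + 1))
    (hVT : ∀ b, ∀ v ∈ V b, T * v ∈ V (b + 1)) [∀ b, FiniteDimensional k (P b)] (b₀ : ℕ)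
    (hgen : ∀ b, b₀ ≤ b → ∀ x ∈ P (b + 1), ∃ u ∈ P b, ∃ w ∈ P b, x = u + T * w) :
    ∃ b₁, ∀ b, b₁ ≤ b → ∀ x ∈ V (b + 1), ∃ u ∈ V b, ∃ w ∈ V b, x = u + T * w := by
  classical
  have := isNoetherianRing_baseRing k T
  -- the finite-dimensional space of low-degree monomials
  let Q : Submodule k E[X] :=
    ⨆ b ∈ Finset.range (b₀ + 1), (P b).map ((monomial b : E →ₗ[E] E[X]).restrictScalars k)
  have hQfg : Q.FG := by
    apply Submodule.fg_biSup
    intro b _
    exact (Module.Finite.iff_fg.1 inferInstance).map _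
  let Sp : Submodule (baseRing k T) E[X] := Submodule.span (baseRing k T) (Q : Set E[X])
  have hSpfg : Sp.FG := by
    obtain ⟨F, hF⟩ := hQfg
    refine ⟨F, ?_⟩
    show Submodule.span (baseRing k T) (F : Set E[X]) =
      Submodule.span (baseRing k T) ((Q : Submodule k E[X]) : Set E[X])
    rw [← hF, Submodule.span_span_of_tower]
  -- all monomials with coefficient in `P b` lie in `Sp`
  have hmon : ∀ b, ∀ v ∈ P b, monomial b v ∈ Sp := by
    intro b
    induction b using Nat.strong_induction_on with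
    | _ b ih =>
      intro v hv
      by_cases hb : b ≤ b₀
      · apply Submodule.subset_span
        have h1 : (P b).map ((monomial b : E →ₗ[E] E[X]).restrictScalars k) ≤ Q :=
          le_biSup (fun b => (P b).map ((monomial b : E →ₗ[E] E[X]).restrictScalars k))
            (Finset.mem_range.2 (Nat.lt_succ_of_le hb))
        exact h1 (Submodule.mem_map_of_mem hv)
      · obtain ⟨b', rfl⟩ : ∃ b', b = b' + 1 := ⟨b - 1, by omega⟩
        obtain ⟨u, hu, w, hw, rfl⟩ := hgen b' (by omega) v hv
        have e : monomial (b' + 1) (u + T * w) =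
            (⟨X, X_mem_baseRing k T⟩ : baseRing k T) • monomial b' u +
              (⟨C T * X, CTX_mem_baseRing k T⟩ : baseRing k T) • monomial b' w := by
          show _ = X * monomial b' u + C T * X * monomial b' w
          rw [map_add, X_mul_monomial, mul_assoc, X_mul_monomial, C_mul_monomial]
        rw [e]
        exact Sp.add_mem (Sp.smul_mem _ (ih b' (by omega) u hu))
          (Sp.smul_mem _ (ih b' (by omega) w hw))
  -- the `V`-module
  let MV : Submodule (baseRing k T) E[X] :=
    toBase T (coeffSub V) (X_mul_mem_coeffSub hVmono) (CTX_mul_mem_coeffSub hVT)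
  have hMVle : MV ≤ Sp := by
    intro p hp
    rw [p.as_sum_support]
    exact Sp.sum_mem fun b _ => hmon b _ (hVP b (mem_coeffSub.1 (mem_toBase.1 hp) b))
  have hNoeth : IsNoetherian (baseRing k T) Sp := isNoetherian_of_fg_of_noetherian Sp hSpfg
  obtain ⟨G, hG⟩ := isNoetherian_submodule.1 hNoeth MV hMVle
  refine ⟨G.sup natDegree, fun b hb x hx => ?_⟩
  -- the submodule of `MV` of polynomials whose high coefficients are decomposable
  let Z : ℕ → Submodule k E := fun n =>
    V n ⊔ (V n).map ((LinearMap.mulLeft E T).restrictScalars k)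
  let A' : Submodule k E[X] :=
    { carrier := {p | (∀ n, p.coeff n ∈ V n) ∧ ∀ n, G.sup natDegree ≤ n → p.coeff (n + 1) ∈ Z n}
      zero_mem' := ⟨fun n => by simp, fun n _ => by simp⟩
      add_mem' := fun {p q} hp hq => ⟨fun n => by
        rw [coeff_add]; exact (V n).add_mem (hp.1 n) (hq.1 n), fun n hn => by
        rw [coeff_add]; exact (Z n).add_mem (hp.2 n hn) (hq.2 n hn)⟩
      smul_mem' := fun c p hp => ⟨fun n => by
        rw [coeff_smul]; exact (V n).smul_mem c (hp.1 n), fun n hn => by
        rw [coeff_smul]; exact (Z n).smul_mem c (hp.2 n hn)⟩ }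
  have hA'X : ∀ p ∈ A', X * p ∈ A' := by
    intro p hp
    refine ⟨X_mul_mem_coeffSub hVmono p hp.1, fun n _ => ?_⟩
    rw [coeff_X_mul]
    exact (le_sup_left : V n ≤ Z n) (hp.1 n)
  have hA'T : ∀ p ∈ A', C T * X * p ∈ A' := by
    intro p hp
    refine ⟨CTX_mul_mem_coeffSub hVT p hp.1, fun n _ => ?_⟩
    rw [mul_assoc, coeff_C_mul, coeff_X_mul]
    exact (le_sup_right : _ ≤ Z n) (Submodule.mem_map_of_mem (hp.1 n))
  let MV' : Submodule (baseRing k T) E[X] := toBase T A' hA'X hA'T
  have hGMV' : (G : Set E[X]) ⊆ MV' := by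
    intro g hg
    have hgMV : g ∈ MV := hG ▸ Submodule.subset_span hg
    refine ⟨hgMV, fun n hn => ?_⟩
    have hdeg : g.natDegree < n + 1 :=
      lt_of_le_of_lt (Finset.le_sup (f := natDegree) hg) (Nat.lt_succ_of_le hn)
    rw [coeff_eq_zero_of_natDegree_lt hdeg]
    exact (Z n).zero_mem
  have hle : MV ≤ MV' := by
    rw [← hG]
    exact Submodule.span_le.2 hGMV'
  have hxMV : monomial (b + 1) x ∈ MV := by
    intro n
    rw [coeff_monomial]
    split_ifs with h
    · subst h; exact hx
    · exact (V n).zero_mem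
  have hxZ := (hle hxMV).2 b hb
  rw [coeff_monomial, if_pos rfl] at hxZ
  obtain ⟨u, hu, y, hy, rfl⟩ := Submodule.mem_sup.1 hxZ
  obtain ⟨w, hw, rfl⟩ := Submodule.mem_map.1 hy
  exact ⟨u, hu, w, hw, rfl⟩

/-- The same statement in the signature consumed by `S34x/Saturation.lean` (the monotonicity and
`T`-stability of `P` are not needed, but harmless). -/
theorem exists_forall_succ_eq_add {k E : Type*} [Field k] [CommRing E] [Algebra k E] (T : E)
    (P V : ℕ → Submodule k E) (_hPmono : Monotone P) (hVmono : Monotone V)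
    (hVP : ∀ b, V b ≤ P b) (_hTP : ∀ b, ∀ p ∈ P b, T * p ∈ P (b + 1))
    (hTV : ∀ b, ∀ v ∈ V b, T * v ∈ V (b + 1)) (hPfin : ∀ b, Module.Finite k (P b)) (b0 : ℕ)
    (hP : ∀ b, b0 ≤ b → ∀ p ∈ P (b + 1), ∃ p₁ ∈ P b, ∃ p₂ ∈ P b, p = p₁ + T * p₂) :
    ∃ b1, ∀ b, b1 ≤ b → ∀ v ∈ V (b + 1), ∃ v₁ ∈ V b, ∃ v₂ ∈ V b, v = v₁ + T * v₂ :=
  exists_forall_eq_add_mul T P V hVP (fun b => hVmono (Nat.le_succ b)) hTV b0 hP

end Fermat.Agent.S34x.ReesFG
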