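import Fermat.Agent.S34x.C0two.Count
import Fermat.Agent.S34x.H1Fg
import Fermat.Agent.S34x.ReesFG
import Fermat.Agent.Gateway.C0.DivSide

/-!
# P-S34 (T5): the abstract Theorem B

`F / K` a function field over an algebraically closed field of characteristic `0`, `t : F`
transcendental, `Dt = div t`, `T := TwoCharts.ofDivisor Dt` the two charts `t ≠ ∞`, `t ≠ 0`
(`C₀ = (t)_0`, `C∞ = (t)_∞`); `S = (O, I)` a small ring of `F` (e.g. `O = O_∞ ⊓ O_0` for two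
valuation subrings) over the valuation subring `A` of `K`, `R : RedSetup2 A S k κ` a residue setup
with residue RING `κ` (e.g. `κ_∞ × κ_0`).

Let `u ∈ O`, `res u = 1`, `div u = m E`, `deg E = 0`, `m` invertible in `A`.  Assume

* `hcart`: `V ∩ O` is a finitely generated `A`-module for every finite dimensional `V ⊆ F`;
* a filtration `P b` of finite dimensional `k`-subspaces of `κ` (the pole filtration of the
  normalised special fibre on the chart `t ≠ ∞`), generated in degree one from `b₀` on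
  (`hgen`), containing the reductions of `L(b C∞) ∩ O` (`hSC`) and radical (`hrad`);
* `hone`, `hone'`: on each of the two charts some element of the `E`-twisted lattice reduces
  to `1`.

Then (`exists_global`) there is `h ∈ L(E) ∩ O` with `res h = 1`, and consequently
(`exists_const_mul_pow`) `u = c (h⁻¹)^m` for a constant `c`.

The proof is helper92's C0 argument (`C0two/Twist.lean`, `TwistCore.exists_global`); the
stabilisation of the truncated Čech `H¹` (`three`) comes from graded Nakayama: `ReesFG` on the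
special fibre, one Nakayama step on the lattices, and `H1Fg.le_sup_three`.
-/

set_option autoImplicit false
set_option linter.unusedSectionVars false
set_option linter.style.haveILetI false

noncomputable section

namespace Fermat.Agent.S34x.TheoremB

open AlgebraicCurve WithZero Module IntermediateField IsLocalRing
open Fermat.Agent.Gateway.C0 Fermat.Agent.S34x.C0two

/-! ### Divisor calculus for the two charts of `t` -/

section divisor

variable {K F : Type*} [Field K] [Field F] [Algebra K F]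
  {t : F} {Dt : Divisor K F}

theorem czero_sub_cinf (Dt : Divisor K F) (v : Place K F) :
    (TwoCharts.ofDivisor Dt).Czero v - (TwoCharts.ofDivisor Dt).Cinf v = Dt v := by
  have := congrArg (fun D : Divisor K F => D v) (TwoCharts.ofDivisor_sub Dt)
  simpa [Finsupp.sub_apply] using this

/-- `t ∈ L(C∞)`. -/
theorem self_mem_LN (hDt : ∀ v : Place K F, Dt v = v.ord t) :
    t ∈ (TwoCharts.ofDivisor Dt).LN 0 1 := by
  rw [TwoCharts.LN, mem_riemannRochSpace_iff]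
  intro v
  right
  rw [TwoCharts.dv_apply, TwoCharts.ofDivisor_Cinf_apply, hDt v]
  have := le_max_left (-(v.ord t)) 0
  push_cast
  linarith

/-- `t⁻¹ ∈ L(C₀)`. -/
theorem inv_mem_LN (hDt : ∀ v : Place K F, Dt v = v.ord t) :
    t⁻¹ ∈ (TwoCharts.ofDivisor Dt).LN 1 0 := by
  rw [TwoCharts.LN, mem_riemannRochSpace_iff]
  intro v
  right
  rw [TwoCharts.dv_apply, TwoCharts.ofDivisor_Czero_apply, hDt v, v.ord_inv]
  have := le_max_left (v.ord t) 0
  push_cast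
  linarith

/-- The twist identity `L(E + a C₀ + c C∞) = t⁻ᵃ L(E + (a + c) C∞)`. -/
theorem mem_LM_iff_pow_mul (ht0 : t ≠ 0) (hDt : ∀ v : Place K F, Dt v = v.ord t)
    (E : Divisor K F) (a c : ℕ) (x : F) :
    x ∈ (TwoCharts.ofDivisor Dt).LM E a c ↔ t ^ a * x ∈ (TwoCharts.ofDivisor Dt).LM E 0 (a + c) := by
  by_cases hx0 : x = 0
  · subst hx0
    simp
  have hne : t ^ a * x ≠ 0 := mul_ne_zero (pow_ne_zero _ ht0) hx0
  rw [TwoCharts.LM, TwoCharts.LM, mem_riemannRochSpace_iff, mem_riemannRochSpace_iff]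
  refine forall_congr' fun v => ?_
  rw [or_iff_right hx0, or_iff_right hne, v.ord_mul (pow_ne_zero _ ht0) hx0, ← zpow_natCast,
    v.ord_zpow, Finsupp.add_apply, Finsupp.add_apply, TwoCharts.dv_apply, TwoCharts.dv_apply]
  have h := czero_sub_cinf Dt v
  rw [hDt v] at h
  push_cast
  constructor <;> intro h' <;> nlinarith

end divisor

/-! ### One step of graded Nakayama on the lattices `V ∩ O` -/

section nakayama

variable {K : Type*} [Field K] {A : ValuationSubring K}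
  {F : Type*} [Field F] [Algebra K F] {S : SmallRing F}
  {k κ : Type*} [Field k] [CommRing κ] [Algebra k κ]
  (R : RedSetup2 A S k κ)

/-- If every element of the finitely generated lattice `V ∩ O` is congruent modulo the small
elements to an element of the sublattice `Λ₀`, then `V ∩ O = Λ₀` (Nakayama; the kernel of the
reduction on `V ∩ O` is `𝔪_A (V ∩ O)` because `S` is unramified over `A` and `V ∩ O` is
saturated). -/
theorem lat_le_of_cong (V : Submodule K F) (hfg : (R.lat V).FG) (Λ₀ : Submodule A F)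
    (hred : ∀ x ∈ R.lat V, ∃ y ∈ Λ₀, y ∈ R.lat V ∧ Cong S x y) : R.lat V ≤ Λ₀ := by
  apply Submodule.le_of_le_smul_of_le_jacobson_bot hfg (maximalIdeal_le_jacobson ⊥)
  intro x hx
  obtain ⟨y, hy, hyV, hxy⟩ := hred x hx
  obtain ⟨ϖ, hϖ, z, hz, hxz⟩ := R.base.unram _ hxy
  rw [Submodule.mem_sup]
  by_cases h0 : ϖ = 0
  · refine ⟨y, hy, 0, zero_mem _, ?_⟩
    rw [h0, zero_smul] at hxz
    rw [add_zero]
    exact (sub_eq_zero.mp hxz).symm
  · have hzV : z ∈ V := by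
      have h1 : z = ((ϖ : K))⁻¹ • (x - y) := by
        rw [hxz]
        have h3 : ϖ • z = (ϖ : K) • z := rfl
        rw [h3, smul_smul, inv_mul_cancel₀ (by exact_mod_cast h0), one_smul]
      rw [h1]
      exact V.smul_mem _ (V.sub_mem hx.1 hyV.1)
    refine ⟨y, hy, ϖ • z, Submodule.smul_mem_smul hϖ ⟨hzV, hz⟩, ?_⟩
    rw [← hxz]
    ring

end nakayama

/-! ### The abstract Theorem B -/

section main

open Fermat.Agent.Lib.RiemannRoch

variable {K : Type*} [Field K] {A : ValuationSubring K}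
  {F : Type*} [Field F] [Algebra K F] {S : SmallRing F}
  {k κ : Type*} [Field k] [CommRing κ] [Algebra k κ]
  (R : RedSetup2 A S k κ)
  {t : F} {Dt : Divisor K F} (ht0 : t ≠ 0) (hDt : ∀ v : Place K F, Dt v = v.ord t)
  (htO : t ∈ S.O) (htiO : t⁻¹ ∈ S.O)

/-- the twisted lattices `L(E + a C₀ + c C∞) ∩ O` -/
def latM (Dt E : Divisor K F) (a c : ℕ) : Submodule A F :=
  R.lat ((TwoCharts.ofDivisor Dt).LM E a c)

/-- the untwisted lattices `L(a C₀ + c C∞) ∩ O` -/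
def latN (Dt : Divisor K F) (a c : ℕ) : Submodule A F :=
  R.lat ((TwoCharts.ofDivisor Dt).LN a c)

theorem mem_latM {E : Divisor K F} {a c : ℕ} {x : F} :
    x ∈ latM R Dt E a c ↔ x ∈ (TwoCharts.ofDivisor Dt).LM E a c ∧ x ∈ S.O := Iff.rfl

theorem mem_latN {a c : ℕ} {x : F} :
    x ∈ latN R Dt a c ↔ x ∈ (TwoCharts.ofDivisor Dt).LN a c ∧ x ∈ S.O := Iff.rfl

include htO htiO in
theorem pow_mul_mem_O_iff (a : ℕ) (x : F) (ht0 : t ≠ 0) : t ^ a * x ∈ S.O ↔ x ∈ S.O := by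
  constructor
  · intro h
    have h1 : x = t⁻¹ ^ a * (t ^ a * x) := by
      rw [← mul_assoc, ← mul_pow, inv_mul_cancel₀ ht0, one_pow, one_mul]
    rw [h1]
    exact S.O.mul_mem (S.O.pow_mem htiO a) h
  · intro h
    exact S.O.mul_mem (S.O.pow_mem htO a) h

include ht0 hDt htO htiO in
/-- `M(a,c) = t⁻ᵃ M(0,a+c)` -/
theorem latM_twist (E : Divisor K F) (a c : ℕ) (x : F) :
    x ∈ latM R Dt E a c ↔ t ^ a * x ∈ latM R Dt E 0 (a + c) := by
  rw [mem_latM, mem_latM, mem_LM_iff_pow_mul ht0 hDt, pow_mul_mem_O_iff htO htiO a x ht0]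

theorem latM_mono (E : Divisor K F) {a c a' c' : ℕ} (ha : a ≤ a') (hc : c ≤ c') :
    latM R Dt E a c ≤ latM R Dt E a' c' :=
  fun _ hx => ⟨(TwoCharts.ofDivisor Dt).LM_mono E ha hc hx.1, hx.2⟩

include hDt htO in
theorem mul_mem_latM_succ (E : Divisor K F) (b : ℕ) (x : F) (hx : x ∈ latM R Dt E 0 b) :
    t * x ∈ latM R Dt E 0 (b + 1) := by
  refine ⟨?_, S.O.mul_mem htO hx.2⟩
  have := (TwoCharts.ofDivisor Dt).LN_mul_LM E (self_mem_LN hDt) hx.1
  rwa [zero_add, add_comm 1 b] at this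

variable (P : ℕ → Submodule k κ) {m : ℕ}
  (hSC : ∀ (b : ℕ) (f : F) (hf : f ∈ S.O), f ∈ (TwoCharts.ofDivisor Dt).LN 0 b →
    R.res ⟨f, hf⟩ ∈ P b)
  (hrad : ∀ (b : ℕ) (x : κ), x ^ m ∈ P (m * b) → x ∈ P b)
  {u : F} (hu0 : u ≠ 0) (huO : u ∈ S.O) (hu1 : R.res ⟨u, huO⟩ = 1)
  {E : Divisor K F} (hE : ∀ v : Place K F, (m : ℤ) * E v = v.ord u)

include hSC hrad hu0 hu1 hE in
/-- Specialisation of the twisted lattices (Step 1 of C0): `f ∈ L(E + b C∞) ∩ O` has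
`u f^m ∈ L(m b C∞) ∩ O`, so `(res f)^m ∈ P (m b)` and `res f ∈ P b`. -/
theorem redLat_LM_le (b : ℕ) : R.redLat ((TwoCharts.ofDivisor Dt).LM E 0 b) ≤ P b := by
  rintro _ ⟨x, hx, hxM, rfl⟩
  apply hrad
  have h1 := (TwoCharts.ofDivisor Dt).prod_LM hu0 hE m 0 (add_zero m) hxM hxM
  rw [pow_zero, mul_one, mul_zero] at h1
  have hO : u * x ^ m ∈ S.O := S.O.mul_mem huO (S.O.pow_mem hx m)
  have h2 := hSC (m * b) _ hO h1
  have e : (⟨u * x ^ m, hO⟩ : S.O) = ⟨u, huO⟩ * ⟨x, hx⟩ ^ m := rfl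
  rwa [e, map_mul, map_pow, hu1, one_mul] at h2

include ht0 hDt htO hSC hrad hu0 hu1 hE in
/-- Graded Nakayama on the special fibre (`ReesFG`): the reductions of the twisted lattices are
eventually generated in degree one. -/
theorem exists_redLat_succ [∀ b, FiniteDimensional k (P b)] {b₀ : ℕ}
    (hgen : ∀ b, b₀ ≤ b → ∀ x ∈ P (b + 1), ∃ y ∈ P b, ∃ z ∈ P b, x = y + R.res ⟨t, htO⟩ * z) :
    ∃ b₁, ∀ b, b₁ ≤ b → ∀ v ∈ R.redLat ((TwoCharts.ofDivisor Dt).LM E 0 (b + 1)),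
      ∃ v₁ ∈ R.redLat ((TwoCharts.ofDivisor Dt).LM E 0 b),
        ∃ v₂ ∈ R.redLat ((TwoCharts.ofDivisor Dt).LM E 0 b), v = v₁ + R.res ⟨t, htO⟩ * v₂ := by
  refine ReesFG.exists_forall_eq_add_mul (R.res ⟨t, htO⟩) P
    (fun b => R.redLat ((TwoCharts.ofDivisor Dt).LM E 0 b))
    (fun b => redLat_LM_le R P hSC hrad hu0 huO hu1 hE b) ?_ ?_ b₀ hgen
  · rintro b _ ⟨x, hx, hxM, rfl⟩
    exact ⟨x, hx, (TwoCharts.ofDivisor Dt).LM_mono E le_rfl (Nat.le_succ b) hxM, rfl⟩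
  · rintro b _ ⟨x, hx, hxM, rfl⟩
    have h1 := mul_mem_latM_succ R hDt htO E b x ⟨hxM, hx⟩
    refine ⟨t * x, h1.2, h1.1, ?_⟩
    have e : (⟨t * x, h1.2⟩ : S.O) = ⟨t, htO⟩ * ⟨x, hx⟩ := rfl
    rw [e, map_mul]

include ht0 hDt htO hSC hrad hu0 hu1 hE in
/-- Graded Nakayama `(S1)` for the twisted lattices: `M 0 (b+1) = M 0 b + t M 0 b` for `b ≥ b₁`. -/
theorem exists_latM_succ [∀ b, FiniteDimensional k (P b)] {b₀ : ℕ}
    (hgen : ∀ b, b₀ ≤ b → ∀ x ∈ P (b + 1), ∃ y ∈ P b, ∃ z ∈ P b, x = y + R.res ⟨t, htO⟩ * z)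
    (hfg : ∀ b, (latM R Dt E 0 b).FG) :
    ∃ b₁, ∀ b, b₁ ≤ b → ∀ x ∈ latM R Dt E 0 (b + 1),
      ∃ y ∈ latM R Dt E 0 b, ∃ z ∈ latM R Dt E 0 b, x = y + t * z := by
  obtain ⟨b₁, hb₁⟩ := exists_redLat_succ R ht0 hDt htO P hSC hrad hu0 huO hu1 hE hgen
  refine ⟨b₁, fun b hb x hx => ?_⟩
  -- the sublattice `M 0 b + t M 0 b`
  set Λ₀ : Submodule A F := latM R Dt E 0 b ⊔
    (latM R Dt E 0 b).map (LinearMap.mulLeft A t) with hΛ₀
  have hle : latM R Dt E 0 (b + 1) ≤ Λ₀ := by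
    apply lat_le_of_cong R _ (hfg (b + 1))
    intro x hx
    obtain ⟨v₁, ⟨y, hy, hyM, rfl⟩, v₂, ⟨z, hz, hzM, rfl⟩, hv⟩ :=
      hb₁ b hb (R.res ⟨x, hx.2⟩) ⟨x, hx.2, hx.1, rfl⟩
    have hz' := mul_mem_latM_succ R hDt htO E b z ⟨hzM, hz⟩
    have hy' := latM_mono R E le_rfl (Nat.le_succ b) (show y ∈ latM R Dt E 0 b from ⟨hyM, hy⟩)
    refine ⟨y + t * z, ?_, add_mem hy' hz', ?_⟩
    · rw [hΛ₀]
      exact Submodule.add_mem_sup ⟨hyM, hy⟩ (Submodule.mem_map_of_mem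
        (f := LinearMap.mulLeft A t) (show z ∈ latM R Dt E 0 b from ⟨hzM, hz⟩))
    · rw [R.cong_iff hx.2 (S.O.add_mem hy (S.O.mul_mem htO hz)), hv]
      have e : (⟨y + t * z, S.O.add_mem hy (S.O.mul_mem htO hz)⟩ : S.O)
          = ⟨y, hy⟩ + ⟨t, htO⟩ * ⟨z, hz⟩ := rfl
      rw [e, map_add, map_mul]
  obtain ⟨y, hy, z', hz', rfl⟩ := Submodule.mem_sup.mp (hle hx)
  obtain ⟨z, hz, rfl⟩ := Submodule.mem_map.mp hz'
  exact ⟨y, hy, z, hz, rfl⟩

include ht0 hDt htO htiO hSC hrad hu0 hu1 hE in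
/-- The twisted bifiltered lattice system of Theorem B. -/
theorem exists_twistCore [∀ b, FiniteDimensional k (P b)] {b₀ : ℕ}
    (hgen : ∀ b, b₀ ≤ b → ∀ x ∈ P (b + 1), ∃ y ∈ P b, ∃ z ∈ P b, x = y + R.res ⟨t, htO⟩ * z)
    (hfg : ∀ a c, (latM R Dt E a c).FG)
    (hone : ∃ (n : ℕ) (g : F) (hg : g ∈ S.O),
      g ∈ (TwoCharts.ofDivisor Dt).LM E 0 n ∧ R.res ⟨g, hg⟩ = 1)
    (hone' : ∃ (n : ℕ) (g : F) (hg : g ∈ S.O),
      g ∈ (TwoCharts.ofDivisor Dt).LM E n 0 ∧ R.res ⟨g, hg⟩ = 1) :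
    ∃ C : TwistCore A S m u, C.M = latM R Dt E := by
  obtain ⟨b₁, hb₁⟩ := exists_latM_succ R ht0 hDt htO P hSC hrad hu0 huO hu1 hE hgen
    (fun b => hfg 0 b)
  obtain ⟨n, g, hg, hgM, hg1⟩ := hone
  obtain ⟨n', g', hg', hgM', hg1'⟩ := hone'
  set n₁ : ℕ := max b₁ (max n n') with hn₁
  have hb₁n : b₁ ≤ n₁ := le_max_left _ _
  have hnn : n ≤ n₁ := (le_max_left _ _).trans (le_max_right _ _)
  have hnn' : n' ≤ n₁ := (le_max_right _ _).trans (le_max_right _ _)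
  have hsat : ∀ (V : Submodule K F) {c : A} {x : F}, c ≠ 0 → x ∈ S.O → c • x ∈ R.lat V →
      x ∈ R.lat V := by
    intro V c x hc hx hcx
    refine ⟨?_, hx⟩
    have h1 : x = ((c : K))⁻¹ • (c • x) := by
      have : c • x = (c : K) • x := rfl
      rw [this, smul_smul, inv_mul_cancel₀ (by exact_mod_cast hc), one_smul]
    rw [h1]
    exact V.smul_mem _ hcx.1
  refine ⟨{
    N := latN R Dt
    M := latM R Dt E
    n₁ := n₁
    N_le := fun _ _ _ hx => hx.2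
    M_le := fun _ _ _ hx => hx.2
    N_mono := fun ha hb _ hx => ⟨(TwoCharts.ofDivisor Dt).LN_mono ha hb hx.1, hx.2⟩
    M_mono := fun ha hb => latM_mono R E ha hb
    one_mem := ⟨(TwoCharts.ofDivisor Dt).one_mem_LN, S.O.one_mem⟩
    N_mul := fun hx hy => ⟨(TwoCharts.ofDivisor Dt).LN_mul hx.1 hy.1, S.O.mul_mem hx.2 hy.2⟩
    N_mul_M := fun hx hy =>
      ⟨(TwoCharts.ofDivisor Dt).LN_mul_LM E hx.1 hy.1, S.O.mul_mem hx.2 hy.2⟩
    prod_M := fun i j hij hx hy =>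
      ⟨(TwoCharts.ofDivisor Dt).prod_LM hu0 hE i j hij hx.1 hy.1,
        S.O.mul_mem huO (S.O.mul_mem (S.O.pow_mem hx.2 i) (S.O.pow_mem hy.2 j))⟩
    M_inf := fun hx hy => ⟨(TwoCharts.ofDivisor Dt).LM_inf E hx.1 hy.1, hx.2⟩
    N_sat := fun hc hx hcx => hsat _ hc hx hcx
    M_sat := fun hc hx hcx => hsat _ hc hx hcx
    M_fg := hfg
    exists_one := ?_
    exists_one' := ?_
    three := ?_ }, rfl⟩
  · refine ⟨g, ⟨(TwoCharts.ofDivisor Dt).LM_mono E le_rfl hnn hgM, hg⟩, ?_⟩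
    rw [R.cong_iff hg S.O.one_mem, hg1]
    exact (map_one R.res).symm
  · refine ⟨g', ⟨(TwoCharts.ofDivisor Dt).LM_mono E hnn' le_rfl hgM', hg'⟩, ?_⟩
    rw [R.cong_iff hg' S.O.one_mem, hg1']
    exact (map_one R.res).symm
  · intro a b _ _
    exact H1Fg.le_sup_three (M := latM R Dt E) (t := t) (s := t⁻¹) (b₁ := n₁)
      (mul_inv_cancel₀ ht0) (latM_twist R ht0 hDt htO htiO E)
      (fun b b' hbb' => latM_mono R E le_rfl hbb') (mul_mem_latM_succ R hDt htO E)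
      (fun b hb => hb₁ b (hb₁n.trans hb)) a b

include ht0 hDt htO htiO hSC hrad hu0 hu1 hE in
/-- **Theorem B, lattice form.**  Some `h ∈ L(E) ∩ O` reduces to `1`. -/
theorem exists_global_of_fg [Nontrivial κ] [∀ b, FiniteDimensional k (P b)] {b₀ : ℕ}
    (hgen : ∀ b, b₀ ≤ b → ∀ x ∈ P (b + 1), ∃ y ∈ P b, ∃ z ∈ P b, x = y + R.res ⟨t, htO⟩ * z)
    (hfg : ∀ a c, (latM R Dt E a c).FG) (hm : IsUnit ((m : ℕ) : A))
    (hone : ∃ (n : ℕ) (g : F) (hg : g ∈ S.O),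
      g ∈ (TwoCharts.ofDivisor Dt).LM E 0 n ∧ R.res ⟨g, hg⟩ = 1)
    (hone' : ∃ (n : ℕ) (g : F) (hg : g ∈ S.O),
      g ∈ (TwoCharts.ofDivisor Dt).LM E n 0 ∧ R.res ⟨g, hg⟩ = 1) :
    ∃ (h : F) (hO : h ∈ S.O), h ∈ riemannRochSpace E ∧ R.res ⟨h, hO⟩ = 1 ∧ h ≠ 0 := by
  obtain ⟨C, hC⟩ := exists_twistCore R ht0 hDt htO htiO P hSC hrad hu0 huO hu1 hE hgen hfg
    hone hone'
  have hu : Cong S u 1 := by
    rw [R.cong_iff huO S.O.one_mem, hu1]; exact (map_one R.res).symm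
  obtain ⟨h, hh, hh1⟩ := C.exists_global R.base hm hu
  rw [hC] at hh
  have hO : h ∈ S.O := hh.2
  have hres : R.res ⟨h, hO⟩ = 1 := by
    rw [(R.cong_iff hO S.O.one_mem).mp hh1]; exact map_one R.res
  refine ⟨h, hO, ?_, hres, ?_⟩
  · have := hh.1
    rwa [TwoCharts.LM, TwoCharts.dv_zero, add_zero] at this
  · rintro rfl
    have : R.res ⟨0, hO⟩ = 0 := map_zero R.res
    rw [this] at hres
    exact zero_ne_one hres

end main

/-! ### Characteristic zero, algebraically closed constants -/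

section cz

open Fermat.Agent.Lib.RiemannRoch

variable {K : Type*} [Field K] [IsAlgClosed K] [CharZero K] {A : ValuationSubring K}
  {F : Type*} [Field F] [Algebra K F] {S : SmallRing F}
  {k κ : Type*} [Field k] [CommRing κ] [Algebra k κ] [Nontrivial κ]
  (R : RedSetup2 A S k κ)
  {t : F} (ht : Transcendental K t) [FiniteDimensional K⟮t⟯ F]
  {Dt : Divisor K F} (hDt : ∀ v : Place K F, Dt v = v.ord t)
  (htO : t ∈ S.O) (htiO : t⁻¹ ∈ S.O)
  (hcart : ∀ V : Submodule K F, FiniteDimensional K V → (R.lat V).FG)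
  (P : ℕ → Submodule k κ) [∀ b, FiniteDimensional k (P b)] {b₀ : ℕ}
  (hgen : ∀ b, b₀ ≤ b → ∀ x ∈ P (b + 1), ∃ y ∈ P b, ∃ z ∈ P b, x = y + R.res ⟨t, htO⟩ * z)
  {m : ℕ}
  (hSC : ∀ (b : ℕ) (f : F) (hf : f ∈ S.O), f ∈ (TwoCharts.ofDivisor Dt).LN 0 b →
    R.res ⟨f, hf⟩ ∈ P b)
  (hrad : ∀ (b : ℕ) (x : κ), x ^ m ∈ P (m * b) → x ∈ P b)
  (hm : IsUnit ((m : ℕ) : A))
  {u : F} (hu0 : u ≠ 0) (huO : u ∈ S.O) (hu1 : R.res ⟨u, huO⟩ = 1)
  {E : Divisor K F} (hE : ∀ v : Place K F, (m : ℤ) * E v = v.ord u)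
  (hone : ∃ (n : ℕ) (g : F) (hg : g ∈ S.O),
    g ∈ (TwoCharts.ofDivisor Dt).LM E 0 n ∧ R.res ⟨g, hg⟩ = 1)
  (hone' : ∃ (n : ℕ) (g : F) (hg : g ∈ S.O),
    g ∈ (TwoCharts.ofDivisor Dt).LM E n 0 ∧ R.res ⟨g, hg⟩ = 1)

include ht hDt htiO hcart hgen hSC hrad hm hu0 hu1 hE hone hone' in
/-- **Theorem B.**  Some `h ∈ L(E) ∩ O` reduces to `1`. -/
theorem exists_global :
    ∃ (h : F) (hO : h ∈ S.O), h ∈ riemannRochSpace E ∧ R.res ⟨h, hO⟩ = 1 ∧ h ≠ 0 := by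
  have ht0 : t ≠ 0 := by
    rintro rfl
    exact ht isAlgebraic_zero
  exact exists_global_of_fg R ht0 hDt htO htiO P hSC hrad hu0 huO hu1 hE hgen
    (fun a c => hcart _ ((TwoCharts.ofDivisor Dt).LM_finite ht E a c)) hm hone hone'

include ht hDt htiO hcart hgen hSC hrad hm hu0 hu1 hE hone hone' in
/-- **Theorem B, Kummer form.**  `u` is a constant times an `m`-th power. -/
theorem exists_const_mul_pow (hdegE : Divisor.degree E = 0) :
    ∃ (c : K) (w : F), u = algebraMap K F c * w ^ m := by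
  obtain ⟨h, -, hh, -, hh0⟩ := exists_global R ht hDt htO htiO hcart P hgen hSC hrad hm hu0 huO
    hu1 hE hone hone'
  obtain ⟨c, hc⟩ := Fermat.Agent.Gateway.C0.exists_const_mul_pow ht hu0 hE hdegE hh hh0
  exact ⟨c, h⁻¹, hc⟩

end cz

end Fermat.Agent.S34x.TheoremB
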