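import Mathlib

/-!
# P-S34, WP-UB: graded Nakayama, `H¹`-vanishing and saturation (abstract core)

helper26.  Abstract form of (F2)-(F4) of note 804 (design: note 829).

Setting: `A` a local ring with residue field `k`, `O` a commutative `A`-algebra (the ring of
functions integral at the relevant valuations), `t : Oˣ`, `ρ : O →ₐ[A] Ω` a reduction map to a
`k`-algebra `Ω`, and an increasing family `L b` of finitely generated `A`-submodules of `O` with
`t • L b ≤ L (b + 1)` and `ker ρ ∩ L b = 𝔪 • L b`.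

* `succ_eq_sup_of_reduction` (graded Nakayama): if the reductions satisfy
  `ρ (L (b + 1)) = ρ (L b) + T ρ (L b)` then `L (b + 1) = L b ⊔ t • L b`.
* `tw_neg_le_sup` (`H¹`-vanishing): if `L (c + 1) = L c ⊔ t • L c` for all `c ≥ b` then
  `t⁻ᵃ • L c ≤ B ⊔ tᵇ • B'` where `B = ⋃ L c`, `B' = ⋃ t⁻ᵃ • L a`.
* `exists_mem_of_reduction_eq` (saturation): if moreover `B ⊓ tᵇ • B' ≤ L b` and the kernel of `ρ`
  on `Bx = ⋃ t⁻ᵃ • B` is `𝔪 • Bx`, then `ρ B ∩ ρ (tᵇ • B') ⊆ ρ (L b)`.
-/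

set_option autoImplicit false
set_option linter.unusedSectionVars false

noncomputable section

namespace Fermat.Agent.S34x.Saturation

open IsLocalRing

variable {A : Type*} [CommRing A]
variable {O : Type*} [CommRing O] [Algebra A O]

section Twist

variable (t : Oˣ)

/-- The power `tⁿ`, `n : ℤ`, as an element of `O`. -/
def upow (n : ℤ) : O := ((t ^ n : Oˣ) : O)

theorem upow_zero : upow t 0 = 1 := by simp [upow]

theorem upow_one : upow t 1 = (t : O) := by simp [upow]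

theorem upow_add (m n : ℤ) : upow t (m + n) = upow t m * upow t n := by
  simp [upow, zpow_add]

theorem upow_neg_mul_self (n : ℤ) : upow t (-n) * upow t n = 1 := by
  rw [← upow_add, neg_add_cancel, upow_zero]

theorem upow_mul_neg_self (n : ℤ) : upow t n * upow t (-n) = 1 := by
  rw [← upow_add, add_neg_cancel, upow_zero]

theorem upow_natCast (n : ℕ) : upow t (n : ℤ) = (t : O) ^ n := by
  simp [upow]

theorem upow_succ (n : ℤ) : upow t (n + 1) = upow t n * (t : O) := by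
  rw [upow_add, upow_one]

variable (A) in
/-- `tⁿ • N` for a submodule `N` of `O`. -/
def tw (n : ℤ) (N : Submodule A O) : Submodule A O :=
  N.map (LinearMap.mulLeft A (upow t n))

theorem mem_tw_iff {n : ℤ} {N : Submodule A O} {x : O} :
    x ∈ tw A t n N ↔ upow t (-n) * x ∈ N := by
  constructor
  · rintro ⟨y, hy, rfl⟩
    simp only [LinearMap.mulLeft_apply]
    rwa [← mul_assoc, upow_neg_mul_self, one_mul]
  · intro h
    refine ⟨upow t (-n) * x, h, ?_⟩
    simp only [LinearMap.mulLeft_apply]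
    rw [← mul_assoc, upow_mul_neg_self, one_mul]

theorem mul_mem_tw {n : ℤ} {N : Submodule A O} {x : O} (hx : x ∈ N) :
    upow t n * x ∈ tw A t n N :=
  ⟨x, hx, rfl⟩

theorem tw_mono (n : ℤ) {N N' : Submodule A O} (h : N ≤ N') : tw A t n N ≤ tw A t n N' :=
  Submodule.map_mono h

theorem tw_zero (N : Submodule A O) : tw A t 0 N = N := by
  ext x
  rw [mem_tw_iff, neg_zero, upow_zero, one_mul]

theorem tw_tw (m n : ℤ) (N : Submodule A O) : tw A t m (tw A t n N) = tw A t (m + n) N := by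
  ext x
  rw [mem_tw_iff, mem_tw_iff, mem_tw_iff, ← mul_assoc, ← upow_add]
  congr! 3
  ring

theorem tw_sup (n : ℤ) (N N' : Submodule A O) :
    tw A t n (N ⊔ N') = tw A t n N ⊔ tw A t n N' :=
  Submodule.map_sup _ _ _

end Twist

section Charts

variable (t : Oˣ) (L : ℕ → Submodule A O)

/-- The first chart module `B = ⋃_c L c`. -/
def chartB : Submodule A O := ⨆ c, L c

/-- The second chart module `B' = ⋃_a t⁻ᵃ • L a`. -/
def chartB' : Submodule A O := ⨆ a : ℕ, tw A t (-(a : ℤ)) (L a)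

/-- The module on the overlap `Bx = ⋃_a t⁻ᵃ • B`. -/
def chartBx : Submodule A O := ⨆ a : ℕ, tw A t (-(a : ℤ)) (chartB L)

variable {L} (hmono : Monotone L) (htL : ∀ b, ∀ f ∈ L b, (t : O) * f ∈ L (b + 1))

include hmono in
theorem mem_chartB_iff {x : O} : x ∈ chartB L ↔ ∃ c, x ∈ L c :=
  Submodule.mem_iSup_of_directed _ hmono.directed_le

theorem le_chartB (c : ℕ) : L c ≤ chartB L := le_iSup L c

include hmono htL in
theorem pow_mul_mem (n : ℕ) {b : ℕ} {f : O} (hf : f ∈ L b) : (t : O) ^ n * f ∈ L (b + n) := by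
  induction n with
  | zero => simpa using hf
  | succ n ih =>
    have := htL _ _ ih
    rwa [← mul_assoc, ← pow_succ'] at this

include hmono htL in
theorem monotone_tw_neg : Monotone fun a : ℕ => tw A t (-(a : ℤ)) (L a) := by
  refine monotone_nat_of_le_succ fun a x hx => ?_
  rw [mem_tw_iff, neg_neg] at hx ⊢
  have := htL a _ hx
  rwa [← mul_assoc, mul_comm (t : O), ← upow_succ, ← Nat.cast_succ] at this

include hmono htL in
theorem mem_chartB'_iff {x : O} : x ∈ chartB' t L ↔ ∃ a : ℕ, (t : O) ^ a * x ∈ L a := by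
  unfold chartB'
  rw [Submodule.mem_iSup_of_directed _ (monotone_tw_neg t hmono htL).directed_le]
  refine exists_congr fun a => ?_
  rw [mem_tw_iff, neg_neg, upow_natCast]

include hmono htL in
theorem mul_mem_chartB {x : O} (hx : x ∈ chartB L) : (t : O) * x ∈ chartB L := by
  obtain ⟨c, hc⟩ := (mem_chartB_iff hmono).mp hx
  exact le_chartB (c + 1) (htL c x hc)

include hmono htL in
theorem monotone_tw_neg_chartB : Monotone fun a : ℕ => tw A t (-(a : ℤ)) (chartB L) := by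
  refine monotone_nat_of_le_succ fun a x hx => ?_
  rw [mem_tw_iff, neg_neg] at hx ⊢
  have := mul_mem_chartB t hmono htL hx
  rwa [← mul_assoc, mul_comm (t : O), ← upow_succ, ← Nat.cast_succ] at this

include hmono htL in
theorem mem_chartBx_iff {x : O} : x ∈ chartBx t L ↔ ∃ a c : ℕ, (t : O) ^ a * x ∈ L c := by
  unfold chartBx
  rw [Submodule.mem_iSup_of_directed _ (monotone_tw_neg_chartB t hmono htL).directed_le]
  refine exists_congr fun a => ?_
  rw [mem_tw_iff, neg_neg, upow_natCast, mem_chartB_iff hmono]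

include hmono htL in
theorem chartB_le_chartBx : chartB L ≤ chartBx t L := fun x hx => by
  obtain ⟨c, hc⟩ := (mem_chartB_iff hmono).mp hx
  exact (mem_chartBx_iff t hmono htL).mpr ⟨0, c, by simpa using hc⟩

include hmono htL in
theorem tw_chartB'_le_chartBx (b : ℕ) : tw A t b (chartB' t L) ≤ chartBx t L := fun x hx => by
  rw [mem_tw_iff, mem_chartB'_iff t hmono htL] at hx
  obtain ⟨a, ha⟩ := hx
  -- `t^a * (t^(-b) * x) ∈ L a`, so `t^a * x = t^b * (...) ∈ L (a + b)`
  refine (mem_chartBx_iff t hmono htL).mpr ⟨a, a + b, ?_⟩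
  have := pow_mul_mem t hmono htL b ha
  have e : (t : O) ^ b * ((t : O) ^ a * (upow t (-(b : ℤ)) * x)) = (t : O) ^ a * x := by
    rw [← upow_natCast t b]
    calc upow t b * ((t : O) ^ a * (upow t (-(b : ℤ)) * x))
        = (upow t b * upow t (-(b : ℤ))) * ((t : O) ^ a * x) := by ring
      _ = (t : O) ^ a * x := by rw [upow_mul_neg_self, one_mul]
  rwa [e] at this

end Charts

section Nakayama

variable [IsLocalRing A]
variable {Ω : Type*} [CommRing Ω] [Algebra A Ω] [Algebra (ResidueField A) Ω]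
  [IsScalarTower A (ResidueField A) Ω]
variable (ρ : O →ₐ[A] Ω)

theorem map_smul_residue (a : A) (x : O) :
    ρ (a • x) = (residue A a) • ρ x := by
  rw [map_smul, ← algebraMap_smul (ResidueField A) a (ρ x)]
  rfl

/-- `ρ` kills `𝔪 • N`. -/
theorem map_eq_zero_of_mem_smul {N : Submodule A O} {x : O}
    (hx : x ∈ maximalIdeal A • N) : ρ x = 0 := by
  refine Submodule.smul_induction_on hx (fun a ha n _ => ?_) (fun x y hx hy => ?_)
  · rw [map_smul_residue, (residue_eq_zero_iff a).mpr ha, zero_smul]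
  · rw [map_add, hx, hy, add_zero]

/-- The reduction of a submodule of `O`, as a `k`-subspace of `Ω`. -/
def red (N : Submodule A O) : Submodule (ResidueField A) Ω where
  carrier := ρ '' N
  add_mem' := by
    rintro _ _ ⟨x, hx, rfl⟩ ⟨y, hy, rfl⟩
    exact ⟨x + y, N.add_mem hx hy, map_add ρ x y⟩
  zero_mem' := ⟨0, N.zero_mem, map_zero ρ⟩
  smul_mem' := by
    rintro c _ ⟨x, hx, rfl⟩
    obtain ⟨a, rfl⟩ := residue_surjective c
    exact ⟨a • x, N.smul_mem a hx, map_smul_residue ρ a x⟩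

theorem mem_red_iff {N : Submodule A O} {ω : Ω} : ω ∈ red ρ N ↔ ∃ x ∈ N, ρ x = ω := Iff.rfl

theorem map_mem_red {N : Submodule A O} {x : O} (hx : x ∈ N) : ρ x ∈ red ρ N := ⟨x, hx, rfl⟩

theorem red_mono {N N' : Submodule A O} (h : N ≤ N') : red ρ N ≤ red ρ N' :=
  fun _ ⟨x, hx, e⟩ => ⟨x, h hx, e⟩

variable (t : Oˣ) {L : ℕ → Submodule A O}

/-- **Graded Nakayama**, one step: if `L (b + 1)` is finitely generated, the kernel of `ρ` on it
is `𝔪 • L (b + 1)`, and every reduction of an element of `L (b + 1)` is of the form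
`v₁ + T v₂` with `v₁, v₂ ∈ ρ (L b)`, then `L (b + 1) = L b ⊔ t • L b`. -/
theorem succ_le_sup_of_reduction (hmono : Monotone L)
    (htL : ∀ b, ∀ f ∈ L b, (t : O) * f ∈ L (b + 1)) {b : ℕ}
    (hfg : (L (b + 1)).FG)
    (hker : ∀ f ∈ L (b + 1), ρ f = 0 → f ∈ maximalIdeal A • L (b + 1))
    (hred : ∀ v ∈ red ρ (L (b + 1)), ∃ v₁ ∈ red ρ (L b), ∃ v₂ ∈ red ρ (L b),
      v = v₁ + ρ (t : O) * v₂) :
    L (b + 1) ≤ L b ⊔ tw A t 1 (L b) := by
  refine Submodule.le_of_le_smul_of_le_jacobson_bot hfg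
    (IsLocalRing.maximalIdeal_le_jacobson ⊥) fun f hf => ?_
  obtain ⟨_, ⟨g, hg, rfl⟩, _, ⟨h, hh, rfl⟩, e⟩ := hred _ (map_mem_red ρ hf)
  have hth : (t : O) * h ∈ L (b + 1) := htL b h hh
  have hg' : g ∈ L (b + 1) := hmono (Nat.le_succ b) hg
  have h0 : ρ (f - (g + (t : O) * h)) = 0 := by
    rw [map_sub, map_add, map_mul, e, sub_self]
  have hmem : f - (g + (t : O) * h) ∈ maximalIdeal A • L (b + 1) :=
    hker _ (sub_mem hf (add_mem hg' hth)) h0
  have hsum : g + (t : O) * h ∈ L b ⊔ tw A t 1 (L b) :=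
    Submodule.add_mem_sup hg (by simpa [upow_one] using mul_mem_tw t (n := 1) hh)
  have : f = (g + (t : O) * h) + (f - (g + (t : O) * h)) := by ring
  rw [this]
  exact Submodule.add_mem_sup hsum hmem

theorem sup_le_succ (hmono : Monotone L)
    (htL : ∀ b, ∀ f ∈ L b, (t : O) * f ∈ L (b + 1)) (b : ℕ) :
    L b ⊔ tw A t 1 (L b) ≤ L (b + 1) := by
  refine sup_le (hmono (Nat.le_succ b)) fun x hx => ?_
  rw [mem_tw_iff] at hx
  have := htL b _ hx
  rwa [← mul_assoc, ← upow_one t, upow_mul_neg_self, one_mul] at this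

/-- **Graded Nakayama** (S1). -/
theorem succ_eq_sup_of_reduction (hmono : Monotone L)
    (htL : ∀ b, ∀ f ∈ L b, (t : O) * f ∈ L (b + 1)) {b : ℕ}
    (hfg : (L (b + 1)).FG)
    (hker : ∀ f ∈ L (b + 1), ρ f = 0 → f ∈ maximalIdeal A • L (b + 1))
    (hred : ∀ v ∈ red ρ (L (b + 1)), ∃ v₁ ∈ red ρ (L b), ∃ v₂ ∈ red ρ (L b),
      v = v₁ + ρ (t : O) * v₂) :
    L (b + 1) = L b ⊔ tw A t 1 (L b) :=
  le_antisymm (succ_le_sup_of_reduction ρ t hmono htL hfg hker hred) (sup_le_succ t hmono htL b)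

end Nakayama

section Vanishing

variable (t : Oˣ) {L : ℕ → Submodule A O} (hmono : Monotone L)
  (htL : ∀ b, ∀ f ∈ L b, (t : O) * f ∈ L (b + 1))

include hmono htL in
/-- Key induction for the `H¹`-vanishing: if `L (c + 1) = L c ⊔ t • L c` for all `c ≥ b`, then
`t⁻ᵃ f ∈ B ⊔ tᵇ • B'` for every `f ∈ L (b + n)`. -/
theorem upow_neg_mul_mem_sup {b : ℕ}
    (hstep : ∀ c, b ≤ c → L (c + 1) ≤ L c ⊔ tw A t 1 (L c)) (n a : ℕ) {f : O}
    (hf : f ∈ L (b + n)) :
    upow t (-(a : ℤ)) * f ∈ chartB L ⊔ tw A t b (chartB' t L) := by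
  induction n generalizing a f with
  | zero =>
    -- `t^(-a) f = t^b * t^(-(a+b)) f` with `f ∈ L b ≤ L (a + b)`
    refine Submodule.mem_sup_right ?_
    rw [mem_tw_iff, mem_chartB'_iff t hmono htL]
    refine ⟨a + b, ?_⟩
    have hf' : f ∈ L (a + b) := hmono (by omega) hf
    have e : (t : O) ^ (a + b) * (upow t (-(b : ℤ)) * (upow t (-(a : ℤ)) * f)) = f := by
      rw [← upow_natCast]
      calc upow t ((a + b : ℕ) : ℤ) * (upow t (-(b : ℤ)) * (upow t (-(a : ℤ)) * f))
          = (upow t ((a + b : ℕ) : ℤ) * upow t (-(b : ℤ)) * upow t (-(a : ℤ))) * f := by ring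
        _ = f := by
          rw [← upow_add, ← upow_add]
          have : ((a + b : ℕ) : ℤ) + -(b : ℤ) + -(a : ℤ) = 0 := by push_cast; ring
          rw [this, upow_zero, one_mul]
    rwa [e]
  | succ n ih =>
    cases a with
    | zero =>
      refine Submodule.mem_sup_left ?_
      simp only [Nat.cast_zero, neg_zero, upow_zero, one_mul]
      exact le_chartB _ hf
    | succ a =>
      have hf' : f ∈ L (b + n) ⊔ tw A t 1 (L (b + n)) := hstep (b + n) (by omega) hf
      obtain ⟨g, hg, y, hy, rfl⟩ := Submodule.mem_sup.mp hf'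
      rw [mul_add]
      refine add_mem (ih (a + 1) hg) ?_
      -- `y = t h`, `t^(-(a+1)) y = t^(-a) h`
      rw [mem_tw_iff] at hy
      have e : upow t (-((a + 1 : ℕ) : ℤ)) * y = upow t (-(a : ℤ)) * (upow t (-1) * y) := by
        rw [← mul_assoc, ← upow_add]
        congr 2
        push_cast
        ring
      rw [e]
      exact ih a hy

include hmono htL in
/-- **`H¹`-vanishing** (S2): if `L (c + 1) = L c ⊔ t • L c` for all `c ≥ b`, then
`t⁻ᵃ • L c ≤ B ⊔ tᵇ • B'` for all `a, c`. -/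
theorem tw_neg_le_sup {b : ℕ}
    (hstep : ∀ c, b ≤ c → L (c + 1) ≤ L c ⊔ tw A t 1 (L c)) (a c : ℕ) :
    tw A t (-(a : ℤ)) (L c) ≤ chartB L ⊔ tw A t b (chartB' t L) := by
  rintro _ ⟨f, hf, rfl⟩
  simp only [LinearMap.mulLeft_apply]
  have hf' : f ∈ L (b + c) := hmono (by omega) hf
  exact upow_neg_mul_mem_sup t hmono htL hstep c a hf'

include hmono htL in
/-- (S2), equality form: `Bx = B ⊔ tᵇ • B'`. -/
theorem chartBx_eq_sup {b : ℕ}
    (hstep : ∀ c, b ≤ c → L (c + 1) ≤ L c ⊔ tw A t 1 (L c)) :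
    chartBx t L = chartB L ⊔ tw A t b (chartB' t L) := by
  apply le_antisymm
  · intro x hx
    obtain ⟨a, c, hac⟩ := (mem_chartBx_iff t hmono htL).mp hx
    have := tw_neg_le_sup t hmono htL hstep a c
      (mul_mem_tw t (n := -(a : ℤ)) hac)
    rwa [← mul_assoc, ← upow_natCast, upow_neg_mul_self, one_mul] at this
  · exact sup_le (chartB_le_chartBx t hmono htL) (tw_chartB'_le_chartBx t hmono htL b)

end Vanishing

section Sat

variable [IsLocalRing A]
variable {Ω : Type*} [CommRing Ω] [Algebra A Ω] [Algebra (ResidueField A) Ω]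
  [IsScalarTower A (ResidueField A) Ω]
variable (ρ : O →ₐ[A] Ω) (t : Oˣ) {L : ℕ → Submodule A O} (hmono : Monotone L)
  (htL : ∀ b, ∀ f ∈ L b, (t : O) * f ∈ L (b + 1))

include hmono htL in
/-- **Saturation** (S3), elementwise: if `x ∈ B` and `y ∈ tᵇ • B'` have the same reduction, then
this reduction is the reduction of an element of `L b`. -/
theorem exists_mem_of_reduction_eq {b : ℕ}
    (hstep : ∀ c, b ≤ c → L (c + 1) ≤ L c ⊔ tw A t 1 (L c))
    (hcap : chartB L ⊓ tw A t b (chartB' t L) ≤ L b)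
    (hkerx : ∀ z ∈ chartBx t L, ρ z = 0 → z ∈ maximalIdeal A • chartBx t L)
    {x y : O} (hx : x ∈ chartB L) (hy : y ∈ tw A t b (chartB' t L)) (hxy : ρ x = ρ y) :
    ∃ z ∈ L b, ρ z = ρ x := by
  have hBx := chartBx_eq_sup t hmono htL hstep
  have hmem : x - y ∈ chartBx t L := by
    rw [hBx]
    exact sub_mem (Submodule.mem_sup_left hx) (Submodule.mem_sup_right hy)
  have h0 : ρ (x - y) = 0 := by rw [map_sub, hxy, sub_self]
  have h1 := hkerx _ hmem h0
  rw [hBx, Submodule.smul_sup] at h1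
  obtain ⟨u, hu, w, hw, huw⟩ := Submodule.mem_sup.mp h1
  have huB : u ∈ chartB L := Submodule.smul_le_right hu
  have hwB : w ∈ tw A t b (chartB' t L) := Submodule.smul_le_right hw
  refine ⟨x - u, hcap ⟨sub_mem hx huB, ?_⟩, ?_⟩
  · have : x - u = y + w := by
      have : x - y = u + w := huw.symm
      linear_combination this
    rw [this]
    exact add_mem hy hwB
  · rw [map_sub, map_eq_zero_of_mem_smul ρ hu, sub_zero]

include hmono htL in
/-- **Saturation** (S3), subspace form: `ρ B ⊓ ρ (tᵇ • B') ≤ ρ (L b)`. -/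
theorem red_inf_le {b : ℕ}
    (hstep : ∀ c, b ≤ c → L (c + 1) ≤ L c ⊔ tw A t 1 (L c))
    (hcap : chartB L ⊓ tw A t b (chartB' t L) ≤ L b)
    (hkerx : ∀ z ∈ chartBx t L, ρ z = 0 → z ∈ maximalIdeal A • chartBx t L) :
    red ρ (chartB L) ⊓ red ρ (tw A t b (chartB' t L)) ≤ red ρ (L b) := by
  rintro ω ⟨⟨x, hx, rfl⟩, ⟨y, hy, hyx⟩⟩
  exact exists_mem_of_reduction_eq ρ t hmono htL hstep hcap hkerx hx hy hyx.symm

include hmono htL in
/-- **Main theorem** (S1)+(S2)+(S3), with the conclusion of the Rees-module argument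
(`ReesFG.exists_forall_succ_eq_add` applied to `V b := red ρ (L b)`) as hypothesis `hrees`. -/
theorem exists_saturation_of_rees (hfg : ∀ b, (L b).FG)
    (hker : ∀ b, ∀ f ∈ L b, ρ f = 0 → f ∈ maximalIdeal A • L b)
    (hrees : ∃ b1, ∀ b, b1 ≤ b → ∀ v ∈ red ρ (L (b + 1)),
      ∃ v₁ ∈ red ρ (L b), ∃ v₂ ∈ red ρ (L b), v = v₁ + ρ (t : O) * v₂) :
    ∃ b1 : ℕ,
      (∀ b, b1 ≤ b → L (b + 1) = L b ⊔ tw A t 1 (L b)) ∧
      (∀ b, b1 ≤ b → ∀ a c : ℕ,
        tw A t (-(a : ℤ)) (L c) ≤ chartB L ⊔ tw A t b (chartB' t L)) ∧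
      (∀ b, b1 ≤ b → chartBx t L = chartB L ⊔ tw A t b (chartB' t L)) ∧
      (∀ b, b1 ≤ b → chartB L ⊓ tw A t b (chartB' t L) ≤ L b →
        (∀ z ∈ chartBx t L, ρ z = 0 → z ∈ maximalIdeal A • chartBx t L) →
        red ρ (chartB L) ⊓ red ρ (tw A t b (chartB' t L)) ≤ red ρ (L b)) := by
  obtain ⟨b1, hb1⟩ := hrees
  have hS1 : ∀ b, b1 ≤ b → L (b + 1) = L b ⊔ tw A t 1 (L b) := fun b hb =>
    succ_eq_sup_of_reduction ρ t hmono htL (hfg _) (hker _) (hb1 b hb)
  have hstep : ∀ b, b1 ≤ b → ∀ c, b ≤ c → L (c + 1) ≤ L c ⊔ tw A t 1 (L c) :=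
    fun b hb c hc => (hS1 c (hb.trans hc)).le
  exact ⟨b1, hS1, fun b hb => tw_neg_le_sup t hmono htL (hstep b hb),
    fun b hb => chartBx_eq_sup t hmono htL (hstep b hb),
    fun b hb hcap hkerx => red_inf_le ρ t hmono htL (hstep b hb) hcap hkerx⟩

end Sat

end Fermat.Agent.S34x.Saturation
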