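/-
Copyright (c) 2026. Released under Apache 2.0 license as described in the file LICENSE.
-/
import Fermat.Agent.S34x.Saturation
import Fermat.Agent.S34x.ReesFG

/-!
# P-S34, WP-UB: graded Nakayama and saturation over an ABSTRACT residue field

helper7.  This is helper26's `Saturation.lean` (sections `Nakayama`, `Sat`) and
`SaturationRees.lean` with the residue field `ResidueField A` replaced by an arbitrary field `k`
with `[Algebra A k]` and `Function.Surjective (algebraMap A k)`: the instantiation (`RedSetup2`,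
all of `S34x/Inst`) works with an abstract `k` and `π : A →+* k` onto.  The `k`-independent parts
(`upow`, `tw`, `chartB`, `chartB'`, `chartBx`, `tw_neg_le_sup`, `chartBx_eq_sup`) are imported
from `Saturation.lean`; the proofs below are helper26's, verbatim up to the change of field.

Setting: `A` local, `k` a field with `algebraMap A k` onto, `O` a commutative `A`-algebra,
`ρ : O →ₐ[A] Ω` with `Ω` a `k`-algebra and `IsScalarTower A k Ω`.
-/

set_option autoImplicit false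
set_option linter.unusedSectionVars false

noncomputable section

namespace Fermat.Agent.S34x.SaturationK

open IsLocalRing
open Fermat.Agent.S34x.Saturation

variable {A : Type*} [CommRing A] [IsLocalRing A]
variable {k : Type*} [Field k] [Algebra A k]
variable {O : Type*} [CommRing O] [Algebra A O]
variable {Ω : Type*} [CommRing Ω] [Algebra A Ω] [Algebra k Ω] [IsScalarTower A k Ω]

/-- The kernel of a surjection of a local ring onto a field is the maximal ideal. -/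
theorem algebraMap_eq_zero_iff (hk : Function.Surjective (algebraMap A k)) (a : A) :
    algebraMap A k a = 0 ↔ a ∈ maximalIdeal A := by
  have hmax : (RingHom.ker (algebraMap A k)).IsMaximal :=
    RingHom.ker_isMaximal_of_surjective _ hk
  have : RingHom.ker (algebraMap A k) = maximalIdeal A := eq_maximalIdeal hmax
  rw [← this, RingHom.mem_ker]

section Nakayama

variable (hk : Function.Surjective (algebraMap A k)) (ρ : O →ₐ[A] Ω)

theorem map_smulK (a : A) (x : O) : ρ (a • x) = (algebraMap A k a) • ρ x := by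
  rw [map_smul]
  exact (algebraMap_smul k a (ρ x)).symm

include hk in
/-- `ρ` kills `𝔪 • N`. -/
theorem map_eq_zero_of_mem_smulK {N : Submodule A O} {x : O}
    (hx : x ∈ maximalIdeal A • N) : ρ x = 0 := by
  refine Submodule.smul_induction_on hx (fun a ha n _ => ?_) (fun x y hx hy => ?_)
  · rw [map_smulK (k := k) ρ a n, (algebraMap_eq_zero_iff hk a).mpr ha, zero_smul]
  · rw [map_add, hx, hy, add_zero]

/-- The reduction of a submodule of `O`, as a `k`-subspace of `Ω`. -/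
def redK (N : Submodule A O) : Submodule k Ω where
  carrier := ρ '' N
  add_mem' := by
    rintro _ _ ⟨x, hx, rfl⟩ ⟨y, hy, rfl⟩
    exact ⟨x + y, N.add_mem hx hy, map_add ρ x y⟩
  zero_mem' := ⟨0, N.zero_mem, map_zero ρ⟩
  smul_mem' := by
    rintro c _ ⟨x, hx, rfl⟩
    obtain ⟨a, rfl⟩ := hk c
    exact ⟨a • x, N.smul_mem a hx, map_smulK ρ a x⟩

theorem mem_redK_iff {N : Submodule A O} {ω : Ω} : ω ∈ redK hk ρ N ↔ ∃ x ∈ N, ρ x = ω := Iff.rfl

theorem map_mem_redK {N : Submodule A O} {x : O} (hx : x ∈ N) : ρ x ∈ redK hk ρ N :=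
  ⟨x, hx, rfl⟩

theorem redK_mono {N N' : Submodule A O} (h : N ≤ N') : redK hk ρ N ≤ redK hk ρ N' :=
  fun _ ⟨x, hx, e⟩ => ⟨x, h hx, e⟩

variable (t : Oˣ) {L : ℕ → Submodule A O}

/-- **Graded Nakayama**, one step (helper26's `succ_le_sup_of_reduction`). -/
theorem succ_le_sup_of_reductionK (hmono : Monotone L)
    (htL : ∀ b, ∀ f ∈ L b, (t : O) * f ∈ L (b + 1)) {b : ℕ}
    (hfg : (L (b + 1)).FG)
    (hker : ∀ f ∈ L (b + 1), ρ f = 0 → f ∈ maximalIdeal A • L (b + 1))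
    (hred : ∀ v ∈ redK hk ρ (L (b + 1)), ∃ v₁ ∈ redK hk ρ (L b), ∃ v₂ ∈ redK hk ρ (L b),
      v = v₁ + ρ (t : O) * v₂) :
    L (b + 1) ≤ L b ⊔ tw A t 1 (L b) := by
  refine Submodule.le_of_le_smul_of_le_jacobson_bot hfg
    (IsLocalRing.maximalIdeal_le_jacobson ⊥) fun f hf => ?_
  obtain ⟨_, ⟨g, hg, rfl⟩, _, ⟨h, hh, rfl⟩, e⟩ := hred _ (map_mem_redK hk ρ hf)
  have hth : (t : O) * h ∈ L (b + 1) := htL b h hh
  have hg' : g ∈ L (b + 1) := hmono (Nat.le_succ b) hg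
  have h0 : ρ (f - (g + (t : O) * h)) = 0 := by
    rw [map_sub, map_add, map_mul, e, sub_self]
  have hmem : f - (g + (t : O) * h) ∈ maximalIdeal A • L (b + 1) :=
    hker _ (sub_mem hf (add_mem hg' hth)) h0
  have hsum : g + (t : O) * h ∈ L b ⊔ tw A t 1 (L b) :=
    Submodule.add_mem_sup hg (by simpa [upow_one] using mul_mem_tw t (n := 1) hh)
  have : f = (g + (t : O) * h) + (f - (g + (t : O) * h)) := by ring
  rw [this]
  exact Submodule.add_mem_sup hsum hmem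

/-- **Graded Nakayama** (S1). -/
theorem succ_eq_sup_of_reductionK (hmono : Monotone L)
    (htL : ∀ b, ∀ f ∈ L b, (t : O) * f ∈ L (b + 1)) {b : ℕ}
    (hfg : (L (b + 1)).FG)
    (hker : ∀ f ∈ L (b + 1), ρ f = 0 → f ∈ maximalIdeal A • L (b + 1))
    (hred : ∀ v ∈ redK hk ρ (L (b + 1)), ∃ v₁ ∈ redK hk ρ (L b), ∃ v₂ ∈ redK hk ρ (L b),
      v = v₁ + ρ (t : O) * v₂) :
    L (b + 1) = L b ⊔ tw A t 1 (L b) :=
  le_antisymm (succ_le_sup_of_reductionK hk ρ t hmono htL hfg hker hred)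
    (sup_le_succ t hmono htL b)

end Nakayama

section Sat

variable (hk : Function.Surjective (algebraMap A k)) (ρ : O →ₐ[A] Ω) (t : Oˣ)
  {L : ℕ → Submodule A O} (hmono : Monotone L)
  (htL : ∀ b, ∀ f ∈ L b, (t : O) * f ∈ L (b + 1))

include hk hmono htL in
/-- **Saturation** (S3), elementwise (helper26's `exists_mem_of_reduction_eq`). -/
theorem exists_mem_of_reduction_eqK {b : ℕ}
    (hstep : ∀ c, b ≤ c → L (c + 1) ≤ L c ⊔ tw A t 1 (L c))
    (hcap : chartB L ⊓ tw A t b (chartB' t L) ≤ L b)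
    (hkerx : ∀ z ∈ chartBx t L, ρ z = 0 → z ∈ maximalIdeal A • chartBx t L)
    {x y : O} (hx : x ∈ chartB L) (hy : y ∈ tw A t b (chartB' t L)) (hxy : ρ x = ρ y) :
    ∃ z ∈ L b, ρ z = ρ x := by
  have hBx := chartBx_eq_sup t hmono htL hstep
  have hmem : x - y ∈ chartBx t L := by
    rw [hBx]
    exact sub_mem (Submodule.mem_sup_left hx) (Submodule.mem_sup_right hy)
  have h0 : ρ (x - y) = 0 := by rw [map_sub, hxy, sub_self]
  have h1 := hkerx _ hmem h0
  rw [hBx, Submodule.smul_sup] at h1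
  obtain ⟨u, hu, w, hw, huw⟩ := Submodule.mem_sup.mp h1
  have huB : u ∈ chartB L := Submodule.smul_le_right hu
  have hwB : w ∈ tw A t b (chartB' t L) := Submodule.smul_le_right hw
  refine ⟨x - u, hcap ⟨sub_mem hx huB, ?_⟩, ?_⟩
  · have : x - u = y + w := by
      have : x - y = u + w := huw.symm
      linear_combination this
    rw [this]
    exact add_mem hy hwB
  · rw [map_sub, map_eq_zero_of_mem_smulK hk ρ hu, sub_zero]

include hmono htL in
/-- **Saturation** (S3), subspace form: `ρ B ⊓ ρ (tᵇ • B') ≤ ρ (L b)`. -/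
theorem redK_inf_le {b : ℕ}
    (hstep : ∀ c, b ≤ c → L (c + 1) ≤ L c ⊔ tw A t 1 (L c))
    (hcap : chartB L ⊓ tw A t b (chartB' t L) ≤ L b)
    (hkerx : ∀ z ∈ chartBx t L, ρ z = 0 → z ∈ maximalIdeal A • chartBx t L) :
    redK hk ρ (chartB L) ⊓ redK hk ρ (tw A t b (chartB' t L)) ≤ redK hk ρ (L b) := by
  rintro ω ⟨⟨x, hx, rfl⟩, ⟨y, hy, hyx⟩⟩
  exact exists_mem_of_reduction_eqK hk ρ t hmono htL hstep hcap hkerx hx hy hyx.symm

include hmono htL in
/-- The Rees-module step (F1) for the reductions `redK hk ρ (L b)` (helper26's `exists_rees`). -/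
theorem exists_reesK (P : ℕ → Submodule k Ω) (hPmono : Monotone P)
    (hTP : ∀ b, ∀ p ∈ P b, ρ (t : O) * p ∈ P (b + 1))
    (hPfin : ∀ b, Module.Finite k (P b))
    (hLP : ∀ b, ∀ f ∈ L b, ρ f ∈ P b) (b₀ : ℕ)
    (hP : ∀ b, b₀ ≤ b → ∀ p ∈ P (b + 1), ∃ p₁ ∈ P b, ∃ p₂ ∈ P b, p = p₁ + ρ (t : O) * p₂) :
    ∃ b1, ∀ b, b1 ≤ b → ∀ v ∈ redK hk ρ (L (b + 1)),
      ∃ v₁ ∈ redK hk ρ (L b), ∃ v₂ ∈ redK hk ρ (L b), v = v₁ + ρ (t : O) * v₂ := by
  refine ReesFG.exists_forall_succ_eq_add (ρ (t : O)) P (fun b => redK hk ρ (L b)) hPmono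
    (fun b b' h => redK_mono hk ρ (hmono h)) (fun b => ?_) hTP (fun b => ?_) hPfin b₀ hP
  · rintro _ ⟨f, hf, rfl⟩
    exact hLP b f hf
  · rintro _ ⟨f, hf, rfl⟩
    exact ⟨(t : O) * f, htL b f hf, map_mul ρ _ _⟩

include hmono htL in
/-- **Saturation, unconditional form** (S1)+(S2)+(S3) (helper26's `exists_saturation`) over an
abstract residue field. -/
theorem exists_saturationK (hfg : ∀ b, (L b).FG)
    (hker : ∀ b, ∀ f ∈ L b, ρ f = 0 → f ∈ maximalIdeal A • L b)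
    (P : ℕ → Submodule k Ω) (hPmono : Monotone P)
    (hTP : ∀ b, ∀ p ∈ P b, ρ (t : O) * p ∈ P (b + 1))
    (hPfin : ∀ b, Module.Finite k (P b))
    (hLP : ∀ b, ∀ f ∈ L b, ρ f ∈ P b) (b₀ : ℕ)
    (hP : ∀ b, b₀ ≤ b → ∀ p ∈ P (b + 1), ∃ p₁ ∈ P b, ∃ p₂ ∈ P b, p = p₁ + ρ (t : O) * p₂) :
    ∃ b1 : ℕ,
      (∀ b, b1 ≤ b → L (b + 1) = L b ⊔ tw A t 1 (L b)) ∧
      (∀ b, b1 ≤ b → ∀ a c : ℕ,
        tw A t (-(a : ℤ)) (L c) ≤ chartB L ⊔ tw A t b (chartB' t L)) ∧
      (∀ b, b1 ≤ b → chartBx t L = chartB L ⊔ tw A t b (chartB' t L)) ∧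
      (∀ b, b1 ≤ b → chartB L ⊓ tw A t b (chartB' t L) ≤ L b →
        (∀ z ∈ chartBx t L, ρ z = 0 → z ∈ maximalIdeal A • chartBx t L) →
        redK hk ρ (chartB L) ⊓ redK hk ρ (tw A t b (chartB' t L)) ≤ redK hk ρ (L b)) := by
  obtain ⟨b1, hb1⟩ := exists_reesK hk ρ t hmono htL P hPmono hTP hPfin hLP b₀ hP
  have hS1 : ∀ b, b1 ≤ b → L (b + 1) = L b ⊔ tw A t 1 (L b) := fun b hb =>
    succ_eq_sup_of_reductionK hk ρ t hmono htL (hfg _) (hker _) (hb1 b hb)
  have hstep : ∀ b, b1 ≤ b → ∀ c, b ≤ c → L (c + 1) ≤ L c ⊔ tw A t 1 (L c) :=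
    fun b hb c hc => (hS1 c (hb.trans hc)).le
  exact ⟨b1, hS1, fun b hb => tw_neg_le_sup t hmono htL (hstep b hb),
    fun b hb => chartBx_eq_sup t hmono htL (hstep b hb),
    fun b hb hcap hkerx => redK_inf_le hk ρ t hmono htL (hstep b hb) hcap hkerx⟩

end Sat

end Fermat.Agent.S34x.SaturationK
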