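/-
Copyright (c) 2026. Released under Apache 2.0 license as described in the file LICENSE.
-/
import Mathlib
import Fermat.Agent.S34x.NodeLinAlg

/-!
# P-S34, work package WP-UB: the node count `δ = g - 2g' + 1` (abstract part)

Design: team note `S34-DESIGN-WPUB v1`.  This file contains the purely algebraic adapters:

* `CuspSep`: **no node over the cusps**.  If `S ≤ B₁ × B₂` is a subring with both projections
  surjective, `s = (s₁, s₂) ∈ S` and `(1, c * s₂) ∈ S` for some `c` (so that `s₂` is a unit modulo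
  the Goursat ideal `{g | (0, g) ∈ S}`), then `(B₁ × B₂) / S` has no `s`-torsion:
  `s ^ n * z ∈ S → z ∈ S`.  Also the corollary inside an ambient ring `Ω` used to compare the
  two charts.
* `LinGrowth`: a filtration `P b` with `T (P b) ≤ P (b+1)`, `{x ∈ P (b+1) | T x ∈ P (b+1)} ≤ P b`
  and dimension `n * b + c` for `b ≥ b₀` satisfies `P (b+2) = P (b+1) ⊔ T (P (b+1))` for `b ≥ b₀`.
* `NodeCount`: from the Riemann–Roch counts and the saturation statement `S ⊓ P b ≤ Sb b`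
  we get `finrank (V ⧸ N) ≤ finrank (V ⧸ S) = δ`, which is exactly the hypothesis `hcodim` of
  `NodeLinAlg.one_mem_mul_of_subalgebra`.
-/

namespace Fermat.Agent.S34x.UB

open Module

section CuspSep

variable {B₁ B₂ : Type*} [CommRing B₁] [CommRing B₂]
variable {σ : Type*} [SetLike σ (B₁ × B₂)] [SubringClass σ (B₁ × B₂)]

/-- **Cusp separation, one step.**  `S ≤ B₁ × B₂` a subring with both projections surjective,
`s ∈ S`, and an element `(1, c * s.2) ∈ S`.  Then `s * z ∈ S → z ∈ S`. -/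
theorem mem_of_mul_mem (S : σ) (h₁ : ∀ f : B₁, ∃ g : B₂, (f, g) ∈ S)
    (h₂ : ∀ g : B₂, ∃ f : B₁, (f, g) ∈ S) {s : B₁ × B₂} (hs : s ∈ S) {c : B₂}
    (he : ((1 : B₁), c * s.2) ∈ S) {z : B₁ × B₂} (hz : s * z ∈ S) : z ∈ S := by
  obtain ⟨z₁, z₂⟩ := z
  obtain ⟨s₁, s₂⟩ := s
  obtain ⟨w₂, hw⟩ := h₁ z₁
  obtain ⟨fc, hc⟩ := h₂ c
  obtain ⟨fd, hd⟩ := h₂ (z₂ - w₂)
  have h0 : ((0 : B₁), s₂ * (z₂ - w₂)) ∈ S := by
    have := sub_mem hz (mul_mem hs hw)
    have e : (s₁, s₂) * (z₁, z₂) - (s₁, s₂) * (z₁, w₂) = ((0 : B₁), s₂ * (z₂ - w₂)) := by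
      ext <;> simp [mul_sub]
    rwa [e] at this
  have h1 : ((0 : B₁), 1 - c * s₂) ∈ S := by
    have := sub_mem (one_mem S) he
    have e : (1 : B₁ × B₂) - ((1 : B₁), c * s₂) = ((0 : B₁), 1 - c * s₂) := by
      ext <;> simp
    rwa [e] at this
  have h2 : ((0 : B₁), z₂ - w₂) ∈ S := by
    have := add_mem (mul_mem h1 hd) (mul_mem hc h0)
    have e : ((0 : B₁), 1 - c * s₂) * (fd, z₂ - w₂) + (fc, c) * ((0 : B₁), s₂ * (z₂ - w₂))
        = ((0 : B₁), z₂ - w₂) := by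
      ext
      · simp
      · simp only [Prod.mk_mul_mk, Prod.mk_add_mk]
        ring
    rwa [e] at this
  have := add_mem hw h2
  have e : (z₁, w₂) + ((0 : B₁), z₂ - w₂) = (z₁, z₂) := by
    ext <;> simp
  rwa [e] at this

/-- **Cusp separation.**  `(B₁ × B₂) / S` has no `s`-torsion. -/
theorem mem_of_pow_mul_mem (S : σ) (h₁ : ∀ f : B₁, ∃ g : B₂, (f, g) ∈ S)
    (h₂ : ∀ g : B₂, ∃ f : B₁, (f, g) ∈ S) {s : B₁ × B₂} (hs : s ∈ S) {c : B₂}
    (he : ((1 : B₁), c * s.2) ∈ S) (n : ℕ) {z : B₁ × B₂} (hz : s ^ n * z ∈ S) : z ∈ S := by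
  induction n generalizing z with
  | zero => simpa using hz
  | succ n ih =>
    apply ih
    apply mem_of_mul_mem S h₁ h₂ hs he
    rwa [← mul_assoc, ← pow_succ']

end CuspSep

section Charts

variable {Ω : Type*} [CommRing Ω]
variable {σ : Type*} [SetLike σ Ω] [SubringClass σ Ω]

/-- **Comparison of the two charts.**  Inside an ambient ring `Ω` with `T * s = 1`:
`S'` is the second chart ring (`B̄'`), `W'` its normalisation (`B̃'`, only closedness under `s`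
is used), `hsat` is the no-`s`-torsion statement (`mem_of_mul_mem`).  If
`x ∈ ⋃ₙ Tⁿ S'` (e.g. `x ∈ B̄ ⊆ B̄ˣ`) and `s ^ b * x ∈ W'` (e.g. `x ∈ P(0,b) ⊆ T ^ b B̃'`),
then `s ^ b * x ∈ S'`, i.e. `x ∈ T ^ b B̄'`. -/
theorem pow_mul_mem_of_sat (S' : σ) (W' : Set Ω) {T s : Ω} (hTs : T * s = 1) (hs : s ∈ S')
    (hW : ∀ z ∈ W', s * z ∈ W') (hsat : ∀ z ∈ W', s * z ∈ S' → z ∈ S')
    {x : Ω} {n : ℕ} {y : Ω} (hy : y ∈ S') (hx : x = T ^ n * y) {b : ℕ} (hxb : s ^ b * x ∈ W') :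
    s ^ b * x ∈ S' := by
  have hsT : ∀ j : ℕ, s ^ j * T ^ j = 1 := fun j => by
    rw [← mul_pow, mul_comm, hTs, one_pow]
  have hsatn : ∀ (j : ℕ) (z : Ω), z ∈ W' → s ^ j * z ∈ S' → z ∈ S' := by
    intro j
    induction j with
    | zero => intro z _ hz; simpa using hz
    | succ j ih =>
      intro z hzW hz
      apply hsat z hzW
      apply ih (s * z) (hW z hzW)
      rwa [← mul_assoc, ← pow_succ]
  rcases le_total b n with hbn | hnb
  · -- `s ^ (n - b) * (s ^ b * x) = y`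
    apply hsatn (n - b) _ hxb
    have : s ^ (n - b) * (s ^ b * x) = y := by
      rw [← mul_assoc, ← pow_add, Nat.sub_add_cancel hbn, hx, ← mul_assoc, hsT, one_mul]
    rw [this]
    exact hy
  · -- `s ^ b * x = s ^ (b - n) * y`
    have : s ^ b * x = s ^ (b - n) * y := by
      rw [hx, ← mul_assoc]
      conv_lhs => rw [← Nat.sub_add_cancel hnb, pow_add, mul_assoc (s ^ (b - n)), hsT, mul_one]
    rw [this]
    exact mul_mem (pow_mem hs _) hy

/-- Variant: `x = T ^ b * y'` with `y' ∈ S'`. -/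
theorem exists_eq_pow_mul_of_sat (S' : σ) (W' : Set Ω) {T s : Ω} (hTs : T * s = 1) (hs : s ∈ S')
    (hW : ∀ z ∈ W', s * z ∈ W') (hsat : ∀ z ∈ W', s * z ∈ S' → z ∈ S')
    {x : Ω} {n : ℕ} {y : Ω} (hy : y ∈ S') (hx : x = T ^ n * y) {b : ℕ} (hxb : s ^ b * x ∈ W') :
    ∃ y' ∈ S', x = T ^ b * y' := by
  refine ⟨s ^ b * x, pow_mul_mem_of_sat S' W' hTs hs hW hsat hy hx hxb, ?_⟩
  rw [← mul_assoc, ← mul_pow, hTs, one_pow, one_mul]

/-- Set version of `pow_mul_mem_of_sat`: `S'` is only assumed stable under multiplication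
by `s`. -/
theorem pow_mul_mem_of_sat_set (S' W' : Set Ω) {T s : Ω} (hTs : T * s = 1)
    (hs : ∀ y ∈ S', s * y ∈ S')
    (hW : ∀ z ∈ W', s * z ∈ W') (hsat : ∀ z ∈ W', s * z ∈ S' → z ∈ S')
    {x : Ω} {n : ℕ} {y : Ω} (hy : y ∈ S') (hx : x = T ^ n * y) {b : ℕ} (hxb : s ^ b * x ∈ W') :
    s ^ b * x ∈ S' := by
  have hsT : ∀ j : ℕ, s ^ j * T ^ j = 1 := fun j => by
    rw [← mul_pow, mul_comm, hTs, one_pow]
  have hsatn : ∀ (j : ℕ) (z : Ω), z ∈ W' → s ^ j * z ∈ S' → z ∈ S' := by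
    intro j
    induction j with
    | zero => intro z _ hz; simpa using hz
    | succ j ih =>
      intro z hzW hz
      apply hsat z hzW
      apply ih (s * z) (hW z hzW)
      rwa [← mul_assoc, ← pow_succ]
  have hspow : ∀ (j : ℕ) (z : Ω), z ∈ S' → s ^ j * z ∈ S' := by
    intro j
    induction j with
    | zero => intro z hz; simpa using hz
    | succ j ih =>
      intro z hz
      rw [pow_succ', mul_assoc]
      exact hs _ (ih z hz)
  rcases le_total b n with hbn | hnb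
  · apply hsatn (n - b) _ hxb
    have : s ^ (n - b) * (s ^ b * x) = y := by
      rw [← mul_assoc, ← pow_add, Nat.sub_add_cancel hbn, hx, ← mul_assoc, hsT, one_mul]
    rw [this]
    exact hy
  · have : s ^ b * x = s ^ (b - n) * y := by
      rw [hx, ← mul_assoc]
      conv_lhs => rw [← Nat.sub_add_cancel hnb, pow_add, mul_assoc (s ^ (b - n)), hsT, mul_one]
    rw [this]
    exact hspow _ _ hy

end Charts

section Glue

variable {k : Type*} [Field k] {Ω : Type*} [CommRing Ω] [Algebra k Ω]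

/-- **Saturation of the first chart (abstract assembly of (U2) + (U3)).**
Inside `Ω` (`= κ_∞ × κ_0`) with `T * s = 1`: `P c = P(0,c)`, `V c = red Lam(c C∞) ≤ P c`.
Put `B̄ = ⋃ V c`, `B̄' = ⋃ₐ sᵃ V a`, `B̃' = ⋃ₐ sᵃ P a`.
* `hS3` is helper26's saturation `B̄ ∩ Tᵇ B̄' ≤ V b` (`b ≥ b₁`);
* `hsep` is the cusp separation on the second chart: `z ∈ B̃'`, `s z ∈ B̄'` ⇒ `z ∈ B̄'`.
Then `B̄ ∩ P b ≤ V b` for `b ≥ b₁`. -/
theorem mem_of_mem_iUnion_of_mem_P (T s : Ω) (hTs : T * s = 1) (P V : ℕ → Submodule k Ω)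
    (hVmono : Monotone V) (hPmono : Monotone P) (b₁ : ℕ)
    (hS3 : ∀ b, b₁ ≤ b → ∀ x : Ω, (∃ c, x ∈ V c) → (∃ a, ∃ v ∈ V a, x = T ^ b * (s ^ a * v)) →
      x ∈ V b)
    (hsep : ∀ z : Ω, (∃ a, ∃ p ∈ P a, z = s ^ a * p) → (∃ a, ∃ v ∈ V a, s * z = s ^ a * v) →
      ∃ a, ∃ v ∈ V a, z = s ^ a * v)
    (b : ℕ) (hb : b₁ ≤ b) (x : Ω) (hxV : ∃ c, x ∈ V c) (hxP : x ∈ P b) : x ∈ V b := by
  have hTs' : ∀ j : ℕ, T ^ j * s ^ j = 1 := fun j => by rw [← mul_pow, hTs, one_pow]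
  apply hS3 b hb x hxV
  obtain ⟨c, hc⟩ := hxV
  -- the sets `B̄'` and `B̃'`
  let S' : Set Ω := {z | ∃ a, ∃ v ∈ V a, z = s ^ a * v}
  let W' : Set Ω := {z | ∃ a, ∃ p ∈ P a, z = s ^ a * p}
  have hsS : ∀ y ∈ S', s * y ∈ S' := by
    rintro y ⟨a, v, hv, rfl⟩
    exact ⟨a + 1, v, hVmono (Nat.le_succ a) hv, by rw [pow_succ']; ring⟩
  have hsW : ∀ z ∈ W', s * z ∈ W' := by
    rintro y ⟨a, p, hp, rfl⟩
    exact ⟨a + 1, p, hPmono (Nat.le_succ a) hp, by rw [pow_succ']; ring⟩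
  have hsat : ∀ z ∈ W', s * z ∈ S' → z ∈ S' := fun z hz hsz => hsep z hz hsz
  have hy : s ^ c * x ∈ S' := ⟨c, x, hc, rfl⟩
  have hx : x = T ^ c * (s ^ c * x) := by rw [← mul_assoc, hTs', one_mul]
  have hxb : s ^ b * x ∈ W' := ⟨b, x, hxP, rfl⟩
  obtain ⟨a, v, hv, hav⟩ := pow_mul_mem_of_sat_set S' W' hTs hsS hsW hsat hy hx hxb
  exact ⟨a, v, hv, by rw [← hav, ← mul_assoc, hTs', one_mul]⟩

/-- **Saturation on the overlap.**  With moreover the cusp separation on the first chart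
(`hsep₁`: `z ∈ B̃ = ⋃ P c`, `T z ∈ B̄ = ⋃ V c` ⇒ `z ∈ B̄`):
`B̄ˣ ∩ P b ≤ V b` for `b ≥ b₁`, where `B̄ˣ = ⋃ sᵃ V c`. -/
theorem mem_of_mem_overlap_of_mem_P (T s : Ω) (hTs : T * s = 1) (P V : ℕ → Submodule k Ω)
    (hVmono : Monotone V) (hPmono : Monotone P)
    (hTP : ∀ c, ∀ p ∈ P c, T * p ∈ P (c + 1)) (b₁ : ℕ)
    (hS3 : ∀ b, b₁ ≤ b → ∀ x : Ω, (∃ c, x ∈ V c) → (∃ a, ∃ v ∈ V a, x = T ^ b * (s ^ a * v)) →
      x ∈ V b)
    (hsep : ∀ z : Ω, (∃ a, ∃ p ∈ P a, z = s ^ a * p) → (∃ a, ∃ v ∈ V a, s * z = s ^ a * v) →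
      ∃ a, ∃ v ∈ V a, z = s ^ a * v)
    (hsep₁ : ∀ z : Ω, (∃ c, z ∈ P c) → (∃ c, T * z ∈ V c) → ∃ c, z ∈ V c)
    (b : ℕ) (hb : b₁ ≤ b) (y : Ω) (hyP : y ∈ P b)
    (hy : ∃ a c, ∃ v ∈ V c, y = s ^ a * v) : y ∈ V b := by
  have hTs' : ∀ j : ℕ, T ^ j * s ^ j = 1 := fun j => by rw [← mul_pow, hTs, one_pow]
  refine mem_of_mem_iUnion_of_mem_P T s hTs P V hVmono hPmono b₁ hS3 hsep b hb y ?_ hyP
  obtain ⟨a, c, v, hv, rfl⟩ := hy
  -- `T ^ a * y = v ∈ B̄`, descend by `hsep₁`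
  have key : ∀ (j : ℕ) (z : Ω), (∃ c, z ∈ P c) → (∃ c, T ^ j * z ∈ V c) → ∃ c, z ∈ V c := by
    intro j
    induction j with
    | zero => intro z _ hz; simpa using hz
    | succ j ih =>
      intro z hzP hz
      apply hsep₁ z hzP
      obtain ⟨c', hc'⟩ := hzP
      apply ih (T * z) ⟨c' + 1, hTP c' z hc'⟩
      obtain ⟨c'', hc''⟩ := hz
      exact ⟨c'', by rwa [← mul_assoc, ← pow_succ]⟩
  apply key a _ ⟨b, hyP⟩
  exact ⟨c, by rwa [← mul_assoc, hTs', one_mul]⟩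

/-- **The upper bound (UB) for the glued spaces.**  If `Lbar ≤ Ω` is a subspace all of whose
elements `x` lie in `B̄ˣ` and satisfy `T ^ a * x ∈ P (a + b)` (i.e. `x ∈ P(a,b)`), then
`dim Lbar ≤ dim V (a + b)` as soon as `a + b ≥ b₁`. -/
theorem finrank_glued_le (T s : Ω) (hTs : T * s = 1) (P V : ℕ → Submodule k Ω)
    [∀ c, FiniteDimensional k (V c)]
    (hVmono : Monotone V) (hPmono : Monotone P)
    (hTP : ∀ c, ∀ p ∈ P c, T * p ∈ P (c + 1)) (hTV : ∀ c, ∀ v ∈ V c, T * v ∈ V (c + 1)) (b₁ : ℕ)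
    (hS3 : ∀ b, b₁ ≤ b → ∀ x : Ω, (∃ c, x ∈ V c) → (∃ a, ∃ v ∈ V a, x = T ^ b * (s ^ a * v)) →
      x ∈ V b)
    (hsep : ∀ z : Ω, (∃ a, ∃ p ∈ P a, z = s ^ a * p) → (∃ a, ∃ v ∈ V a, s * z = s ^ a * v) →
      ∃ a, ∃ v ∈ V a, z = s ^ a * v)
    (hsep₁ : ∀ z : Ω, (∃ c, z ∈ P c) → (∃ c, T * z ∈ V c) → ∃ c, z ∈ V c)
    (a b : ℕ) (hab : b₁ ≤ a + b) (Lbar : Submodule k Ω)
    (hL : ∀ x ∈ Lbar, T ^ a * x ∈ P (a + b) ∧ ∃ a' c, ∃ v ∈ V c, x = s ^ a' * v) :
    finrank k Lbar ≤ finrank k (V (a + b)) := by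
  have hTs' : ∀ j : ℕ, T ^ j * s ^ j = 1 := fun j => by rw [← mul_pow, hTs, one_pow]
  have hTVpow : ∀ (j c : ℕ) (v : Ω), v ∈ V c → T ^ j * v ∈ V (c + j) := by
    intro j
    induction j with
    | zero => intro c v hv; simpa using hv
    | succ j ih =>
      intro c v hv
      have := hTV _ _ (ih c v hv)
      rwa [← mul_assoc, ← pow_succ'] at this
  have hmem : ∀ x ∈ Lbar, T ^ a * x ∈ V (a + b) := by
    intro x hx
    obtain ⟨h1, a', c, v, hv, rfl⟩ := hL x hx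
    apply mem_of_mem_overlap_of_mem_P T s hTs P V hVmono hPmono hTP b₁ hS3 hsep hsep₁ (a + b) hab
      _ h1
    -- `T ^ a * (s ^ a' * v) ∈ B̄ˣ`
    rcases le_total a a' with h | h
    · refine ⟨a' - a, c, v, hv, ?_⟩
      have e : s ^ a' = s ^ (a' - a) * s ^ a := by rw [← pow_add, Nat.sub_add_cancel h]
      rw [e]
      linear_combination (s ^ (a' - a) * v) * hTs' a
    · refine ⟨0, c + (a - a'), T ^ (a - a') * v, hTVpow _ _ _ hv, ?_⟩
      have e : T ^ a = T ^ (a - a') * T ^ a' := by rw [← pow_add, Nat.sub_add_cancel h]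
      rw [e, pow_zero, one_mul]
      linear_combination (T ^ (a - a') * v) * hTs' a'
  -- the injective map `x ↦ T ^ a * x` from `Lbar` to `V (a + b)`
  let φ : Lbar →ₗ[k] V (a + b) :=
    { toFun := fun x => ⟨T ^ a * (x : Ω), hmem x x.2⟩
      map_add' := fun x y => by ext; simp [mul_add]
      map_smul' := fun c x => by ext; simp }
  have hφ : Function.Injective φ := by
    intro x y hxy
    have h1 : T ^ a * (x : Ω) = T ^ a * (y : Ω) := congrArg (fun z : V (a + b) => (z : Ω)) hxy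
    apply Subtype.ext
    have h2 := congrArg (fun z => s ^ a * z) h1
    simp only [← mul_assoc] at h2
    have hsT : s ^ a * T ^ a = 1 := by rw [mul_comm]; exact hTs' a
    rwa [hsT, one_mul, one_mul] at h2
  exact LinearMap.finrank_le_finrank_of_injective hφ

end Glue

section LinGrowth

variable {k : Type*} [Field k] {V : Type*} [AddCommGroup V] [Module k V]

/-- **Linear growth ⇒ generation in degree one.**  `P` a filtration by finite-dimensional
subspaces, `T` an endomorphism with `T (P b) ≤ P (b+1)`, such that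
`x ∈ P (b+1), T x ∈ P (b+1) ⇒ x ∈ P b`, and `dim P b = n * b + c` for `b ≥ b₀`.
Then `P (b+2) = P (b+1) ⊔ T (P (b+1))` for `b ≥ b₀`. -/
theorem eq_sup_map_of_linear_growth (T : V →ₗ[k] V) (P : ℕ → Submodule k V)
    [∀ b, FiniteDimensional k (P b)] (hmono : Monotone P)
    (hT : ∀ b, ∀ x ∈ P b, T x ∈ P (b + 1))
    (hker : ∀ b, ∀ x ∈ P (b + 1), T x ∈ P (b + 1) → x ∈ P b)
    (n : ℕ) (c : ℤ) (b₀ : ℕ) (hdim : ∀ b, b₀ ≤ b → (finrank k (P b) : ℤ) = n * b + c)
    (b : ℕ) (hb : b₀ ≤ b) : P (b + 2) = P (b + 1) ⊔ (P (b + 1)).map T := by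
  have hle : P (b + 1) ⊔ (P (b + 1)).map T ≤ P (b + 2) := by
    apply sup_le (hmono (by omega))
    rintro _ ⟨x, hx, rfl⟩
    exact hT (b + 1) x hx
  symm
  apply Submodule.eq_of_le_of_finrank_le hle
  -- the map `(f, g) ↦ f + T g`
  let φ : (P (b + 1) × P (b + 1)) →ₗ[k] V :=
    (P (b + 1)).subtype.coprod (T.comp (P (b + 1)).subtype)
  have hrange : LinearMap.range φ ≤ P (b + 1) ⊔ (P (b + 1)).map T := by
    rintro _ ⟨⟨f, g⟩, rfl⟩
    simp only [φ, LinearMap.coprod_apply, Submodule.subtype_apply, LinearMap.comp_apply]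
    exact Submodule.add_mem_sup f.2 (Submodule.mem_map_of_mem g.2)
  -- the kernel injects into `P b` via the second coordinate
  let ψ : LinearMap.ker φ →ₗ[k] P b :=
    { toFun := fun x => ⟨(x.1.2 : V), by
        have hx : φ x.1 = 0 := x.2
        simp only [φ, LinearMap.coprod_apply, Submodule.subtype_apply,
          LinearMap.comp_apply] at hx
        apply hker b _ x.1.2.2
        have : T (x.1.2 : V) = -(x.1.1 : V) := by
          rw [eq_neg_iff_add_eq_zero, add_comm]; exact hx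
        rw [this]
        exact (P (b + 1)).neg_mem x.1.1.2⟩
      map_add' := fun x y => by ext; simp
      map_smul' := fun a x => by ext; simp }
  have hψ : Function.Injective ψ := by
    intro x y hxy
    have h2 : (x.1.2 : V) = (y.1.2 : V) := congrArg (fun z : P b => (z : V)) hxy
    have hx : φ x.1 = 0 := x.2
    have hy : φ y.1 = 0 := y.2
    simp only [φ, LinearMap.coprod_apply, Submodule.subtype_apply,
      LinearMap.comp_apply] at hx hy
    have h1 : (x.1.1 : V) = (y.1.1 : V) := by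
      have hx' : (x.1.1 : V) = -T (x.1.2 : V) := eq_neg_of_add_eq_zero_left hx
      have hy' : (y.1.1 : V) = -T (y.1.2 : V) := eq_neg_of_add_eq_zero_left hy
      rw [hx', hy', h2]
    apply Subtype.ext
    apply Prod.ext
    · exact Subtype.ext h1
    · exact Subtype.ext h2
  have hkerdim : finrank k (LinearMap.ker φ) ≤ finrank k (P b) :=
    LinearMap.finrank_le_finrank_of_injective hψ
  have hrn := LinearMap.finrank_range_add_finrank_ker φ
  rw [Module.finrank_prod] at hrn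
  have hrle : finrank k (LinearMap.range φ) ≤ finrank k ↥(P (b + 1) ⊔ (P (b + 1)).map T) :=
    Submodule.finrank_mono hrange
  have d0 := hdim b hb
  have d1 := hdim (b + 1) (by omega)
  have d2 := hdim (b + 2) (by omega)
  push_cast at d1 d2
  have : (finrank k (P (b + 2)) : ℤ) ≤ finrank k ↥(P (b + 1) ⊔ (P (b + 1)).map T) := by
    have h1 : (finrank k (LinearMap.range φ) : ℤ) + finrank k (LinearMap.ker φ)
        = finrank k (P (b + 1)) + finrank k (P (b + 1)) := by exact_mod_cast hrn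
    have h2 : (finrank k (LinearMap.ker φ) : ℤ) ≤ finrank k (P b) := by exact_mod_cast hkerdim
    have h3 : (finrank k (LinearMap.range φ) : ℤ)
        ≤ finrank k ↥(P (b + 1) ⊔ (P (b + 1)).map T) := by exact_mod_cast hrle
    linarith
  exact_mod_cast this

end LinGrowth

section NodeCount

variable {k : Type*} [Field k] {V : Type*} [AddCommGroup V] [Module k V]

/-- Lower bound for a codimension: the image of `P` in `V ⧸ S` has dimension
`dim P - dim (S ⊓ P)`. -/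
theorem finrank_le_add_finrank_quotient (S P S₀ : Submodule k V) [FiniteDimensional k P]
    [Module.Finite k (V ⧸ S)] (hS₀P : S₀ ≤ P) (hsat : S ⊓ P ≤ S₀) :
    finrank k P ≤ finrank k S₀ + finrank k (V ⧸ S) := by
  classical
  have : FiniteDimensional k S₀ := Submodule.finiteDimensional_of_le hS₀P
  have h1 := LinearMap.finrank_range_add_finrank_ker (S.mkQ.comp P.subtype)
  have hker : finrank k (LinearMap.ker (S.mkQ.comp P.subtype)) ≤ finrank k S₀ := by
    let ψ : LinearMap.ker (S.mkQ.comp P.subtype) →ₗ[k] S₀ :=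
      { toFun := fun x => ⟨(x.1 : V), hsat ⟨by
          have hx : (S.mkQ.comp P.subtype) x.1 = 0 := x.2
          rw [LinearMap.comp_apply, Submodule.mkQ_apply, Submodule.Quotient.mk_eq_zero] at hx
          exact hx, x.1.2⟩⟩
        map_add' := fun x y => by ext; simp
        map_smul' := fun a x => by ext; simp }
    have hψ : Function.Injective ψ := by
      intro x y hxy
      have : (x.1 : V) = (y.1 : V) := congrArg (fun z : S₀ => (z : V)) hxy
      exact Subtype.ext (Subtype.ext this)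
    exact LinearMap.finrank_le_finrank_of_injective hψ
  have hrange : finrank k (LinearMap.range (S.mkQ.comp P.subtype)) ≤ finrank k (V ⧸ S) :=
    Submodule.finrank_le _
  omega

/-- **The node count (U4).**  `V = B̃` with an exhaustive filtration `P b = P(0,b)` by
finite-dimensional subspaces; `S = B̄`, `N = N_i`; `Sb b = red Lam(b C∞) ≤ S ⊓ P b`,
`Nb b = red Lam(i D₀ + b C∞) ≤ N ⊓ P b`.  From the Riemann–Roch counts
`dim P b ≤ dim Nb b + δ`, `dim P b = dim Sb b + δ` (`b ≥ b₀`) and the saturation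
`S ⊓ P b ≤ Sb b` (`b ≥ b₀`) we get that `S` has codimension exactly `δ` and `N` has codimension at
most `δ`: this is the hypothesis `hcodim` of `NodeLinAlg.one_mem_mul_of_subalgebra`. -/
theorem finrank_quotient_le_finrank_quotient (P : ℕ → Submodule k V) (hmono : Monotone P)
    (htop : ∀ v, ∃ b, v ∈ P b) [∀ b, FiniteDimensional k (P b)]
    (N S : Submodule k V) (Nb Sb : ℕ → Submodule k V)
    (hNb : ∀ b, Nb b ≤ N) (hNP : ∀ b, Nb b ≤ P b)
    (hSb : ∀ b, Sb b ≤ S) (hSP : ∀ b, Sb b ≤ P b) (δ b₀ : ℕ)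
    (hdimN : ∀ b, b₀ ≤ b → finrank k (P b) ≤ finrank k (Nb b) + δ)
    (hdimS : ∀ b, b₀ ≤ b → finrank k (P b) = finrank k (Sb b) + δ)
    (hsat : ∀ b, b₀ ≤ b → S ⊓ P b ≤ Sb b) :
    Module.Finite k (V ⧸ N) ∧ Module.Finite k (V ⧸ S) ∧
      finrank k (V ⧸ S) = δ ∧ finrank k (V ⧸ N) ≤ finrank k (V ⧸ S) := by
  obtain ⟨hNfin, hNle⟩ := NodeLinAlg.finite_and_finrank_quotient_le_of_exhaustion N P hmono htop
    Nb hNb hNP δ b₀ hdimN
  obtain ⟨hSfin, hSle⟩ := NodeLinAlg.finite_and_finrank_quotient_le_of_exhaustion S P hmono htop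
    Sb hSb hSP δ b₀ (fun b hb => (hdimS b hb).le)
  have hSge : δ ≤ finrank k (V ⧸ S) := by
    have h1 := finrank_le_add_finrank_quotient S (P b₀) (Sb b₀) (hSP b₀) (hsat b₀ le_rfl)
    have h2 := hdimS b₀ le_rfl
    omega
  have hSeq : finrank k (V ⧸ S) = δ := le_antisymm hSle hSge
  exact ⟨hNfin, hSfin, hSeq, hSeq ▸ hNle⟩

end NodeCount

end Fermat.Agent.S34x.UB
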