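/-
Copyright (c) 2026. Released under Apache 2.0 license as described in the file LICENSE.
-/
import Mathlib
import Fermat.Agent.S34x.UB
import Fermat.Agent.S34x.SaturationK

/-!
# P-S34, WP-UB (I7): final abstract assembly of the upper bound

helper7.  No new mathematics: this file combines

* `SaturationK.exists_saturationK` (helper26's `Saturation.exists_saturation`: graded Nakayama +
  `H¹`-vanishing + saturation, with the Rees step `ReesFG.exists_forall_succ_eq_add` discharged;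
  restated over an ABSTRACT residue field `k`, `algebraMap A k` onto, in `SaturationK.lean`),
* `UB.mem_of_mul_mem` (helper45: cusp separation, used on both charts),
* `UB.mem_of_mem_iUnion_of_mem_P`, `UB.mem_of_mem_overlap_of_mem_P`, `UB.finrank_glued_le`,
  `UB.finrank_quotient_le_finrank_quotient`, `UB.eq_sup_map_of_linear_growth`

into statements whose hypotheses are the raw inputs of the instantiation
(`O, ρ, t, L_i b, P b`, the two cusp-separation elements and (L2)) and whose conclusions are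

* (a) `Module.Finite` + `finrank (B̃ ⧸ N_i) ≤ finrank (B̃ ⧸ B̄)` on BOTH charts, in exactly the shape
  of the hypotheses `hcodim` of `NodeLinAlg.one_mem_mul_of_subalgebra` /
  `Goursat.exists_sum_mul_eq_one_of_glued` / `ExistsOne.one_mem_mul_of_comap`;
* (b) `finrank (B̄ˣ ⊓ P(a,b)) ≤ finrank (red L (a+b))`, the field `UB` of `C0two.CountData2`.

Setting: `A` local, `k` a field with `hk : Function.Surjective (algebraMap A k)`,
`ρ : O →ₐ[A] Ω` with `Ω` a `k`-algebra (`IsScalarTower A k Ω`), `t : Oˣ`, `T = ρ t`, `s = ρ t⁻¹`,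
`V c = redK hk ρ (L c)`.  The normalisations `B̃ = ⋃ P c`, `B̃' = ⋃ sᵃ P a` are presented as
products of TYPES `B₁ × B₂`, `B₁' × B₂'` with injective `k`-algebra maps `ι`, `ι'` into `Ω`.

Main statements: `ubMain` (everything at once), and the pieces
`exists_forall_mem_red_of_mem_P`, `exists_forall_mem_red_of_mem_overlap`,
`exists_forall_finrank_glued_le`, `finrank_quotient_le_chart₁`, `finrank_quotient_le_chart₂`,
`hsep_of_prod`, `hsep₁_of_prod`, `hP_of_linear_growth`, `hP_of_eq_sup_map`.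
-/

set_option autoImplicit false
set_option linter.unusedSectionVars false

noncomputable section

namespace Fermat.Agent.S34x.UBMain

open IsLocalRing Module
open Fermat.Agent.S34x.Saturation Fermat.Agent.S34x.SaturationK

section Internal

variable {A : Type*} [CommRing A] [IsLocalRing A]
variable {k : Type*} [Field k] [Algebra A k]
variable {O : Type*} [CommRing O] [Algebra A O]
variable {Om : Type*} [CommRing Om] [Algebra A Om] [Algebra k Om] [IsScalarTower A k Om]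
variable (hk : Function.Surjective (algebraMap A k)) (ρ : O →ₐ[A] Om) (t : Oˣ)
  {L : ℕ → Submodule A O}

theorem map_mul_map_inv : ρ (t : O) * ρ ((t⁻¹ : Oˣ) : O) = 1 := by
  rw [← map_mul, Units.mul_inv, map_one]

theorem map_upow_natCast (b : ℕ) : ρ (upow t (b : ℤ)) = ρ (t : O) ^ b := by
  rw [upow_natCast, map_pow]

theorem map_upow_neg_natCast (a : ℕ) : ρ (upow t (-(a : ℤ))) = ρ ((t⁻¹ : Oˣ) : O) ^ a := by
  have : upow t (-(a : ℤ)) = ((t⁻¹ : Oˣ) : O) ^ a := by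
    simp [upow, zpow_neg]
  rw [this, map_pow]

/-- helper26's saturation `ρ B ⊓ ρ (tᵇ B') ≤ ρ (L b)` in the elementwise form `hS3` used by
`UB.mem_of_mem_iUnion_of_mem_P`. -/
theorem hS3_of_red_inf_le {b : ℕ}
    (h : redK hk ρ (chartB L) ⊓ redK hk ρ (tw A t b (chartB' t L)) ≤ redK hk ρ (L b)) (x : Om)
    (hx : ∃ c, x ∈ redK hk ρ (L c))
    (hx' : ∃ a, ∃ v ∈ redK hk ρ (L a), x = ρ (t : O) ^ b * (ρ ((t⁻¹ : Oˣ) : O) ^ a * v)) :
    x ∈ redK hk ρ (L b) := by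
  apply h
  refine ⟨?_, ?_⟩
  · obtain ⟨c, hc⟩ := hx
    exact redK_mono hk ρ (le_chartB c) hc
  · obtain ⟨a, _, ⟨f, hf, rfl⟩, rfl⟩ := hx'
    refine ⟨upow t (b : ℤ) * (upow t (-(a : ℤ)) * f), mul_mem_tw t ?_, ?_⟩
    · exact le_iSup (fun a : ℕ => tw A t (-(a : ℤ)) (L a)) a (mul_mem_tw t hf)
    · rw [map_mul, map_mul, map_upow_natCast, map_upow_neg_natCast]


/-! ### The saturation `B̄ ⊓ P b ≤ V b` and `B̄ˣ ⊓ P b ≤ V b` -/

local notation "Tρ" => ρ ((t : Oˣ) : O)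
local notation "sρ" => ρ ((t⁻¹ : Oˣ) : O)

theorem monotone_redK (hmono : Monotone L) : Monotone fun c => redK hk ρ (L c) :=
  fun _ _ h => redK_mono hk ρ (hmono h)

theorem mul_mem_red_succ (htL : ∀ b, ∀ f ∈ L b, (t : O) * f ∈ L (b + 1)) (c : ℕ) (v : Om)
    (hv : v ∈ redK hk ρ (L c)) : Tρ * v ∈ redK hk ρ (L (c + 1)) := by
  obtain ⟨f, hf, rfl⟩ := hv
  exact ⟨(t : O) * f, htL c f hf, map_mul ρ _ _⟩

theorem red_le_P {P : ℕ → Submodule k Om} (hLP : ∀ b, ∀ f ∈ L b, ρ f ∈ P b)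
    (b : ℕ) : redK hk ρ (L b) ≤ P b := by
  rintro _ ⟨f, hf, rfl⟩
  exact hLP b f hf

/-- **Saturation of the first chart**: `B̄ ⊓ P b ≤ V b` for `b ≥ b₁`.  Inputs: helper26's
`Saturation` setting for the family `L` (`hfg`, `hker`, `hcap`, `hkerx`), the `k`-side filtration
`P` (`hP` = generation in degree one, e.g. from `hP_of_linear_growth` below) and the cusp
separation `hsep` on the SECOND chart. -/
theorem exists_forall_mem_red_of_mem_P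
    (hmono : Monotone L) (htL : ∀ b, ∀ f ∈ L b, (t : O) * f ∈ L (b + 1))
    (hfg : ∀ b, (L b).FG)
    (hker : ∀ b, ∀ f ∈ L b, ρ f = 0 → f ∈ maximalIdeal A • L b)
    (hcap : ∀ b : ℕ, chartB L ⊓ tw A t b (chartB' t L) ≤ L b)
    (hkerx : ∀ z ∈ chartBx t L, ρ z = 0 → z ∈ maximalIdeal A • chartBx t L)
    (P : ℕ → Submodule k Om) (hPmono : Monotone P)
    (hTP : ∀ b, ∀ p ∈ P b, Tρ * p ∈ P (b + 1))
    (hPfin : ∀ b, Module.Finite k (P b))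
    (hLP : ∀ b, ∀ f ∈ L b, ρ f ∈ P b) (b₀ : ℕ)
    (hP : ∀ b, b₀ ≤ b → ∀ p ∈ P (b + 1), ∃ p₁ ∈ P b, ∃ p₂ ∈ P b, p = p₁ + Tρ * p₂)
    (hsep : ∀ z : Om, (∃ a, ∃ p ∈ P a, z = sρ ^ a * p) →
      (∃ a, ∃ v ∈ redK hk ρ (L a), sρ * z = sρ ^ a * v) → ∃ a, ∃ v ∈ redK hk ρ (L a), z = sρ ^ a * v) :
    ∃ b₁ : ℕ, ∀ b, b₁ ≤ b → ∀ x ∈ P b, (∃ c, x ∈ redK hk ρ (L c)) → x ∈ redK hk ρ (L b) := by
  obtain ⟨b₁, -, -, -, hS3⟩ := exists_saturationK hk ρ t hmono htL hfg hker P hPmono hTP hPfin hLP b₀ hP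
  refine ⟨b₁, fun b hb x hxP hxV => ?_⟩
  exact UB.mem_of_mem_iUnion_of_mem_P Tρ sρ (map_mul_map_inv ρ t) P (fun c => redK hk ρ (L c))
    (monotone_redK hk ρ hmono) hPmono b₁
    (fun b hb x hx hx' => hS3_of_red_inf_le hk ρ t (hS3 b hb (hcap b) hkerx) x hx hx')
    hsep b hb x hxV hxP

/-- **Saturation on the overlap**: `B̄ˣ ⊓ P b ≤ V b` for `b ≥ b₁`, where `B̄ˣ = ⋃ sᵃ V c`.  As
`exists_forall_mem_red_of_mem_P`, with moreover the cusp separation `hsep₁` on the first chart. -/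
theorem exists_forall_mem_red_of_mem_overlap
    (hmono : Monotone L) (htL : ∀ b, ∀ f ∈ L b, (t : O) * f ∈ L (b + 1))
    (hfg : ∀ b, (L b).FG)
    (hker : ∀ b, ∀ f ∈ L b, ρ f = 0 → f ∈ maximalIdeal A • L b)
    (hcap : ∀ b : ℕ, chartB L ⊓ tw A t b (chartB' t L) ≤ L b)
    (hkerx : ∀ z ∈ chartBx t L, ρ z = 0 → z ∈ maximalIdeal A • chartBx t L)
    (P : ℕ → Submodule k Om) (hPmono : Monotone P)
    (hTP : ∀ b, ∀ p ∈ P b, Tρ * p ∈ P (b + 1))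
    (hPfin : ∀ b, Module.Finite k (P b))
    (hLP : ∀ b, ∀ f ∈ L b, ρ f ∈ P b) (b₀ : ℕ)
    (hP : ∀ b, b₀ ≤ b → ∀ p ∈ P (b + 1), ∃ p₁ ∈ P b, ∃ p₂ ∈ P b, p = p₁ + Tρ * p₂)
    (hsep : ∀ z : Om, (∃ a, ∃ p ∈ P a, z = sρ ^ a * p) →
      (∃ a, ∃ v ∈ redK hk ρ (L a), sρ * z = sρ ^ a * v) → ∃ a, ∃ v ∈ redK hk ρ (L a), z = sρ ^ a * v)
    (hsep₁ : ∀ z : Om, (∃ c, z ∈ P c) → (∃ c, Tρ * z ∈ redK hk ρ (L c)) → ∃ c, z ∈ redK hk ρ (L c)) :
    ∃ b₁ : ℕ, ∀ b, b₁ ≤ b → ∀ y ∈ P b, (∃ a c, ∃ v ∈ redK hk ρ (L c), y = sρ ^ a * v) →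
      y ∈ redK hk ρ (L b) := by
  obtain ⟨b₁, -, -, -, hS3⟩ := exists_saturationK hk ρ t hmono htL hfg hker P hPmono hTP hPfin hLP b₀ hP
  refine ⟨b₁, fun b hb y hyP hy => ?_⟩
  exact UB.mem_of_mem_overlap_of_mem_P Tρ sρ (map_mul_map_inv ρ t) P (fun c => redK hk ρ (L c))
    (monotone_redK hk ρ hmono) hPmono hTP b₁
    (fun b hb x hx hx' => hS3_of_red_inf_le hk ρ t (hS3 b hb (hcap b) hkerx) x hx hx')
    hsep hsep₁ b hb y hyP hy

/-- **(b) The upper bound (UB) for the glued spaces** (field `UB` of `C0two.CountData2`): there is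
`b₁` such that for `a + b ≥ b₁`, every `k`-subspace `Lbar ≤ Ω` contained in `B̄ˣ ⊓ P(a,b)`
(i.e. `Tᵃ x ∈ P (a+b)` and `x ∈ ⋃ sᵃ' V c` for all `x ∈ Lbar`) has
`dim Lbar ≤ dim V (a+b)`, `V c = redK hk ρ (L c)`. -/
theorem exists_forall_finrank_glued_le
    (hmono : Monotone L) (htL : ∀ b, ∀ f ∈ L b, (t : O) * f ∈ L (b + 1))
    (hfg : ∀ b, (L b).FG)
    (hker : ∀ b, ∀ f ∈ L b, ρ f = 0 → f ∈ maximalIdeal A • L b)
    (hcap : ∀ b : ℕ, chartB L ⊓ tw A t b (chartB' t L) ≤ L b)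
    (hkerx : ∀ z ∈ chartBx t L, ρ z = 0 → z ∈ maximalIdeal A • chartBx t L)
    (P : ℕ → Submodule k Om) (hPmono : Monotone P)
    (hTP : ∀ b, ∀ p ∈ P b, Tρ * p ∈ P (b + 1))
    (hPfin : ∀ b, Module.Finite k (P b))
    (hLP : ∀ b, ∀ f ∈ L b, ρ f ∈ P b) (b₀ : ℕ)
    (hP : ∀ b, b₀ ≤ b → ∀ p ∈ P (b + 1), ∃ p₁ ∈ P b, ∃ p₂ ∈ P b, p = p₁ + Tρ * p₂)
    (hsep : ∀ z : Om, (∃ a, ∃ p ∈ P a, z = sρ ^ a * p) →
      (∃ a, ∃ v ∈ redK hk ρ (L a), sρ * z = sρ ^ a * v) → ∃ a, ∃ v ∈ redK hk ρ (L a), z = sρ ^ a * v)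
    (hsep₁ : ∀ z : Om, (∃ c, z ∈ P c) → (∃ c, Tρ * z ∈ redK hk ρ (L c)) → ∃ c, z ∈ redK hk ρ (L c)) :
    ∃ b₁ : ℕ, ∀ a b : ℕ, b₁ ≤ a + b → ∀ Lbar : Submodule k Om,
      (∀ x ∈ Lbar, Tρ ^ a * x ∈ P (a + b) ∧ ∃ a' c, ∃ v ∈ redK hk ρ (L c), x = sρ ^ a' * v) →
      finrank k Lbar ≤ finrank k (redK hk ρ (L (a + b))) := by
  obtain ⟨b₁, -, -, -, hS3⟩ := exists_saturationK hk ρ t hmono htL hfg hker P hPmono hTP hPfin hLP b₀ hP
  refine ⟨b₁, fun a b hab Lbar hLbar => ?_⟩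
  have : ∀ c, FiniteDimensional k (redK hk ρ (L c)) := fun c =>
    haveI := hPfin c
    Submodule.finiteDimensional_of_le (red_le_P hk ρ hLP c)
  exact UB.finrank_glued_le Tρ sρ (map_mul_map_inv ρ t) P (fun c => redK hk ρ (L c))
    (monotone_redK hk ρ hmono) hPmono hTP (mul_mem_red_succ hk ρ t htL) b₁
    (fun b hb x hx hx' => hS3_of_red_inf_le hk ρ t (hS3 b hb (hcap b) hkerx) x hx hx')
    hsep hsep₁ a b hab Lbar hLbar

end Internal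

section GenDeg

/-! ### Generation in degree one for the `k`-side filtration (`hP`) -/

variable {k : Type*} [Field k] {Om : Type*} [CommRing Om] [Algebra k Om]

/-- `hP` from the sup-form `P (b+2) = P (b+1) ⊔ T (P (b+1))` (e.g. `Lattice2.Dim.Pb_eq_sup_map`),
for any `k`-linear map `Tlin` which is multiplication by `T`. -/
theorem hP_of_eq_sup_map (T : Om) (P : ℕ → Submodule k Om) (Tlin : Om →ₗ[k] Om)
    (hTlin : ∀ x, Tlin x = T * x) (b₀ : ℕ)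
    (h : ∀ b, b₀ ≤ b → P (b + 2) = P (b + 1) ⊔ (P (b + 1)).map Tlin) :
    ∀ b, b₀ + 1 ≤ b → ∀ p ∈ P (b + 1), ∃ p₁ ∈ P b, ∃ p₂ ∈ P b, p = p₁ + T * p₂ := by
  intro b hb p hp
  obtain ⟨b', rfl⟩ : ∃ b', b = b' + 1 := ⟨b - 1, by omega⟩
  rw [h b' (by omega), Submodule.mem_sup] at hp
  obtain ⟨p₁, hp₁, _, ⟨p₂, hp₂, rfl⟩, rfl⟩ := hp
  exact ⟨p₁, hp₁, p₂, hp₂, by rw [hTlin]⟩

/-- `hP` from linear growth of `dim P b` and the pole-filtration property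
(`UB.eq_sup_map_of_linear_growth`). -/
theorem hP_of_linear_growth (T : Om) (P : ℕ → Submodule k Om)
    [∀ b, FiniteDimensional k (P b)] (hPmono : Monotone P)
    (hTP : ∀ b, ∀ p ∈ P b, T * p ∈ P (b + 1))
    (hPker : ∀ b, ∀ p ∈ P (b + 1), T * p ∈ P (b + 1) → p ∈ P b)
    (n : ℕ) (c : ℤ) (b₀ : ℕ) (hdim : ∀ b, b₀ ≤ b → (finrank k (P b) : ℤ) = n * b + c) :
    ∀ b, b₀ + 1 ≤ b → ∀ p ∈ P (b + 1), ∃ p₁ ∈ P b, ∃ p₂ ∈ P b, p = p₁ + T * p₂ :=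
  hP_of_eq_sup_map T P (LinearMap.mulLeft k T) (fun _ => rfl) b₀ fun b hb =>
    UB.eq_sup_map_of_linear_growth (LinearMap.mulLeft k T) P hPmono hTP hPker n c b₀ hdim b hb

end GenDeg

section Sep

/-! ### Cusp separation from a product structure `B̃ = B₁ × B₂` -/

variable {Om : Type*} [CommRing Om] {B₁ B₂ : Type*} [CommRing B₁] [CommRing B₂]
variable {σ : Type*} [SetLike σ (B₁ × B₂)] [SubringClass σ (B₁ × B₂)]

/-- `UB.mem_of_mul_mem` transported along a ring homomorphism `ι : B₁ × B₂ → Ω`: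
`Wt ⊆ range ι` is the normalisation, `Sset` the chart ring with `ι ⁻¹' Sset = S` a subring of
`B₁ × B₂` with surjective projections (L2), `st ∈ S` and the cusp-separation element
`(1, c * st.2) ∈ S`.  Then `z ∈ Wt`, `ι st * z ∈ Sset` imply `z ∈ Sset`. -/
theorem sep_of_prod (ι : B₁ × B₂ →+* Om) (Wt Sset : Set Om)
    (hW : ∀ ω ∈ Wt, ∃ x, ι x = ω) (S : σ) (hS : ∀ x, x ∈ S ↔ ι x ∈ Sset)
    (h₁ : ∀ f : B₁, ∃ g : B₂, (f, g) ∈ S) (h₂ : ∀ g : B₂, ∃ f : B₁, (f, g) ∈ S)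
    {st : B₁ × B₂} (hst : st ∈ S) {c : B₂} (he : ((1 : B₁), c * st.2) ∈ S)
    (z : Om) (hz : z ∈ Wt) (hsz : ι st * z ∈ Sset) : z ∈ Sset := by
  obtain ⟨z', rfl⟩ := hW z hz
  rw [← map_mul, ← hS] at hsz
  exact (hS z').mp (UB.mem_of_mul_mem S h₁ h₂ hst he hsz)

variable {k : Type*} [Field k] [Algebra k Om]

/-- The cusp separation `hsep₁` on the FIRST chart from the product structure
`B̃ = ⋃ P c ≅ B₁ × B₂`, (L2) and the element `(1, c * T₂) ∈ B̄`. -/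
theorem hsep₁_of_prod (T : Om) (P V : ℕ → Submodule k Om)
    (hTV : ∀ c, ∀ v ∈ V c, T * v ∈ V (c + 1))
    (ι : B₁ × B₂ →+* Om) (hPι : ∀ c, ∀ p ∈ P c, ∃ x, ι x = p)
    (S : σ) (hS : ∀ x, x ∈ S ↔ ∃ c, ι x ∈ V c)
    (h₁ : ∀ f : B₁, ∃ g : B₂, (f, g) ∈ S) (h₂ : ∀ g : B₂, ∃ f : B₁, (f, g) ∈ S)
    (Tt : B₁ × B₂) (hTt : ι Tt = T) {c : B₂} (he : ((1 : B₁), c * Tt.2) ∈ S) :
    ∀ z : Om, (∃ c, z ∈ P c) → (∃ c, T * z ∈ V c) → ∃ c, z ∈ V c := by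
  have hTS : Tt ∈ S := by
    obtain ⟨c, hc⟩ := (hS 1).mp (one_mem S)
    refine (hS Tt).mpr ⟨c + 1, ?_⟩
    have := hTV c _ hc
    rwa [map_one, mul_one, ← hTt] at this
  intro z hzP hz
  refine sep_of_prod ι {ω | ∃ c, ω ∈ P c} {ω | ∃ c, ω ∈ V c} ?_ S hS h₁ h₂ hTS he z hzP ?_
  · rintro ω ⟨c, hc⟩
    exact hPι c ω hc
  · rw [hTt]
    exact hz

/-- The cusp separation `hsep` on the SECOND chart from the product structure
`B̃' = ⋃ sᵃ P a ≅ B₁' × B₂'`, (L2) and the element `(1, c * s₂) ∈ B̄' = ⋃ sᵃ V a`. -/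
theorem hsep_of_prod (s : Om) (P V : ℕ → Submodule k Om) (hVmono : Monotone V)
    (ι : B₁ × B₂ →+* Om) (hPι : ∀ a, ∀ p ∈ P a, ∃ x, ι x = s ^ a * p)
    (S : σ) (hS : ∀ x, x ∈ S ↔ ∃ a, ∃ v ∈ V a, ι x = s ^ a * v)
    (h₁ : ∀ f : B₁, ∃ g : B₂, (f, g) ∈ S) (h₂ : ∀ g : B₂, ∃ f : B₁, (f, g) ∈ S)
    (st : B₁ × B₂) (hst : ι st = s) {c : B₂} (he : ((1 : B₁), c * st.2) ∈ S) :
    ∀ z : Om, (∃ a, ∃ p ∈ P a, z = s ^ a * p) → (∃ a, ∃ v ∈ V a, s * z = s ^ a * v) →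
      ∃ a, ∃ v ∈ V a, z = s ^ a * v := by
  have hsS : st ∈ S := by
    obtain ⟨a, v, hv, hav⟩ := (hS 1).mp (one_mem S)
    refine (hS st).mpr ⟨a + 1, v, hVmono (Nat.le_succ a) hv, ?_⟩
    rw [map_one] at hav
    rw [hst, pow_succ', mul_assoc, ← hav, mul_one]
  intro z hzP hz
  refine sep_of_prod ι {ω | ∃ a, ∃ p ∈ P a, ω = s ^ a * p} {ω | ∃ a, ∃ v ∈ V a, ω = s ^ a * v}
    ?_ S hS h₁ h₂ hsS he z hzP ?_
  · rintro ω ⟨a, p, hp, rfl⟩
    exact hPι a p hp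
  · rw [hst]
    exact hz

end Sep

section Transport

/-! ### Transport of the node count along an embedding `ι : W → Ω` -/

variable {k : Type*} [Field k] {W Om : Type*} [AddCommGroup W] [Module k W] [AddCommGroup Om]
  [Module k Om]

theorem finite_comap (ι : W →ₗ[k] Om) (hι : Function.Injective ι) (X : Submodule k Om)
    [Module.Finite k X] : Module.Finite k (X.comap ι) := by
  let φ : X.comap ι →ₗ[k] X :=
    { toFun := fun x => ⟨ι x.1, x.2⟩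
      map_add' := fun x y => by ext; simp
      map_smul' := fun a x => by ext; simp }
  have hφ : Function.Injective φ := by
    intro x y hxy
    have : ι x.1 = ι y.1 := congrArg (fun z : X => (z : Om)) hxy
    exact Subtype.ext (hι this)
  exact Module.Finite.of_injective φ hφ

theorem finrank_comap_eq (ι : W →ₗ[k] Om) (hι : Function.Injective ι) (X : Submodule k Om)
    (hX : X ≤ LinearMap.range ι) : finrank k (X.comap ι) = finrank k X := by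
  have e := Submodule.equivMapOfInjective ι hι (X.comap ι)
  rw [e.finrank_eq, Submodule.map_comap_eq, inf_eq_right.mpr hX]

/-- `UB.finrank_quotient_le_finrank_quotient` transported along an injective linear map
`ι : W → Ω` whose range is `⋃ Q c`: `N = ι⁻¹ (⋃ Nb c)`, `S = ι⁻¹ (⋃ Sb c)`. -/
theorem finrank_quotient_le_of_embedding (ι : W →ₗ[k] Om) (hι : Function.Injective ι)
    (Q : ℕ → Submodule k Om) (hQmono : Monotone Q) [∀ b, FiniteDimensional k (Q b)]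
    (hrange : ∀ ω, ω ∈ Set.range ι ↔ ∃ c, ω ∈ Q c)
    (Nb Sb : ℕ → Submodule k Om) (hNbQ : ∀ b, Nb b ≤ Q b) (hSbQ : ∀ b, Sb b ≤ Q b)
    (N S : Submodule k W) (hN : ∀ x, x ∈ N ↔ ∃ c, ι x ∈ Nb c)
    (hS : ∀ x, x ∈ S ↔ ∃ c, ι x ∈ Sb c) (δ b₀ : ℕ)
    (hdimN : ∀ b, b₀ ≤ b → finrank k (Q b) ≤ finrank k (Nb b) + δ)
    (hdimS : ∀ b, b₀ ≤ b → finrank k (Q b) = finrank k (Sb b) + δ)
    (hsat : ∀ b, b₀ ≤ b → ∀ x ∈ Q b, (∃ c, x ∈ Sb c) → x ∈ Sb b) :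
    Module.Finite k (W ⧸ N) ∧ Module.Finite k (W ⧸ S) ∧ finrank k (W ⧸ S) = δ ∧
      finrank k (W ⧸ N) ≤ finrank k (W ⧸ S) := by
  have hQr : ∀ b, Q b ≤ LinearMap.range ι := fun b ω hω => (hrange ω).mpr ⟨b, hω⟩
  have : ∀ b, FiniteDimensional k ((Q b).comap ι) := fun b => finite_comap ι hι (Q b)
  refine UB.finrank_quotient_le_finrank_quotient (fun b => (Q b).comap ι)
    (fun _ _ h => Submodule.comap_mono (hQmono h)) (fun v => (hrange (ι v)).mp ⟨v, rfl⟩) N S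
    (fun b => (Nb b).comap ι) (fun b => (Sb b).comap ι)
    (fun b x hx => (hN x).mpr ⟨b, hx⟩) (fun b => Submodule.comap_mono (hNbQ b))
    (fun b x hx => (hS x).mpr ⟨b, hx⟩) (fun b => Submodule.comap_mono (hSbQ b)) δ b₀ ?_ ?_ ?_
  · intro b hb
    rw [finrank_comap_eq ι hι _ (hQr b), finrank_comap_eq ι hι _ ((hNbQ b).trans (hQr b))]
    exact hdimN b hb
  · intro b hb
    rw [finrank_comap_eq ι hι _ (hQr b), finrank_comap_eq ι hι _ ((hSbQ b).trans (hQr b))]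
    exact hdimS b hb
  · rintro b hb x ⟨hxS, hxQ⟩
    exact hsat b hb (ι x) hxQ ((hS x).mp hxS)

end Transport

section TransportTwist

/-! ### Transport for the second chart: the filtration `sᵃ P a` -/

variable {k : Type*} [Field k] {W : Type*} [AddCommGroup W] [Module k W] {Om : Type*} [CommRing Om]
  [Algebra k Om]

theorem finrank_map_mulLeft_of_mul_eq_one {u v : Om} (huv : u * v = 1) (X : Submodule k Om) :
    finrank k (X.map (LinearMap.mulLeft k v)) = finrank k X := by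
  have hinj : Function.Injective (LinearMap.mulLeft k v) := by
    intro x y hxy
    have h : v * x = v * y := hxy
    calc x = u * v * x := by rw [huv, one_mul]
      _ = u * v * y := by rw [mul_assoc, h, ← mul_assoc]
      _ = y := by rw [huv, one_mul]
  exact (Submodule.equivMapOfInjective _ hinj X).finrank_eq.symm

/-- **Node count on the second chart, generic form.**  `T * s = 1`; `P`, `V`, `Vi` filtrations of
`Ω` with `V b, Vi b ≤ P b`, `T P b ≤ P (b+1)`, `T V c ≤ V (c+1)`; `ι' : W → Ω` injective with range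
`⋃ sᵃ P a` (`= B̃'`), `Bb' = ι'⁻¹ (⋃ sᵃ V a)` (`= B̄'`), `N' = ι'⁻¹ (⋃ sᵃ Vi a)`.  From the saturation
on the overlap `hsatx` and the counts `dim P b = dim V b + δ`, `dim P b ≤ dim Vi b + δ`:
`Bb'` has codimension exactly `δ` and `N'` has codimension at most `δ` in `W`. -/
theorem finrank_quotient_le_of_embedding_twist (T s : Om) (hTs : T * s = 1)
    (P V Vi : ℕ → Submodule k Om)
    (hTP : ∀ b, ∀ p ∈ P b, T * p ∈ P (b + 1))
    (hPfin : ∀ b, Module.Finite k (P b))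
    (hTV : ∀ c, ∀ v ∈ V c, T * v ∈ V (c + 1))
    (hVP : ∀ b, V b ≤ P b) (hViP : ∀ b, Vi b ≤ P b)
    (ι' : W →ₗ[k] Om) (hι' : Function.Injective ι')
    (hι'_range : ∀ ω, ω ∈ Set.range ι' ↔ ∃ a, ∃ p ∈ P a, ω = s ^ a * p)
    (Bb' : Submodule k W)
    (hBb' : ∀ x, x ∈ Bb' ↔ ∃ a, ∃ v ∈ V a, ι' x = s ^ a * v)
    (δ b₂ : ℕ)
    (hdimS : ∀ b, b₂ ≤ b → finrank k (P b) = finrank k (V b) + δ)
    (hsatx : ∀ b, b₂ ≤ b → ∀ y ∈ P b, (∃ a c, ∃ v ∈ V c, y = s ^ a * v) → y ∈ V b)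
    (hdimN : ∀ b, b₂ ≤ b → finrank k (P b) ≤ finrank k (Vi b) + δ)
    (N' : Submodule k W)
    (hN' : ∀ x, x ∈ N' ↔ ∃ a, ∃ v ∈ Vi a, ι' x = s ^ a * v) :
    Module.Finite k (W ⧸ N') ∧ Module.Finite k (W ⧸ Bb') ∧ finrank k (W ⧸ Bb') = δ ∧
      finrank k (W ⧸ N') ≤ finrank k (W ⧸ Bb') := by
  have hTs' : ∀ j : ℕ, T ^ j * s ^ j = 1 := fun j => by rw [← mul_pow, hTs, one_pow]
  have : ∀ b, FiniteDimensional k (P b) := hPfin
  -- the twisted families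
  let m : ℕ → Om →ₗ[k] Om := fun a => LinearMap.mulLeft k (s ^ a)
  have hmem : ∀ (X : Submodule k Om) (a : ℕ) (ω : Om),
      ω ∈ X.map (m a) ↔ ∃ p ∈ X, ω = s ^ a * p := by
    intro X a ω
    rw [Submodule.mem_map]
    constructor
    · rintro ⟨p, hp, rfl⟩
      exact ⟨p, hp, rfl⟩
    · rintro ⟨p, hp, rfl⟩
      exact ⟨p, hp, rfl⟩
  have hdim : ∀ (X : Submodule k Om) (a : ℕ),
      finrank k (X.map (m a)) = finrank k X := fun X a =>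
    finrank_map_mulLeft_of_mul_eq_one (hTs' a) X
  have hQmono : Monotone fun a => (P a).map (m a) := by
    refine monotone_nat_of_le_succ fun a ω hω => ?_
    rw [hmem] at hω ⊢
    obtain ⟨p, hp, rfl⟩ := hω
    refine ⟨T * p, hTP a p hp, ?_⟩
    rw [pow_succ]
    linear_combination (-(s ^ a * p)) * hTs
  have hTVpow : ∀ (j c : ℕ) (v : Om), v ∈ V c → T ^ j * v ∈ V (c + j) := by
    intro j
    induction j with
    | zero => intro c v hv; simpa using hv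
    | succ j ih =>
      intro c v hv
      have := hTV _ _ (ih c v hv)
      rwa [← mul_assoc, ← pow_succ'] at this
  refine finrank_quotient_le_of_embedding ι' hι' (fun a => (P a).map (m a)) hQmono
    ?_ (fun a => (Vi a).map (m a)) (fun a => (V a).map (m a))
    (fun a => Submodule.map_mono (hViP a)) (fun a => Submodule.map_mono (hVP a))
    N' Bb' ?_ ?_ δ b₂ ?_ ?_ ?_
  · intro ω
    rw [hι'_range]
    exact exists_congr fun a => (hmem _ a ω).symm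
  · intro x
    rw [hN']
    exact exists_congr fun a => (hmem _ a _).symm
  · intro x
    rw [hBb']
    exact exists_congr fun a => (hmem _ a _).symm
  · intro b hb
    rw [hdim, hdim]
    exact hdimN b hb
  · intro b hb
    rw [hdim, hdim]
    exact hdimS b hb
  · intro b hb x hxQ hxS
    rw [hmem] at hxQ ⊢
    obtain ⟨p, hp, rfl⟩ := hxQ
    obtain ⟨c, hc⟩ := hxS
    rw [hmem] at hc
    obtain ⟨v, hv, hpv⟩ := hc
    refine ⟨p, hsatx b hb p hp ?_, rfl⟩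
    -- `p = T ^ b * s ^ c * v`
    have hp' : p = T ^ b * (s ^ c * v) := by
      rw [← hpv, ← mul_assoc, hTs', one_mul]
    rcases le_total b c with h | h
    · refine ⟨c - b, c, v, hv, ?_⟩
      have e : s ^ c = s ^ (c - b) * s ^ b := by rw [← pow_add, Nat.sub_add_cancel h]
      rw [hp', e]
      linear_combination (s ^ (c - b) * v) * hTs' b
    · refine ⟨0, c + (b - c), T ^ (b - c) * v, hTVpow _ _ _ hv, ?_⟩
      have e : T ^ b = T ^ (b - c) * T ^ c := by rw [← pow_add, Nat.sub_add_cancel h]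
      rw [hp', e, pow_zero, one_mul]
      linear_combination (T ^ (b - c) * v) * hTs' c

end TransportTwist

section Main

/-! ### The main theorems -/

variable {A : Type*} [CommRing A] [IsLocalRing A]
variable {k : Type*} [Field k] [Algebra A k]
variable {O : Type*} [CommRing O] [Algebra A O]
variable {Om : Type*} [CommRing Om] [Algebra A Om] [Algebra k Om] [IsScalarTower A k Om]
variable (hk : Function.Surjective (algebraMap A k)) (ρ : O →ₐ[A] Om) (t : Oˣ)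
  {L : ℕ → Submodule A O}
variable {B₁ B₂ : Type*} [CommRing B₁] [CommRing B₂] [Algebra k B₁] [Algebra k B₂]
variable {B₁' B₂' : Type*} [CommRing B₁'] [CommRing B₂'] [Algebra k B₁'] [Algebra k B₂']

local notation "Tρ" => ρ ((t : Oˣ) : O)
local notation "sρ" => ρ ((t⁻¹ : Oˣ) : O)

/-- **(a), first chart.**  `B̃ = ⋃ P c ≅ B₁ × B₂` via `ι`, `B̄ = Bb = ι⁻¹ (⋃ red (L c))`,
`N = ι⁻¹ (⋃ red (Li c))`.  From the saturation `hsat` (`exists_forall_mem_red_of_mem_P`) and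
the Riemann-Roch counts: `B̄` has codimension exactly `δ` and `N` has codimension at most `δ`. -/
theorem finrank_quotient_le_chart₁ (P : ℕ → Submodule k Om) (hPmono : Monotone P)
    (hPfin : ∀ b, Module.Finite k (P b))
    (hLP : ∀ b, ∀ f ∈ L b, ρ f ∈ P b)
    (ι : (B₁ × B₂) →ₐ[k] Om) (hι : Function.Injective ι)
    (hι_range : ∀ ω, ω ∈ Set.range ι ↔ ∃ c, ω ∈ P c)
    (Bb : Submodule k (B₁ × B₂)) (hBb : ∀ x, x ∈ Bb ↔ ∃ c, ι x ∈ redK hk ρ (L c))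
    (δ b₂ : ℕ)
    (hdimS : ∀ b, b₂ ≤ b →
      finrank k (P b) = finrank k (redK hk ρ (L b)) + δ)
    (hsat : ∀ b, b₂ ≤ b → ∀ x ∈ P b, (∃ c, x ∈ redK hk ρ (L c)) → x ∈ redK hk ρ (L b))
    {Li : ℕ → Submodule A O} (hLiP : ∀ b, ∀ f ∈ Li b, ρ f ∈ P b)
    (hdimN : ∀ b, b₂ ≤ b →
      finrank k (P b) ≤ finrank k (redK hk ρ (Li b)) + δ)
    (N : Submodule k (B₁ × B₂)) (hN : ∀ x, x ∈ N ↔ ∃ c, ι x ∈ redK hk ρ (Li c)) :
    Module.Finite k ((B₁ × B₂) ⧸ N) ∧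
      Module.Finite k ((B₁ × B₂) ⧸ Bb) ∧
      finrank k ((B₁ × B₂) ⧸ Bb) = δ ∧
      finrank k ((B₁ × B₂) ⧸ N) ≤ finrank k ((B₁ × B₂) ⧸ Bb) := by
  have : ∀ b, FiniteDimensional k (P b) := hPfin
  exact finrank_quotient_le_of_embedding ι.toLinearMap hι P hPmono hι_range
    (fun c => redK hk ρ (Li c)) (fun c => redK hk ρ (L c)) (red_le_P hk ρ hLiP) (red_le_P hk ρ hLP) N Bb hN hBb
    δ b₂ hdimN hdimS hsat


/-- **(a), second chart.**  `B̃' = ⋃ sᵃ P a ≅ B₁' × B₂'` via `ι'`,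
`B̄' = Bb' = ι'⁻¹ (⋃ sᵃ red (L a))`, `N' = ι'⁻¹ (⋃ sᵃ red (Li a))`.  From the saturation on the
overlap `hsatx` (`exists_forall_mem_red_of_mem_overlap`) and the SAME Riemann-Roch counts as for
the first chart: `B̄'` has codimension exactly `δ` and `N'` has codimension at most `δ`. -/
theorem finrank_quotient_le_chart₂ (htL : ∀ b, ∀ f ∈ L b, (t : O) * f ∈ L (b + 1))
    (P : ℕ → Submodule k Om)
    (hTP : ∀ b, ∀ p ∈ P b, Tρ * p ∈ P (b + 1))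
    (hPfin : ∀ b, Module.Finite k (P b))
    (hLP : ∀ b, ∀ f ∈ L b, ρ f ∈ P b)
    (ι' : (B₁' × B₂') →ₐ[k] Om) (hι' : Function.Injective ι')
    (hι'_range : ∀ ω, ω ∈ Set.range ι' ↔ ∃ a, ∃ p ∈ P a, ω = sρ ^ a * p)
    (Bb' : Submodule k (B₁' × B₂'))
    (hBb' : ∀ x, x ∈ Bb' ↔ ∃ a, ∃ v ∈ redK hk ρ (L a), ι' x = sρ ^ a * v)
    (δ b₂ : ℕ)
    (hdimS : ∀ b, b₂ ≤ b →
      finrank k (P b) = finrank k (redK hk ρ (L b)) + δ)
    (hsatx : ∀ b, b₂ ≤ b → ∀ y ∈ P b, (∃ a c, ∃ v ∈ redK hk ρ (L c), y = sρ ^ a * v) →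
      y ∈ redK hk ρ (L b))
    {Li : ℕ → Submodule A O} (hLiP : ∀ b, ∀ f ∈ Li b, ρ f ∈ P b)
    (hdimN : ∀ b, b₂ ≤ b →
      finrank k (P b) ≤ finrank k (redK hk ρ (Li b)) + δ)
    (N' : Submodule k (B₁' × B₂'))
    (hN' : ∀ x, x ∈ N' ↔ ∃ a, ∃ v ∈ redK hk ρ (Li a), ι' x = sρ ^ a * v) :
    Module.Finite k ((B₁' × B₂') ⧸ N') ∧
      Module.Finite k ((B₁' × B₂') ⧸ Bb') ∧
      finrank k ((B₁' × B₂') ⧸ Bb') = δ ∧
      finrank k ((B₁' × B₂') ⧸ N') ≤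
        finrank k ((B₁' × B₂') ⧸ Bb') :=
  finrank_quotient_le_of_embedding_twist Tρ sρ (map_mul_map_inv ρ t) P
    (fun c => redK hk ρ (L c)) (fun c => redK hk ρ (Li c)) hTP hPfin (mul_mem_red_succ hk ρ t htL)
    (red_le_P hk ρ hLP) (red_le_P hk ρ hLiP) ι'.toLinearMap hι' hι'_range Bb' hBb' δ b₂ hdimS hsatx
    hdimN N' hN'

/-- **UBMain: the final assembly of WP-UB.**

INPUTS.
* `L b = Lam(b C∞)` with helper26's `Saturation` hypotheses (`hfg`, `hker`, `hcap`, `hkerx`).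
* `P b = P(0,b)` the `k`-side filtration of `Ω`, generated in degree one from `b₀` on (`hP`, see
  `hP_of_linear_growth`, `hP_of_eq_sup_map`).
* first chart: `B̃ = ⋃ P c ≅ B₁ × B₂` via `ι`, `B̄ = Bb = ι⁻¹ (⋃ V c)` (`V c = redK hk ρ (L c)`), (L2) =
  `h₁ h₂`, `T = ι Tt` and the cusp-separation element `(1, c * Tt.2) ∈ Bb`.
* second chart: `B̃' = ⋃ sᵃ P a ≅ B₁' × B₂'` via `ι'`, `B̄' = Bb' = ι'⁻¹ (⋃ sᵃ V a)`, (L2) =
  `h₁' h₂'`, `s = ι' st` and the cusp-separation element `(1, c' * st.2) ∈ Bb'`.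
* the Riemann-Roch count `dim P b = dim V b + δ` for `b ≥ b₂`.

OUTPUTS.
* `B̄` and `B̄'` have codimension exactly `δ` in `B₁ × B₂`, resp. `B₁' × B₂'`.
* (a) for every family `Li` with `red (Li b) ≤ P b` and `dim P b ≤ dim red (Li b) + δ` (`b ≥ b₂`):
  `N = ι⁻¹ (⋃ red (Li c))` and `N' = ι'⁻¹ (⋃ sᵃ red (Li a))` have finite codimension
  `≤ codim B̄`, resp. `≤ codim B̄'` (the hypotheses `hcodim` of
  `Goursat.exists_sum_mul_eq_one_of_glued` / `NodeLinAlg.one_mem_mul_of_subalgebra`, both charts).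
* (b) there is `b₁` with `dim Lbar ≤ dim V (a+b)` for every `Lbar ≤ B̄ˣ ⊓ P(a,b)`, `a + b ≥ b₁`
  (field `UB` of `C0two.CountData2`). -/
theorem ubMain (hmono : Monotone L) (htL : ∀ b, ∀ f ∈ L b, (t : O) * f ∈ L (b + 1))
    (hfg : ∀ b, (L b).FG)
    (hker : ∀ b, ∀ f ∈ L b, ρ f = 0 → f ∈ maximalIdeal A • L b)
    (hcap : ∀ b : ℕ, chartB L ⊓ tw A t b (chartB' t L) ≤ L b)
    (hkerx : ∀ z ∈ chartBx t L, ρ z = 0 → z ∈ maximalIdeal A • chartBx t L)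
    (P : ℕ → Submodule k Om) (hPmono : Monotone P)
    (hTP : ∀ b, ∀ p ∈ P b, Tρ * p ∈ P (b + 1))
    (hPfin : ∀ b, Module.Finite k (P b))
    (hLP : ∀ b, ∀ f ∈ L b, ρ f ∈ P b) (b₀ : ℕ)
    (hP : ∀ b, b₀ ≤ b → ∀ p ∈ P (b + 1), ∃ p₁ ∈ P b, ∃ p₂ ∈ P b, p = p₁ + Tρ * p₂)
    (ι : (B₁ × B₂) →ₐ[k] Om) (hι : Function.Injective ι)
    (hι_range : ∀ ω, ω ∈ Set.range ι ↔ ∃ c, ω ∈ P c)
    (Bb : Subalgebra k (B₁ × B₂)) (hBb : ∀ x, x ∈ Bb ↔ ∃ c, ι x ∈ redK hk ρ (L c))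
    (h₁ : ∀ f : B₁, ∃ g : B₂, (f, g) ∈ Bb) (h₂ : ∀ g : B₂, ∃ f : B₁, (f, g) ∈ Bb)
    (Tt : B₁ × B₂) (hTt : ι Tt = Tρ) (c : B₂) (he : ((1 : B₁), c * Tt.2) ∈ Bb)
    (ι' : (B₁' × B₂') →ₐ[k] Om) (hι' : Function.Injective ι')
    (hι'_range : ∀ ω, ω ∈ Set.range ι' ↔ ∃ a, ∃ p ∈ P a, ω = sρ ^ a * p)
    (Bb' : Subalgebra k (B₁' × B₂'))
    (hBb' : ∀ x, x ∈ Bb' ↔ ∃ a, ∃ v ∈ redK hk ρ (L a), ι' x = sρ ^ a * v)
    (h₁' : ∀ f : B₁', ∃ g : B₂', (f, g) ∈ Bb') (h₂' : ∀ g : B₂', ∃ f : B₁', (f, g) ∈ Bb')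
    (st : B₁' × B₂') (hst : ι' st = sρ) (c' : B₂') (he' : ((1 : B₁'), c' * st.2) ∈ Bb')
    (δ b₂ : ℕ)
    (hdimS : ∀ b, b₂ ≤ b →
      finrank k (P b) = finrank k (redK hk ρ (L b)) + δ) :
    (Module.Finite k ((B₁ × B₂) ⧸ Subalgebra.toSubmodule Bb) ∧
      finrank k ((B₁ × B₂) ⧸ Subalgebra.toSubmodule Bb) = δ) ∧
    (Module.Finite k ((B₁' × B₂') ⧸ Subalgebra.toSubmodule Bb') ∧
      finrank k ((B₁' × B₂') ⧸ Subalgebra.toSubmodule Bb') = δ) ∧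
    (∀ Li : ℕ → Submodule A O, (∀ b, ∀ f ∈ Li b, ρ f ∈ P b) →
      (∀ b, b₂ ≤ b →
        finrank k (P b) ≤ finrank k (redK hk ρ (Li b)) + δ) →
      (∀ N : Submodule k (B₁ × B₂), (∀ x, x ∈ N ↔ ∃ c, ι x ∈ redK hk ρ (Li c)) →
        Module.Finite k ((B₁ × B₂) ⧸ N) ∧
        finrank k ((B₁ × B₂) ⧸ N) ≤
          finrank k ((B₁ × B₂) ⧸ Subalgebra.toSubmodule Bb)) ∧
      (∀ N' : Submodule k (B₁' × B₂'),
        (∀ x, x ∈ N' ↔ ∃ a, ∃ v ∈ redK hk ρ (Li a), ι' x = sρ ^ a * v) →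
        Module.Finite k ((B₁' × B₂') ⧸ N') ∧
        finrank k ((B₁' × B₂') ⧸ N') ≤
          finrank k ((B₁' × B₂') ⧸ Subalgebra.toSubmodule Bb'))) ∧
    ∃ b₁ : ℕ, ∀ a b : ℕ, b₁ ≤ a + b → ∀ Lbar : Submodule k Om,
      (∀ x ∈ Lbar, Tρ ^ a * x ∈ P (a + b) ∧ ∃ a' c, ∃ v ∈ redK hk ρ (L c), x = sρ ^ a' * v) →
      finrank k Lbar ≤ finrank k (redK hk ρ (L (a + b))) := by
  -- the two cusp separations
  have hsep₁ : ∀ z : Om, (∃ c, z ∈ P c) → (∃ c, Tρ * z ∈ redK hk ρ (L c)) → ∃ c, z ∈ redK hk ρ (L c) :=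
    hsep₁_of_prod Tρ P (fun c => redK hk ρ (L c)) (mul_mem_red_succ hk ρ t htL) (ι : B₁ × B₂ →+* Om)
      (fun c p hp => (hι_range p).mpr ⟨c, hp⟩) Bb hBb h₁ h₂ Tt hTt he
  have hsep : ∀ z : Om, (∃ a, ∃ p ∈ P a, z = sρ ^ a * p) →
      (∃ a, ∃ v ∈ redK hk ρ (L a), sρ * z = sρ ^ a * v) → ∃ a, ∃ v ∈ redK hk ρ (L a), z = sρ ^ a * v :=
    hsep_of_prod sρ P (fun c => redK hk ρ (L c)) (monotone_redK hk ρ hmono) (ι' : B₁' × B₂' →+* Om)
      (fun a p hp => (hι'_range _).mpr ⟨a, p, hp, rfl⟩) Bb' hBb' h₁' h₂' st hst he'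
  -- the saturation on the overlap
  obtain ⟨b₁, hb₁⟩ := exists_forall_mem_red_of_mem_overlap hk ρ t hmono htL hfg hker hcap hkerx P
    hPmono hTP hPfin hLP b₀ hP hsep hsep₁
  obtain ⟨b₁', hb₁'⟩ := exists_forall_finrank_glued_le hk ρ t hmono htL hfg hker hcap hkerx P
    hPmono hTP hPfin hLP b₀ hP hsep hsep₁
  -- a common bound
  set b₃ := max b₁ b₂ with hb₃
  have hdimS' : ∀ b, b₃ ≤ b →
      finrank k (P b) = finrank k (redK hk ρ (L b)) + δ :=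
    fun b hb => hdimS b ((le_max_right _ _).trans hb)
  have hsatx : ∀ b, b₃ ≤ b → ∀ y ∈ P b, (∃ a c, ∃ v ∈ redK hk ρ (L c), y = sρ ^ a * v) →
      y ∈ redK hk ρ (L b) := fun b hb => hb₁ b ((le_max_left _ _).trans hb)
  have hsat : ∀ b, b₃ ≤ b → ∀ x ∈ P b, (∃ c, x ∈ redK hk ρ (L c)) → x ∈ redK hk ρ (L b) := by
    intro b hb x hxP ⟨c, hc⟩
    exact hsatx b hb x hxP ⟨0, c, x, hc, by rw [pow_zero, one_mul]⟩
  have key₁ : ∀ Li : ℕ → Submodule A O, (∀ b, ∀ f ∈ Li b, ρ f ∈ P b) →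
      (∀ b, b₂ ≤ b →
        finrank k (P b) ≤ finrank k (redK hk ρ (Li b)) + δ) →
      ∀ N : Submodule k (B₁ × B₂), (∀ x, x ∈ N ↔ ∃ c, ι x ∈ redK hk ρ (Li c)) →
        Module.Finite k ((B₁ × B₂) ⧸ N) ∧
        Module.Finite k ((B₁ × B₂) ⧸ Subalgebra.toSubmodule Bb) ∧
        finrank k ((B₁ × B₂) ⧸ Subalgebra.toSubmodule Bb) = δ ∧
        finrank k ((B₁ × B₂) ⧸ N) ≤
          finrank k ((B₁ × B₂) ⧸ Subalgebra.toSubmodule Bb) :=
    fun Li hLiP hdimN N hN =>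
      finrank_quotient_le_chart₁ hk ρ P hPmono hPfin hLP ι hι hι_range (Subalgebra.toSubmodule Bb)
        hBb δ b₃ hdimS' hsat hLiP (fun b hb => hdimN b ((le_max_right _ _).trans hb)) N hN
  have key₂ : ∀ Li : ℕ → Submodule A O, (∀ b, ∀ f ∈ Li b, ρ f ∈ P b) →
      (∀ b, b₂ ≤ b →
        finrank k (P b) ≤ finrank k (redK hk ρ (Li b)) + δ) →
      ∀ N' : Submodule k (B₁' × B₂'),
        (∀ x, x ∈ N' ↔ ∃ a, ∃ v ∈ redK hk ρ (Li a), ι' x = sρ ^ a * v) →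
        Module.Finite k ((B₁' × B₂') ⧸ N') ∧
        Module.Finite k ((B₁' × B₂') ⧸ Subalgebra.toSubmodule Bb') ∧
        finrank k ((B₁' × B₂') ⧸ Subalgebra.toSubmodule Bb') = δ ∧
        finrank k ((B₁' × B₂') ⧸ N') ≤
          finrank k ((B₁' × B₂') ⧸ Subalgebra.toSubmodule Bb') :=
    fun Li hLiP hdimN N' hN' =>
      finrank_quotient_le_chart₂ hk ρ t htL P hTP hPfin hLP ι' hι' hι'_range
        (Subalgebra.toSubmodule Bb') hBb' δ b₃ hdimS' hsatx hLiP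
        (fun b hb => hdimN b ((le_max_right _ _).trans hb)) N' hN'
  refine ⟨?_, ?_, fun Li hLiP hdimN => ⟨fun N hN => ?_, fun N' hN' => ?_⟩, b₁', hb₁'⟩
  · obtain ⟨-, h2, h3, -⟩ := key₁ L hLP (fun b hb => (hdimS b hb).le)
      (Subalgebra.toSubmodule Bb) hBb
    exact ⟨h2, h3⟩
  · obtain ⟨-, h2, h3, -⟩ := key₂ L hLP (fun b hb => (hdimS b hb).le)
      (Subalgebra.toSubmodule Bb') hBb'
    exact ⟨h2, h3⟩
  · obtain ⟨h1, -, -, h4⟩ := key₁ Li hLiP hdimN N hN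
    exact ⟨h1, h4⟩
  · obtain ⟨h1, -, -, h4⟩ := key₂ Li hLiP hdimN N' hN'
    exact ⟨h1, h4⟩

end Main

end Fermat.Agent.S34x.UBMain
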