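/-
helper54 (P-S34): the formal glue between the frozen statement S34 and the Kummer form of
Theorem B at the GOOD levels; in particular the DESCENT `M₀ q → N' q` is done here, at the level
of the final Kummer statement (no second embedding, no reductions are involved in the descent).

* E8 = `S31Red.TorsionSemistable N` (helper66, `Gateway/S34Export.lean`).
  `s34_of_exportInputs`: the frozen S34 from the gateway's `ExportInputs` and E8.
* `KummerSemistable N A m`: E8 in the Kummer language: for `u ∈ F_N^×` with `m ∣ ord_P u` for all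
  `P` and `τ` in the inertia group of `A`: `τ²u · u / (τu)² = c · w ^ m`.
  `torsion_of_kummerSemistable`: Kummer form implies E8 (formal Kummer calculus).
* `kummerSemistable_of_dvd_of_lt`: the Kummer form DESCENDS along `F_N ⊆ F_M`
  (`N ∣ M`, `ψ(M) N < 2 M ψ(N)`), so it is enough to prove it at the good levels
  `M = M₀ q`, `q ∤ M₀`, `4 ∣ M₀` (`q` odd) or `9 ∣ M₀` (`q = 2`):
  `KummerSemistableAtGoodLevels` is the SINGLE remaining input, `torsionSemistable_of_goodLevels`
  gives E8 at every level and `s34_of_goodLevels` the frozen S34.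
* `kummerSemistable_of_inertiaTrivial`: the Kummer form from the free step (I) and Theorem B
  in abstract shape (`RedC` = "constant reductions at both embeddings").
* `kummerSemistable_of_steps`: the same with the normalisation step (N) made explicit.
-/
import Fermat.Agent.Gateway.S31.Final
import Fermat.Agent.Gateway.S34Export
import Fermat.Agent.Gateway.Descent.KummerGlue

set_option autoImplicit false
set_option linter.style.haveILetI false

noncomputable section

namespace Fermat.Agent.S34x.Target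

open ModularCurve AlgebraicCurve Fermat.Agent.Gateway.Kummer Fermat.Agent.Gateway.S31Red
open Fermat.Agent.Gateway.Descent

local notation "Qb" => AlgebraicClosure ℚ
local notation "Γℚ" => (AlgebraicClosure ℚ ≃ₐ[ℚ] AlgebraicClosure ℚ)

/-! ## E8 and the consumer glue -/

section Final

variable {p : ℕ} {N : ℕ} [NeZero N] {S : Finset ℕ}
  {𝒪 : Type} [CommRing 𝒪] [IsDomain 𝒪] [IsDiscreteValuationRing 𝒪]
  [IsAdicComplete (IsLocalRing.maximalIdeal 𝒪) 𝒪]
  {θ : CuspForm.heckeAlgebra N 2 (↑S : Set ℕ) →+* IsLocalRing.ResidueField 𝒪}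
  {T : Type} [CommRing T] [IsLocalRing T] [IsNoetherianRing T]
  [IsAdicComplete (IsLocalRing.maximalIdeal T) T] [Algebra 𝒪 T] [IsLocalHom (algebraMap 𝒪 T)]
  [Module.Finite 𝒪 T] [Module.Free 𝒪 T]

/-- The frozen statement S34 from the export contract of the gateway and E8. -/
theorem s34_of_exportInputs (hE : Fermat.Agent.Gateway.Assembly.ExportInputs)
    (h8 : TorsionSemistable N)
    (hp : p.Prime) (hp𝒪 : (p : 𝒪) ∈ IsLocalRing.maximalIdeal 𝒪) (hpS : p ∈ S)
    (hNS : ∀ q : ℕ, q.Prime → q ∣ N → q ∈ S)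
    (H : CuspForm.HeckeGaloisRepDatum N (↑S : Set ℕ) 𝒪 θ T)
    (q : ℕ) (hq : q.Prime) (hqp : q ≠ p) (hqN : q ∣ N) (hq2 : ¬ q ^ 2 ∣ N) :
    H.ρ.IsUnipotentOnInertiaAt q := by
  obtain ⟨I⟩ := hE.core N
  exact s34_of_export Fermat.Agent.Lib.FrobDensity.frobPowerDense
    (Fermat.Agent.Gateway.Assembly.heckeTorsionActionOfCoreInputs I S hNS)
    (galoisHeckeComm N) (hE.eichlerShimura N)
    (torsionGalLevel_of_finite N (Fermat.Agent.Gateway.Assembly.finite_JTors I)) h8
    hp hp𝒪 hpS hNS H q hq hqp hqN hq2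

end Final

/-! ## The Kummer form of E8 -/

section KummerForm

variable (N : ℕ)

/-- **Theorem B, Kummer form** at level `N`, for the valuation subring `A` and the exponent `m`:
for every `u ∈ F_N^×` all of whose orders are divisible by `m` and every `τ` in the inertia
group of `A`, the function `τ²u · u / (τu)²` is a constant times an `m`-th power. -/
def KummerSemistable (A : ValuationSubring Qb) (m : ℕ) : Prop :=
  ∀ τ ∈ A.inertiaSubgroupIn ℚ, ∀ u : FF Qb N, u ≠ 0 →
    (∀ P : Place Qb (FF Qb N), (m : ℤ) ∣ P.ord u) →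
    ∃ (c : Qb) (w : FF Qb N),
      (arithmeticGalois (modularFunctionFieldFull N) τ •
          arithmeticGalois (modularFunctionFieldFull N) τ • u) * u /
        (arithmeticGalois (modularFunctionFieldFull N) τ • u) ^ 2
        = algebraMap Qb (FF Qb N) c * w ^ m

variable {N}

/-- The Kummer form implies `(τ - 1)² = 0` on the `m`-torsion. -/
theorem torsion_of_kummerSemistable {A : ValuationSubring Qb} {m : ℕ} (hm : m ≠ 0)
    (h : KummerSemistable N A m) (τ : Γℚ) (hτ : τ ∈ A.inertiaSubgroupIn ℚ)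
    (x : JZero N) (hx : m • x = 0) : τ • τ • x - 2 • τ • x + x = 0 := by
  set g := arithmeticGalois (modularFunctionFieldFull N) τ with hg
  show g • g • x - 2 • g • x + x = 0
  have hx' : (m : ℤ) • x = 0 := by rw [natCast_zsmul]; exact hx
  obtain ⟨u, hu⟩ := exists_isKummerRep hx'
  have h1 : IsKummerRep m (g • g • x) (g • g • u) := (hu.smul g).smul g
  have h2 : IsKummerRep m (2 • g • x) ((g • u) ^ 2) := (hu.smul g).pow 2
  have h4 : IsKummerRep m (g • g • x - 2 • g • x + x) ((g • g • u) / (g • u) ^ 2 * u) :=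
    (h1.div h2).mul hu
  obtain ⟨c, w, hcw⟩ := h τ hτ u hu.ne_zero (fun P => hu.dvd_ord P)
  refine h4.eq_zero_of_eq_const_mul_pow hm (c := c) (w := w) ?_
  rw [← hcw, hg]
  ring

end KummerForm

/-! ## Descent of the Kummer form along `F_N ⊆ F_M` -/

section Descent

open Fermat.Agent.S24 Fermat.Agent.S24.Setup

variable {N M : ℕ} [NeZero N] [NeZero M]

/-- the inclusion `F_N ⊆ F_M` commutes with the arithmetic Galois action -/
theorem incl_smul (hNM : N ∣ M) (τ : Γℚ) (u : FF Qb N) :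
    Incl.incl hNM (arithmeticGalois (modularFunctionFieldFull N) τ • u)
      = arithmeticGalois (modularFunctionFieldFull M) τ • Incl.incl hNM u := by
  apply Subtype.ext
  rw [Incl.coe_incl, coe_arithmeticGalois_smul, coe_arithmeticGalois_smul, Incl.coe_incl]

omit [NeZero N] in
/-- the arithmetic Galois action preserves divisibility of all orders -/
theorem dvd_ord_smul (g : SemilinearAut Qb (FF Qb N)) {m : ℕ} {u : FF Qb N}
    (hdiv : ∀ P : Place Qb (FF Qb N), (m : ℤ) ∣ P.ord u) (Q : Place Qb (FF Qb N)) :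
    (m : ℤ) ∣ Q.ord (g • u) := by
  have h := SemilinearAut.ord_smul g (g⁻¹ • Q) u
  rw [smul_inv_smul] at h
  rw [h]
  exact hdiv _

omit [NeZero N] in
/-- divisibility of the orders of `τ²u · u / (τu)²` -/
theorem dvd_ord_quot (g : SemilinearAut Qb (FF Qb N)) {m : ℕ} {u : FF Qb N} (hu : u ≠ 0)
    (hdiv : ∀ P : Place Qb (FF Qb N), (m : ℤ) ∣ P.ord u) (P : Place Qb (FF Qb N)) :
    (m : ℤ) ∣ P.ord ((g • g • u) * u / (g • u) ^ 2) := by
  have hgu : g • u ≠ 0 := (smul_ne_zero_iff_ne g).mpr hu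
  have hggu : g • g • u ≠ 0 := (smul_ne_zero_iff_ne g).mpr hgu
  have e1 := dvd_ord_smul g hdiv
  have e2 := dvd_ord_smul g e1
  rw [div_eq_mul_inv, P.ord_mul (mul_ne_zero hggu hu) (inv_ne_zero (pow_ne_zero _ hgu)),
    P.ord_mul hggu hu, P.ord_inv, ← zpow_natCast, P.ord_zpow]
  exact dvd_add (dvd_add (e2 P) (hdiv P)) ((Dvd.dvd.mul_left (e1 P) _).neg_right)

/-- the image of `τ²u · u / (τu)²` under the inclusion -/
theorem incl_quot (hNM : N ∣ M) (τ : Γℚ) (u : FF Qb N) :
    Incl.incl hNM ((arithmeticGalois (modularFunctionFieldFull N) τ •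
          arithmeticGalois (modularFunctionFieldFull N) τ • u) * u /
        (arithmeticGalois (modularFunctionFieldFull N) τ • u) ^ 2)
      = (arithmeticGalois (modularFunctionFieldFull M) τ •
          arithmeticGalois (modularFunctionFieldFull M) τ • Incl.incl hNM u) * Incl.incl hNM u /
        (arithmeticGalois (modularFunctionFieldFull M) τ • Incl.incl hNM u) ^ 2 := by
  apply Subtype.ext
  rw [Incl.coe_incl]
  simp only [IntermediateField.coe_div, IntermediateField.coe_mul, IntermediateField.coe_pow,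
    coe_arithmeticGalois_smul, Incl.coe_incl]

/-- **The Kummer form descends** along `F_N ⊆ F_M` (general numerical form). -/
theorem kummerSemistable_of_dvd_of_lt (hNM : N ∣ M)
    (hlt : dedekindPsi M * N < 2 * M * dedekindPsi N)
    (A : ValuationSubring Qb) {m : ℕ} (hm : 0 < m)
    (hM : KummerSemistable M A m) : KummerSemistable N A m := by
  intro τ hτ u hu hdiv
  have hinj : Function.Injective (Incl.incl hNM) := (Incl.incl hNM).toRingHom.injective
  have hu' : Incl.incl hNM u ≠ 0 := fun h0 => hu (hinj (h0.trans (map_zero _).symm))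
  obtain ⟨c, w, hcw⟩ := hM τ hτ (Incl.incl hNM u) hu' (dvd_ord_incl hNM hdiv)
  rw [← incl_quot hNM τ u] at hcw
  have hgu : arithmeticGalois (modularFunctionFieldFull N) τ • u ≠ 0 :=
    (smul_ne_zero_iff_ne _).mpr hu
  have hggu : arithmeticGalois (modularFunctionFieldFull N) τ •
      arithmeticGalois (modularFunctionFieldFull N) τ • u ≠ 0 := (smul_ne_zero_iff_ne _).mpr hgu
  have hz0 : (arithmeticGalois (modularFunctionFieldFull N) τ •
          arithmeticGalois (modularFunctionFieldFull N) τ • u) * u /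
        (arithmeticGalois (modularFunctionFieldFull N) τ • u) ^ 2 ≠ 0 :=
    div_ne_zero (mul_ne_zero hggu hu) (pow_ne_zero _ hgu)
  have hc : c ≠ 0 := by
    rintro rfl
    have h0 : algebraMap Qb (FF Qb M) 0 * w ^ m = 0 := by
      rw [(algebraMap Qb (FF Qb M)).map_zero, zero_mul]
    exact hz0 (hinj ((hcw.trans h0).trans (map_zero (Incl.incl hNM)).symm))
  obtain ⟨c', w', -, h'⟩ := kummer_descent_of_lt hNM hlt m hm _ hz0
    (dvd_ord_quot _ hu hdiv) ⟨c, w, hc, hcw⟩
  exact ⟨c', w', h'⟩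

end Descent

/-! ## The single remaining input: the Kummer form at the good levels -/

section GoodLevels

/-- **The single remaining input of S34**: the Kummer form of Theorem B at the good levels
`M₀ q`, `q ∤ M₀`, `4 ∣ M₀` for odd `q`, `9 ∣ M₀` for `q = 2`. -/
def KummerSemistableAtGoodLevels : Prop :=
  ∀ (M₀ q m : ℕ) [NeZero M₀] [NeZero q], 0 < m → q.Prime → ¬ q ∣ m → ¬ q ∣ M₀ →
    ((q ≠ 2 ∧ 4 ∣ M₀) ∨ (q = 2 ∧ 9 ∣ M₀)) →
    ∀ A : ValuationSubring Qb, A.LiesOverPrime q → KummerSemistable (M₀ * q) A m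

theorem kummerSemistable_congr {M M' : ℕ} (h : M = M') {A : ValuationSubring Qb} {m : ℕ}
    (hM : KummerSemistable M A m) : KummerSemistable M' A m := by
  subst h
  exact hM

/-- the arithmetic of the good level `lcm N r₀` for `q ‖ N`, `q` coprime to `r₀` -/
theorem goodLevel_arith {N q r₀ : ℕ} (hN : N ≠ 0) (hr₀ : r₀ ≠ 0) (hqN : q ∣ N)
    (hq2 : ¬ q ^ 2 ∣ N) (hcop : Nat.Coprime q r₀) :
    ∃ M₀ : ℕ, M₀ ≠ 0 ∧ Nat.lcm N r₀ = M₀ * q ∧ ¬ q ∣ M₀ ∧ r₀ ∣ M₀ := by
  have hM0 : Nat.lcm N r₀ ≠ 0 := Nat.lcm_ne_zero hN hr₀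
  have hqM : q ∣ Nat.lcm N r₀ := hqN.trans (Nat.dvd_lcm_left N r₀)
  have hq2M : ¬ q ^ 2 ∣ Nat.lcm N r₀ := by
    intro h
    have h1 : q ^ 2 ∣ N * r₀ := h.trans (Nat.lcm_dvd_mul N r₀)
    exact hq2 ((Nat.Coprime.pow_left 2 hcop).dvd_of_dvd_mul_right h1)
  have hM : Nat.lcm N r₀ = Nat.lcm N r₀ / q * q := (Nat.div_mul_cancel hqM).symm
  refine ⟨Nat.lcm N r₀ / q, ?_, hM, ?_, ?_⟩
  · intro h0
    rw [h0, zero_mul] at hM
    exact hM0 hM
  · intro h
    apply hq2M
    have := Nat.mul_dvd_of_dvd_div hqM h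
    rwa [← sq] at this
  · have h1 : r₀ ∣ Nat.lcm N r₀ / q * q := hM ▸ Nat.dvd_lcm_right N r₀
    exact (Nat.Coprime.symm hcop).dvd_of_dvd_mul_right h1

/-- E8 at every level from the Kummer form at the good levels. -/
theorem torsionSemistable_of_goodLevels (h : KummerSemistableAtGoodLevels) (N : ℕ) [NeZero N] :
    TorsionSemistable N := by
  intro m q hq hqN hq2 hqm A hA τ hτ x hx
  have hm : 0 < m := by
    rcases Nat.eq_zero_or_pos m with rfl | h0
    · exact absurd (dvd_zero q) hqm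
    · exact h0
  have : NeZero q := ⟨hq.ne_zero⟩
  refine torsion_of_kummerSemistable hm.ne' ?_ τ hτ x hx
  by_cases h2 : q = 2
  · have hcop : Nat.Coprime q 9 := by rw [h2]; decide
    obtain ⟨M₀, hM₀, hM, hqM₀, h9⟩ :=
      goodLevel_arith (NeZero.ne N) (by norm_num) hqN hq2 hcop
    have : NeZero M₀ := ⟨hM₀⟩
    have : NeZero (Nat.lcm N 9) := ⟨Nat.lcm_ne_zero (NeZero.ne N) (by norm_num)⟩
    have hgood := h M₀ q m hm hq hqm hqM₀ (Or.inr ⟨h2, h9⟩) A hA
    exact kummerSemistable_of_dvd_of_lt (dvd_of_eq_lcm_or (Or.inr rfl))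
      (lt_of_eq_lcm_or (Or.inr rfl)) A hm (kummerSemistable_congr hM.symm hgood)
  · have hcop : Nat.Coprime q 4 := by
      have : Nat.Coprime q 2 := (Nat.coprime_primes hq Nat.prime_two).mpr h2
      exact Nat.Coprime.pow_right 2 this
    obtain ⟨M₀, hM₀, hM, hqM₀, h4⟩ :=
      goodLevel_arith (NeZero.ne N) (by norm_num) hqN hq2 hcop
    have : NeZero M₀ := ⟨hM₀⟩
    have : NeZero (Nat.lcm N 4) := ⟨Nat.lcm_ne_zero (NeZero.ne N) (by norm_num)⟩
    have hgood := h M₀ q m hm hq hqm hqM₀ (Or.inl ⟨h2, h4⟩) A hA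
    exact kummerSemistable_of_dvd_of_lt (dvd_of_eq_lcm_or (Or.inl rfl))
      (lt_of_eq_lcm_or (Or.inl rfl)) A hm (kummerSemistable_congr hM.symm hgood)

variable {p : ℕ} {N : ℕ} [NeZero N] {S : Finset ℕ}
  {𝒪 : Type} [CommRing 𝒪] [IsDomain 𝒪] [IsDiscreteValuationRing 𝒪]
  [IsAdicComplete (IsLocalRing.maximalIdeal 𝒪) 𝒪]
  {θ : CuspForm.heckeAlgebra N 2 (↑S : Set ℕ) →+* IsLocalRing.ResidueField 𝒪}
  {T : Type} [CommRing T] [IsLocalRing T] [IsNoetherianRing T]
  [IsAdicComplete (IsLocalRing.maximalIdeal T) T] [Algebra 𝒪 T] [IsLocalHom (algebraMap 𝒪 T)]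
  [Module.Finite 𝒪 T] [Module.Free 𝒪 T]

/-- **The frozen statement S34** from the export contract of the gateway and the Kummer form of
Theorem B at the good levels. -/
theorem s34_of_goodLevels (hE : Fermat.Agent.Gateway.Assembly.ExportInputs)
    (h : KummerSemistableAtGoodLevels)
    (hp : p.Prime) (hp𝒪 : (p : 𝒪) ∈ IsLocalRing.maximalIdeal 𝒪) (hpS : p ∈ S)
    (hNS : ∀ q : ℕ, q.Prime → q ∣ N → q ∈ S)
    (H : CuspForm.HeckeGaloisRepDatum N (↑S : Set ℕ) 𝒪 θ T)
    (q : ℕ) (hq : q.Prime) (hqp : q ≠ p) (hqN : q ∣ N) (hq2 : ¬ q ^ 2 ∣ N) :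
    H.ρ.IsUnipotentOnInertiaAt q :=
  s34_of_exportInputs hE (torsionSemistable_of_goodLevels h N) hp hp𝒪 hpS hNS H q hq hqp hqN hq2

end GoodLevels

/-! ## The two step shape of the proof at a good level -/

section Steps

variable {N : ℕ} {A : ValuationSubring Qb} {m : ℕ}

/-- **The Kummer form from the free step (I) and Theorem B** (shape of helper81's
`KummerInertiaTrivial`): `RedC w` = "`w` has nonzero constant reductions at both embeddings".
* (I) `τu / u` has constant reductions for every `u` and every inertia element `τ`;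
* (B) inertia acts trivially on the Kummer classes with constant reductions. -/
theorem kummerSemistable_of_inertiaTrivial (RedC : FF Qb N → Prop)
    (hI : ∀ τ ∈ A.inertiaSubgroupIn ℚ, ∀ u : FF Qb N, u ≠ 0 →
      RedC (arithmeticGalois (modularFunctionFieldFull N) τ • u / u))
    (hB : ∀ w : FF Qb N, w ≠ 0 → (∀ P : Place Qb (FF Qb N), (m : ℤ) ∣ P.ord w) → RedC w →
      ∀ τ ∈ A.inertiaSubgroupIn ℚ, ∃ (c : Qb) (v : FF Qb N),
        arithmeticGalois (modularFunctionFieldFull N) τ • w / w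
          = algebraMap Qb (FF Qb N) c * v ^ m) :
    KummerSemistable N A m := by
  intro τ hτ u hu hdiv
  set g := arithmeticGalois (modularFunctionFieldFull N) τ with hg
  have hgu : g • u ≠ 0 := (smul_ne_zero_iff_ne g).mpr hu
  have hz0 : g • u / u ≠ 0 := div_ne_zero hgu hu
  have hdiv' : ∀ P : Place Qb (FF Qb N), (m : ℤ) ∣ P.ord (g • u / u) := by
    intro P
    rw [div_eq_mul_inv, P.ord_mul hgu (inv_ne_zero hu), P.ord_inv]
    exact dvd_add (dvd_ord_smul g hdiv P) (hdiv P).neg_right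
  obtain ⟨c, v, hcv⟩ := hB _ hz0 hdiv' (hI τ hτ u hu) τ hτ
  refine ⟨c, v, ?_⟩
  have hsm : g • (g • u / u) = (g • g • u) / (g • u) := by
    simp only [SemilinearAut.smul_def]
    rw [map_div₀ (SemilinearAut.toRingAut g)]
  rw [hsm] at hcv
  rw [← hcv]
  field_simp

/-- field algebra for `kummerSemistable_of_steps` -/
theorem steps_aux {K : Type*} [Field K] (a b u f F C w : K) (m : ℕ) (hb : b ≠ 0) (hu : u ≠ 0)
    (hf : f ≠ 0) (hF : F ≠ 0) (h : a / b * F ^ m / (b / u * f ^ m) = C * w ^ m) :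
    a * u / b ^ 2 = C * (w * (f / F)) ^ m := by
  have hfm : f ^ m ≠ 0 := pow_ne_zero _ hf
  have hFm : F ^ m ≠ 0 := pow_ne_zero _ hF
  rw [mul_pow, ← mul_assoc, ← h, div_pow]
  field_simp

/-- **The shape of the proof of the Kummer form** (board `S34_PLAN`):
`RedC z` = "both reductions of `z` are nonzero constants", `Red1 z` = "both reductions of `z` are
`1`".
* (I) the free step: `τu / u` has constant reductions for every `u` and every inertia element;
* (N) normalisation: a function with constant reductions becomes one with reductions `(1, 1)` after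
  multiplication by an `m`-th power (the residue field is algebraically closed and the two
  valuations are independent);
* (B) Theorem B: inertia acts trivially on the Kummer classes with reductions `(1, 1)`. -/
theorem kummerSemistable_of_steps (RedC Red1 : FF Qb N → Prop)
    (hI : ∀ τ ∈ A.inertiaSubgroupIn ℚ, ∀ u : FF Qb N, u ≠ 0 →
      RedC (arithmeticGalois (modularFunctionFieldFull N) τ • u / u))
    (hN : ∀ z : FF Qb N, z ≠ 0 → RedC z → ∃ f : FF Qb N, f ≠ 0 ∧ Red1 (z * f ^ m))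
    (hB : ∀ τ ∈ A.inertiaSubgroupIn ℚ, ∀ z : FF Qb N, z ≠ 0 →
      (∀ P : Place Qb (FF Qb N), (m : ℤ) ∣ P.ord z) → Red1 z →
      ∃ (c : Qb) (w : FF Qb N),
        arithmeticGalois (modularFunctionFieldFull N) τ • z / z
          = algebraMap Qb (FF Qb N) c * w ^ m) :
    KummerSemistable N A m := by
  intro τ hτ u hu hdiv
  set g := arithmeticGalois (modularFunctionFieldFull N) τ with hg
  have hgu : g • u ≠ 0 := (smul_ne_zero_iff_ne g).mpr hu
  have hz0 : g • u / u ≠ 0 := div_ne_zero hgu hu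
  obtain ⟨f, hf, hred⟩ := hN _ hz0 (hI τ hτ u hu)
  have hgf : g • f ≠ 0 := (smul_ne_zero_iff_ne g).mpr hf
  have hz'0 : g • u / u * f ^ m ≠ 0 := mul_ne_zero hz0 (pow_ne_zero _ hf)
  have hdiv' : ∀ P : Place Qb (FF Qb N), (m : ℤ) ∣ P.ord (g • u / u * f ^ m) := by
    intro P
    rw [P.ord_mul hz0 (pow_ne_zero _ hf), div_eq_mul_inv, P.ord_mul hgu (inv_ne_zero hu),
      P.ord_inv, ← zpow_natCast, P.ord_zpow]
    exact dvd_add (dvd_add (dvd_ord_smul g hdiv P) (hdiv P).neg_right) (Dvd.intro _ rfl)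
  obtain ⟨c, w, hcw⟩ := hB τ hτ _ hz'0 hdiv' hred
  refine ⟨c, w * (f / g • f), ?_⟩
  have hsm : g • (g • u / u * f ^ m) = (g • g • u) / (g • u) * (g • f) ^ m := by
    simp only [SemilinearAut.smul_def]
    rw [map_mul (SemilinearAut.toRingAut g), map_div₀ (SemilinearAut.toRingAut g),
      map_pow (SemilinearAut.toRingAut g)]
  rw [hsm] at hcw
  exact steps_aux _ _ _ _ _ _ _ m hgu hu hf hgf hcw

end Steps

end Fermat.Agent.S34x.Target
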