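import Fermat.Agent.S34x.TheoremBInst

/-!
# P-S34 (T4): the chart inputs of Theorem B as one structure and one proposition

* `ChartBase k κ B₁ B₂`: the `w`-independent (N2)-inputs of one chart (normalisation
  `j : B₁ × B₂ → κ` of the reduced chart ring `Bbar`, (L2), finiteness, node criterion (N1));
* `ChartOK R CB m V V'`: the `w`-dependent inputs (the reductions `N`, `N'` of the twisted chart
  modules with their codimension bounds), a plain `∃ N N', …` proposition whose conjuncts are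
  literally the hypotheses of `TheoremBInst.exists_const_mul_pow_of_charts`;
* `normalised_of_charts` (K2): Theorem B for a normalised function from these inputs.

Kept separate from `TheoremBInstK.lean` so that abstract producers (Lattice2/Assemble) can import it
without the modular-curve files.
-/

set_option autoImplicit false
set_option linter.unusedSectionVars false
set_option linter.style.haveILetI false

noncomputable section

namespace Fermat.Agent.S34x.TheoremBInstK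

open AlgebraicCurve IntermediateField Module
open Fermat.Agent.Gateway.C0 Fermat.Agent.S34x.C0two

/-! ### (K2) Theorem B for normalised functions from the chart inputs -/

section K2

/-- The `w`-independent (N2)-inputs of one chart: the normalisation `j : B₁ × B₂ → κ` of the
reduced chart ring `Bbar ⊆ κ`, the two surjective projections (L2), finiteness of the conductor
quotient and the node criterion `hpth` (N1). -/
structure ChartBase (k κ B₁ B₂ : Type*) [Field k] [CommRing κ] [Algebra k κ]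
    [CommRing B₁] [CommRing B₂] [Algebra k B₁] [Algebra k B₂] where
  j : (B₁ × B₂) →ₐ[k] κ
  Bbar : Subalgebra k κ
  h₁ : ∀ f : B₁, ∃ g : B₂, j (f, g) ∈ Bbar
  h₂ : ∀ g : B₂, ∃ f : B₁, j (f, g) ∈ Bbar
  finite : Module.Finite k ((B₁ × B₂) ⧸ Subalgebra.toSubmodule (Bbar.comap j))
  p : ℕ
  hp : 2 ≤ p
  hpth : ∀ g : B₂, ∃ g' : B₂, j ((0 : B₁), g - g' ^ p) ∈ Bbar

variable {K : Type*} [Field K] {A : ValuationSubring K}
  {F : Type*} [Field F] [Algebra K F] {S : SmallRing F}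
  {k κ : Type*} [Field k] [CommRing κ] [Algebra k κ]

/-- The `w`-dependent (N2)-inputs of one chart, for the two families of twisted spaces
`V b = L(D + b C)`, `V' b = L((m-1) D + b C)`: there are `k`-subspaces `N`, `N'` of `κ`
consisting of reductions of elements of `⋃ V b ∩ O`, `⋃ V' b ∩ O`, with `N ^ m`, `N' ^ m`,
`N N' ⊆ Bbar` and of codimension (in the normalisation) at most that of `Bbar`. -/
def ChartOK (R : RedSetup2 A S k κ) {B₁ B₂ : Type*} [CommRing B₁] [CommRing B₂] [Algebra k B₁]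
    [Algebra k B₂] (CB : ChartBase k κ B₁ B₂) (m : ℕ) (V V' : ℕ → Submodule K F) : Prop :=
  ∃ N N' : Submodule k κ,
    Module.Finite k ((B₁ × B₂) ⧸ N.comap CB.j.toLinearMap) ∧
    Module.Finite k ((B₁ × B₂) ⧸ N'.comap CB.j.toLinearMap) ∧
    finrank k ((B₁ × B₂) ⧸ N.comap CB.j.toLinearMap) ≤
      finrank k ((B₁ × B₂) ⧸ Subalgebra.toSubmodule (CB.Bbar.comap CB.j)) ∧
    finrank k ((B₁ × B₂) ⧸ N'.comap CB.j.toLinearMap) ≤
      finrank k ((B₁ × B₂) ⧸ Subalgebra.toSubmodule (CB.Bbar.comap CB.j)) ∧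
    (∀ n ∈ N, n ^ m ∈ CB.Bbar) ∧ (∀ n ∈ N', n ^ m ∈ CB.Bbar) ∧
    (∀ n ∈ N, ∀ n' ∈ N', n * n' ∈ CB.Bbar) ∧
    (∀ x ∈ N, ∃ b, x ∈ R.redLat (V b)) ∧ (∀ y ∈ N', ∃ b, y ∈ R.redLat (V' b))

/-- (G0): `V ∩ O` is a finitely generated `A`-module for every finite dimensional `V ⊆ F`.
(A definition so that concrete instances can state it without synthesising `Module A F`.) -/
def Cartesian (R : RedSetup2 A S k κ) : Prop :=
  ∀ V : Submodule K F, FiniteDimensional K V → (R.lat V).FG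

variable [IsAlgClosed K] [CharZero K] [Nontrivial κ] [IsAlgClosed k]
  (R : RedSetup2 A S k κ)
  {t : F} (ht : Transcendental K t) [FiniteDimensional K⟮t⟯ F]
  {Dt : Divisor K F} (hDt : ∀ v : Place K F, Dt v = v.ord t)
  (htO : t ∈ S.O) (htiO : t⁻¹ ∈ S.O)
  (hcart : ∀ V : Submodule K F, FiniteDimensional K V → (R.lat V).FG)
  (P : ℕ → Submodule k κ) [∀ b, FiniteDimensional k (P b)] {b₀ : ℕ}
  (hgen : ∀ b, b₀ ≤ b → ∀ x ∈ P (b + 1), ∃ y ∈ P b, ∃ z ∈ P b, x = y + R.res ⟨t, htO⟩ * z)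
  {m : ℕ}
  (hSC : ∀ (b : ℕ) (f : F) (hf : f ∈ S.O), f ∈ (TwoCharts.ofDivisor Dt).LN 0 b →
    R.res ⟨f, hf⟩ ∈ P b)
  (hrad : ∀ (b : ℕ) (x : κ), x ^ m ∈ P (m * b) → x ∈ P b)
  (hmA : IsUnit ((m : ℕ) : A))
  (g : SemilinearAut K F) (hgt : g • t = t) (hgO : ∀ f ∈ S.O, g • f ∈ S.O)
  (hgres : ∀ (f : F) (hf : f ∈ S.O), R.res ⟨g • f, hgO f hf⟩ = R.res ⟨f, hf⟩)
  {B₁ B₂ : Type*} [CommRing B₁] [CommRing B₂] [Algebra k B₁] [Algebra k B₂]
  {B₁' B₂' : Type*} [CommRing B₁'] [CommRing B₂'] [Algebra k B₁'] [Algebra k B₂']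
  (CB : ChartBase k κ B₁ B₂) (CB₀ : ChartBase k κ B₁' B₂')

include ht hDt htiO hcart hgen hSC hrad hmA hgt hgres in
/-- **(K2).**  Theorem B for a normalised function `w` (a unit of `O` with `res w = 1`,
`m ∣ div w`) from the chart inputs. -/
theorem normalised_of_charts {w : F} (hw0 : w ≠ 0) (hwO : w ∈ S.O) (hwiO : w⁻¹ ∈ S.O)
    (hw1 : R.res ⟨w, hwO⟩ = 1) (hdiv : ∀ v : Place K F, (m : ℤ) ∣ v.ord w)
    (hcharts : ∀ D : Divisor K F, (∀ v : Place K F, (m : ℤ) * D v = v.ord w) →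
      ChartOK R CB m (fun b => (TwoCharts.ofDivisor Dt).LM D 0 b)
        (fun b => (TwoCharts.ofDivisor Dt).LM ((m - 1) • D) 0 b) ∧
      ChartOK R CB₀ m (fun a => (TwoCharts.ofDivisor Dt).LM D a 0)
        (fun a => (TwoCharts.ofDivisor Dt).LM ((m - 1) • D) a 0)) :
    ∃ (c : K) (v : F), g • w / w = algebraMap K F c * v ^ m := by
  have hm0 : 0 < m := by
    rcases Nat.eq_zero_or_pos m with h | h
    · exfalso
      subst h
      rw [Nat.cast_zero] at hmA
      exact not_isUnit_zero hmA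
    · exact h
  obtain ⟨D, hD, -⟩ := exists_root_divisor ht hm0 hw0 hdiv
  obtain ⟨⟨N, N', hfin, hfin', hcodim, hcodim', hpow, hpow', hmul, hN, hN'⟩,
    ⟨N₀, N₀', hfin₀, hfin₀', hcodim₀, hcodim₀', hpow₀, hpow₀', hmul₀, hN₀, hN₀'⟩⟩ := hcharts D hD
  haveI := CB.finite
  haveI := CB₀.finite
  haveI := hfin
  haveI := hfin'
  haveI := hfin₀
  haveI := hfin₀'
  exact TheoremBInst.exists_const_mul_pow_of_charts R ht hDt htO htiO hcart P hgen hSC hrad hmA g
    hgt hgO hgres hw0 hwO hwiO hw1 hD hm0 CB.j CB.Bbar N N' CB.h₁ CB.h₂ CB.hp CB.hpth hcodim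
    hcodim' hpow hpow' hmul hN hN' CB₀.j CB₀.Bbar N₀ N₀' CB₀.h₁ CB₀.h₂ CB₀.hp CB₀.hpth hcodim₀
    hcodim₀' hpow₀ hpow₀' hmul₀ hN₀ hN₀'

end K2

end Fermat.Agent.S34x.TheoremBInstK
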