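/-
P-S34 / P-S35 (phase 2), (T6') (helper43): the semilinear generalisation of `ExistsOne`
(helper73's Theorem B': `σ` = a Frobenius lift squared, `φ = (Fr², Fr²)`, `Q = q²`;
`ExistsOne.exists_one` is the case `φ = id`, `θ = id`, `Q = 1`).

Setting as in `ExistsOne.lean`, and in addition
* `θ : k ≃+* k`, a `θ`-semilinear ring endomorphism `φ` of `κ` and a surjective `θ`-semilinear
  ring endomorphism `φV` of `B₁ × B₂` with `j ∘ φV = φ ∘ j`, `φ Bbar ⊆ Bbar`;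
* (s1) `res (σ f) = φ (res f)` for `f ∈ O`;
* (CONG) for `x ∈ N₁`: `φ x - x ^ Q = j (c₁, c₂)` with `j (c₁, 0) ∈ Bbar`, `j (0, c₂) ∈ Bbar`
  (i.e. `φ x ≡ x ^ Q` modulo the conductor `I₁ × I₂` of the nodes);
* `n ^ Q * n' ∈ Bbar` for `n ∈ N₁`, `n' ∈ N'` (`N₁ = N_1`, `N' = N_{i'}`, `Q + i' = m a`).
Conclusion: `1 ∈ φ(N₁) * N'`, and `g = Σ σ(f_j) f'_j w` (`w := w₀ ^ a`) has `res g = 1`.
-/
import Mathlib
import Fermat.Agent.S34x.ExistsOne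

set_option autoImplicit false
set_option linter.unusedSectionVars false

namespace Fermat.Agent.S34x.ExistsOneQ

open Module Fermat.Agent.S34x.C0two Fermat.Agent.S34x.ExistsOne

/-! ### Codimension under a surjective semilinear map -/

section Semilinear

variable {k : Type*} [Field k] {V : Type*} [AddCommGroup V] [Module k V]

/-- If `φ : V → V` is additive, surjective and semilinear for some `θ : k → k`, and
`φ N₀ ⊆ N`, then `codim N ≤ codim N₀`. -/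
theorem finite_and_finrank_quotient_le_of_semilinear (θ : k → k) (φ : V →+ V)
    (hφsurj : Function.Surjective φ) (hφsmul : ∀ (c : k) (v : V), φ (c • v) = θ c • φ v)
    (N₀ N : Submodule k V) [Module.Finite k (V ⧸ N₀)] (hN : ∀ v ∈ N₀, φ v ∈ N) :
    Module.Finite k (V ⧸ N) ∧ finrank k (V ⧸ N) ≤ finrank k (V ⧸ N₀) := by
  classical
  let bas := Module.finBasis k (V ⧸ N₀)
  choose e he using fun i => Submodule.Quotient.mk_surjective N₀ (bas i)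
  have hspan : Submodule.span k (Set.range fun i => N.mkQ (φ (e i))) = ⊤ := by
    rw [eq_top_iff]
    rintro x -
    obtain ⟨v, rfl⟩ := N.mkQ_surjective x
    obtain ⟨u, rfl⟩ := hφsurj v
    set c : Fin (finrank k (V ⧸ N₀)) → k := fun i => bas.repr (N₀.mkQ u) i with hc
    have h1 : N₀.mkQ u = ∑ i, c i • bas i := (bas.sum_repr _).symm
    have h2 : u - ∑ i, c i • e i ∈ N₀ := by
      rw [← Submodule.Quotient.mk_eq_zero, Submodule.Quotient.mk_sub, sub_eq_zero]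
      change N₀.mkQ u = N₀.mkQ (∑ i, c i • e i)
      rw [h1, map_sum]
      refine Finset.sum_congr rfl fun i _ => ?_
      rw [map_smul, Submodule.mkQ_apply, he i]
    have h3 : φ u - ∑ i, θ (c i) • φ (e i) ∈ N := by
      have := hN _ h2
      rw [map_sub, map_sum] at this
      simpa only [hφsmul] using this
    have h4 : N.mkQ (φ u) = ∑ i, θ (c i) • N.mkQ (φ (e i)) := by
      have : N.mkQ (φ u - ∑ i, θ (c i) • φ (e i)) = 0 := by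
        rw [Submodule.mkQ_apply, Submodule.Quotient.mk_eq_zero]
        exact h3
      rw [map_sub, sub_eq_zero] at this
      rw [this, map_sum]
      refine Finset.sum_congr rfl fun i _ => ?_
      rw [map_smul]
    rw [h4]
    exact Submodule.sum_mem _ fun i _ =>
      Submodule.smul_mem _ _ (Submodule.subset_span ⟨i, rfl⟩)
  refine ⟨⟨?_⟩, ?_⟩
  · rw [← hspan]
    exact Submodule.fg_span (Set.finite_range _)
  · have := finrank_le_of_span_eq_top hspan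
    rwa [Fintype.card_fin] at this

variable {κ : Type*} [CommRing κ] [Algebra k κ]

/-- The image of a `k`-subspace of `κ` under a `θ`-semilinear ring endomorphism. -/
def mapSemi (θ : k ≃+* k) (φ : κ →+* κ) (hφsmul : ∀ (c : k) (y : κ), φ (c • y) = θ c • φ y)
    (N₁ : Submodule k κ) : Submodule k κ where
  carrier := {y | ∃ x ∈ N₁, φ x = y}
  add_mem' := by
    rintro _ _ ⟨x, hx, rfl⟩ ⟨x', hx', rfl⟩
    exact ⟨x + x', N₁.add_mem hx hx', map_add φ x x'⟩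
  zero_mem' := ⟨0, N₁.zero_mem, map_zero φ⟩
  smul_mem' := by
    rintro c _ ⟨x, hx, rfl⟩
    exact ⟨θ.symm c • x, N₁.smul_mem _ hx, by rw [hφsmul, θ.apply_symm_apply]⟩

theorem mem_mapSemi {θ : k ≃+* k} {φ : κ →+* κ}
    {hφsmul : ∀ (c : k) (y : κ), φ (c • y) = θ c • φ y} {N₁ : Submodule k κ} {y : κ} :
    y ∈ mapSemi θ φ hφsmul N₁ ↔ ∃ x ∈ N₁, φ x = y := Iff.rfl

end Semilinear

/-! ### (N3) with a twisted residue compatibility -/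

section N3

variable {K : Type*} [Field K] {A : ValuationSubring K} {F : Type*} [Field F] [Algebra K F]
  {S : SmallRing F} {k κ : Type*} [Field k] [CommRing κ] [Algebra k κ] {R : RedSetup2 A S k κ}

/-- (N3), one product; the first factor is the reduction of `σ f`. -/
theorem lifts_mul_twist {V V' M : ℕ → Submodule K F} (σ : F → F) (hσO : ∀ f ∈ S.O, σ f ∈ S.O)
    {w : F} (hwO : w ∈ S.O) (hw1 : R.res ⟨w, hwO⟩ = 1)
    (hprod : ∀ (b b' : ℕ) (f f' : F), f ∈ V b → f ∈ S.O → f' ∈ V' b' → f' ∈ S.O →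
      σ f * f' * w ∈ M (b + b'))
    {x y : κ} (hx : ∃ (b : ℕ) (f : F), f ∈ V b ∧ ∃ hf : f ∈ S.O, R.res ⟨σ f, hσO f hf⟩ = x)
    (hy : Lifts R V' y) : Lifts R M (x * y) := by
  obtain ⟨b, f, hfV, hf, e⟩ := hx
  obtain ⟨b', f', hfV', hf', e'⟩ := hy
  have hO : σ f * f' * w ∈ S.O := S.O.mul_mem (S.O.mul_mem (hσO f hf) hf') hwO
  refine ⟨b + b', σ f * f' * w, hprod b b' f f' hfV hf hfV' hf', hO, ?_⟩
  have : (⟨σ f * f' * w, hO⟩ : S.O) = ⟨σ f, hσO f hf⟩ * ⟨f', hf'⟩ * ⟨w, hwO⟩ := rfl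
  rw [this, map_mul, map_mul, hw1, mul_one, e, e']

/-- **(N3), general form.**  `N` consists of reductions of elements `σ f`, `f ∈ V b ∩ O`; `N'` of
reductions of elements of `V' b ∩ O`.  Then every element of `N * N'` is the reduction of an element
of some `M n ∩ O`. -/
theorem exists_res_eq_of_mem_mul {V V' M : ℕ → Submodule K F} (hM : Monotone M)
    (σ : F → F) (hσO : ∀ f ∈ S.O, σ f ∈ S.O)
    {w : F} (hwO : w ∈ S.O) (hw1 : R.res ⟨w, hwO⟩ = 1)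
    (hprod : ∀ (b b' : ℕ) (f f' : F), f ∈ V b → f ∈ S.O → f' ∈ V' b' → f' ∈ S.O →
      σ f * f' * w ∈ M (b + b'))
    (N N' : Submodule k κ)
    (hN : ∀ x ∈ N, ∃ (b : ℕ) (f : F), f ∈ V b ∧ ∃ hf : f ∈ S.O, R.res ⟨σ f, hσO f hf⟩ = x)
    (hN' : ∀ y ∈ N', ∃ b, y ∈ R.redLat (V' b)) {v : κ} (hv : v ∈ N * N') :
    ∃ (n : ℕ) (g : F), g ∈ M n ∧ ∃ hg : g ∈ S.O, R.res ⟨g, hg⟩ = v := by
  change Lifts R M v
  refine Submodule.mul_induction_on hv (fun x hx y hy => ?_) (fun x y hx hy => hx.add hM hy)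
  exact lifts_mul_twist σ hσO hwO hw1 hprod (hN x hx) (lifts_iff_mem_redLat.2 (hN' y hy))

end N3

/-! ### The combination -/

section Main

variable {K : Type*} [Field K] {A : ValuationSubring K} {F : Type*} [Field F] [Algebra K F]
  {S : SmallRing F} {k κ : Type*} [Field k] [IsAlgClosed k] [CommRing κ] [Algebra k κ]
  {B₁ B₂ : Type*} [CommRing B₁] [CommRing B₂] [Algebra k B₁] [Algebra k B₂]

/-- **(N2), semilinear form**: `1 ∈ φ(N₁) * N'`. -/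
theorem one_mem_mapSemi_mul (j : (B₁ × B₂) →ₐ[k] κ) (Bbar : Subalgebra k κ)
    (N₁ N' : Submodule k κ)
    (h₁ : ∀ f : B₁, ∃ g : B₂, j (f, g) ∈ Bbar) (h₂ : ∀ g : B₂, ∃ f : B₁, j (f, g) ∈ Bbar)
    [Module.Finite k ((B₁ × B₂) ⧸ Subalgebra.toSubmodule (Bbar.comap j))]
    {p : ℕ} (hp : 2 ≤ p) (hpth : ∀ g : B₂, ∃ g' : B₂, j ((0 : B₁), g - g' ^ p) ∈ Bbar)
    [Module.Finite k ((B₁ × B₂) ⧸ N₁.comap j.toLinearMap)]
    [Module.Finite k ((B₁ × B₂) ⧸ N'.comap j.toLinearMap)]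
    (hcodim : finrank k ((B₁ × B₂) ⧸ N₁.comap j.toLinearMap) ≤
      finrank k ((B₁ × B₂) ⧸ Subalgebra.toSubmodule (Bbar.comap j)))
    (hcodim' : finrank k ((B₁ × B₂) ⧸ N'.comap j.toLinearMap) ≤
      finrank k ((B₁ × B₂) ⧸ Subalgebra.toSubmodule (Bbar.comap j)))
    (θ : k ≃+* k) (φV : (B₁ × B₂) →+* (B₁ × B₂)) (hφVsurj : Function.Surjective φV)
    (hφVsmul : ∀ (c : k) (v : B₁ × B₂), φV (c • v) = θ c • φV v)
    (φ : κ →+* κ) (hφsmul : ∀ (c : k) (y : κ), φ (c • y) = θ c • φ y)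
    (hjφ : ∀ v, j (φV v) = φ (j v)) (hφBbar : ∀ y ∈ Bbar, φ y ∈ Bbar)
    (Q : ℕ)
    (hcong : ∀ x ∈ N₁, ∃ (c₁ : B₁) (c₂ : B₂), φ x - x ^ Q = j (c₁, c₂) ∧
      j (c₁, 0) ∈ Bbar ∧ j (0, c₂) ∈ Bbar)
    (hN'range : ∀ y ∈ N', ∃ v, j v = y)
    {m m' : ℕ} (hm : m ≠ 0) (hm' : m' ≠ 0)
    (hpow : ∀ n ∈ N₁, n ^ m ∈ Bbar) (hpow' : ∀ n ∈ N', n ^ m' ∈ Bbar)
    (hmulQ : ∀ n ∈ N₁, ∀ n' ∈ N', n ^ Q * n' ∈ Bbar) :
    (1 : κ) ∈ mapSemi θ φ hφsmul N₁ * N' := by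
  obtain ⟨hfin, hle⟩ := finite_and_finrank_quotient_le_of_semilinear (⇑θ) φV.toAddMonoidHom
    hφVsurj hφVsmul (N₁.comap j.toLinearMap) ((mapSemi θ φ hφsmul N₁).comap j.toLinearMap)
    (fun v hv => ⟨j v, hv, (hjφ v).symm⟩)
  refine one_mem_mul_of_comap j Bbar _ N' h₁ h₂ hp hpth (hle.trans hcodim) hcodim' hm hm'
    ?_ hpow' ?_
  · rintro _ ⟨x, hx, rfl⟩
    rw [← map_pow]
    exact hφBbar _ (hpow x hx)
  · rintro _ ⟨x, hx, rfl⟩ n' hn'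
    obtain ⟨c₁, c₂, hc, hc₁, hc₂⟩ := hcong x hx
    obtain ⟨⟨v₁, v₂⟩, rfl⟩ := hN'range n' hn'
    obtain ⟨g, hg⟩ := h₁ v₁
    obtain ⟨f, hf⟩ := h₂ v₂
    have e : φ x * j (v₁, v₂) =
        x ^ Q * j (v₁, v₂) + (j (c₁, 0) * j (v₁, g) + j (0, c₂) * j (f, v₂)) := by
      have e1 : j (c₁, 0) * j (v₁, g) + j (0, c₂) * j (f, v₂) = j (c₁, c₂) * j (v₁, v₂) := by
        rw [← map_mul, ← map_mul, ← map_mul, ← map_add]
        congr 1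
        ext <;> simp
      rw [e1, ← hc]
      ring
    rw [e]
    exact Bbar.add_mem (hmulQ x hx _ hn')
      (Bbar.add_mem (Bbar.mul_mem hc₁ hg) (Bbar.mul_mem hc₂ hf))

/-- **ExistsOne, semilinear form (one chart).** -/
theorem exists_one_semilinear (R : RedSetup2 A S k κ) (j : (B₁ × B₂) →ₐ[k] κ)
    (Bbar : Subalgebra k κ) (N₁ N' : Submodule k κ)
    (h₁ : ∀ f : B₁, ∃ g : B₂, j (f, g) ∈ Bbar) (h₂ : ∀ g : B₂, ∃ f : B₁, j (f, g) ∈ Bbar)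
    [Module.Finite k ((B₁ × B₂) ⧸ Subalgebra.toSubmodule (Bbar.comap j))]
    {p : ℕ} (hp : 2 ≤ p) (hpth : ∀ g : B₂, ∃ g' : B₂, j ((0 : B₁), g - g' ^ p) ∈ Bbar)
    [Module.Finite k ((B₁ × B₂) ⧸ N₁.comap j.toLinearMap)]
    [Module.Finite k ((B₁ × B₂) ⧸ N'.comap j.toLinearMap)]
    (hcodim : finrank k ((B₁ × B₂) ⧸ N₁.comap j.toLinearMap) ≤
      finrank k ((B₁ × B₂) ⧸ Subalgebra.toSubmodule (Bbar.comap j)))
    (hcodim' : finrank k ((B₁ × B₂) ⧸ N'.comap j.toLinearMap) ≤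
      finrank k ((B₁ × B₂) ⧸ Subalgebra.toSubmodule (Bbar.comap j)))
    (θ : k ≃+* k) (φV : (B₁ × B₂) →+* (B₁ × B₂)) (hφVsurj : Function.Surjective φV)
    (hφVsmul : ∀ (c : k) (v : B₁ × B₂), φV (c • v) = θ c • φV v)
    (φ : κ →+* κ) (hφsmul : ∀ (c : k) (y : κ), φ (c • y) = θ c • φ y)
    (hjφ : ∀ v, j (φV v) = φ (j v)) (hφBbar : ∀ y ∈ Bbar, φ y ∈ Bbar)
    (Q : ℕ)
    (hcong : ∀ x ∈ N₁, ∃ (c₁ : B₁) (c₂ : B₂), φ x - x ^ Q = j (c₁, c₂) ∧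
      j (c₁, 0) ∈ Bbar ∧ j (0, c₂) ∈ Bbar)
    (hN'range : ∀ y ∈ N', ∃ v, j v = y)
    {m m' : ℕ} (hm : m ≠ 0) (hm' : m' ≠ 0)
    (hpow : ∀ n ∈ N₁, n ^ m ∈ Bbar) (hpow' : ∀ n ∈ N', n ^ m' ∈ Bbar)
    (hmulQ : ∀ n ∈ N₁, ∀ n' ∈ N', n ^ Q * n' ∈ Bbar)
    {V V' M : ℕ → Submodule K F} (hM : Monotone M)
    (hN₁ : ∀ x ∈ N₁, ∃ b, x ∈ R.redLat (V b)) (hN' : ∀ y ∈ N', ∃ b, y ∈ R.redLat (V' b))
    (σ : F → F) (hσO : ∀ f ∈ S.O, σ f ∈ S.O)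
    (hσres : ∀ (f : F) (hf : f ∈ S.O), R.res ⟨σ f, hσO f hf⟩ = φ (R.res ⟨f, hf⟩))
    {w : F} (hwO : w ∈ S.O) (hw1 : R.res ⟨w, hwO⟩ = 1)
    (hprod : ∀ (b b' : ℕ) (f f' : F), f ∈ V b → f ∈ S.O → f' ∈ V' b' → f' ∈ S.O →
      σ f * f' * w ∈ M (b + b')) :
    ∃ (n : ℕ) (g : F), g ∈ M n ∧ ∃ hg : g ∈ S.O, R.res ⟨g, hg⟩ = 1 := by
  refine exists_res_eq_of_mem_mul hM σ hσO hwO hw1 hprod (mapSemi θ φ hφsmul N₁) N' ?_ hN'
    (one_mem_mapSemi_mul j Bbar N₁ N' h₁ h₂ hp hpth hcodim hcodim' θ φV hφVsurj hφVsmul φ hφsmul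
      hjφ hφBbar Q hcong hN'range hm hm' hpow hpow' hmulQ)
  rintro _ ⟨x, hx, rfl⟩
  obtain ⟨b, hb⟩ := hN₁ x hx
  obtain ⟨f, hf, hfV, rfl⟩ := hb
  exact ⟨b, f, hfV, hf, hσres f hf⟩

/-- `exists_one_semilinear` with the codimension hypotheses replaced by the Riemann–Roch counts
(as in `ExistsOne.exists_one_of_counts`; the counts are for `N₁`, not for `φ(N₁)`). -/
theorem exists_one_semilinear_of_counts (R : RedSetup2 A S k κ) (j : (B₁ × B₂) →ₐ[k] κ)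
    (Bbar : Subalgebra k κ) (N₁ N' : Submodule k κ)
    (h₁ : ∀ f : B₁, ∃ g : B₂, j (f, g) ∈ Bbar) (h₂ : ∀ g : B₂, ∃ f : B₁, j (f, g) ∈ Bbar)
    {p : ℕ} (hp : 2 ≤ p) (hpth : ∀ g : B₂, ∃ g' : B₂, j ((0 : B₁), g - g' ^ p) ∈ Bbar)
    (P : ℕ → Submodule k (B₁ × B₂)) (hPmono : Monotone P) (hPtop : ∀ v, ∃ b, v ∈ P b)
    [∀ b, FiniteDimensional k (P b)]
    (Sb Nb Nb' : ℕ → Submodule k (B₁ × B₂))
    (hSb : ∀ b, ∀ v ∈ Sb b, j v ∈ Bbar) (hSP : ∀ b, Sb b ≤ P b)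
    (hNb : ∀ b, ∀ v ∈ Nb b, j v ∈ N₁) (hNP : ∀ b, Nb b ≤ P b)
    (hNb' : ∀ b, ∀ v ∈ Nb' b, j v ∈ N') (hNP' : ∀ b, Nb' b ≤ P b)
    (δ b₀ : ℕ)
    (hdimS : ∀ b, b₀ ≤ b → finrank k (P b) = finrank k (Sb b) + δ)
    (hdimN : ∀ b, b₀ ≤ b → finrank k (P b) ≤ finrank k (Nb b) + δ)
    (hdimN' : ∀ b, b₀ ≤ b → finrank k (P b) ≤ finrank k (Nb' b) + δ)
    (hsat : ∀ b, b₀ ≤ b → ∀ v ∈ P b, j v ∈ Bbar → v ∈ Sb b)
    (θ : k ≃+* k) (φV : (B₁ × B₂) →+* (B₁ × B₂)) (hφVsurj : Function.Surjective φV)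
    (hφVsmul : ∀ (c : k) (v : B₁ × B₂), φV (c • v) = θ c • φV v)
    (φ : κ →+* κ) (hφsmul : ∀ (c : k) (y : κ), φ (c • y) = θ c • φ y)
    (hjφ : ∀ v, j (φV v) = φ (j v)) (hφBbar : ∀ y ∈ Bbar, φ y ∈ Bbar)
    (Q : ℕ)
    (hcong : ∀ x ∈ N₁, ∃ (c₁ : B₁) (c₂ : B₂), φ x - x ^ Q = j (c₁, c₂) ∧
      j (c₁, 0) ∈ Bbar ∧ j (0, c₂) ∈ Bbar)
    (hN'range : ∀ y ∈ N', ∃ v, j v = y)
    {m m' : ℕ} (hm : m ≠ 0) (hm' : m' ≠ 0)
    (hpow : ∀ n ∈ N₁, n ^ m ∈ Bbar) (hpow' : ∀ n ∈ N', n ^ m' ∈ Bbar)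
    (hmulQ : ∀ n ∈ N₁, ∀ n' ∈ N', n ^ Q * n' ∈ Bbar)
    {V V' M : ℕ → Submodule K F} (hM : Monotone M)
    (hN₁ : ∀ x ∈ N₁, ∃ b, x ∈ R.redLat (V b)) (hN' : ∀ y ∈ N', ∃ b, y ∈ R.redLat (V' b))
    (σ : F → F) (hσO : ∀ f ∈ S.O, σ f ∈ S.O)
    (hσres : ∀ (f : F) (hf : f ∈ S.O), R.res ⟨σ f, hσO f hf⟩ = φ (R.res ⟨f, hf⟩))
    {w : F} (hwO : w ∈ S.O) (hw1 : R.res ⟨w, hwO⟩ = 1)
    (hprod : ∀ (b b' : ℕ) (f f' : F), f ∈ V b → f ∈ S.O → f' ∈ V' b' → f' ∈ S.O →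
      σ f * f' * w ∈ M (b + b')) :
    ∃ (n : ℕ) (g : F), g ∈ M n ∧ ∃ hg : g ∈ S.O, R.res ⟨g, hg⟩ = 1 := by
  have hsat' : ∀ b, b₀ ≤ b → Subalgebra.toSubmodule (Bbar.comap j) ⊓ P b ≤ Sb b :=
    fun b hb v hv => hsat b hb v hv.2 hv.1
  obtain ⟨hNfin, hSfin, -, hcodim⟩ := UB.finrank_quotient_le_finrank_quotient P hPmono hPtop
    (N₁.comap j.toLinearMap) (Subalgebra.toSubmodule (Bbar.comap j)) Nb Sb
    (fun b v hv => hNb b v hv) hNP (fun b v hv => hSb b v hv) hSP δ b₀ hdimN hdimS hsat'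
  obtain ⟨hNfin', -, -, hcodim'⟩ := UB.finrank_quotient_le_finrank_quotient P hPmono hPtop
    (N'.comap j.toLinearMap) (Subalgebra.toSubmodule (Bbar.comap j)) Nb' Sb
    (fun b v hv => hNb' b v hv) hNP' (fun b v hv => hSb b v hv) hSP δ b₀ hdimN' hdimS hsat'
  exact exists_one_semilinear R j Bbar N₁ N' h₁ h₂ hp hpth hcodim hcodim' θ φV hφVsurj hφVsmul
    φ hφsmul hjφ hφBbar Q hcong hN'range hm hm' hpow hpow' hmulQ hM hN₁ hN' σ hσO hσres hwO hw1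
    hprod

end Main

end Fermat.Agent.S34x.ExistsOneQ
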