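/-
P-S34 (T6), third file (helper43): the output of `ExistsOne` / `ExistsOneQ` in the shape consumed by
`TheoremB.exists_const_mul_pow_of_sigma` (`S34x/TheoremBSigma.lean`, hypotheses `hinf`, `hzero`):
finitely many lifts `x_j ∈ V b ∩ O`, `y_j ∈ V' b' ∩ O` with `∑ res (σ x_j) * res (y_j) = 1`.
-/
import Mathlib
import Fermat.Agent.S34x.ExistsOneQ

set_option autoImplicit false
set_option linter.unusedSectionVars false

namespace Fermat.Agent.S34x.ExistsLifts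

open Module Fermat.Agent.S34x.C0two Fermat.Agent.S34x.ExistsOne Fermat.Agent.S34x.ExistsOneQ

/-! ### Elements of a product of submodules as finite sums -/

section SumForm

variable {k : Type*} [CommSemiring k] {κ : Type*} [CommSemiring κ] [Algebra k κ]

/-- Every element of `N * N'` is a finite sum `∑ a j * b j` with `a j ∈ N`, `b j ∈ N'`. -/
theorem exists_sum_of_mem_mul {N N' : Submodule k κ} {v : κ} (hv : v ∈ N * N') :
    ∃ (r : ℕ) (a b : Fin r → κ), (∀ j, a j ∈ N) ∧ (∀ j, b j ∈ N') ∧ ∑ j, a j * b j = v := by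
  refine Submodule.mul_induction_on hv (fun x hx y hy => ?_) ?_
  · exact ⟨1, fun _ => x, fun _ => y, fun _ => hx, fun _ => hy, by simp⟩
  · rintro _ _ ⟨r, a, b, ha, hb, rfl⟩ ⟨r', a', b', ha', hb', rfl⟩
    refine ⟨r + r', Fin.append a a', Fin.append b b', ?_, ?_, ?_⟩
    · intro j
      refine Fin.addCases (fun i => ?_) (fun i => ?_) j
      · rw [Fin.append_left]; exact ha i
      · rw [Fin.append_right]; exact ha' i
    · intro j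
      refine Fin.addCases (fun i => ?_) (fun i => ?_) j
      · rw [Fin.append_left]; exact hb i
      · rw [Fin.append_right]; exact hb' i
    · rw [Fin.sum_univ_add]
      simp only [Fin.append_left, Fin.append_right]

end SumForm

/-! ### Lifts -/

section Lifts

variable {K : Type*} [Field K] {A : ValuationSubring K} {F : Type*} [Field F] [Algebra K F]
  {S : SmallRing F} {k κ : Type*} [Field k] [CommRing κ] [Algebra k κ] {R : RedSetup2 A S k κ}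

/-- **Lifts of a product decomposition.**  `N` consists of reductions of elements `σ f`,
`f ∈ V b ∩ O`, `N'` of reductions of elements of `V' b ∩ O`.  Then every `v ∈ N * N'` is
`∑ res (σ x_j) * res (y_j)` for finitely many `x_j ∈ V b ∩ O`, `y_j ∈ V' b' ∩ O` (same `b`, `b'` for
all `j`). -/
theorem exists_lifts_of_mem_mul {V V' : ℕ → Submodule K F} (hV : Monotone V) (hV' : Monotone V')
    (σ : F → F) (hσO : ∀ x ∈ S.O, σ x ∈ S.O) (N N' : Submodule k κ)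
    (hN : ∀ x ∈ N, ∃ (b : ℕ) (f : F), f ∈ V b ∧ ∃ hf : f ∈ S.O, R.res ⟨σ f, hσO f hf⟩ = x)
    (hN' : ∀ y ∈ N', ∃ b, y ∈ R.redLat (V' b)) {v : κ} (hv : v ∈ N * N') :
    ∃ (r b b' : ℕ) (x y : Fin r → F) (hxO : ∀ j, x j ∈ S.O) (hyO : ∀ j, y j ∈ S.O),
      (∀ j, x j ∈ V b) ∧ (∀ j, y j ∈ V' b') ∧
      ∑ j, R.res ⟨σ (x j), hσO _ (hxO j)⟩ * R.res ⟨y j, hyO j⟩ = v := by
  obtain ⟨r, a, c, ha, hc, rfl⟩ := exists_sum_of_mem_mul hv
  choose β x hxV hxO hxres using fun j => hN (a j) (ha j)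
  choose β' y hyO hyV hyres using fun j => hN' (c j) (hc j)
  refine ⟨r, Finset.univ.sup β, Finset.univ.sup β', x, y, hxO, hyO,
    fun j => hV (Finset.le_sup (Finset.mem_univ j)) (hxV j),
    fun j => hV' (Finset.le_sup (Finset.mem_univ j)) (hyV j), ?_⟩
  exact Finset.sum_congr rfl fun j _ => by rw [hxres j, hyres j]

end Lifts

/-! ### The two combinations -/

section Main

variable {K : Type*} [Field K] {A : ValuationSubring K} {F : Type*} [Field F] [Algebra K F]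
  {S : SmallRing F} {k κ : Type*} [Field k] [IsAlgClosed k] [CommRing κ] [Algebra k κ]
  {B₁ B₂ : Type*} [CommRing B₁] [CommRing B₂] [Algebra k B₁] [Algebra k B₂]

/-- **ExistsOne (one chart), `Q = 1`, lifts form** = hypothesis `hinf` (resp. `hzero`) of
`TheoremB.exists_const_mul_pow_of_sigma` for `V b = L(D_w + b C∞)`, `V' b = L((m-1) D_w + b C∞)`
and `σ` with `res ∘ σ = res`. -/
theorem exists_lifts (R : RedSetup2 A S k κ) (j : (B₁ × B₂) →ₐ[k] κ) (Bbar : Subalgebra k κ)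
    (N N' : Submodule k κ)
    (h₁ : ∀ f : B₁, ∃ g : B₂, j (f, g) ∈ Bbar) (h₂ : ∀ g : B₂, ∃ f : B₁, j (f, g) ∈ Bbar)
    [Module.Finite k ((B₁ × B₂) ⧸ Subalgebra.toSubmodule (Bbar.comap j))]
    {p : ℕ} (hp : 2 ≤ p) (hpth : ∀ g : B₂, ∃ g' : B₂, j ((0 : B₁), g - g' ^ p) ∈ Bbar)
    [Module.Finite k ((B₁ × B₂) ⧸ N.comap j.toLinearMap)]
    [Module.Finite k ((B₁ × B₂) ⧸ N'.comap j.toLinearMap)]
    (hcodim : finrank k ((B₁ × B₂) ⧸ N.comap j.toLinearMap) ≤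
      finrank k ((B₁ × B₂) ⧸ Subalgebra.toSubmodule (Bbar.comap j)))
    (hcodim' : finrank k ((B₁ × B₂) ⧸ N'.comap j.toLinearMap) ≤
      finrank k ((B₁ × B₂) ⧸ Subalgebra.toSubmodule (Bbar.comap j)))
    {m m' : ℕ} (hm : m ≠ 0) (hm' : m' ≠ 0)
    (hpow : ∀ n ∈ N, n ^ m ∈ Bbar) (hpow' : ∀ n ∈ N', n ^ m' ∈ Bbar)
    (hmul : ∀ n ∈ N, ∀ n' ∈ N', n * n' ∈ Bbar)
    {V V' : ℕ → Submodule K F} (hV : Monotone V) (hV' : Monotone V')
    (hN : ∀ x ∈ N, ∃ b, x ∈ R.redLat (V b)) (hN' : ∀ y ∈ N', ∃ b, y ∈ R.redLat (V' b))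
    (σ : F → F) (hσO : ∀ f ∈ S.O, σ f ∈ S.O)
    (hσres : ∀ (f : F) (hf : f ∈ S.O), R.res ⟨σ f, hσO f hf⟩ = R.res ⟨f, hf⟩) :
    ∃ (r b b' : ℕ) (x y : Fin r → F) (hxO : ∀ j, x j ∈ S.O) (hyO : ∀ j, y j ∈ S.O),
      (∀ j, x j ∈ V b) ∧ (∀ j, y j ∈ V' b') ∧
      ∑ j, R.res ⟨σ (x j), hσO _ (hxO j)⟩ * R.res ⟨y j, hyO j⟩ = 1 := by
  refine exists_lifts_of_mem_mul hV hV' σ hσO N N' ?_ hN'
    (one_mem_mul_of_comap j Bbar N N' h₁ h₂ hp hpth hcodim hcodim' hm hm' hpow hpow' hmul)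
  intro x hx
  obtain ⟨b, f, hf, hfV, rfl⟩ := hN x hx
  exact ⟨b, f, hfV, hf, hσres f hf⟩

/-- **ExistsOne (one chart), semilinear form, lifts form** = hypothesis `hinf` (resp. `hzero`) of
`TheoremB.exists_const_mul_pow_of_sigma` for `V b = L(D_w + b C∞)`, `V' b = L(i' D_w + b C∞)` and
`σ` with `res ∘ σ = φ ∘ res`. -/
theorem exists_lifts_semilinear (R : RedSetup2 A S k κ) (j : (B₁ × B₂) →ₐ[k] κ)
    (Bbar : Subalgebra k κ) (N₁ N' : Submodule k κ)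
    (h₁ : ∀ f : B₁, ∃ g : B₂, j (f, g) ∈ Bbar) (h₂ : ∀ g : B₂, ∃ f : B₁, j (f, g) ∈ Bbar)
    [Module.Finite k ((B₁ × B₂) ⧸ Subalgebra.toSubmodule (Bbar.comap j))]
    {p : ℕ} (hp : 2 ≤ p) (hpth : ∀ g : B₂, ∃ g' : B₂, j ((0 : B₁), g - g' ^ p) ∈ Bbar)
    [Module.Finite k ((B₁ × B₂) ⧸ N₁.comap j.toLinearMap)]
    [Module.Finite k ((B₁ × B₂) ⧸ N'.comap j.toLinearMap)]
    (hcodim : finrank k ((B₁ × B₂) ⧸ N₁.comap j.toLinearMap) ≤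
      finrank k ((B₁ × B₂) ⧸ Subalgebra.toSubmodule (Bbar.comap j)))
    (hcodim' : finrank k ((B₁ × B₂) ⧸ N'.comap j.toLinearMap) ≤
      finrank k ((B₁ × B₂) ⧸ Subalgebra.toSubmodule (Bbar.comap j)))
    (θ : k ≃+* k) (φV : (B₁ × B₂) →+* (B₁ × B₂)) (hφVsurj : Function.Surjective φV)
    (hφVsmul : ∀ (c : k) (v : B₁ × B₂), φV (c • v) = θ c • φV v)
    (φ : κ →+* κ) (hφsmul : ∀ (c : k) (y : κ), φ (c • y) = θ c • φ y)
    (hjφ : ∀ v, j (φV v) = φ (j v)) (hφBbar : ∀ y ∈ Bbar, φ y ∈ Bbar)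
    (Q : ℕ)
    (hcong : ∀ x ∈ N₁, ∃ (c₁ : B₁) (c₂ : B₂), φ x - x ^ Q = j (c₁, c₂) ∧
      j (c₁, 0) ∈ Bbar ∧ j (0, c₂) ∈ Bbar)
    (hN'range : ∀ y ∈ N', ∃ v, j v = y)
    {m m' : ℕ} (hm : m ≠ 0) (hm' : m' ≠ 0)
    (hpow : ∀ n ∈ N₁, n ^ m ∈ Bbar) (hpow' : ∀ n ∈ N', n ^ m' ∈ Bbar)
    (hmulQ : ∀ n ∈ N₁, ∀ n' ∈ N', n ^ Q * n' ∈ Bbar)
    {V V' : ℕ → Submodule K F} (hV : Monotone V) (hV' : Monotone V')
    (hN₁ : ∀ x ∈ N₁, ∃ b, x ∈ R.redLat (V b)) (hN' : ∀ y ∈ N', ∃ b, y ∈ R.redLat (V' b))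
    (σ : F → F) (hσO : ∀ f ∈ S.O, σ f ∈ S.O)
    (hσres : ∀ (f : F) (hf : f ∈ S.O), R.res ⟨σ f, hσO f hf⟩ = φ (R.res ⟨f, hf⟩)) :
    ∃ (r b b' : ℕ) (x y : Fin r → F) (hxO : ∀ j, x j ∈ S.O) (hyO : ∀ j, y j ∈ S.O),
      (∀ j, x j ∈ V b) ∧ (∀ j, y j ∈ V' b') ∧
      ∑ j, R.res ⟨σ (x j), hσO _ (hxO j)⟩ * R.res ⟨y j, hyO j⟩ = 1 := by
  refine exists_lifts_of_mem_mul hV hV' σ hσO (mapSemi θ φ hφsmul N₁) N' ?_ hN'
    (one_mem_mapSemi_mul j Bbar N₁ N' h₁ h₂ hp hpth hcodim hcodim' θ φV hφVsurj hφVsmul φ hφsmul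
      hjφ hφBbar Q hcong hN'range hm hm' hpow hpow' hmulQ)
  rintro _ ⟨x, hx, rfl⟩
  obtain ⟨b, f, hf, hfV, rfl⟩ := hN₁ x hx
  exact ⟨b, f, hfV, hf, hσres f hf⟩

end Main

end Fermat.Agent.S34x.ExistsLifts
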