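/-
P-S34, (T6) (helper43): abstract (N2)-transport + (N3), one chart at a time.

Setting (helper71's `RedSetup2`): `A ⊆ K` a valuation subring, `F / K` a field, `S = (O, I)` a small
ring of `F` with residue map `R.res : O → κ` (`κ = κ₁ × κ₂` in the application), and a `k`-algebra
map `j : B₁ × B₂ → κ` (the normalisation `B̃ = B̃₁ × B̃₂` of the reduced chart ring, inside `κ`).

* `one_mem_mul_of_comap` : (N2) transported to `κ`.  `Bbar : Subalgebra k κ` (the reduced chart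
  ring), `N N' : Submodule k κ` (the reductions of the twisted chart modules `N_i`, `N_{m-i}`).  If
  the pull-backs along `j` satisfy the Goursat/(N1) hypotheses and the codimension hypotheses of
  `NodeLinAlg.one_mem_mul_of_subalgebra`, then `1 ∈ N * N'` in `κ`.
* `exists_res_eq_of_mem_mul` : (N3).  If every element of `N` (resp. `N'`) is the reduction of an
  element of some `V b ∩ O` (resp. `V' b ∩ O`), `σ : F → F` preserves `O` with `res ∘ σ = res`,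
  `w ∈ O` has `res w = 1`, and `σ f * f' * w ∈ M (b + b')` for `f ∈ V b`, `f' ∈ V' b'`, then every
  `v ∈ N * N'` is the reduction of an element of some `M n ∩ O`
  (`g = Σ σ(f_j) f'_j w` for `v = Σ res f_j · res f'_j`).
* `exists_one` : the combination, in the literal shape of hypothesis (e) of `TheoremB`:
  `∃ n g, g ∈ M n ∧ ∃ hg : g ∈ S.O, R.res ⟨g, hg⟩ = 1`  (take `M n := T.LM E 0 n` on the chart `∞`
  and `M n := T.LM E n 0` on the chart `0`).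
* `exists_one_of_sum` : the same from an explicit identity `Σ x_i y_i = 1`.
-/
import Mathlib
import Fermat.Agent.S34x.NodeLinAlg
import Fermat.Agent.S34x.UB
import Fermat.Agent.S34x.C0two.Count

set_option autoImplicit false
set_option linter.unusedSectionVars false

namespace Fermat.Agent.S34x.ExistsOne

open Module Fermat.Agent.S34x.C0two

/-! ### (N2): transport of `1 ∈ N * N'` from `B₁ × B₂` to `κ` -/

section N2

variable {k : Type*} [Field k] {κ : Type*} [CommRing κ] [Algebra k κ]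
  {B₁ B₂ : Type*} [CommRing B₁] [CommRing B₂] [Algebra k B₁] [Algebra k B₂]

/-- Pushing `1 ∈ N₀ * N₀'` forward along an algebra map. -/
theorem one_mem_mul_of_map {V : Type*} [CommRing V] [Algebra k V] (j : V →ₐ[k] κ)
    (N N' : Submodule k κ) (N₀ N₀' : Submodule k V) (hN₀ : ∀ v ∈ N₀, j v ∈ N)
    (hN₀' : ∀ v ∈ N₀', j v ∈ N') (h : (1 : V) ∈ N₀ * N₀') : (1 : κ) ∈ N * N' := by
  have h1 : j 1 ∈ (N₀ * N₀').map j.toLinearMap := Submodule.mem_map_of_mem h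
  rw [map_one, Submodule.map_mul] at h1
  refine Submodule.mul_le.2 ?_ h1
  rintro _ ⟨v, hv, rfl⟩ _ ⟨v', hv', rfl⟩
  exact Submodule.mul_mem_mul (hN₀ v hv) (hN₀' v' hv')

variable [IsAlgClosed k]

/-- **(N2) in `κ`.**  `j : B₁ × B₂ → κ` the normalisation of the reduced chart ring
`Bbar ≤ κ`; `N`, `N'` two `k`-subspaces of `κ` with `n ^ m ∈ Bbar`, `n' ^ m' ∈ Bbar`,
`n * n' ∈ Bbar`.  If `j⁻¹ Bbar` has surjective projections, finite codimension, and every element of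
its gluing ring is a `p`-th power (`p ≥ 2`), and `j⁻¹ N`, `j⁻¹ N'` have codimension at most that of
`j⁻¹ Bbar`, then `1 ∈ N * N'`. -/
theorem one_mem_mul_of_comap (j : (B₁ × B₂) →ₐ[k] κ) (Bbar : Subalgebra k κ)
    (N N' : Submodule k κ)
    (h₁ : ∀ f : B₁, ∃ g : B₂, j (f, g) ∈ Bbar) (h₂ : ∀ g : B₂, ∃ f : B₁, j (f, g) ∈ Bbar)
    [Module.Finite k ((B₁ × B₂) ⧸ Subalgebra.toSubmodule (Bbar.comap j))]
    {p : ℕ} (hp : 2 ≤ p) (hpth : ∀ g : B₂, ∃ g' : B₂, j ((0 : B₁), g - g' ^ p) ∈ Bbar)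
    [Module.Finite k ((B₁ × B₂) ⧸ N.comap j.toLinearMap)]
    [Module.Finite k ((B₁ × B₂) ⧸ N'.comap j.toLinearMap)]
    (hcodim : finrank k ((B₁ × B₂) ⧸ N.comap j.toLinearMap) ≤
      finrank k ((B₁ × B₂) ⧸ Subalgebra.toSubmodule (Bbar.comap j)))
    (hcodim' : finrank k ((B₁ × B₂) ⧸ N'.comap j.toLinearMap) ≤
      finrank k ((B₁ × B₂) ⧸ Subalgebra.toSubmodule (Bbar.comap j)))
    {m m' : ℕ} (hm : m ≠ 0) (hm' : m' ≠ 0)
    (hpow : ∀ n ∈ N, n ^ m ∈ Bbar) (hpow' : ∀ n ∈ N', n ^ m' ∈ Bbar)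
    (hmul : ∀ n ∈ N, ∀ n' ∈ N', n * n' ∈ Bbar) : (1 : κ) ∈ N * N' := by
  have key : (1 : B₁ × B₂) ∈ N.comap j.toLinearMap * N'.comap j.toLinearMap := by
    refine NodeLinAlg.one_mem_mul_of_subalgebra (Bbar.comap j) h₁ h₂ hp hpth _ _ hcodim hcodim'
      hm hm' ?_ ?_ ?_
    · intro n hn
      show j (n ^ m) ∈ Bbar
      rw [map_pow]
      exact hpow _ hn
    · intro n hn
      show j (n ^ m') ∈ Bbar
      rw [map_pow]
      exact hpow' _ hn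
    · intro n hn n' hn'
      show j (n * n') ∈ Bbar
      rw [map_mul]
      exact hmul _ hn _ hn'
  exact one_mem_mul_of_map j N N' _ _ (fun v hv => hv) (fun v hv => hv) key

end N2

/-! ### (N3): lifting `N * N'` through the twist -/

section N3

variable {K : Type*} [Field K] {A : ValuationSubring K} {F : Type*} [Field F] [Algebra K F]
  {S : SmallRing F} {k κ : Type*} [Field k] [CommRing κ] [Algebra k κ] (R : RedSetup2 A S k κ)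

/-- `v ∈ κ` is the reduction of an element of `M n ∩ O` for some `n`. -/
def Lifts (M : ℕ → Submodule K F) (v : κ) : Prop :=
  ∃ (n : ℕ) (g : F), g ∈ M n ∧ ∃ hg : g ∈ S.O, R.res ⟨g, hg⟩ = v

variable {R}

theorem lifts_iff_mem_redLat {M : ℕ → Submodule K F} {v : κ} :
    Lifts R M v ↔ ∃ n, v ∈ R.redLat (M n) := by
  constructor
  · rintro ⟨n, g, hgM, hg, e⟩
    exact ⟨n, g, hg, hgM, e⟩
  · rintro ⟨n, g, hg, hgM, e⟩
    exact ⟨n, g, hgM, hg, e⟩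

theorem Lifts.zero (M : ℕ → Submodule K F) : Lifts R M 0 :=
  ⟨0, 0, (M 0).zero_mem, S.O.zero_mem, map_zero R.res⟩

theorem Lifts.add {M : ℕ → Submodule K F} (hM : Monotone M) {v v' : κ} (h : Lifts R M v)
    (h' : Lifts R M v') : Lifts R M (v + v') := by
  obtain ⟨n, g, hgM, hg, e⟩ := h
  obtain ⟨n', g', hgM', hg', e'⟩ := h'
  refine ⟨max n n', g + g', (M _).add_mem (hM (le_max_left n n') hgM)
    (hM (le_max_right n n') hgM'), S.O.add_mem hg hg', ?_⟩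
  have : (⟨g + g', S.O.add_mem hg hg'⟩ : S.O) = ⟨g, hg⟩ + ⟨g', hg'⟩ := rfl
  rw [this, map_add, e, e']

theorem Lifts.smul {M : ℕ → Submodule K F} {v : κ} (h : Lifts R M v) (c : k) :
    Lifts R M (c • v) := by
  obtain ⟨n, g, hgM, hg, e⟩ := h
  obtain ⟨a, rfl⟩ := R.π_surj c
  exact ⟨n, a • g, (M n).smul_mem (a : K) hgM, R.smul_mem_O a hg, by rw [R.res_smul a hg, e]⟩

/-- **(N3), one product.** -/
theorem Lifts.mul_twist {V V' M : ℕ → Submodule K F} (σ : F → F) (hσO : ∀ f ∈ S.O, σ f ∈ S.O)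
    (hσres : ∀ (f : F) (hf : f ∈ S.O), R.res ⟨σ f, hσO f hf⟩ = R.res ⟨f, hf⟩)
    {w : F} (hwO : w ∈ S.O) (hw1 : R.res ⟨w, hwO⟩ = 1)
    (hprod : ∀ (b b' : ℕ) (f f' : F), f ∈ V b → f ∈ S.O → f' ∈ V' b' → f' ∈ S.O →
      σ f * f' * w ∈ M (b + b'))
    {x y : κ} (hx : Lifts R V x) (hy : Lifts R V' y) : Lifts R M (x * y) := by
  obtain ⟨b, f, hfV, hf, e⟩ := hx
  obtain ⟨b', f', hfV', hf', e'⟩ := hy
  have hO : σ f * f' * w ∈ S.O := S.O.mul_mem (S.O.mul_mem (hσO f hf) hf') hwO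
  refine ⟨b + b', σ f * f' * w, hprod b b' f f' hfV hf hfV' hf', hO, ?_⟩
  have : (⟨σ f * f' * w, hO⟩ : S.O) = ⟨σ f, hσO f hf⟩ * ⟨f', hf'⟩ * ⟨w, hwO⟩ := rfl
  rw [this, map_mul, map_mul, hσres f hf, hw1, mul_one, e, e']

/-- **(N3).**  Every element of `N * N'` is the reduction of an element of some `M n ∩ O`. -/
theorem exists_res_eq_of_mem_mul {V V' M : ℕ → Submodule K F} (hM : Monotone M)
    (σ : F → F) (hσO : ∀ f ∈ S.O, σ f ∈ S.O)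
    (hσres : ∀ (f : F) (hf : f ∈ S.O), R.res ⟨σ f, hσO f hf⟩ = R.res ⟨f, hf⟩)
    {w : F} (hwO : w ∈ S.O) (hw1 : R.res ⟨w, hwO⟩ = 1)
    (hprod : ∀ (b b' : ℕ) (f f' : F), f ∈ V b → f ∈ S.O → f' ∈ V' b' → f' ∈ S.O →
      σ f * f' * w ∈ M (b + b'))
    (N N' : Submodule k κ) (hN : ∀ x ∈ N, ∃ b, x ∈ R.redLat (V b))
    (hN' : ∀ y ∈ N', ∃ b, y ∈ R.redLat (V' b)) {v : κ} (hv : v ∈ N * N') :
    ∃ (n : ℕ) (g : F), g ∈ M n ∧ ∃ hg : g ∈ S.O, R.res ⟨g, hg⟩ = v := by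
  change Lifts R M v
  refine Submodule.mul_induction_on hv (fun x hx y hy => ?_) (fun x y hx hy => hx.add hM hy)
  exact Lifts.mul_twist σ hσO hσres hwO hw1 hprod (lifts_iff_mem_redLat.2 (hN x hx))
    (lifts_iff_mem_redLat.2 (hN' y hy))

/-- (N3) from an explicit identity `Σ x_i y_i = 1`. -/
theorem exists_one_of_sum {V V' M : ℕ → Submodule K F} (hM : Monotone M)
    (σ : F → F) (hσO : ∀ f ∈ S.O, σ f ∈ S.O)
    (hσres : ∀ (f : F) (hf : f ∈ S.O), R.res ⟨σ f, hσO f hf⟩ = R.res ⟨f, hf⟩)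
    {w : F} (hwO : w ∈ S.O) (hw1 : R.res ⟨w, hwO⟩ = 1)
    (hprod : ∀ (b b' : ℕ) (f f' : F), f ∈ V b → f ∈ S.O → f' ∈ V' b' → f' ∈ S.O →
      σ f * f' * w ∈ M (b + b'))
    {ι : Type*} (s : Finset ι) (x y : ι → κ) (hx : ∀ i ∈ s, ∃ b, x i ∈ R.redLat (V b))
    (hy : ∀ i ∈ s, ∃ b, y i ∈ R.redLat (V' b)) (hsum : ∑ i ∈ s, x i * y i = 1) :
    ∃ (n : ℕ) (g : F), g ∈ M n ∧ ∃ hg : g ∈ S.O, R.res ⟨g, hg⟩ = 1 := by
  classical
  have key : ∀ s' : Finset ι, s' ⊆ s → Lifts R M (∑ i ∈ s', x i * y i) := by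
    intro s'
    induction s' using Finset.induction_on with
    | empty => intro _; simpa using Lifts.zero (R := R) M
    | insert i s' hi ih =>
      intro hs'
      rw [Finset.sum_insert hi]
      have his : i ∈ s := hs' (Finset.mem_insert_self _ _)
      exact (Lifts.mul_twist σ hσO hσres hwO hw1 hprod (lifts_iff_mem_redLat.2 (hx i his))
        (lifts_iff_mem_redLat.2 (hy i his))).add hM
        (ih fun i' hi' => hs' (Finset.mem_insert_of_mem hi'))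
  have := key s subset_rfl
  rwa [hsum] at this

end N3

/-! ### The combination -/

section Main

variable {K : Type*} [Field K] {A : ValuationSubring K} {F : Type*} [Field F] [Algebra K F]
  {S : SmallRing F} {k κ : Type*} [Field k] [IsAlgClosed k] [CommRing κ] [Algebra k κ]
  {B₁ B₂ : Type*} [CommRing B₁] [CommRing B₂] [Algebra k B₁] [Algebra k B₂]

/-- **ExistsOne (one chart).**  Output: hypothesis (e) of `TheoremB` for the filtration `M`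
(`M n = L(E + n C∞)`, resp. `L(E + n C₀)`). -/
theorem exists_one (R : RedSetup2 A S k κ) (j : (B₁ × B₂) →ₐ[k] κ) (Bbar : Subalgebra k κ)
    (N N' : Submodule k κ)
    (h₁ : ∀ f : B₁, ∃ g : B₂, j (f, g) ∈ Bbar) (h₂ : ∀ g : B₂, ∃ f : B₁, j (f, g) ∈ Bbar)
    [Module.Finite k ((B₁ × B₂) ⧸ Subalgebra.toSubmodule (Bbar.comap j))]
    {p : ℕ} (hp : 2 ≤ p) (hpth : ∀ g : B₂, ∃ g' : B₂, j ((0 : B₁), g - g' ^ p) ∈ Bbar)
    [Module.Finite k ((B₁ × B₂) ⧸ N.comap j.toLinearMap)]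
    [Module.Finite k ((B₁ × B₂) ⧸ N'.comap j.toLinearMap)]
    (hcodim : finrank k ((B₁ × B₂) ⧸ N.comap j.toLinearMap) ≤
      finrank k ((B₁ × B₂) ⧸ Subalgebra.toSubmodule (Bbar.comap j)))
    (hcodim' : finrank k ((B₁ × B₂) ⧸ N'.comap j.toLinearMap) ≤
      finrank k ((B₁ × B₂) ⧸ Subalgebra.toSubmodule (Bbar.comap j)))
    {m m' : ℕ} (hm : m ≠ 0) (hm' : m' ≠ 0)
    (hpow : ∀ n ∈ N, n ^ m ∈ Bbar) (hpow' : ∀ n ∈ N', n ^ m' ∈ Bbar)
    (hmul : ∀ n ∈ N, ∀ n' ∈ N', n * n' ∈ Bbar)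
    {V V' M : ℕ → Submodule K F} (hM : Monotone M)
    (hN : ∀ x ∈ N, ∃ b, x ∈ R.redLat (V b)) (hN' : ∀ y ∈ N', ∃ b, y ∈ R.redLat (V' b))
    (σ : F → F) (hσO : ∀ f ∈ S.O, σ f ∈ S.O)
    (hσres : ∀ (f : F) (hf : f ∈ S.O), R.res ⟨σ f, hσO f hf⟩ = R.res ⟨f, hf⟩)
    {w : F} (hwO : w ∈ S.O) (hw1 : R.res ⟨w, hwO⟩ = 1)
    (hprod : ∀ (b b' : ℕ) (f f' : F), f ∈ V b → f ∈ S.O → f' ∈ V' b' → f' ∈ S.O →
      σ f * f' * w ∈ M (b + b')) :
    ∃ (n : ℕ) (g : F), g ∈ M n ∧ ∃ hg : g ∈ S.O, R.res ⟨g, hg⟩ = 1 :=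
  exists_res_eq_of_mem_mul hM σ hσO hσres hwO hw1 hprod N N' hN hN'
    (one_mem_mul_of_comap j Bbar N N' h₁ h₂ hp hpth hcodim hcodim' hm hm' hpow hpow' hmul)

/-- **ExistsOne (one chart), with the codimension hypotheses replaced by the Riemann–Roch counts**
of `UB.finrank_quotient_le_finrank_quotient`: `P b` an exhaustive filtration of `B₁ × B₂` by
finite-dimensional subspaces (`P b = P(0, b)`), `Sb b ≤ j⁻¹ Bbar ⊓ P b`, `Nb b ≤ j⁻¹ N ⊓ P b`,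
`Nb' b ≤ j⁻¹ N' ⊓ P b` (the reductions of `Lam(b C∞)`, `Lam(D + b C∞)`, `Lam((m-1) D + b C∞)`) with
`dim P b = dim Sb b + δ`, `dim P b ≤ dim Nb b + δ`, `dim P b ≤ dim Nb' b + δ` and the saturation
`j⁻¹ Bbar ⊓ P b ≤ Sb b` for `b ≥ b₀`. -/
theorem exists_one_of_counts (R : RedSetup2 A S k κ) (j : (B₁ × B₂) →ₐ[k] κ)
    (Bbar : Subalgebra k κ) (N N' : Submodule k κ)
    (h₁ : ∀ f : B₁, ∃ g : B₂, j (f, g) ∈ Bbar) (h₂ : ∀ g : B₂, ∃ f : B₁, j (f, g) ∈ Bbar)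
    {p : ℕ} (hp : 2 ≤ p) (hpth : ∀ g : B₂, ∃ g' : B₂, j ((0 : B₁), g - g' ^ p) ∈ Bbar)
    (P : ℕ → Submodule k (B₁ × B₂)) (hPmono : Monotone P) (hPtop : ∀ v, ∃ b, v ∈ P b)
    [∀ b, FiniteDimensional k (P b)]
    (Sb Nb Nb' : ℕ → Submodule k (B₁ × B₂))
    (hSb : ∀ b, ∀ v ∈ Sb b, j v ∈ Bbar) (hSP : ∀ b, Sb b ≤ P b)
    (hNb : ∀ b, ∀ v ∈ Nb b, j v ∈ N) (hNP : ∀ b, Nb b ≤ P b)
    (hNb' : ∀ b, ∀ v ∈ Nb' b, j v ∈ N') (hNP' : ∀ b, Nb' b ≤ P b)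
    (δ b₀ : ℕ)
    (hdimS : ∀ b, b₀ ≤ b → finrank k (P b) = finrank k (Sb b) + δ)
    (hdimN : ∀ b, b₀ ≤ b → finrank k (P b) ≤ finrank k (Nb b) + δ)
    (hdimN' : ∀ b, b₀ ≤ b → finrank k (P b) ≤ finrank k (Nb' b) + δ)
    (hsat : ∀ b, b₀ ≤ b → ∀ v ∈ P b, j v ∈ Bbar → v ∈ Sb b)
    {m m' : ℕ} (hm : m ≠ 0) (hm' : m' ≠ 0)
    (hpow : ∀ n ∈ N, n ^ m ∈ Bbar) (hpow' : ∀ n ∈ N', n ^ m' ∈ Bbar)
    (hmul : ∀ n ∈ N, ∀ n' ∈ N', n * n' ∈ Bbar)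
    {V V' M : ℕ → Submodule K F} (hM : Monotone M)
    (hN : ∀ x ∈ N, ∃ b, x ∈ R.redLat (V b)) (hN' : ∀ y ∈ N', ∃ b, y ∈ R.redLat (V' b))
    (σ : F → F) (hσO : ∀ f ∈ S.O, σ f ∈ S.O)
    (hσres : ∀ (f : F) (hf : f ∈ S.O), R.res ⟨σ f, hσO f hf⟩ = R.res ⟨f, hf⟩)
    {w : F} (hwO : w ∈ S.O) (hw1 : R.res ⟨w, hwO⟩ = 1)
    (hprod : ∀ (b b' : ℕ) (f f' : F), f ∈ V b → f ∈ S.O → f' ∈ V' b' → f' ∈ S.O →
      σ f * f' * w ∈ M (b + b')) :
    ∃ (n : ℕ) (g : F), g ∈ M n ∧ ∃ hg : g ∈ S.O, R.res ⟨g, hg⟩ = 1 := by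
  have hsat' : ∀ b, b₀ ≤ b → Subalgebra.toSubmodule (Bbar.comap j) ⊓ P b ≤ Sb b :=
    fun b hb v hv => hsat b hb v hv.2 hv.1
  obtain ⟨hNfin, hSfin, -, hcodim⟩ := UB.finrank_quotient_le_finrank_quotient P hPmono hPtop
    (N.comap j.toLinearMap) (Subalgebra.toSubmodule (Bbar.comap j)) Nb Sb
    (fun b v hv => hNb b v hv) hNP (fun b v hv => hSb b v hv) hSP δ b₀ hdimN hdimS hsat'
  obtain ⟨hNfin', -, -, hcodim'⟩ := UB.finrank_quotient_le_finrank_quotient P hPmono hPtop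
    (N'.comap j.toLinearMap) (Subalgebra.toSubmodule (Bbar.comap j)) Nb' Sb
    (fun b v hv => hNb' b v hv) hNP' (fun b v hv => hSb b v hv) hSP δ b₀ hdimN' hdimS hsat'
  exact exists_one R j Bbar N N' h₁ h₂ hp hpth hcodim hcodim' hm hm' hpow hpow' hmul hM hN hN'
    σ hσO hσres hwO hw1 hprod

end Main

end Fermat.Agent.S34x.ExistsOne
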