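/-
P-S34, WP1 (helper30): reduction-orthonormal families over a (non-discrete) valuation ring.

Part A (`section Semilinear`, pure linear algebra): `A` a valuation subring of `K` with a residue
map `π : A →+* k` killing the maximal ideal; `W` a `K`-vector space, `L ≤ W` an `A`-submodule
(a "unit ball": `O ∩ W`, or `O₁ ∩ O₂ ∩ W` for two valuations), `ρ : L → E` a `π`-semilinear map to
a `k`-vector space (`E = κ₁ × κ₂` for two valuations).  If the reductions `ρ (b i)` of a family
`b : ι → L` are `k`-linearly independent then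
* `linearIndependent_of_reduction`: the `b i` are `K`-linearly independent;
* `coeff_mem_of_reduction`: the coordinates of every `f ∈ L ∩ span_K b` lie in `A`
  (the family is ORTHONORMAL for the gauge of `L`);
* `reduction_eq_sum`: `ρ f = ∑ π (coordinate) • ρ (b i)`;
* `exists_smul_of_reduction_eq_zero`: `ρ f = 0` implies `f = a • f'`, `a ∈ m_A`, `f' ∈ L`
  (the kernel of the reduction on `L ∩ span_K b` is `m_A (L ∩ span_K b)`).

Part B (`section Cartesian`, = (G0)): for a (possibly infinite) family `e : S → L` with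
`k`-independent reductions and every finite-dimensional `K`-subspace `V ≤ span_K e`:
* `fg_inf`: `V ∩ L` is a finitely generated `A`-module;
* `exists_basis_inf`: `V ∩ L` is `A`-free on `dim_K V` elements which are `K`-independent and whose
  reductions are `k`-independent (so the reduction of `V ∩ L` has `k`-dimension `dim_K V`);
* `exists_smul_of_reduction_eq_zero_inf`: the kernel of the reduction on `V ∩ L` is `m_A (V ∩ L)`.
-/
import Mathlib
import Fermat.Agent.Gateway.C0.Cartesian
import Fermat.Agent.Gateway.Red.CountLattice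

set_option autoImplicit false
set_option linter.unusedSectionVars false

namespace Fermat.Agent.S34x.Gauss2

open Module

section Normalise

variable {K : Type*} [Field K] (A : ValuationSubring K)

/-- In a finite family of elements of `K`, not all zero, one of them is nonzero and divides all
the others in the valuation ring `A`. -/
theorem exists_div_mem {ι : Type*} (s : Finset ι) (g : ι → K) (h : ∃ i ∈ s, g i ≠ 0) :
    ∃ j ∈ s, g j ≠ 0 ∧ ∀ i ∈ s, g i / g j ∈ A := by
  obtain ⟨i₀, hi₀, hg₀⟩ := h
  obtain ⟨j, hj, hmax⟩ := s.exists_max_image (fun i => A.valuation (g i)) ⟨i₀, hi₀⟩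
  have hj0 : g j ≠ 0 := by
    intro h0
    have h1 := hmax i₀ hi₀
    rw [h0, map_zero] at h1
    exact hg₀ ((map_eq_zero _).1 (le_antisymm h1 zero_le))
  refine ⟨j, hj, hj0, fun i hi => ?_⟩
  rw [← A.valuation_le_one_iff, map_div₀]
  exact div_le_one_of_le₀ (hmax i hi) zero_le

/-- the inverse of an element outside `A` lies in the maximal ideal of `A` -/
theorem inv_mem_maximalIdeal {x : K} (hx : x ∉ A) :
    ∃ h : x⁻¹ ∈ A, (⟨x⁻¹, h⟩ : A) ∈ IsLocalRing.maximalIdeal A := by
  have h : x⁻¹ ∈ A := (A.mem_or_inv_mem x).resolve_left hx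
  refine ⟨h, ?_⟩
  rw [IsLocalRing.mem_maximalIdeal, mem_nonunits_iff]
  intro hu
  obtain ⟨y, hy⟩ := isUnit_iff_exists_inv.1 hu
  have h1 : x⁻¹ * (y : K) = 1 := congrArg (fun z : A => (z : K)) hy
  have hx0 : x ≠ 0 := fun h0 => hx (h0 ▸ A.zero_mem)
  have : (y : K) = x := by
    field_simp at h1
    exact h1
  exact hx (this ▸ y.2)

end Normalise

section Semilinear

variable {K : Type*} [Field K] (A : ValuationSubring K) {k : Type*} [Field k] (π : A →+* k)
  (hπ : ∀ a : A, a ∈ IsLocalRing.maximalIdeal A → π a = 0)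
  {W : Type*} [AddCommGroup W] [Module K W] (L : Submodule A W)
  {E : Type*} [AddCommGroup E] [Module k E] (ρ : L →+ E)
  (hρ : ∀ (a : A) (x : L), ρ (a • x) = π a • ρ x)
  {ι : Type*} (b : ι → L) (hb : LinearIndependent k (fun i => ρ (b i)))

include hρ in
theorem reduction_sum (s : Finset ι) (c : ι → A) :
    ρ (∑ i ∈ s, c i • b i) = ∑ i ∈ s, π (c i) • ρ (b i) := by
  rw [map_sum]
  exact Finset.sum_congr rfl fun i _ => hρ _ _

include hρ hb in
/-- Core: if `ρ (∑ c i • b i) = 0` then all `π (c i) = 0`. -/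
theorem residue_eq_zero_of_sum (s : Finset ι) (c : ι → A)
    (h : ρ (∑ i ∈ s, c i • b i) = 0) : ∀ i ∈ s, π (c i) = 0 := by
  rw [reduction_sum A π L ρ hρ b] at h
  exact linearIndependent_iff'.1 hb s (fun i => π (c i)) h

theorem coe_sum_smul (s : Finset ι) (c : ι → A) :
    ((∑ i ∈ s, c i • b i : L) : W) = ∑ i ∈ s, ((c i : A) : K) • (b i : W) := by
  rw [← Submodule.subtype_apply, map_sum]
  rfl

include hρ hb in
/-- Lifts of `k`-linearly independent reductions are `K`-linearly independent. -/
theorem linearIndependent_of_reduction : LinearIndependent K (fun i => (b i : W)) := by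
  classical
  rw [linearIndependent_iff']
  intro s g hg
  by_contra hne
  push Not at hne
  obtain ⟨j, hj, hj0, hdiv⟩ := exists_div_mem A s g hne
  set c : ι → A := fun i => if hi : i ∈ s then ⟨g i / g j, hdiv i hi⟩ else 0 with hc
  have hrel : (∑ i ∈ s, c i • b i : L) = 0 := by
    apply Subtype.ext
    rw [coe_sum_smul, ZeroMemClass.coe_zero]
    have h2 : ∑ i ∈ s, ((c i : A) : K) • (b i : W) = (g j)⁻¹ • ∑ i ∈ s, g i • (b i : W) := by
      rw [Finset.smul_sum]
      refine Finset.sum_congr rfl fun i hi => ?_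
      simp only [hc, dif_pos hi]
      rw [smul_smul, div_eq_mul_inv, mul_comm]
    rw [h2, hg, smul_zero]
  have h3 := residue_eq_zero_of_sum A π L ρ hρ b hb s c (by rw [hrel, map_zero]) j hj
  have hcj : c j = 1 := by
    simp only [hc, dif_pos hj]
    exact Subtype.ext (div_self hj0)
  rw [hcj, map_one] at h3
  exact one_ne_zero h3

include hπ hρ hb in
/-- **Orthonormality**: the coordinates of an element of `L` with respect to lifts of
`k`-independent reductions lie in `A`. -/
theorem coeff_mem_of_reduction (f : L) (s : Finset ι) (g : ι → K)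
    (hf : (f : W) = ∑ i ∈ s, g i • (b i : W)) : ∀ i ∈ s, g i ∈ A := by
  classical
  by_contra hne
  push Not at hne
  obtain ⟨i₀, hi₀, hg₀⟩ := hne
  have hg₀' : g i₀ ≠ 0 := fun h0 => hg₀ (h0 ▸ A.zero_mem)
  obtain ⟨j, hj, hj0, hdiv⟩ := exists_div_mem A s g ⟨i₀, hi₀, hg₀'⟩
  have hgj : g j ∉ A := by
    intro hmem
    apply hg₀
    have : g i₀ = g i₀ / g j * g j := by field_simp
    rw [this]
    exact A.mul_mem _ _ (hdiv i₀ hi₀) hmem
  obtain ⟨hgj', hmax⟩ := inv_mem_maximalIdeal A hgj
  set c : ι → A := fun i => if hi : i ∈ s then ⟨g i / g j, hdiv i hi⟩ else 0 with hc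
  have hrel : (⟨(g j)⁻¹, hgj'⟩ : A) • f = ∑ i ∈ s, c i • b i := by
    apply Subtype.ext
    rw [coe_sum_smul]
    show (g j)⁻¹ • (f : W) = _
    rw [hf, Finset.smul_sum]
    refine Finset.sum_congr rfl fun i hi => ?_
    simp only [hc, dif_pos hi]
    rw [smul_smul, div_eq_mul_inv, mul_comm]
  have ht : ρ (∑ i ∈ s, c i • b i) = 0 := by
    rw [← hrel, hρ, hπ _ hmax, zero_smul]
  have h3 := residue_eq_zero_of_sum A π L ρ hρ b hb s c ht j hj
  have hcj : c j = 1 := by
    simp only [hc, dif_pos hj]
    exact Subtype.ext (div_self hj0)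
  rw [hcj, map_one] at h3
  exact one_ne_zero h3

include hπ hρ hb in
/-- Every element of `L` in the `K`-span of the `b i` is an `A`-combination of the `b i`. -/
theorem exists_coeff_of_mem_span (f : L)
    (hf : (f : W) ∈ Submodule.span K (Set.range fun i => (b i : W))) :
    ∃ (s : Finset ι) (c : ι → A), f = ∑ i ∈ s, c i • b i := by
  classical
  obtain ⟨g, hg⟩ := (Finsupp.mem_span_range_iff_exists_finsupp).mp hf
  have hf' : (f : W) = ∑ i ∈ g.support, g i • (b i : W) := hg.symm
  have hmem := coeff_mem_of_reduction A π hπ L ρ hρ b hb f g.support g hf'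
  refine ⟨g.support, fun i => if hi : i ∈ g.support then ⟨g i, hmem i hi⟩ else 0, ?_⟩
  apply Subtype.ext
  rw [coe_sum_smul, hf']
  refine Finset.sum_congr rfl fun i hi => ?_
  rw [dif_pos hi]

include hπ hρ hb in
/-- **The kernel of the reduction is `m_A L`** (on the span of the `b i`): if `ρ f = 0` then
`f = a • f'` with `a ∈ m_A` and `f' ∈ L` (again in the span of the `b i`). -/
theorem exists_smul_of_reduction_eq_zero (f : L)
    (hf : (f : W) ∈ Submodule.span K (Set.range fun i => (b i : W))) (h0 : ρ f = 0) :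
    ∃ (a : A) (f' : L), a ∈ IsLocalRing.maximalIdeal A ∧ f = a • f' ∧
      (f' : W) ∈ Submodule.span K (Set.range fun i => (b i : W)) := by
  classical
  obtain ⟨s, c, hc⟩ := exists_coeff_of_mem_span A π hπ L ρ hρ b hb f hf
  have hres : ∀ i ∈ s, π (c i) = 0 :=
    residue_eq_zero_of_sum A π L ρ hρ b hb s c (by rw [← hc, h0])
  by_cases hall : ∀ i ∈ s, ((c i : A) : K) = 0
  · refine ⟨0, 0, Ideal.zero_mem _, ?_, by simp⟩
    rw [zero_smul, hc]
    refine Finset.sum_eq_zero fun i hi => ?_
    have : c i = 0 := Subtype.ext (hall i hi)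
    rw [this, zero_smul]
  · push Not at hall
    obtain ⟨j, hj, hj0, hdiv⟩ := exists_div_mem A s (fun i => ((c i : A) : K)) hall
    have hcj : c j ∈ IsLocalRing.maximalIdeal A := by
      rw [IsLocalRing.mem_maximalIdeal, mem_nonunits_iff]
      intro hu
      have := hres j hj
      exact (hu.map π).ne_zero this
    set c' : ι → A := fun i => if hi : i ∈ s then ⟨(c i : K) / (c j : K), hdiv i hi⟩ else 0
      with hc'
    refine ⟨c j, ∑ i ∈ s, c' i • b i, hcj, ?_, ?_⟩
    · rw [hc, Finset.smul_sum]
      refine Finset.sum_congr rfl fun i hi => ?_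
      rw [smul_smul]
      congr 1
      apply Subtype.ext
      simp only [hc', dif_pos hi, MulMemClass.coe_mul]
      field_simp
    · rw [coe_sum_smul]
      exact Submodule.sum_mem _ fun i _ =>
        Submodule.smul_mem _ _ (Submodule.subset_span ⟨i, rfl⟩)

end Semilinear

section Cartesian

open Fermat.Agent.Gateway.C0

variable {K : Type*} [Field K] (A : ValuationSubring K) {k : Type*} [Field k] (π : A →+* k)
  (hπ : ∀ a : A, a ∈ IsLocalRing.maximalIdeal A → π a = 0)
  {W : Type*} [AddCommGroup W] [Module K W] (L : Submodule A W)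
  {E : Type*} [AddCommGroup E] [Module k E] (ρ : L →+ E)
  (hρ : ∀ (a : A) (x : L), ρ (a • x) = π a • ρ x)
  {S : Type*} (e : S → L) (he : LinearIndependent k (fun s => ρ (e s)))

theorem coe_finsupp_sum_mem (g : S →₀ K) (hg : ∀ s, g s ∈ A) :
    (g.sum fun s c => c • (e s : W)) ∈ L := by
  classical
  rw [Finsupp.sum]
  refine Submodule.sum_mem _ fun s _ => ?_
  have : g s • (e s : W) = ((⟨g s, hg s⟩ : A) • e s : L) := rfl
  rw [this]
  exact Submodule.coe_mem _

include hπ hρ he in
/-- **Cartesian lemma (G0), finite generation**: `V ∩ L` is a finitely generated `A`-module for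
every finite-dimensional `K`-subspace `V` of the span of a reduction-orthonormal family. -/
theorem fg_inf (V : Submodule K W) [FiniteDimensional K V]
    (hV : V ≤ Submodule.span K (Set.range fun s => (e s : W))) :
    (V.restrictScalars A ⊓ L).FG := by
  classical
  have hli : LinearIndependent K (fun s => (e s : W)) :=
    linearIndependent_of_reduction A π L ρ hρ e he
  set W' : Submodule K W := Submodule.span K (Set.range fun s => (e s : W)) with hW'
  set B : Basis S K W' := Basis.span hli with hB
  set V' : Submodule K W' := V.comap W'.subtype with hV'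
  have : FiniteDimensional K V' := by
    have hinj : Function.Injective (W'.subtype.domRestrict V' : V' →ₗ[K] W) := by
      intro x y hxy
      exact Subtype.ext (Subtype.ext hxy)
    have hf : ∀ x : V', (W'.subtype.domRestrict V') x ∈ V := fun x => x.2
    exact FiniteDimensional.of_injective
      ((W'.subtype.domRestrict V').codRestrict V hf)
      (fun x y hxy => hinj (by simpa using congrArg Subtype.val hxy))
  have hfg := fg_inf_ball A B V'
  have hrepr : ∀ w : W', ((B.repr w).sum fun s c => c • (e s : W)) = (w : W) := by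
    intro w
    have h2 := B.linearCombination_repr w
    have h3 := congrArg (W'.subtype) h2
    rw [Finsupp.linearCombination_apply, map_finsuppSum] at h3
    rw [Submodule.subtype_apply] at h3
    rw [← h3]
    refine Finsupp.sum_congr fun s _ => ?_
    rw [map_smul, Submodule.subtype_apply, hB, Basis.span_apply]
  have hball : ∀ w : W', w ∈ ball A B ↔ (w : W) ∈ L := by
    intro w
    rw [mem_ball]
    constructor
    · intro h
      rw [← hrepr w]
      exact coe_finsupp_sum_mem A L e _ h
    · intro h s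
      by_cases hs : s ∈ (B.repr w).support
      · exact coeff_mem_of_reduction A π hπ L ρ hρ e he ⟨(w : W), h⟩ (B.repr w).support
          (B.repr w) (hrepr w).symm s hs
      · rw [Finsupp.notMem_support_iff.mp hs]
        exact A.zero_mem
  have hmap : V.restrictScalars A ⊓ L =
      (V'.restrictScalars A ⊓ ball A B).map (W'.subtype.restrictScalars A) := by
    ext f
    rw [Submodule.mem_map]
    constructor
    · rintro ⟨hfV, hfL⟩
      exact ⟨⟨f, hV hfV⟩, ⟨hfV, (hball _).mpr hfL⟩, rfl⟩
    · rintro ⟨w, ⟨hwV, hwB⟩, rfl⟩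
      exact ⟨hwV, (hball w).mp hwB⟩
  rw [hmap]
  exact hfg.map _

/-- every vector of the span of the `e s` has a nonzero multiple in `L` -/
theorem exists_smul_mem (w : W)
    (hw : w ∈ Submodule.span K (Set.range fun s => (e s : W))) :
    ∃ c : K, c ≠ 0 ∧ c • w ∈ L := by
  classical
  obtain ⟨g, rfl⟩ := (Finsupp.mem_span_range_iff_exists_finsupp).mp hw
  by_cases hg : ∃ s ∈ g.support, g s ≠ 0
  · obtain ⟨j, hj, hj0, hdiv⟩ := exists_div_mem A g.support g hg
    refine ⟨(g j)⁻¹, inv_ne_zero hj0, ?_⟩
    rw [Finsupp.sum, Finset.smul_sum]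
    refine Submodule.sum_mem _ fun s hs => ?_
    have : (g j)⁻¹ • g s • (e s : W) = ((⟨g s / g j, hdiv s hs⟩ : A) • e s : L) := by
      rw [smul_smul, mul_comm, ← div_eq_mul_inv]
      rfl
    rw [this]
    exact Submodule.coe_mem _
  · push Not at hg
    refine ⟨1, one_ne_zero, ?_⟩
    have : (g.sum fun s c => c • (e s : W)) = 0 := by
      rw [Finsupp.sum]
      refine Finset.sum_eq_zero fun s hs => ?_
      rw [hg s hs, zero_smul]
    rw [this, smul_zero]
    exact L.zero_mem

include hπ hρ he in
/-- **The kernel of the reduction on `V ∩ L` is `m_A (V ∩ L)`.** -/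
theorem exists_smul_of_reduction_eq_zero_inf (V : Submodule K W)
    (hV : V ≤ Submodule.span K (Set.range fun s => (e s : W))) (f : L) (hfV : (f : W) ∈ V)
    (h0 : ρ f = 0) :
    ∃ (a : A) (f' : L), a ∈ IsLocalRing.maximalIdeal A ∧ f = a • f' ∧ (f' : W) ∈ V := by
  obtain ⟨a, f', ha, hf, -⟩ :=
    exists_smul_of_reduction_eq_zero A π hπ L ρ hρ e he f (hV hfV) h0
  by_cases ha0 : a = 0
  · refine ⟨0, 0, Ideal.zero_mem _, ?_, V.zero_mem⟩
    rw [hf, ha0, zero_smul, zero_smul]
  · refine ⟨a, f', ha, hf, ?_⟩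
    have haK : ((a : A) : K) ≠ 0 := fun h => ha0 (Subtype.ext h)
    have h1 : (f' : W) = ((a : A) : K)⁻¹ • (f : W) := by
      rw [hf]
      show (f' : W) = ((a : A) : K)⁻¹ • (((a : A) : K) • (f' : W))
      rw [smul_smul, inv_mul_cancel₀ haK, one_smul]
    rw [h1]
    exact V.smul_mem _ hfV

include hπ hρ he in
/-- **Cartesian lemma (G0), bases**: `V ∩ L` is free over `A` on `dim_K V` vectors which are
`K`-linearly independent and whose reductions are `k`-linearly independent. -/
theorem exists_basis_inf (hπs : Function.Surjective π) (V : Submodule K W)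
    [FiniteDimensional K V] (hV : V ≤ Submodule.span K (Set.range fun s => (e s : W))) :
    ∃ c : Fin (finrank K V) → L, (∀ i, (c i : W) ∈ V) ∧
      LinearIndependent K (fun i => (c i : W)) ∧ LinearIndependent k (fun i => ρ (c i)) ∧
      ∀ f : L, (f : W) ∈ V → ∃ a : Fin (finrank K V) → A, f = ∑ i, a i • c i := by
  classical
  have hfg := fg_inf A π hπ L ρ hρ e he V hV
  obtain ⟨m, v, hv⟩ := Submodule.fg_iff_exists_fin_generating_family.mp hfg
  obtain ⟨n, b, hbli, hbmem, hbspan⟩ :=
    Fermat.Agent.Gateway.Red.CountLattice.exists_basis_of_family A (V := W) v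
  -- the `v i` and the `b j` lie in `V ∩ L`
  have hvM : ∀ i, v i ∈ V.restrictScalars A ⊓ L := fun i => by
    rw [← hv]
    exact Submodule.subset_span ⟨i, rfl⟩
  have hcomb : ∀ a : Fin m → A, ∑ i, ((a i : A) : K) • v i ∈ V.restrictScalars A ⊓ L := by
    intro a
    refine Submodule.sum_mem _ fun i _ => ?_
    exact Submodule.smul_mem _ (a i) (hvM i)
  have hbM : ∀ j, b j ∈ V.restrictScalars A ⊓ L := fun j => by
    obtain ⟨a, ha⟩ := hbmem j
    rw [ha]
    exact hcomb a
  -- every element of `V ∩ L` is an `A`-combination of the `b j`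
  have hgen : ∀ f : W, f ∈ V.restrictScalars A ⊓ L →
      ∃ a : Fin n → A, f = ∑ j, ((a j : A) : K) • b j := by
    intro f hf
    rw [← hv] at hf
    obtain ⟨a, ha⟩ := (Submodule.mem_span_range_iff_exists_fun A).mp hf
    obtain ⟨a', ha'⟩ := hbspan a
    exact ⟨a', by rw [← ha', ← ha]; rfl⟩
  -- the `b j` span `V`
  have hspanV : Submodule.span K (Set.range b) = V := by
    apply le_antisymm
    · rw [Submodule.span_le]
      rintro _ ⟨j, rfl⟩
      exact (hbM j).1
    · intro w hw
      obtain ⟨c, hc0, hcw⟩ := exists_smul_mem A L e w (hV hw)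
      obtain ⟨a, ha⟩ := hgen (c • w) ⟨V.smul_mem c hw, hcw⟩
      have : w = c⁻¹ • (c • w) := by rw [smul_smul, inv_mul_cancel₀ hc0, one_smul]
      rw [this, ha]
      refine Submodule.smul_mem _ _ (Submodule.sum_mem _ fun j _ => ?_)
      exact Submodule.smul_mem _ _ (Submodule.subset_span ⟨j, rfl⟩)
  have hn : n = finrank K V := by
    rw [← hspanV, finrank_span_eq_card hbli, Fintype.card_fin]
  subst hn
  let c : Fin (finrank K V) → L := fun j => ⟨b j, (hbM j).2⟩
  have hgen' : ∀ f : L, (f : W) ∈ V → ∃ a : Fin (finrank K V) → A, f = ∑ i, a i • c i := by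
    intro f hf
    obtain ⟨a, ha⟩ := hgen (f : W) ⟨hf, f.2⟩
    refine ⟨a, Subtype.ext ?_⟩
    rw [ha, coe_sum_smul]
  refine ⟨c, fun i => (hbM i).1, hbli, ?_, hgen'⟩
  · rw [Fintype.linearIndependent_iff]
    intro γ hγ
    choose a ha using fun j => hπs (γ j)
    have h0 : ρ (∑ j, a j • c j) = 0 := by
      rw [reduction_sum A π L ρ hρ c, ← hγ]
      refine Finset.sum_congr rfl fun j _ => ?_
      rw [ha]
    have hfV : ((∑ j, a j • c j : L) : W) ∈ V := by
      rw [coe_sum_smul]
      refine Submodule.sum_mem _ fun j _ => V.smul_mem _ ?_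
      exact (hbM j).1
    obtain ⟨a₀, f', ha₀, hf, hf'V⟩ := exists_smul_of_reduction_eq_zero_inf A π hπ L ρ hρ e he V hV
      _ hfV h0
    obtain ⟨a', ha'⟩ := hgen' f' hf'V
    -- compare coefficients
    have h1 : ∑ j, (((a j : A) : K) - ((a₀ : A) : K) * ((a' j : A) : K)) • b j = 0 := by
      have h2 : ((∑ j, a j • c j : L) : W) = ((a₀ • f' : L) : W) := congrArg Subtype.val hf
      rw [ha', coe_sum_smul] at h2
      have h3 : ((a₀ • ∑ i, a' i • c i : L) : W) =
          ∑ j, (((a₀ : A) : K) * ((a' j : A) : K)) • b j := by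
        show ((a₀ : A) : K) • ((∑ i, a' i • c i : L) : W) = _
        rw [coe_sum_smul, Finset.smul_sum]
        refine Finset.sum_congr rfl fun j _ => ?_
        rw [smul_smul]
      rw [h3] at h2
      simp only [sub_smul, Finset.sum_sub_distrib]
      rw [sub_eq_zero]
      exact h2
    have h4 := Fintype.linearIndependent_iff.mp hbli _ h1
    intro j
    have h5 : a j = a₀ * a' j := Subtype.ext (sub_eq_zero.mp (h4 j))
    rw [← ha j, h5]
    exact hπ _ (Ideal.mul_mem_right _ _ ha₀)

end Cartesian

end Fermat.Agent.S34x.Gauss2
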