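/-
P-S34, WP1 part C (helper30): finitely many valuation rings over one base valuation ring.

* `section Sep`: weak approximation for two incomparable valuation subrings `O₁ O₂` of a field
  (no rank hypothesis): `exists_sep_elt`, `exists_approx_two`; `Sep O` is the resulting property
  of a family `O : ι → ValuationSubring F`, `sep_of_two` proves it for families with at most two
  members.
* `section Ball`: `R` a valuation subring of a subfield `K₀` of `F` whose elements lie in every
  `O i`; `ball R O hR = ⋂ i, O i` as an `R`-submodule of `F`, `redAll : ball → ∏ i, κ i` the joint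
  reduction (semilinear: `redAll_smul`), `redAll_surjective` (from `Sep`).
* `section L0`: `rank_pi_le`, `finite_pi`, `finite_residue`, `sum_finrank_le` (fundamental
  inequality `∑ [κ i : k₀] ≤ [F : K₀]`), and **(L0)** `exists_basis_ball`: if
  `[F : K₀] ≤ dim_k₀ ∏ κ i` then `⋂ O i` is `R`-free on `n = [F : K₀]` elements forming a `K₀`-basis
  of `F` whose joint reductions form a `k₀`-basis of `∏ κ i`.
* `section Integral`: `mem_ball_iff_isIntegral` (`⋂ O i` = integral closure of `R` in `F`),
  `eval₂_red`, `exists_monic_of_isIntegral`, **(L1)** `isIntegral_red`.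
-/
import Mathlib
import Fermat.Agent.S34x.Gauss2

set_option autoImplicit false
set_option linter.unusedSectionVars false

namespace Fermat.Agent.S34x.Gauss2Val

open Module

section Sep

variable {F : Type*} [Field F]

/-- For two incomparable valuation subrings there is `e ∈ O₁ ∩ O₂` which is small at `O₁` and
congruent to `1` at `O₂`. -/
theorem exists_sep_elt (O₁ O₂ : ValuationSubring F) (h12 : ¬ O₁ ≤ O₂) (h21 : ¬ O₂ ≤ O₁) :
    ∃ e : F, e ∈ O₁ ∧ e ∈ O₂ ∧ O₁.valuation e < 1 ∧ O₂.valuation (1 - e) < 1 := by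
  obtain ⟨a, ha1, ha2⟩ := Set.not_subset.mp h12
  obtain ⟨b, hb2, hb1⟩ := Set.not_subset.mp h21
  have ha1' : O₁.valuation a ≤ 1 := (O₁.valuation_le_one_iff a).mpr ha1
  have hb2' : O₂.valuation b ≤ 1 := (O₂.valuation_le_one_iff b).mpr hb2
  have ha2' : 1 < O₂.valuation a := by
    rw [← not_le, O₂.valuation_le_one_iff]; exact ha2
  have hb1' : 1 < O₁.valuation b := by
    rw [← not_le, O₁.valuation_le_one_iff]; exact hb1
  have hab1 : O₁.valuation (a + b) = O₁.valuation b :=
    Valuation.map_add_eq_of_lt_right _ (lt_of_le_of_lt ha1' hb1')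
  have hab2 : O₂.valuation (a + b) = O₂.valuation a :=
    Valuation.map_add_eq_of_lt_left _ (lt_of_le_of_lt hb2' ha2')
  have hab0 : a + b ≠ 0 := by
    intro h0
    rw [h0, map_zero] at hab1
    rw [← hab1] at hb1'
    exact absurd hb1' (not_lt.mpr zero_le)
  have hb0 : (0 : O₁.ValueGroup) < O₁.valuation b := lt_trans zero_lt_one hb1'
  have ha0 : (0 : O₂.ValueGroup) < O₂.valuation a := lt_trans zero_lt_one ha2'
  have he1 : O₁.valuation (a / (a + b)) < 1 := by
    rw [map_div₀, hab1, div_lt_one₀ hb0]
    exact lt_of_le_of_lt ha1' hb1'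
  have he2 : O₂.valuation (a / (a + b)) = 1 := by
    rw [map_div₀, hab2, div_self ha0.ne']
  have h1e : 1 - a / (a + b) = b / (a + b) := by
    field_simp
    ring
  refine ⟨a / (a + b), (O₁.valuation_le_one_iff _).mp he1.le, (O₂.valuation_le_one_iff _).mp he2.le,
    he1, ?_⟩
  rw [h1e, map_div₀, hab2, div_lt_one₀ ha0]
  exact lt_of_le_of_lt hb2' ha2'

/-- **Weak approximation for two incomparable valuation rings**: every `x ∈ O₁` is congruent
modulo `𝔪₁` to an element of `O₁ ∩ O₂` which is small at `O₂`. -/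
theorem exists_approx_two (O₁ O₂ : ValuationSubring F) (h12 : ¬ O₁ ≤ O₂) (h21 : ¬ O₂ ≤ O₁)
    (x : F) (hx : x ∈ O₁) :
    ∃ y : F, y ∈ O₁ ∧ y ∈ O₂ ∧ O₁.valuation (y - x) < 1 ∧ O₂.valuation y < 1 := by
  obtain ⟨e, he2, he1, hes, he1s⟩ := exists_sep_elt O₂ O₁ h21 h12
  -- `e ∈ O₁ ∩ O₂`, small at `O₂`, `1 - e` small at `O₁`
  have hx1 : O₁.valuation x ≤ 1 := (O₁.valuation_le_one_iff x).mpr hx
  by_cases hx2 : x ∈ O₂
  · have hx2' : O₂.valuation x ≤ 1 := (O₂.valuation_le_one_iff x).mpr hx2
    refine ⟨e * x, O₁.mul_mem _ _ he1 hx, O₂.mul_mem _ _ he2 hx2, ?_, ?_⟩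
    · have : e * x - x = -((1 - e) * x) := by ring
      rw [this, Valuation.map_neg, map_mul]
      calc O₁.valuation (1 - e) * O₁.valuation x ≤ O₁.valuation (1 - e) * 1 := by gcongr
        _ < 1 := by rw [mul_one]; exact he1s
    · rw [map_mul]
      calc O₂.valuation e * O₂.valuation x ≤ O₂.valuation e * 1 := by gcongr
        _ < 1 := by rw [mul_one]; exact hes
  · have hx2' : 1 < O₂.valuation x := by
      rw [← not_le, O₂.valuation_le_one_iff]; exact hx2
    set d : F := 1 + x * (1 - e) with hd
    have h1e2 : O₂.valuation (1 - e) = 1 := Valuation.map_one_sub_of_lt _ hes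
    have hxe1 : O₁.valuation (x * (1 - e)) < 1 := by
      rw [map_mul]
      calc O₁.valuation x * O₁.valuation (1 - e) ≤ 1 * O₁.valuation (1 - e) := by gcongr
        _ < 1 := by rw [one_mul]; exact he1s
    have hd1 : O₁.valuation d = 1 := Valuation.map_one_add_of_lt _ hxe1
    have hd2 : O₂.valuation d = O₂.valuation x := by
      rw [hd, Valuation.map_add_eq_of_lt_right, map_mul, h1e2, mul_one]
      rw [map_one, map_mul, h1e2, mul_one]
      exact hx2'
    have hd0 : d ≠ 0 := by
      intro h0
      rw [h0, map_zero] at hd1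
      exact zero_ne_one hd1
    have hx0 : (0 : O₂.ValueGroup) < O₂.valuation x := lt_trans zero_lt_one hx2'
    have hz1 : O₁.valuation (x / d) ≤ 1 := by
      rw [map_div₀, hd1, div_one]; exact hx1
    have hz2 : O₂.valuation (x / d) = 1 := by
      rw [map_div₀, hd2, div_self hx0.ne']
    have hzx : O₁.valuation (x / d - x) < 1 := by
      have : x / d - x = -(x * (x * (1 - e))) / d := by
        field_simp
        rw [hd]
        ring
      rw [this, map_div₀, hd1, div_one, Valuation.map_neg, map_mul]
      calc O₁.valuation x * O₁.valuation (x * (1 - e)) ≤ 1 * O₁.valuation (x * (1 - e)) := by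
            gcongr
        _ < 1 := by rw [one_mul]; exact hxe1
    have he1' : O₁.valuation e ≤ 1 := (O₁.valuation_le_one_iff e).mpr he1
    refine ⟨e * (x / d), ?_, ?_, ?_, ?_⟩
    · rw [← O₁.valuation_le_one_iff, map_mul]
      exact mul_le_one' he1' hz1
    · rw [← O₂.valuation_le_one_iff, map_mul, hz2, mul_one]
      exact hes.le
    · have : e * (x / d) - x = (x / d - x) + -((1 - e) * (x / d)) := by ring
      rw [this]
      refine lt_of_le_of_lt (Valuation.map_add _ _ _) (max_lt hzx ?_)
      rw [Valuation.map_neg, map_mul]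
      calc O₁.valuation (1 - e) * O₁.valuation (x / d) ≤ O₁.valuation (1 - e) * 1 := by gcongr
        _ < 1 := by rw [mul_one]; exact he1s
    · rw [map_mul, hz2, mul_one]
      exact hes

/-- **Separation property** of a family of valuation subrings: every element of `O i` is
congruent modulo `𝔪 i` to an element of `⋂ j, O j` which is small at all the other `O j`. -/
def Sep {ι : Type*} (O : ι → ValuationSubring F) : Prop :=
  ∀ (i : ι) (x : F), x ∈ O i →
    ∃ y : F, (∀ j, y ∈ O j) ∧ (O i).valuation (y - x) < 1 ∧ ∀ j, j ≠ i → (O j).valuation y < 1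

/-- A family of at most two pairwise incomparable valuation subrings has the separation
property. -/
theorem sep_of_two {ι : Type*} (O : ι → ValuationSubring F)
    (hι : ∀ i j l : ι, i = j ∨ j = l ∨ i = l) (hinc : ∀ i j, i ≠ j → ¬ O i ≤ O j) : Sep O := by
  intro i x hx
  by_cases h : ∃ j, j ≠ i
  · obtain ⟨j, hj⟩ := h
    obtain ⟨y, hy1, hy2, hy3, hy4⟩ :=
      exists_approx_two (O i) (O j) (hinc i j (Ne.symm hj)) (hinc j i hj) x hx
    have hl : ∀ l, l = i ∨ l = j := by
      intro l
      rcases hι i j l with h1 | h1 | h1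
      · exact absurd h1.symm hj
      · exact Or.inr h1.symm
      · exact Or.inl h1.symm
    refine ⟨y, fun l => ?_, hy3, fun l hl' => ?_⟩
    · rcases hl l with rfl | rfl
      · exact hy1
      · exact hy2
    · rcases hl l with rfl | rfl
      · exact absurd rfl hl'
      · exact hy4
  · push Not at h
    refine ⟨x, fun j => by rw [h j]; exact hx, by rw [sub_self, map_zero]; exact zero_lt_one,
      fun j hj => absurd (h j) hj⟩

end Sep

section Ball

variable {K₀ : Type*} [Field K₀] (R : ValuationSubring K₀) {F : Type*} [Field F] [Algebra K₀ F]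
  {ι : Type*} (O : ι → ValuationSubring F)
  (hR : ∀ (i : ι) (c : R), algebraMap K₀ F (c : K₀) ∈ O i)

theorem valSmul_def (c : R) (f : F) : c • f = algebraMap K₀ F (c : K₀) * f := by
  rw [← Algebra.smul_def]
  rfl

/-- The common unit ball `⋂ i, O i` of a family of valuation subrings of `F`, as a module over a
valuation subring `R` of a subfield `K₀` all of whose elements are integral at every `O i`. -/
def ball : Submodule R F where
  carrier := {f | ∀ i, f ∈ O i}
  add_mem' := fun hf hg i => (O i).add_mem _ _ (hf i) (hg i)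
  zero_mem' := fun i => (O i).zero_mem
  smul_mem' := fun c f hf i => by
    rw [valSmul_def]
    exact (O i).mul_mem _ _ (hR i c) (hf i)

theorem mem_ball {f : F} : f ∈ ball R O hR ↔ ∀ i, f ∈ O i := Iff.rfl

theorem one_mem_ball : (1 : F) ∈ ball R O hR := fun i => (O i).one_mem

theorem mul_mem_ball {f g : F} (hf : f ∈ ball R O hR) (hg : g ∈ ball R O hR) :
    f * g ∈ ball R O hR := fun i => (O i).mul_mem _ _ (hf i) (hg i)

theorem algebraMap_mem_ball (c : R) : algebraMap K₀ F (c : K₀) ∈ ball R O hR := fun i => hR i c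

variable {κ : ι → Type*} [∀ i, Field (κ i)] (red : ∀ i, O i →+* κ i)

/-- The joint reduction `⋂ i, O i → ∏ i, κ i`. -/
def redAll : ball R O hR →+ ∀ i, κ i where
  toFun f i := red i ⟨f.1, f.2 i⟩
  map_zero' := by
    funext i
    exact map_zero (red i)
  map_add' f g := by
    funext i
    exact map_add (red i) ⟨f.1, f.2 i⟩ ⟨g.1, g.2 i⟩

theorem redAll_apply (f : ball R O hR) (i : ι) : redAll R O hR red f i = red i ⟨f.1, f.2 i⟩ := rfl

theorem redAll_mul (f g : ball R O hR) (i : ι) :
    redAll R O hR red ⟨f.1 * g.1, mul_mem_ball R O hR f.2 g.2⟩ i =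
      redAll R O hR red f i * redAll R O hR red g i :=
  map_mul (red i) ⟨f.1, f.2 i⟩ ⟨g.1, g.2 i⟩

variable {k₀ : Type*} [Field k₀] (π₀ : R →+* k₀) [∀ i, Algebra k₀ (κ i)]
  (hbase : ∀ (i : ι) (c : R), red i ⟨algebraMap K₀ F (c : K₀), hR i c⟩ = algebraMap k₀ (κ i) (π₀ c))

include hbase in
/-- The joint reduction is semilinear over the reduction of the base. -/
theorem redAll_smul (c : R) (f : ball R O hR) :
    redAll R O hR red (c • f) = π₀ c • redAll R O hR red f := by
  funext i
  rw [Pi.smul_apply, redAll_apply, redAll_apply, Algebra.smul_def, ← hbase i c, ← map_mul]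
  congr 1
  apply Subtype.ext
  exact valSmul_def R c f.1

variable (hker : ∀ (i : ι) (f : O i), (O i).valuation (f : F) < 1 → red i f = 0)

include hker in
theorem redAll_eq_of_small (i : ι) (y : ball R O hR) (x : O i)
    (h : (O i).valuation ((y : F) - (x : F)) < 1) : redAll R O hR red y i = red i x := by
  rw [redAll_apply, ← sub_eq_zero, ← map_sub]
  exact hker i _ h

include hker in
/-- Under the separation property the joint reduction is onto `∏ i, κ i`. -/
theorem redAll_surjective [Finite ι] (hsep : Sep O) (hsurj : ∀ i, Function.Surjective (red i)) :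
    Function.Surjective (redAll R O hR red) := by
  classical
  have := Fintype.ofFinite ι
  intro γ
  choose x hx using fun i => hsurj i (γ i)
  choose y hy1 hy2 hy3 using fun i => hsep i (x i : F) (x i).2
  let yy : ι → ball R O hR := fun i => ⟨y i, hy1 i⟩
  refine ⟨∑ i, yy i, ?_⟩
  funext j
  rw [map_sum, Finset.sum_apply, Finset.sum_eq_single j]
  · rw [redAll_eq_of_small R O hR red hker j (yy j) (x j) (hy2 j), hx]
  · intro i _ hij
    rw [redAll_apply]
    exact hker j _ (hy3 i j (Ne.symm hij))
  · intro h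
    exact absurd (Finset.mem_univ j) h

end Ball

section L0

variable {K₀ : Type*} [Field K₀] (R : ValuationSubring K₀) {F : Type*} [Field F] [Algebra K₀ F]
  {ι : Type*} (O : ι → ValuationSubring F)
  (hR : ∀ (i : ι) (c : R), algebraMap K₀ F (c : K₀) ∈ O i)
  {κ : ι → Type*} [∀ i, Field (κ i)] (red : ∀ i, O i →+* κ i)
  {k₀ : Type*} [Field k₀] (π₀ : R →+* k₀) [∀ i, Algebra k₀ (κ i)]
  (hbase : ∀ (i : ι) (c : R), red i ⟨algebraMap K₀ F (c : K₀), hR i c⟩ = algebraMap k₀ (κ i) (π₀ c))
  (hker : ∀ (i : ι) (f : O i), (O i).valuation (f : F) < 1 → red i f = 0)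

include hbase in
/-- Lifts of `k₀`-independent joint reductions are `K₀`-independent. -/
theorem linearIndependent_lift {J : Type*} (b : J → ball R O hR)
    (hb : LinearIndependent k₀ (fun j => redAll R O hR red (b j))) :
    LinearIndependent K₀ (fun j => (b j : F)) :=
  Gauss2.linearIndependent_of_reduction R π₀ (ball R O hR) (redAll R O hR red)
    (redAll_smul R O hR red π₀ hbase) b hb

include hbase hker in
/-- **Fundamental inequality** (residue degrees only): `∑ [κ i : k₀] ≤ [F : K₀]`, in the form of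
a rank bound for `∏ i, κ i`. -/
theorem rank_pi_le [Finite ι] [FiniteDimensional K₀ F] (hsep : Sep O)
    (hsurj : ∀ i, Function.Surjective (red i)) :
    Module.rank k₀ (∀ i, κ i) ≤ (finrank K₀ F : ℕ) := by
  classical
  apply rank_le
  intro s hs
  choose lift hlift using redAll_surjective R O hR red hker hsep hsurj
  have h1 : LinearIndependent K₀ (fun x : s => ((lift x.1 : ball R O hR) : F)) := by
    apply linearIndependent_lift R O hR red π₀ hbase (fun x : s => lift x.1)
    simpa only [hlift] using hs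
  have h2 := h1.fintype_card_le_finrank
  simpa using h2

include hbase hker in
theorem finite_pi [Finite ι] [FiniteDimensional K₀ F] (hsep : Sep O)
    (hsurj : ∀ i, Function.Surjective (red i)) : Module.Finite k₀ (∀ i, κ i) := by
  rw [← Module.rank_lt_aleph0_iff]
  exact lt_of_le_of_lt (rank_pi_le R O hR red π₀ hbase hker hsep hsurj) (Cardinal.natCast_lt_aleph0)

include hbase hker in
theorem finrank_pi_le [Finite ι] [FiniteDimensional K₀ F] (hsep : Sep O)
    (hsurj : ∀ i, Function.Surjective (red i)) :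
    finrank k₀ (∀ i, κ i) ≤ finrank K₀ F :=
  finrank_le_of_rank_le (rank_pi_le R O hR red π₀ hbase hker hsep hsurj)

include hbase hker in
/-- every residue field is finite over `k₀` -/
theorem finite_residue [Finite ι] [FiniteDimensional K₀ F] (hsep : Sep O)
    (hsurj : ∀ i, Function.Surjective (red i)) (i : ι) : Module.Finite k₀ (κ i) := by
  classical
  have := finite_pi R O hR red π₀ hbase hker hsep hsurj
  exact Module.Finite.of_surjective (LinearMap.proj (R := k₀) (φ := κ) i)
    (fun x => ⟨Pi.single i x, by simp⟩)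

include hbase hker in
/-- `∑ [κ i : k₀] ≤ [F : K₀]`. -/
theorem sum_finrank_le [Fintype ι] [FiniteDimensional K₀ F] (hsep : Sep O)
    (hsurj : ∀ i, Function.Surjective (red i)) :
    ∑ i, finrank k₀ (κ i) ≤ finrank K₀ F := by
  have := finite_residue R O hR red π₀ hbase hker hsep hsurj
  rw [← Module.finrank_pi_fintype k₀]
  exact finrank_pi_le R O hR red π₀ hbase hker hsep hsurj

variable (hπ₀ : ∀ a : R, a ∈ IsLocalRing.maximalIdeal R → π₀ a = 0)

include hbase hker hπ₀ in
/-- **(L0)**: if `[F : K₀] ≤ ∑ [κ i : k₀]` (so equality holds) then `⋂ i, O i` is a free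
`R`-module on `n = [F : K₀]` elements `b j`, which form a `K₀`-basis of `F` and whose joint
reductions form a `k₀`-basis of `∏ i, κ i` (an orthonormal basis for the maximum of the
valuations). -/
theorem exists_basis_ball [Finite ι] [FiniteDimensional K₀ F] (hsep : Sep O)
    (hsurj : ∀ i, Function.Surjective (red i))
    (hdeg : finrank K₀ F ≤ finrank k₀ (∀ i, κ i)) :
    ∃ b : Fin (finrank K₀ F) → ball R O hR,
      LinearIndependent K₀ (fun j => (b j : F)) ∧
      Submodule.span K₀ (Set.range fun j => (b j : F)) = ⊤ ∧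
      LinearIndependent k₀ (fun j => redAll R O hR red (b j)) ∧
      Submodule.span k₀ (Set.range fun j => redAll R O hR red (b j)) = ⊤ ∧
      ∀ f : ball R O hR, ∃ c : Fin (finrank K₀ F) → R, f = ∑ j, c j • b j := by
  classical
  have hfin := finite_pi R O hR red π₀ hbase hker hsep hsurj
  have heq : finrank k₀ (∀ i, κ i) = finrank K₀ F :=
    le_antisymm (finrank_pi_le R O hR red π₀ hbase hker hsep hsurj) hdeg
  let B : Basis (Fin (finrank K₀ F)) k₀ (∀ i, κ i) := Module.finBasisOfFinrankEq k₀ _ heq
  choose lift hlift using redAll_surjective R O hR red hker hsep hsurj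
  let b : Fin (finrank K₀ F) → ball R O hR := fun j => lift (B j)
  have hbred : (fun j => redAll R O hR red (b j)) = B := by
    funext j
    exact hlift (B j)
  have hbk : LinearIndependent k₀ (fun j => redAll R O hR red (b j)) := by
    rw [hbred]
    exact B.linearIndependent
  have hbK : LinearIndependent K₀ (fun j => (b j : F)) :=
    linearIndependent_lift R O hR red π₀ hbase b hbk
  have hspan : Submodule.span K₀ (Set.range fun j => (b j : F)) = ⊤ := by
    by_cases hn : finrank K₀ F = 0
    · have : Subsingleton F := (Module.finrank_zero_iff (R := K₀)).mp hn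
      exact Subsingleton.elim _ _
    · have : Nonempty (Fin (finrank K₀ F)) := ⟨⟨0, Nat.pos_of_ne_zero hn⟩⟩
      exact hbK.span_eq_top_of_card_eq_finrank (by simp)
  refine ⟨b, hbK, hspan, hbk, ?_, ?_⟩
  · rw [hbred]
    exact B.span_eq
  · intro f
    obtain ⟨s, c, hc⟩ := Gauss2.exists_coeff_of_mem_span R π₀ hπ₀ (ball R O hR) (redAll R O hR red)
      (redAll_smul R O hR red π₀ hbase) b hbk f (by rw [hspan]; trivial)
    refine ⟨fun j => if j ∈ s then c j else 0, ?_⟩
    rw [hc, ← Finset.sum_subset (Finset.subset_univ s)]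
    · exact Finset.sum_congr rfl fun j hj => by simp only [if_pos hj]
    · intro j _ hj
      simp only [if_neg hj, zero_smul]

end L0

section Integral

open Polynomial

variable {K₀ : Type*} [Field K₀] (R : ValuationSubring K₀) {F : Type*} [Field F] [Algebra K₀ F]
  {ι : Type*} (O : ι → ValuationSubring F)
  (hR : ∀ (i : ι) (c : R), algebraMap K₀ F (c : K₀) ∈ O i)
  {κ : ι → Type*} [∀ i, Field (κ i)] (red : ∀ i, O i →+* κ i)
  {k₀ : Type*} [Field k₀] (π₀ : R →+* k₀) [∀ i, Algebra k₀ (κ i)]
  (hbase : ∀ (i : ι) (c : R), red i ⟨algebraMap K₀ F (c : K₀), hR i c⟩ = algebraMap k₀ (κ i) (π₀ c))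
  (hker : ∀ (i : ι) (f : O i), (O i).valuation (f : F) < 1 → red i f = 0)
  (hπ₀ : ∀ a : R, a ∈ IsLocalRing.maximalIdeal R → π₀ a = 0)

/-- the inclusion `R → O i` -/
def baseIncl (i : ι) : R →+* O i :=
  (algebraMap K₀ F).restrict R (O i) fun x hx => hR i ⟨x, hx⟩

@[simp] theorem coe_baseIncl (i : ι) (c : R) :
    ((baseIncl R O hR i c : O i) : F) = algebraMap K₀ F (c : K₀) := rfl

theorem subtype_comp_baseIncl (i : ι) :
    ((O i).subtype).comp (baseIncl R O hR i) = algebraMap R F := by
  ext c
  rfl

include hbase in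
theorem red_comp_baseIncl (i : ι) :
    (red i).comp (baseIncl R O hR i) = (algebraMap k₀ (κ i)).comp π₀ := by
  ext c
  exact hbase i c

/-- The valuation rings `O i` are integrally closed: everything integral over `R` lies in the
common unit ball. -/
theorem mem_ball_of_isIntegral {f : F} (hf : IsIntegral R f) : f ∈ ball R O hR := by
  intro i
  obtain ⟨P, hP, hPf⟩ := hf
  have h1 : IsIntegral (O i) f := by
    refine ⟨P.map (baseIncl R O hR i), hP.map _, ?_⟩
    rw [eval₂_map]
    have : (algebraMap (O i) F).comp (baseIncl R O hR i) = algebraMap R F := by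
      ext c
      rfl
    rw [this]
    exact hPf
  obtain ⟨y, hy⟩ := (IsIntegrallyClosed.isIntegral_iff (R := O i) (K := F)).1 h1
  rw [← hy]
  exact y.2

include hbase hker hπ₀ in
/-- Under (L0) the common unit ball is integral over `R`. -/
theorem isIntegral_of_mem_ball [Finite ι] [FiniteDimensional K₀ F] (hsep : Sep O)
    (hsurj : ∀ i, Function.Surjective (red i))
    (hdeg : finrank K₀ F ≤ finrank k₀ (∀ i, κ i)) {f : F} (hf : f ∈ ball R O hR) :
    IsIntegral R f := by
  classical
  obtain ⟨b, -, -, -, -, hgen⟩ :=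
    exists_basis_ball R O hR red π₀ hbase hker hπ₀ hsep hsurj hdeg
  have hfg : (ball R O hR).FG := by
    have : ball R O hR = Submodule.span R (Set.range fun j => (b j : F)) := by
      apply le_antisymm
      · intro g hg
        obtain ⟨c, hc⟩ := hgen ⟨g, hg⟩
        have h2 := congrArg (fun x : ball R O hR => (x : F)) hc
        simp only [Gauss2.coe_sum_smul] at h2
        rw [h2]
        exact Submodule.sum_mem _ fun j _ =>
          Submodule.smul_mem _ (c j) (Submodule.subset_span ⟨j, rfl⟩)
      · rw [Submodule.span_le]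
        rintro _ ⟨j, rfl⟩
        exact (b j).2
    rw [this]
    exact Submodule.fg_span (Set.finite_range _)
  have hne : ball R O hR ≠ ⊥ := by
    intro h0
    have h1 : (1 : F) ∈ ball R O hR := one_mem_ball R O hR
    rw [h0, Submodule.mem_bot] at h1
    exact one_ne_zero h1
  exact isIntegral_of_smul_mem_submodule (ball R O hR) hne hfg f
    fun n hn => mul_mem_ball R O hR hf hn

include hbase hker hπ₀ in
/-- **`⋂ i, O i` is the integral closure of `R` in `F`.** -/
theorem mem_ball_iff_isIntegral [Finite ι] [FiniteDimensional K₀ F] (hsep : Sep O)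
    (hsurj : ∀ i, Function.Surjective (red i))
    (hdeg : finrank K₀ F ≤ finrank k₀ (∀ i, κ i)) (f : F) :
    f ∈ ball R O hR ↔ IsIntegral R f :=
  ⟨isIntegral_of_mem_ball R O hR red π₀ hbase hker hπ₀ hsep hsurj hdeg,
    mem_ball_of_isIntegral R O hR⟩

include hbase in
/-- reduction of a polynomial relation over `R` -/
theorem eval₂_red (Q : R[X]) (f : F) (hf : f ∈ ball R O hR) (h0 : aeval f Q = 0) (i : ι) :
    eval₂ (algebraMap k₀ (κ i)) (red i ⟨f, hf i⟩) (Q.map π₀) = 0 := by
  have h1 : Q.eval₂ (baseIncl R O hR i) (⟨f, hf i⟩ : O i) = 0 := by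
    apply Subtype.ext
    have h2 := hom_eval₂ Q (baseIncl R O hR i) ((O i).subtype) (⟨f, hf i⟩ : O i)
    rw [subtype_comp_baseIncl] at h2
    exact h2.trans h0
  have h3 := hom_eval₂ Q (baseIncl R O hR i) (red i) (⟨f, hf i⟩ : O i)
  rw [h1, map_zero, red_comp_baseIncl R O hR red π₀ hbase] at h3
  rw [eval₂_map]
  exact h3.symm

include hbase hker hπ₀ in
/-- (L1), polynomial form: an element of the common unit ball which is integral over a ring `R1`
mapping to `K₀` is killed by a monic polynomial over `R` whose coefficients are integral over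
`R1`. -/
theorem exists_monic_of_isIntegral [Finite ι] [FiniteDimensional K₀ F] (hsep : Sep O)
    (hsurj : ∀ i, Function.Surjective (red i))
    (hdeg : finrank K₀ F ≤ finrank k₀ (∀ i, κ i))
    {R1 : Type*} [CommRing R1] [Algebra R1 K₀] [Algebra R1 F] [IsScalarTower R1 K₀ F]
    {f : F} (hf : f ∈ ball R O hR) (hf1 : IsIntegral R1 f) :
    ∃ Q : R[X], Q.Monic ∧ aeval f Q = 0 ∧ ∀ n, IsIntegral R1 ((Q.coeff n : R) : K₀) := by
  have hf' : IsIntegral R f :=
    isIntegral_of_mem_ball R O hR red π₀ hbase hker hπ₀ hsep hsurj hdeg hf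
  refine ⟨minpoly R f, minpoly.monic hf', minpoly.aeval _ _, ?_⟩
  intro n
  obtain ⟨P0, hP0, hP0f⟩ := hf1
  have hd : minpoly K₀ f ∣ P0.map (algebraMap R1 K₀) := by
    apply minpoly.dvd
    rw [aeval_def, eval₂_map, ← IsScalarTower.algebraMap_eq]
    exact hP0f
  have hint : IsIntegral K₀ f := Algebra.IsIntegral.isIntegral _
  have hl := integralClosure.mem_lifts_of_monic_of_dvd_map K₀ hP0 (minpoly.monic hint) hd
  have hc := (Polynomial.lifts_iff_coeff_lifts _).1 hl n
  obtain ⟨y, hy⟩ := hc
  have h2 : (((minpoly R f).coeff n : R) : K₀) = (minpoly K₀ f).coeff n := by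
    rw [minpoly.isIntegrallyClosed_eq_field_fractions' K₀ hf', Polynomial.coeff_map]
    rfl
  rw [h2, ← hy]
  exact y.2

include hbase hker hπ₀ in
/-- **(L1)**: integrality over `R1` reduces to integrality over `R1k` at every `O i`, provided
`π₀` maps the elements of `R` integral over `R1` to elements of `k₀` integral over `R1k`. -/
theorem isIntegral_red [Finite ι] [FiniteDimensional K₀ F] (hsep : Sep O)
    (hsurj : ∀ i, Function.Surjective (red i))
    (hdeg : finrank K₀ F ≤ finrank k₀ (∀ i, κ i))
    {R1 : Type*} [CommRing R1] [Algebra R1 K₀] [Algebra R1 F] [IsScalarTower R1 K₀ F]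
    {R1k : Type*} [CommRing R1k] [Algebra R1k k₀] [∀ i, Algebra R1k (κ i)]
    [∀ i, IsScalarTower R1k k₀ (κ i)]
    (hRk : ∀ c : R, IsIntegral R1 (c : K₀) → IsIntegral R1k (π₀ c))
    {f : F} (hf : f ∈ ball R O hR) (hf1 : IsIntegral R1 f) (i : ι) :
    IsIntegral R1k (red i ⟨f, hf i⟩) := by
  obtain ⟨Q, hQ, hfQ, hQi⟩ :=
    exists_monic_of_isIntegral R O hR red π₀ hbase hker hπ₀ hsep hsurj hdeg hf hf1
  have hlift : Q.map π₀ ∈ Polynomial.lifts (algebraMap (integralClosure R1k k₀) k₀) := by
    rw [Polynomial.lifts_iff_coeff_lifts]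
    intro n
    rw [Polynomial.coeff_map]
    exact ⟨⟨_, hRk _ (hQi n)⟩, rfl⟩
  obtain ⟨q, hq, -, hqm⟩ := Polynomial.lifts_and_natDegree_eq_and_monic hlift (hQ.map π₀)
  have h1 : IsIntegral (integralClosure R1k k₀) (red i ⟨f, hf i⟩) := by
    refine ⟨q, hqm, ?_⟩
    have h3 := eval₂_red R O hR red π₀ hbase Q f hf hfQ i
    rw [← hq, eval₂_map, ← IsScalarTower.algebraMap_eq] at h3
    exact h3
  exact isIntegral_trans _ h1

end Integral

end Fermat.Agent.S34x.Gauss2Val
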