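/-
P-S34, WP1 part D (helper30): the cartesian property (G0) for the common unit ball of finitely
many valuation rings, with unit denominators.

* `section Twist` (abstract, setting of `Gauss2` part B): `exists_basis_inf_twist`,
  `exists_smul_of_reduction_eq_zero_inf_twist`: the conclusions of `Gauss2.exists_basis_inf` /
  `Gauss2.exists_smul_of_reduction_eq_zero_inf` for a finite-dimensional `V` such that `u V` lies
  in the span of a reduction-orthonormal family, `u` a `K`-linear automorphism preserving the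
  unit ball `L` and inducing an injective map on reductions (multiplication by a unit).
* `section Concrete` / `section Denominator`: `K ≤ Kx ≤ F`, `A ≤ Ox` valuation rings of `K`, `Kx`,
  `O : ι → ValuationSubring F` over `Ox`; the product family `prodFam` (`m s * b j`, `m` a family of
  "monomials" of `Ox` with `k`-independent reductions spanning a `K`-subalgebra `P` of `Kx`, `b` an
  `Ox`-basis of `⋂ O i` from (L0)); `exists_common_denominator`.
* `section G0`: **(G0)** `exists_basis_inf_ball`, `exists_smul_of_redAll_eq_zero`: for EVERY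
  finite-dimensional `K`-subspace `V` of `F`, `V ∩ ⋂ O i` is `A`-free of rank `dim_K V` with
  `k`-independent joint reductions, and the kernel of the joint reduction on it is `𝔪_A` times it.
* `section Powers`: the same for `Kx = K(t)`, `m s = t ^ s` (`exists_basis_inf_ball_pow`,
  `exists_smul_of_redAll_eq_zero_pow`).
-/
import Mathlib
import Fermat.Agent.S34x.Gauss2Val

set_option autoImplicit false
set_option linter.unusedSectionVars false

namespace Fermat.Agent.S34x.Gauss2G0

open Module Fermat.Agent.S34x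

section Twist

variable {K : Type*} [Field K] (A : ValuationSubring K) {k : Type*} [Field k] (π : A →+* k)
  (hπ : ∀ a : A, a ∈ IsLocalRing.maximalIdeal A → π a = 0)
  {W : Type*} [AddCommGroup W] [Module K W] (L : Submodule A W)
  {E : Type*} [AddCommGroup E] [Module k E] (ρ : L →+ E)
  (hρ : ∀ (a : A) (x : L), ρ (a • x) = π a • ρ x)
  {S : Type*} (e : S → L) (he : LinearIndependent k (fun s => ρ (e s)))

include hπ hρ he in
/-- `Gauss2.exists_basis_inf` with a flexible index. -/
theorem exists_basis_inf_of_eq (hπs : Function.Surjective π) (V : Submodule K W)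
    [FiniteDimensional K V] (hV : V ≤ Submodule.span K (Set.range fun s => (e s : W)))
    {n : ℕ} (hn : finrank K V = n) :
    ∃ c : Fin n → L, (∀ i, (c i : W) ∈ V) ∧
      LinearIndependent K (fun i => (c i : W)) ∧ LinearIndependent k (fun i => ρ (c i)) ∧
      ∀ f : L, (f : W) ∈ V → ∃ a : Fin n → A, f = ∑ i, a i • c i := by
  subst hn
  exact Gauss2.exists_basis_inf A π hπ L ρ hρ e he hπs V hV

variable (u : W ≃ₗ[K] W) (hu : ∀ w : W, u w ∈ L ↔ w ∈ L)
  (μ : E →ₗ[k] E) (hμ : Function.Injective μ)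
  (hρu : ∀ (f : L) (h : u (f : W) ∈ L), ρ ⟨u (f : W), h⟩ = μ (ρ f))

include hπ hρ he hu hμ hρu in
/-- **(G0) with a unit denominator**: if `u V` lies in the span of the reduction-orthonormal
family `e`, then `V ∩ L` is free over `A` on `dim_K V` vectors which are `K`-linearly independent
and whose reductions are `k`-linearly independent. -/
theorem exists_basis_inf_twist (hπs : Function.Surjective π) (V : Submodule K W)
    [FiniteDimensional K V]
    (hV : V.map u.toLinearMap ≤ Submodule.span K (Set.range fun s => (e s : W))) :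
    ∃ c : Fin (finrank K V) → L, (∀ i, (c i : W) ∈ V) ∧
      LinearIndependent K (fun i => (c i : W)) ∧ LinearIndependent k (fun i => ρ (c i)) ∧
      ∀ f : L, (f : W) ∈ V → ∃ a : Fin (finrank K V) → A, f = ∑ i, a i • c i := by
  classical
  have hn : finrank K (V.map u.toLinearMap) = finrank K V := LinearEquiv.finrank_map_eq u V
  obtain ⟨c', hc'V, hc'K, hc'k, hgen'⟩ :=
    exists_basis_inf_of_eq A π hπ L ρ hρ e he hπs (V.map u.toLinearMap) hV hn
  have hmem : ∀ i, u.symm (c' i : W) ∈ L := fun i => by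
    rw [← hu, LinearEquiv.apply_symm_apply]
    exact (c' i).2
  let c : Fin (finrank K V) → L := fun i => ⟨u.symm (c' i : W), hmem i⟩
  have huc : ∀ i, u ((c i : L) : W) = (c' i : W) := fun i => LinearEquiv.apply_symm_apply u _
  refine ⟨c, ?_, ?_, ?_, ?_⟩
  · intro i
    obtain ⟨v, hv, hvc⟩ := hc'V i
    have : u.symm (c' i : W) = v := by
      rw [← hvc]
      exact LinearEquiv.symm_apply_apply u v
    show u.symm (c' i : W) ∈ V
    rw [this]
    exact hv
  · exact hc'K.map' u.symm.toLinearMap (LinearMap.ker_eq_bot.mpr u.symm.injective)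
  · apply LinearIndependent.of_comp μ
    have : (μ ∘ fun i => ρ (c i)) = fun i => ρ (c' i) := by
      funext i
      show μ (ρ (c i)) = ρ (c' i)
      rw [← hρu (c i) (by rw [huc]; exact (c' i).2)]
      congr 1
      exact Subtype.ext (huc i)
    rw [this]
    exact hc'k
  · intro f hf
    have hf' : u (f : W) ∈ L := (hu _).mpr f.2
    obtain ⟨a, ha⟩ := hgen' ⟨u (f : W), hf'⟩ ⟨f, hf, rfl⟩
    refine ⟨a, Subtype.ext ?_⟩
    have h1 := congrArg (fun x : L => u.symm (x : W)) ha
    simp only [LinearEquiv.symm_apply_apply, Gauss2.coe_sum_smul, map_sum, map_smul] at h1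
    rw [Gauss2.coe_sum_smul]
    exact h1

include hπ hρ he hu hμ hρu in
/-- **Kernel of the reduction on `V ∩ L`, unit-denominator version.** -/
theorem exists_smul_of_reduction_eq_zero_inf_twist (V : Submodule K W)
    (hV : V.map u.toLinearMap ≤ Submodule.span K (Set.range fun s => (e s : W)))
    (f : L) (hfV : (f : W) ∈ V) (h0 : ρ f = 0) :
    ∃ (a : A) (f' : L), a ∈ IsLocalRing.maximalIdeal A ∧ f = a • f' ∧ (f' : W) ∈ V := by
  have hf' : u (f : W) ∈ L := (hu _).mpr f.2
  have h0' : ρ ⟨u (f : W), hf'⟩ = 0 := by rw [hρu f hf', h0, map_zero]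
  obtain ⟨a, g', ha, hg, hg'V⟩ :=
    Gauss2.exists_smul_of_reduction_eq_zero_inf A π hπ L ρ hρ e he (V.map u.toLinearMap) hV
      ⟨u (f : W), hf'⟩ ⟨f, hfV, rfl⟩ h0'
  have hmem : u.symm (g' : W) ∈ L := by
    rw [← hu, LinearEquiv.apply_symm_apply]
    exact g'.2
  refine ⟨a, ⟨u.symm (g' : W), hmem⟩, ha, Subtype.ext ?_, ?_⟩
  · have h1 := congrArg (fun x : L => u.symm (x : W)) hg
    simp only [LinearEquiv.symm_apply_apply] at h1
    rw [h1]
    show u.symm (((a : A) : K) • (g' : W)) = ((a : A) : K) • u.symm (g' : W)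
    rw [map_smul]
  · obtain ⟨v, hv, hvg⟩ := hg'V
    show u.symm (g' : W) ∈ V
    rw [← hvg]
    have : u.symm (u.toLinearMap v) = v := LinearEquiv.symm_apply_apply u v
    rw [this]
    exact hv

end Twist

section Concrete

open Gauss2Val

variable {K : Type*} [Field K] (A : ValuationSubring K) {k : Type*} [Field k] (π : A →+* k)
  {Kx : Type*} [Field Kx] [Algebra K Kx] (Ox : ValuationSubring Kx)
  {kx : Type*} [Field kx] [Algebra k kx] (πx : Ox →+* kx)
  {F : Type*} [Field F] [Algebra K F] [Algebra Kx F] [IsScalarTower K Kx F]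
  {ι : Type*} (O : ι → ValuationSubring F)
  (hRx : ∀ (i : ι) (c : Ox), algebraMap Kx F (c : Kx) ∈ O i)
  (hRA : ∀ (i : ι) (a : A), algebraMap K F (a : K) ∈ O i)
  (hA : ∀ a : A, algebraMap K Kx (a : K) ∈ Ox)
  {κ : ι → Type*} [∀ i, Field (κ i)] [∀ i, Algebra kx (κ i)] [∀ i, Algebra k (κ i)]
  [∀ i, IsScalarTower k kx (κ i)]
  (red : ∀ i, O i →+* κ i)
  (hbasex : ∀ (i : ι) (c : Ox),
    red i ⟨algebraMap Kx F (c : Kx), hRx i c⟩ = algebraMap kx (κ i) (πx c))
  (hπA : ∀ a : A, πx ⟨algebraMap K Kx (a : K), hA a⟩ = algebraMap k kx (π a))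

include hbasex hπA in
/-- compatibility of the reductions with the constants -/
theorem hbaseA_of (i : ι) (a : A) :
    red i ⟨algebraMap K F (a : K), hRA i a⟩ = algebraMap k (κ i) (π a) := by
  rw [IsScalarTower.algebraMap_apply k kx (κ i), ← hπA a, ← hbasex i ⟨_, hA a⟩]
  congr 1
  apply Subtype.ext
  exact IsScalarTower.algebraMap_apply K Kx F _

/-- the product family `m s * b j` in the common unit ball over `A` -/
def prodFam {T J : Type*} (m : T → Kx) (hmO : ∀ s, m s ∈ Ox) (b : J → ball Ox O hRx)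
    (p : T × J) : ball A O hRA :=
  ⟨algebraMap Kx F (m p.1) * (b p.2 : F),
    fun i => (O i).mul_mem _ _ (hRx i ⟨m p.1, hmO p.1⟩) ((b p.2).2 i)⟩

theorem coe_prodFam {T J : Type*} (m : T → Kx) (hmO : ∀ s, m s ∈ Ox) (b : J → ball Ox O hRx)
    (p : T × J) :
    ((prodFam A Ox O hRx hRA m hmO b p : ball A O hRA) : F) =
      algebraMap Kx F (m p.1) * (b p.2 : F) := rfl

include hbasex in
theorem redAll_mul_left (c : Ox) (f : F) (hf : f ∈ ball A O hRA)
    (hcf : algebraMap Kx F (c : Kx) * f ∈ ball A O hRA) :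
    redAll A O hRA red ⟨algebraMap Kx F (c : Kx) * f, hcf⟩ =
      πx c • redAll A O hRA red ⟨f, hf⟩ := by
  funext i
  rw [Pi.smul_apply, redAll_apply, redAll_apply, Algebra.smul_def, ← hbasex i c, ← map_mul]
  rfl

include hbasex in
theorem redAll_prodFam {T J : Type*} (m : T → Kx) (hmO : ∀ s, m s ∈ Ox) (b : J → ball Ox O hRx)
    (p : T × J) :
    redAll A O hRA red (prodFam A Ox O hRx hRA m hmO b p) =
      πx ⟨m p.1, hmO p.1⟩ • redAll Ox O hRx red (b p.2) := by
  funext i
  rw [Pi.smul_apply, redAll_apply, redAll_apply, Algebra.smul_def, ← hbasex i ⟨m p.1, hmO p.1⟩,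
    ← map_mul]
  rfl

include hbasex in
/-- the product of a `k`-independent family of `kx` (reductions of "monomials") with a
`kx`-independent family of joint reductions is `k`-independent -/
theorem linearIndependent_redAll_prodFam {T J : Type*} (m : T → Kx) (hmO : ∀ s, m s ∈ Ox)
    (hmli : LinearIndependent k (fun s => πx ⟨m s, hmO s⟩)) (b : J → ball Ox O hRx)
    (hb : LinearIndependent kx (fun j => redAll Ox O hRx red (b j))) :
    LinearIndependent k (fun p => redAll A O hRA red (prodFam A Ox O hRx hRA m hmO b p)) := by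
  have h := linearIndependent_smul hmli hb
  have : (fun p : T × J => redAll A O hRA red (prodFam A Ox O hRx hRA m hmO b p)) =
      fun p : T × J => πx ⟨m p.1, hmO p.1⟩ • redAll Ox O hRx red (b p.2) := by
    funext p
    exact redAll_prodFam A Ox πx O hRx hRA red hbasex m hmO b p
  rw [this]
  exact h

end Concrete

section Denominator

open Gauss2Val

variable {K : Type*} [Field K] {Kx : Type*} [Field Kx] [Algebra K Kx]
  {F : Type*} [Field F] [Algebra K F] [Algebra Kx F] [IsScalarTower K Kx F]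
  {T : Type*} (m : T → Kx) (P : Subalgebra K Kx)
  (hP : Submodule.span K (Set.range m) = Subalgebra.toSubmodule P)
  {J : Type*} (b : J → F)

theorem algebraMap_smul_eq (c : K) (x : Kx) : algebraMap Kx F (c • x) = c • algebraMap Kx F x := by
  rw [Algebra.smul_def, map_mul, ← IsScalarTower.algebraMap_apply, Algebra.smul_def]

include hP in
theorem algebraMap_mul_mem_span (p : Kx) (hp : p ∈ P) (j : J) :
    algebraMap Kx F p * b j ∈
      Submodule.span K (Set.range fun q : T × J => algebraMap Kx F (m q.1) * b q.2) := by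
  have key : ∀ p ∈ Submodule.span K (Set.range m), algebraMap Kx F p * b j ∈
      Submodule.span K (Set.range fun q : T × J => algebraMap Kx F (m q.1) * b q.2) := by
    intro p hp
    induction hp using Submodule.span_induction with
    | mem x hx =>
      obtain ⟨s, rfl⟩ := hx
      exact Submodule.subset_span ⟨(s, j), rfl⟩
    | zero => rw [map_zero, zero_mul]; exact Submodule.zero_mem _
    | add x y _ _ hx hy => rw [map_add, add_mul]; exact Submodule.add_mem _ hx hy
    | smul c x _ hx =>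
      rw [algebraMap_smul_eq, smul_mul_assoc]
      exact Submodule.smul_mem _ _ hx
  apply key
  rw [hP]
  exact hp

include hP in
theorem mem_P (s : T) : m s ∈ P := by
  have : m s ∈ Submodule.span K (Set.range m) := Submodule.subset_span ⟨s, rfl⟩
  rw [hP] at this
  exact this

include hP in
theorem algebraMap_mul_span_le (p : Kx) (hp : p ∈ P) (w : F)
    (hw : w ∈ Submodule.span K (Set.range fun q : T × J => algebraMap Kx F (m q.1) * b q.2)) :
    algebraMap Kx F p * w ∈
      Submodule.span K (Set.range fun q : T × J => algebraMap Kx F (m q.1) * b q.2) := by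
  induction hw using Submodule.span_induction with
  | mem x hx =>
    obtain ⟨⟨s, j⟩, rfl⟩ := hx
    show algebraMap Kx F p * (algebraMap Kx F (m s) * b j) ∈ _
    rw [← mul_assoc, ← map_mul]
    exact algebraMap_mul_mem_span m P hP b _ (P.mul_mem hp (mem_P m P hP s)) j
  | zero => rw [mul_zero]; exact Submodule.zero_mem _
  | add x y _ _ hx hy => rw [mul_add]; exact Submodule.add_mem _ hx hy
  | smul c x _ hx => rw [mul_smul_comm]; exact Submodule.smul_mem _ _ hx

variable (hfrac : ∀ x : Kx, ∃ q ∈ P, q ≠ 0 ∧ q * x ∈ P)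

include hP hfrac in
/-- every element of `F` has a denominator in `P` -/
theorem exists_denominator [Fintype J] (hspan : Submodule.span Kx (Set.range b) = ⊤) (f : F) :
    ∃ q ∈ P, q ≠ 0 ∧ algebraMap Kx F q * f ∈
      Submodule.span K (Set.range fun q : T × J => algebraMap Kx F (m q.1) * b q.2) := by
  classical
  obtain ⟨x, hx⟩ : ∃ x : J → Kx, ∑ j, x j • b j = f :=
    (Submodule.mem_span_range_iff_exists_fun Kx).mp (by rw [hspan]; trivial)
  choose q hqP hq0 hqx using fun j => hfrac (x j)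
  refine ⟨∏ j, q j, prod_mem fun j _ => hqP j, Finset.prod_ne_zero_iff.mpr fun j _ => hq0 j, ?_⟩
  rw [← hx, Finset.mul_sum]
  refine Submodule.sum_mem _ fun j _ => ?_
  have h1 : algebraMap Kx F (∏ j, q j) * x j • b j =
      algebraMap Kx F ((∏ i ∈ Finset.univ.erase j, q i) * (q j * x j)) * b j := by
    rw [← mul_assoc, Finset.prod_erase_mul _ _ (Finset.mem_univ j), Algebra.smul_def, map_mul,
      mul_assoc]
  rw [h1]
  exact algebraMap_mul_mem_span m P hP b _ (P.mul_mem (prod_mem fun i _ => hqP i) (hqx j)) j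

include hP hfrac in
/-- a common denominator in `P` for a finite-dimensional `K`-subspace of `F` -/
theorem exists_common_denominator [Fintype J] (hspan : Submodule.span Kx (Set.range b) = ⊤)
    (V : Submodule K F) [FiniteDimensional K V] :
    ∃ q ∈ P, q ≠ 0 ∧ ∀ f ∈ V, algebraMap Kx F q * f ∈
      Submodule.span K (Set.range fun q : T × J => algebraMap Kx F (m q.1) * b q.2) := by
  classical
  obtain ⟨S, hS⟩ : V.FG := (Submodule.fg_iff_finiteDimensional V).mpr inferInstance
  choose q hqP hq0 hq using fun g : F => exists_denominator m P hP b hfrac hspan g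
  refine ⟨∏ g ∈ S, q g, prod_mem fun g _ => hqP g, Finset.prod_ne_zero_iff.mpr fun g _ => hq0 g,
    ?_⟩
  intro f hf
  rw [← hS] at hf
  induction hf using Submodule.span_induction with
  | mem g hg =>
    have hsplit : ∏ g' ∈ S, q g' = (∏ g' ∈ S.erase g, q g') * q g := by
      rw [Finset.prod_erase_mul _ _ hg]
    rw [hsplit, map_mul, mul_assoc]
    exact algebraMap_mul_span_le m P hP b _ (prod_mem fun i _ => hqP i) _ (hq g)
  | zero => rw [mul_zero]; exact Submodule.zero_mem _
  | add x y _ _ hx hy => rw [mul_add]; exact Submodule.add_mem _ hx hy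
  | smul c x _ hx => rw [mul_smul_comm]; exact Submodule.smul_mem _ _ hx

end Denominator

section G0

open Gauss2Val

variable {K : Type*} [Field K] (A : ValuationSubring K) {k : Type*} [Field k] (π : A →+* k)
  {Kx : Type*} [Field Kx] [Algebra K Kx] (Ox : ValuationSubring Kx)
  {kx : Type*} [Field kx] [Algebra k kx] (πx : Ox →+* kx)
  {F : Type*} [Field F] [Algebra K F] [Algebra Kx F] [IsScalarTower K Kx F]
  {ι : Type*} (O : ι → ValuationSubring F)
  (hRx : ∀ (i : ι) (c : Ox), algebraMap Kx F (c : Kx) ∈ O i)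
  (hRA : ∀ (i : ι) (a : A), algebraMap K F (a : K) ∈ O i)
  (hA : ∀ a : A, algebraMap K Kx (a : K) ∈ Ox)
  {κ : ι → Type*} [∀ i, Field (κ i)] [∀ i, Algebra kx (κ i)] [∀ i, Algebra k (κ i)]
  [∀ i, IsScalarTower k kx (κ i)]
  (red : ∀ i, O i →+* κ i)
  (hbasex : ∀ (i : ι) (c : Ox),
    red i ⟨algebraMap Kx F (c : Kx), hRx i c⟩ = algebraMap kx (κ i) (πx c))
  (hπA : ∀ a : A, πx ⟨algebraMap K Kx (a : K), hA a⟩ = algebraMap k kx (π a))
  (hπ : ∀ a : A, a ∈ IsLocalRing.maximalIdeal A → π a = 0)
  (hπx : ∀ a : Ox, a ∈ IsLocalRing.maximalIdeal Ox → πx a = 0)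
  (hker : ∀ (i : ι) (f : O i), (O i).valuation (f : F) < 1 → red i f = 0)
  {T : Type*} (m : T → Kx) (hmO : ∀ s, m s ∈ Ox)
  (hmli : LinearIndependent k (fun s => πx ⟨m s, hmO s⟩))
  (P : Subalgebra K Kx) (hP : Submodule.span K (Set.range m) = Subalgebra.toSubmodule P)
  (hfrac : ∀ x : Kx, ∃ q ∈ P, q ≠ 0 ∧ q * x ∈ P)
  (hnorm : ∀ q ∈ P, q ≠ 0 → ∃ c : K, c ≠ 0 ∧ c • q ∈ Ox ∧ (c • q)⁻¹ ∈ Ox)

/-- multiplication by a nonzero element, as a `K`-linear automorphism of `F` -/
def mulLeftEquiv (Q : F) (hQ : Q ≠ 0) : F ≃ₗ[K] F :=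
  LinearEquiv.ofLinearMap (LinearMap.mulLeft K Q) (LinearMap.mulLeft K Q⁻¹)
    (by ext x; simp [hQ]) (by ext x; simp [hQ])

@[simp] theorem mulLeftEquiv_apply (Q : F) (hQ : Q ≠ 0) (w : F) :
    mulLeftEquiv (K := K) Q hQ w = Q * w := rfl

include hbasex hπA hπx hker hmli hP hfrac hnorm in
/-- The data needed to run the abstract cartesian lemma on a finite-dimensional `K`-subspace `V`
of `F`: a reduction-orthonormal family `e` (monomials times an `Ox`-basis of `⋂ O i`), and a unit
`Q` of `⋂ O i` (a normalised common denominator) with `Q V ≤ span_K e`. -/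
theorem exists_twist [Finite ι] [FiniteDimensional Kx F] (hsep : Sep O)
    (hsurj : ∀ i, Function.Surjective (red i))
    (hdeg : finrank Kx F ≤ finrank kx (∀ i, κ i)) (V : Submodule K F) [FiniteDimensional K V] :
    ∃ (e : T × Fin (finrank Kx F) → ball A O hRA) (u : F ≃ₗ[K] F)
      (μ : (∀ i, κ i) →ₗ[k] (∀ i, κ i)),
      LinearIndependent k (fun p => redAll A O hRA red (e p)) ∧
      (∀ w : F, u w ∈ ball A O hRA ↔ w ∈ ball A O hRA) ∧ Function.Injective μ ∧
      (∀ (f : ball A O hRA) (h : u (f : F) ∈ ball A O hRA),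
        redAll A O hRA red ⟨u (f : F), h⟩ = μ (redAll A O hRA red f)) ∧
      V.map u.toLinearMap ≤ Submodule.span K (Set.range fun p => (e p : F)) := by
  classical
  obtain ⟨b, -, hbspan, hbk, -, -⟩ :=
    exists_basis_ball Ox O hRx red πx hbasex hker hπx hsep hsurj hdeg
  have he := linearIndependent_redAll_prodFam A Ox πx O hRx hRA red hbasex m hmO hmli b hbk
  obtain ⟨q, hqP, hq0, hqV⟩ :=
    exists_common_denominator m P hP (fun j => (b j : F)) hfrac hbspan V
  obtain ⟨c, hc0, hcO, hcO'⟩ := hnorm q hqP hq0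
  have hq'0 : c • q ≠ 0 := smul_ne_zero hc0 hq0
  have hQ0 : algebraMap Kx F (c • q) ≠ 0 := (map_ne_zero (algebraMap Kx F)).mpr hq'0
  have hQmem : algebraMap Kx F (c • q) ∈ ball A O hRA := fun i => hRx i ⟨c • q, hcO⟩
  have hQinv : (algebraMap Kx F (c • q))⁻¹ ∈ ball A O hRA := fun i => by
    rw [← map_inv₀]
    exact hRx i ⟨(c • q)⁻¹, hcO'⟩
  have hγ : πx ⟨c • q, hcO⟩ ≠ 0 := by
    intro h0
    have h1 : (⟨c • q, hcO⟩ : Ox) * ⟨(c • q)⁻¹, hcO'⟩ = 1 := Subtype.ext (mul_inv_cancel₀ hq'0)
    have h2 := congrArg πx h1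
    rw [map_mul, h0, zero_mul, map_one] at h2
    exact zero_ne_one h2
  refine ⟨prodFam A Ox O hRx hRA m hmO b, mulLeftEquiv (K := K) _ hQ0,
    (LinearMap.lsmul kx (∀ i, κ i) (πx ⟨c • q, hcO⟩)).restrictScalars k, he, ?_, ?_, ?_, ?_⟩
  · intro w
    rw [mulLeftEquiv_apply]
    constructor
    · intro h
      have h1 := mul_mem_ball A O hRA hQinv h
      rwa [← mul_assoc, inv_mul_cancel₀ hQ0, one_mul] at h1
    · intro h
      exact mul_mem_ball A O hRA hQmem h
  · intro x y h
    exact smul_right_injective _ hγ h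
  · intro f h
    exact redAll_mul_left A Ox πx O hRx hRA red hbasex ⟨c • q, hcO⟩ f.1 f.2 h
  · rintro _ ⟨f, hf, rfl⟩
    show algebraMap Kx F (c • q) * f ∈ _
    rw [algebraMap_smul_eq, smul_mul_assoc]
    exact Submodule.smul_mem _ _ (hqV f hf)

include hbasex hπA hπ hπx hker hmli hP hfrac hnorm in
/-- **(G0)**: for every finite-dimensional `K`-subspace `V` of `F`, the lattice `V ∩ ⋂ i, O i` is
free over `A` on `dim_K V` elements which are `K`-linearly independent and whose joint reductions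
in `∏ i, κ i` are `k`-linearly independent. -/
theorem exists_basis_inf_ball [Finite ι] [FiniteDimensional Kx F] (hπs : Function.Surjective π)
    (hsep : Sep O) (hsurj : ∀ i, Function.Surjective (red i))
    (hdeg : finrank Kx F ≤ finrank kx (∀ i, κ i)) (V : Submodule K F) [FiniteDimensional K V] :
    ∃ c : Fin (finrank K V) → ball A O hRA, (∀ i, (c i : F) ∈ V) ∧
      LinearIndependent K (fun i => (c i : F)) ∧
      LinearIndependent k (fun i => redAll A O hRA red (c i)) ∧
      ∀ f : ball A O hRA, (f : F) ∈ V → ∃ a : Fin (finrank K V) → A, f = ∑ i, a i • c i := by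
  obtain ⟨e, u, μ, he, hu, hμ, hρu, hV⟩ :=
    exists_twist A π Ox πx O hRx hRA hA red hbasex hπA hπx hker m hmO hmli P hP hfrac hnorm
      hsep hsurj hdeg V
  exact exists_basis_inf_twist A π hπ (ball A O hRA) (redAll A O hRA red)
    (redAll_smul A O hRA red π (hbaseA_of A π Ox πx O hRx hRA hA red hbasex hπA)) e he u hu μ hμ
    hρu hπs V hV

include hbasex hπA hπ hπx hker hmli hP hfrac hnorm in
/-- **(G0), kernel of the reduction**: an element of `V ∩ ⋂ i, O i` whose reductions all vanish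
is `a • f'` with `a ∈ 𝔪_A` and `f' ∈ V ∩ ⋂ i, O i`. -/
theorem exists_smul_of_redAll_eq_zero [Finite ι] [FiniteDimensional Kx F]
    (hsep : Sep O) (hsurj : ∀ i, Function.Surjective (red i))
    (hdeg : finrank Kx F ≤ finrank kx (∀ i, κ i)) (V : Submodule K F) [FiniteDimensional K V]
    (f : ball A O hRA) (hfV : (f : F) ∈ V) (h0 : redAll A O hRA red f = 0) :
    ∃ (a : A) (f' : ball A O hRA), a ∈ IsLocalRing.maximalIdeal A ∧ f = a • f' ∧ (f' : F) ∈ V := by
  obtain ⟨e, u, μ, he, hu, hμ, hρu, hV⟩ :=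
    exists_twist A π Ox πx O hRx hRA hA red hbasex hπA hπx hker m hmO hmli P hP hfrac hnorm
      hsep hsurj hdeg V
  exact exists_smul_of_reduction_eq_zero_inf_twist A π hπ (ball A O hRA) (redAll A O hRA red)
    (redAll_smul A O hRA red π (hbaseA_of A π Ox πx O hRx hRA hA red hbasex hπA)) e he u hu μ hμ
    hρu V hV f hfV h0

end G0

section Powers

open Gauss2Val Polynomial

theorem linearIndependent_pow_of_transcendental {k B : Type*} [Field k] [CommRing B] [Algebra k B]
    (x : B) (hx : Transcendental k x) : LinearIndependent k (fun s : ℕ => x ^ s) := by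
  have h1 := (Polynomial.basisMonomials k).linearIndependent
  have h2 := h1.map' (aeval x).toLinearMap
    (LinearMap.ker_eq_bot.mpr (transcendental_iff_injective.mp hx))
  have h3 : ((aeval x).toLinearMap ∘ (Polynomial.basisMonomials k)) = fun s : ℕ => x ^ s := by
    funext s
    simp [Polynomial.coe_basisMonomials]
  rw [h3] at h2
  exact h2

theorem span_range_pow_eq {K Kx : Type*} [Field K] [Field Kx] [Algebra K Kx] (t : Kx) :
    Submodule.span K (Set.range fun s : ℕ => t ^ s) =
      Subalgebra.toSubmodule (aeval (R := K) t).range := by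
  apply le_antisymm
  · rw [Submodule.span_le]
    rintro _ ⟨s, rfl⟩
    exact ⟨X ^ s, by simp⟩
  · rintro _ ⟨p, rfl⟩
    show aeval t p ∈ _
    rw [aeval_eq_sum_range]
    exact Submodule.sum_mem _ fun i _ => Submodule.smul_mem _ _ (Submodule.subset_span ⟨i, rfl⟩)

variable {K : Type*} [Field K] (A : ValuationSubring K) {k : Type*} [Field k] (π : A →+* k)
  {Kx : Type*} [Field Kx] [Algebra K Kx] (Ox : ValuationSubring Kx)
  {kx : Type*} [Field kx] [Algebra k kx] (πx : Ox →+* kx)
  {F : Type*} [Field F] [Algebra K F] [Algebra Kx F] [IsScalarTower K Kx F]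
  {ι : Type*} (O : ι → ValuationSubring F)
  (hRx : ∀ (i : ι) (c : Ox), algebraMap Kx F (c : Kx) ∈ O i)
  (hRA : ∀ (i : ι) (a : A), algebraMap K F (a : K) ∈ O i)
  (hA : ∀ a : A, algebraMap K Kx (a : K) ∈ Ox)
  {κ : ι → Type*} [∀ i, Field (κ i)] [∀ i, Algebra kx (κ i)] [∀ i, Algebra k (κ i)]
  [∀ i, IsScalarTower k kx (κ i)]
  (red : ∀ i, O i →+* κ i)
  (hbasex : ∀ (i : ι) (c : Ox),
    red i ⟨algebraMap Kx F (c : Kx), hRx i c⟩ = algebraMap kx (κ i) (πx c))
  (hπA : ∀ a : A, πx ⟨algebraMap K Kx (a : K), hA a⟩ = algebraMap k kx (π a))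
  (hπ : ∀ a : A, a ∈ IsLocalRing.maximalIdeal A → π a = 0)
  (hπx : ∀ a : Ox, a ∈ IsLocalRing.maximalIdeal Ox → πx a = 0)
  (hker : ∀ (i : ι) (f : O i), (O i).valuation (f : F) < 1 → red i f = 0)
  (t : Kx) (ht : t ∈ Ox) (htr : Transcendental k (πx ⟨t, ht⟩))
  (hfrac : ∀ x : Kx, ∃ p q : K[X], aeval t q ≠ 0 ∧ aeval t q * x = aeval t p)
  (hnorm : ∀ q : K[X], aeval t q ≠ 0 →
    ∃ c : K, c ≠ 0 ∧ c • aeval t q ∈ Ox ∧ (c • aeval t q)⁻¹ ∈ Ox)

include htr in
theorem hmli_pow :
    LinearIndependent k (fun s : ℕ => πx ⟨t ^ s, Ox.pow_mem ht s⟩) := by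
  have h := linearIndependent_pow_of_transcendental (πx ⟨t, ht⟩) htr
  have : (fun s : ℕ => πx ⟨t ^ s, Ox.pow_mem ht s⟩) = fun s : ℕ => (πx ⟨t, ht⟩) ^ s := by
    funext s
    rw [← map_pow]
    rfl
  rw [this]
  exact h

include hfrac in
theorem hfrac_pow : ∀ x : Kx, ∃ q ∈ (aeval (R := K) t).range, q ≠ 0 ∧
    q * x ∈ (aeval (R := K) t).range := by
  intro x
  obtain ⟨p, q, hq0, hqx⟩ := hfrac x
  exact ⟨aeval t q, ⟨q, rfl⟩, hq0, ⟨p, hqx.symm⟩⟩

include hnorm in
theorem hnorm_pow : ∀ q ∈ (aeval (R := K) t).range, q ≠ 0 →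
    ∃ c : K, c ≠ 0 ∧ c • q ∈ Ox ∧ (c • q)⁻¹ ∈ Ox := by
  rintro _ ⟨q, rfl⟩ hq0
  exact hnorm q hq0

include hbasex hπA hπ hπx hker htr hfrac hnorm in
/-- **(G0) over a rational function field `Kx = K(t)`** (monomials `t ^ s`). -/
theorem exists_basis_inf_ball_pow [Finite ι] [FiniteDimensional Kx F]
    (hπs : Function.Surjective π)
    (hsep : Sep O) (hsurj : ∀ i, Function.Surjective (red i))
    (hdeg : finrank Kx F ≤ finrank kx (∀ i, κ i)) (V : Submodule K F) [FiniteDimensional K V] :
    ∃ c : Fin (finrank K V) → ball A O hRA, (∀ i, (c i : F) ∈ V) ∧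
      LinearIndependent K (fun i => (c i : F)) ∧
      LinearIndependent k (fun i => redAll A O hRA red (c i)) ∧
      ∀ f : ball A O hRA, (f : F) ∈ V → ∃ a : Fin (finrank K V) → A, f = ∑ i, a i • c i :=
  exists_basis_inf_ball A π Ox πx O hRx hRA hA red hbasex hπA hπ hπx hker
    (fun s : ℕ => t ^ s) (fun s => Ox.pow_mem ht s) (hmli_pow Ox πx t ht htr)
    (aeval (R := K) t).range (span_range_pow_eq t) (hfrac_pow t hfrac) (hnorm_pow Ox t hnorm)
    hπs hsep hsurj hdeg V

include hbasex hπA hπ hπx hker htr hfrac hnorm in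
/-- **(G0), kernel of the reduction, over `Kx = K(t)`.** -/
theorem exists_smul_of_redAll_eq_zero_pow [Finite ι] [FiniteDimensional Kx F]
    (hsep : Sep O) (hsurj : ∀ i, Function.Surjective (red i))
    (hdeg : finrank Kx F ≤ finrank kx (∀ i, κ i)) (V : Submodule K F) [FiniteDimensional K V]
    (f : ball A O hRA) (hfV : (f : F) ∈ V) (h0 : redAll A O hRA red f = 0) :
    ∃ (a : A) (f' : ball A O hRA), a ∈ IsLocalRing.maximalIdeal A ∧ f = a • f' ∧ (f' : F) ∈ V :=
  exists_smul_of_redAll_eq_zero A π Ox πx O hRx hRA hA red hbasex hπA hπ hπx hker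
    (fun s : ℕ => t ^ s) (fun s => Ox.pow_mem ht s) (hmli_pow Ox πx t ht htr)
    (aeval (R := K) t).range (span_range_pow_eq t) (hfrac_pow t hfrac) (hnorm_pow Ox t hnorm)
    hsep hsurj hdeg V f hfV h0

end Powers

end Fermat.Agent.S34x.Gauss2G0
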