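/-
P-S34, WP1 complement (helper30): valuation rings of an algebraic extension lying over the same
valuation ring of the base field are pairwise incomparable.

* `eq_of_le_of_liesOver` : `V ≤ W`, both lying over `O`, `F / E` algebraic  ⟹  `V = W`;
* `not_le_of_ne_of_liesOver`, `sep_pair_of_ne` : two DISTINCT such rings are incomparable, hence
  satisfy the separation property `Gauss2Val.Sep` (as a `Bool`- or `Fin 2`-indexed family);
* `not_le_of_sep_elt` : incomparability from a separating element.
-/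
import Mathlib
import Fermat.Agent.S34x.Gauss2Val

set_option autoImplicit false
set_option linter.unusedSectionVars false

namespace Fermat.Agent.S34x.Gauss2Inc

open Fermat.Agent.S34x

section Basic

variable {F : Type*} [Field F]

theorem valuation_eq_one_of_mem_of_inv_mem (T : ValuationSubring F) {z : F} (hz0 : z ≠ 0)
    (h1 : z ∈ T) (h2 : z⁻¹ ∈ T) : T.valuation z = 1 := by
  have h3 : T.valuation z ≤ 1 := (T.valuation_le_one_iff z).mpr h1
  have h4 : T.valuation z⁻¹ ≤ 1 := (T.valuation_le_one_iff _).mpr h2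
  rw [map_inv₀] at h4
  have h5 : 0 < T.valuation z := zero_lt_iff.mpr ((Valuation.ne_zero_iff _).mpr hz0)
  exact le_antisymm h3 ((inv_le_one₀ h5).mp h4)

theorem valuation_lt_one_of_mem_of_inv_notMem (T : ValuationSubring F) {z : F}
    (h1 : z ∈ T) (h2 : z⁻¹ ∉ T) : T.valuation z < 1 := by
  have h3 : T.valuation z ≤ 1 := (T.valuation_le_one_iff z).mpr h1
  refine lt_of_le_of_ne h3 fun h4 => h2 ?_
  rw [← T.valuation_le_one_iff, map_inv₀, h4, inv_one]

theorem mem_of_valuation_eq_one (T : ValuationSubring F) {z : F} (h : T.valuation z = 1) :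
    z ∈ T ∧ z⁻¹ ∈ T := by
  refine ⟨(T.valuation_le_one_iff z).mp h.le, ?_⟩
  rw [← T.valuation_le_one_iff, map_inv₀, h, inv_one]

/-- incomparability from a separating element -/
theorem not_le_of_sep_elt (V W : ValuationSubring F) (s : F) (h1 : V.valuation s < 1)
    (h2 : W.valuation (1 - s) < 1) : ¬ V ≤ W ∧ ¬ W ≤ V := by
  have hs1 : W.valuation s = 1 := by
    have := Valuation.map_one_sub_of_lt _ h2
    rwa [sub_sub_cancel] at this
  have hs2 : V.valuation (1 - s) = 1 := Valuation.map_one_sub_of_lt _ h1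
  constructor
  · intro hle
    -- `(1 - s)⁻¹ ∈ V` but not in `W`
    have h3 := (mem_of_valuation_eq_one V hs2).2
    have h4 := (W.valuation_le_one_iff _).mpr (hle h3)
    rw [map_inv₀] at h4
    have h5 : 0 < W.valuation (1 - s) := by
      rw [zero_lt_iff, Valuation.ne_zero_iff]
      intro h0
      rw [h0, map_zero] at hs2
      exact zero_ne_one hs2
    exact absurd h2 (not_lt.mpr ((inv_le_one₀ h5).mp h4))
  · intro hle
    have h3 := (mem_of_valuation_eq_one W hs1).2
    have h4 := (V.valuation_le_one_iff _).mpr (hle h3)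
    rw [map_inv₀] at h4
    have h5 : 0 < V.valuation s := by
      rw [zero_lt_iff, Valuation.ne_zero_iff]
      intro h0
      rw [h0, map_zero] at hs1
      exact zero_ne_one hs1
    exact absurd h1 (not_lt.mpr ((inv_le_one₀ h5).mp h4))

end Basic

section LiesOver

open Polynomial

variable {E F : Type*} [Field E] [Field F] [Algebra E F]
  (O : ValuationSubring E) (V W : ValuationSubring F)
  (hV : ∀ e : E, algebraMap E F e ∈ V ↔ e ∈ O) (hW : ∀ e : E, algebraMap E F e ∈ W ↔ e ∈ O)

include hV in
theorem valuation_algebraMap_eq_one {a : E} (ha0 : a ≠ 0) (ha : a ∈ O) (ha' : a⁻¹ ∈ O) :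
    V.valuation (algebraMap E F a) = 1 := by
  refine valuation_eq_one_of_mem_of_inv_mem V ?_ ((hV a).mpr ha) ?_
  · exact (map_ne_zero (algebraMap E F)).mpr ha0
  · rw [← map_inv₀]
    exact (hV _).mpr ha'

include hV in
theorem valuation_algebraMap_lt_one {a : E} (ha : a ∈ O) (ha' : a = 0 ∨ a⁻¹ ∉ O) :
    V.valuation (algebraMap E F a) < 1 := by
  rcases ha' with rfl | ha'
  · rw [map_zero, map_zero]
    exact zero_lt_one
  · refine valuation_lt_one_of_mem_of_inv_notMem V ((hV a).mpr ha) ?_
    rw [← map_inv₀, hV]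
    exact ha'

include hV hW in
/-- **Comparable valuation rings of an algebraic extension lying over the same valuation ring
are equal.** -/
theorem eq_of_le_of_liesOver [Algebra.IsAlgebraic E F] (hle : V ≤ W) : V = W := by
  classical
  refine le_antisymm hle ?_
  intro x hxW
  by_contra hxV
  have hx0 : x ≠ 0 := fun h => hxV (h ▸ V.zero_mem)
  have hyV : x⁻¹ ∈ V := (V.mem_or_inv_mem x).resolve_left hxV
  have hy0 : x⁻¹ ≠ 0 := inv_ne_zero hx0
  have hyVlt : V.valuation x⁻¹ < 1 :=
    valuation_lt_one_of_mem_of_inv_notMem V hyV (by rwa [inv_inv])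
  have hyW1 : W.valuation x⁻¹ = 1 :=
    valuation_eq_one_of_mem_of_inv_mem W hy0 (hle hyV) (by rwa [inv_inv])
  set y : F := x⁻¹ with hy
  -- an algebraic relation for `y`
  obtain ⟨p, hp0, hpy⟩ := Algebra.IsAlgebraic.isAlgebraic (R := E) y
  set s : Finset ℕ := Finset.range (p.natDegree + 1) with hs
  obtain ⟨j, hj, hcj0, hdiv⟩ := Gauss2.exists_div_mem O s (fun i => p.coeff i)
    ⟨p.natDegree, Finset.self_mem_range_succ _, Polynomial.leadingCoeff_ne_zero.mpr hp0⟩
  set a : ℕ → E := fun i => p.coeff i / p.coeff j with ha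
  have haj : a j = 1 := div_self hcj0
  have hrel : ∑ i ∈ s, algebraMap E F (a i) * y ^ i = 0 := by
    have h1 : ∑ i ∈ s, algebraMap E F (a i) * y ^ i =
        (algebraMap E F (p.coeff j))⁻¹ * ∑ i ∈ s, p.coeff i • y ^ i := by
      rw [Finset.mul_sum]
      refine Finset.sum_congr rfl fun i _ => ?_
      rw [ha, Algebra.smul_def]
      simp only [map_div₀]
      ring
    rw [h1, ← Polynomial.aeval_eq_sum_range, hpy, mul_zero]
  -- the first index with a unit coefficient
  set T : Finset ℕ := s.filter (fun i => a i ≠ 0 ∧ (a i)⁻¹ ∈ O) with hT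
  have hTne : T.Nonempty := ⟨j, Finset.mem_filter.mpr ⟨hj, by
    rw [haj]; exact ⟨one_ne_zero, by rw [inv_one]; exact O.one_mem⟩⟩⟩
  set i₀ : ℕ := T.min' hTne with hi₀
  have hi₀T : i₀ ∈ T := Finset.min'_mem T hTne
  obtain ⟨hi₀s, hai₀0, hai₀inv⟩ := Finset.mem_filter.mp hi₀T
  have hlow : ∀ i ∈ s, i < i₀ → a i = 0 ∨ (a i)⁻¹ ∉ O := by
    intro i hi hlt
    by_contra hcon
    push Not at hcon
    have : i ∈ T := Finset.mem_filter.mpr ⟨hi, hcon⟩
    exact absurd (Finset.min'_le T i this) (not_le.mpr hlt)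
  -- split the relation
  have hsplit := Finset.sum_filter_add_sum_filter_not s (fun i => i < i₀)
    (fun i => algebraMap E F (a i) * y ^ i)
  rw [hrel] at hsplit
  set Slo : F := ∑ i ∈ s.filter (fun i => i < i₀), algebraMap E F (a i) * y ^ i with hSlo
  set hiSet : Finset ℕ := s.filter (fun i => ¬ i < i₀) with hhiSet
  have hi₀hi : i₀ ∈ hiSet := Finset.mem_filter.mpr ⟨hi₀s, lt_irrefl _⟩
  set U : F := ∑ i ∈ hiSet, algebraMap E F (a i) * y ^ (i - i₀) with hU
  have hShi : ∑ i ∈ hiSet, algebraMap E F (a i) * y ^ i = y ^ i₀ * U := by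
    rw [hU, Finset.mul_sum]
    refine Finset.sum_congr rfl fun i hi => ?_
    have hge : i₀ ≤ i := not_lt.mp (Finset.mem_filter.mp hi).2
    have : y ^ i = y ^ i₀ * y ^ (i - i₀) := by rw [← pow_add, Nat.add_sub_cancel' hge]
    rw [this]
    ring
  rw [hShi] at hsplit
  -- `U` is a unit of `V`
  have hUV : V.valuation U = 1 := by
    have h1 : U = algebraMap E F (a i₀) * y ^ (i₀ - i₀) +
        ∑ i ∈ hiSet.erase i₀, algebraMap E F (a i) * y ^ (i - i₀) :=
      (Finset.add_sum_erase hiSet _ hi₀hi).symm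
    have h2 : V.valuation (algebraMap E F (a i₀) * y ^ (i₀ - i₀)) = 1 := by
      rw [Nat.sub_self, pow_zero, mul_one]
      exact valuation_algebraMap_eq_one O V hV hai₀0 (hdiv i₀ hi₀s) hai₀inv
    have h3 : V.valuation (∑ i ∈ hiSet.erase i₀, algebraMap E F (a i) * y ^ (i - i₀)) < 1 := by
      refine Valuation.map_sum_lt _ one_ne_zero fun i hi => ?_
      obtain ⟨hne, hmem⟩ := Finset.mem_erase.mp hi
      obtain ⟨his, hge⟩ := Finset.mem_filter.mp hmem
      have hpos : i - i₀ ≠ 0 := by
        have : i₀ ≤ i := not_lt.mp hge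
        omega
      rw [map_mul, map_pow]
      have h4 : V.valuation (algebraMap E F (a i)) ≤ 1 :=
        (V.valuation_le_one_iff _).mpr ((hV _).mpr (hdiv i his))
      have h5 : V.valuation y ^ (i - i₀) < 1 := pow_lt_one₀ zero_le hyVlt hpos
      calc V.valuation (algebraMap E F (a i)) * V.valuation y ^ (i - i₀)
          ≤ 1 * V.valuation y ^ (i - i₀) := by gcongr
        _ < 1 := by rw [one_mul]; exact h5
    rw [h1, Valuation.map_add_eq_of_lt_left _ (by rw [h2]; exact h3), h2]
  obtain ⟨hUmemV, hUinvV⟩ := mem_of_valuation_eq_one V hUV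
  have hU0 : U ≠ 0 := by
    intro h0
    rw [h0, map_zero] at hUV
    exact zero_ne_one hUV
  have hUW : W.valuation U = 1 :=
    valuation_eq_one_of_mem_of_inv_mem W hU0 (hle hUmemV) (hle hUinvV)
  have hhiW : W.valuation (y ^ i₀ * U) = 1 := by
    rw [map_mul, map_pow, hyW1, one_pow, one_mul, hUW]
  -- the low part is small at `W`
  have hloW : W.valuation Slo < 1 := by
    refine Valuation.map_sum_lt _ one_ne_zero fun i hi => ?_
    obtain ⟨his, hlt⟩ := Finset.mem_filter.mp hi
    rw [map_mul, map_pow, hyW1, one_pow, mul_one]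
    exact valuation_algebraMap_lt_one O W hW (hdiv i his) (hlow i his hlt)
  have hSlo' : Slo = -(y ^ i₀ * U) := eq_neg_of_add_eq_zero_left hsplit
  rw [hSlo', Valuation.map_neg, hhiW] at hloW
  exact lt_irrefl _ hloW

include hV hW in
/-- Two distinct valuation rings of an algebraic extension lying over the same valuation ring are
incomparable. -/
theorem not_le_of_ne_of_liesOver [Algebra.IsAlgebraic E F] (hne : V ≠ W) :
    ¬ V ≤ W ∧ ¬ W ≤ V :=
  ⟨fun h => hne (eq_of_le_of_liesOver O V W hV hW h),
    fun h => hne (eq_of_le_of_liesOver O W V hW hV h).symm⟩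

end LiesOver

section Pair

variable {F : Type*} [Field F]

/-- the separation property for a `Bool`-indexed pair of incomparable valuation rings -/
theorem sep_bool (V W : ValuationSubring F) (h12 : ¬ V ≤ W) (h21 : ¬ W ≤ V) :
    Gauss2Val.Sep (fun b : Bool => cond b V W) := by
  refine Gauss2Val.sep_of_two _ (by decide) ?_
  intro i j hij
  cases i <;> cases j
  · exact absurd rfl hij
  · exact h21
  · exact h12
  · exact absurd rfl hij

/-- the separation property for a `Fin 2`-indexed pair of incomparable valuation rings -/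
theorem sep_fin2 (V W : ValuationSubring F) (h12 : ¬ V ≤ W) (h21 : ¬ W ≤ V) :
    Gauss2Val.Sep (![V, W] : Fin 2 → ValuationSubring F) := by
  refine Gauss2Val.sep_of_two _ (by decide) ?_
  intro i j hij
  fin_cases i <;> fin_cases j
  · exact absurd rfl hij
  · exact h12
  · exact h21
  · exact absurd rfl hij

end Pair

end Fermat.Agent.S34x.Gauss2Inc
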