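/-
P-S34 (helper30): the degree squeeze.  In the setting of `Gauss2Val` (finitely many valuation rings
`O i` of `F` over one valuation ring `R` of `K₀`, separation property), the fundamental inequality
`∑ [κ i : k₀] ≤ [F : K₀]` together with lower bounds `d i ≤ [κ i : k₀]`, `[F : K₀] ≤ ∑ d i` forces
equality everywhere; in particular `k₀`-subspaces `S i ≤ κ i` with `[F : K₀] ≤ ∑ dim S i` are
everything (the residue fields ARE the known subfields).  Instance-free numeric version in the
setting of `Inst/GaussAbs` (`squeeze_of_param`).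
-/
import Mathlib
import Fermat.Agent.S34x.Inst.GaussAbs

set_option autoImplicit false
set_option linter.unusedSectionVars false

namespace Fermat.Agent.S34x.Gauss2Squeeze

open Module Fermat.Agent.S34x Fermat.Agent.S34x.Gauss2Val

section Abstract

variable {K₀ : Type*} [Field K₀] (R : ValuationSubring K₀) {F : Type*} [Field F] [Algebra K₀ F]
  {ι : Type*} (O : ι → ValuationSubring F)
  (hR : ∀ (i : ι) (c : R), algebraMap K₀ F (c : K₀) ∈ O i)
  {κ : ι → Type*} [∀ i, Field (κ i)] (red : ∀ i, O i →+* κ i)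
  {k₀ : Type*} [Field k₀] (π₀ : R →+* k₀) [∀ i, Algebra k₀ (κ i)]
  (hbase : ∀ (i : ι) (c : R), red i ⟨algebraMap K₀ F (c : K₀), hR i c⟩ = algebraMap k₀ (κ i) (π₀ c))
  (hker : ∀ (i : ι) (f : O i), (O i).valuation (f : F) < 1 → red i f = 0)

include hbase hker in
/-- **degree squeeze**, numeric form -/
theorem squeeze [Fintype ι] [FiniteDimensional K₀ F] (hsep : Sep O)
    (hsurj : ∀ i, Function.Surjective (red i)) (d : ι → ℕ)
    (hd : ∀ i, d i ≤ finrank k₀ (κ i)) (hsum : finrank K₀ F ≤ ∑ i, d i) :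
    (∀ i, finrank k₀ (κ i) = d i) ∧ finrank K₀ F = ∑ i, d i := by
  have h1 := sum_finrank_le R O hR red π₀ hbase hker hsep hsurj
  have h2 : ∑ i, d i ≤ ∑ i, finrank k₀ (κ i) := Finset.sum_le_sum fun i _ => hd i
  have h3 : ∑ i, d i = ∑ i, finrank k₀ (κ i) := le_antisymm h2 (h1.trans hsum)
  have h4 := (Finset.sum_eq_sum_iff_of_le (fun i _ => hd i)).mp h3
  exact ⟨fun i => (h4 i (Finset.mem_univ i)).symm, le_antisymm hsum (h3 ▸ h1)⟩

include hbase hker in
/-- **degree squeeze**: subspaces of the residue fields whose dimensions add up to at least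
`[F : K₀]` are the whole residue fields. -/
theorem eq_top_of_squeeze [Fintype ι] [FiniteDimensional K₀ F] (hsep : Sep O)
    (hsurj : ∀ i, Function.Surjective (red i)) (S : ∀ i, Submodule k₀ (κ i))
    (hsum : finrank K₀ F ≤ ∑ i, finrank k₀ (S i)) : ∀ i, S i = ⊤ := by
  have hfin := finite_residue R O hR red π₀ hbase hker hsep hsurj
  have h := (squeeze R O hR red π₀ hbase hker hsep hsurj (fun i => finrank k₀ (S i))
    (fun i => Submodule.finrank_le (S i)) hsum).1
  intro i
  exact Submodule.eq_top_of_finrank_eq (h i).symm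

end Abstract

section Param

open Inst.GaussAbs IntermediateField

variable {K : Type*} [Field K] (A : ValuationSubring K) {k : Type*} [Field k] (π : A →+* k)
  (hπ : Function.Surjective π)
  {F : Type*} [Field F] [Algebra K F] (t : F) (htK : Transcendental K t)
  {ι : Type*} (V : ι → ValuationSubring F)
  {κ : ι → Type*} [∀ i, Field (κ i)] [∀ i, Algebra k (κ i)]
  (res : ∀ i, V i →+* κ i)
  (hRA : ∀ (i : ι) (a : A), algebraMap K F (a : K) ∈ V i)
  (hresA : ∀ (i : ι) (a : A), res i ⟨algebraMap K F (a : K), hRA i a⟩ = algebraMap k (κ i) (π a))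
  (hker : ∀ (i : ι) (f : V i), (V i).valuation (f : F) < 1 → res i f = 0)
  (ht : ∀ i, t ∈ V i) (htr : ∀ i, Transcendental k (res i ⟨t, ht i⟩))

include hπ htK hresA hker htr in
/-- **fundamental inequality, instance-free**: `∑ [κ i : k(res i t)] ≤ [F : K(t)]`. -/
theorem sum_finrank_le_of_param [Fintype ι] [FiniteDimensional K⟮t⟯ F] (hsep : Sep V)
    (hsurj : ∀ i, Function.Surjective (res i)) :
    ∑ i, finrank k⟮res i ⟨t, ht i⟩⟯ (κ i) ≤ finrank K⟮t⟯ F := by
  letI : Algebra (RatFunc K) F := algRF t htK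
  haveI : FiniteDimensional (RatFunc K) F := algRF_finite t htK
  letI : ∀ i, Algebra (RatFunc k) (κ i) := fun i => algRF (res i ⟨t, ht i⟩) (htr i)
  have h := sum_finrank_le (OxK hπ) V (hRx_of_param A π hπ t htK V res hRA hresA hker ht htr) res
    (redK hπ) (hbasex_of_param A π hπ t htK V res hRA hresA hker ht htr) hker hsep hsurj
  rw [algRF_finrank t htK] at h
  refine le_trans (le_of_eq (Finset.sum_congr rfl fun i _ => ?_)) h
  exact (algRF_finrank _ (htr i)).symm

include hπ htK hresA hker htr in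
/-- every residue field is finite over `k(res i t)` -/
theorem finite_residue_of_param [Fintype ι] [FiniteDimensional K⟮t⟯ F] (hsep : Sep V)
    (hsurj : ∀ i, Function.Surjective (res i)) (i : ι) :
    FiniteDimensional k⟮res i ⟨t, ht i⟩⟯ (κ i) := by
  letI : Algebra (RatFunc K) F := algRF t htK
  haveI : FiniteDimensional (RatFunc K) F := algRF_finite t htK
  letI : ∀ i, Algebra (RatFunc k) (κ i) := fun i => algRF (res i ⟨t, ht i⟩) (htr i)
  have hfin : Module.Finite (RatFunc k) (κ i) :=
    finite_residue (OxK hπ) V (hRx_of_param A π hπ t htK V res hRA hresA hker ht htr) res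
      (redK hπ) (hbasex_of_param A π hπ t htK V res hRA hresA hker ht htr) hker hsep hsurj i
  have hpos : 0 < finrank (RatFunc k) (κ i) := Module.finrank_pos
  rw [algRF_finrank _ (htr i)] at hpos
  exact Module.finite_of_finrank_pos hpos

include hπ htK hresA hker htr in
/-- **degree squeeze, instance-free numeric form**: lower bounds `d i ≤ [κ i : k(res i t)]` with
`[F : K(t)] ≤ ∑ d i` are equalities. -/
theorem squeeze_of_param [Fintype ι] [FiniteDimensional K⟮t⟯ F] (hsep : Sep V)
    (hsurj : ∀ i, Function.Surjective (res i)) (d : ι → ℕ)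
    (hd : ∀ i, d i ≤ finrank k⟮res i ⟨t, ht i⟩⟯ (κ i)) (hsum : finrank K⟮t⟯ F ≤ ∑ i, d i) :
    (∀ i, finrank k⟮res i ⟨t, ht i⟩⟯ (κ i) = d i) ∧ finrank K⟮t⟯ F = ∑ i, d i := by
  have h1 := sum_finrank_le_of_param A π hπ t htK V res hRA hresA hker ht htr hsep hsurj
  have h2 : ∑ i, d i ≤ ∑ i, finrank k⟮res i ⟨t, ht i⟩⟯ (κ i) :=
    Finset.sum_le_sum fun i _ => hd i
  have h3 : ∑ i, d i = ∑ i, finrank k⟮res i ⟨t, ht i⟩⟯ (κ i) :=
    le_antisymm h2 (h1.trans hsum)
  have h4 := (Finset.sum_eq_sum_iff_of_le (fun i _ => hd i)).mp h3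
  exact ⟨fun i => (h4 i (Finset.mem_univ i)).symm, le_antisymm hsum (h3 ▸ h1)⟩

include hπ htK hresA hker htr in
/-- **degree squeeze, intermediate fields**: intermediate fields `S i` of `κ i / k(res i t)` whose
degrees add up to at least `[F : K(t)]` are the whole residue fields. -/
theorem eq_top_of_squeeze_of_param [Fintype ι] [FiniteDimensional K⟮t⟯ F] (hsep : Sep V)
    (hsurj : ∀ i, Function.Surjective (res i))
    (S : ∀ i, IntermediateField k⟮res i ⟨t, ht i⟩⟯ (κ i))
    (hsum : finrank K⟮t⟯ F ≤ ∑ i, finrank k⟮res i ⟨t, ht i⟩⟯ (S i)) : ∀ i, S i = ⊤ := by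
  have hfin := finite_residue_of_param A π hπ t htK V res hRA hresA hker ht htr hsep hsurj
  have h := (squeeze_of_param A π hπ t htK V res hRA hresA hker ht htr hsep hsurj
    (fun i => finrank k⟮res i ⟨t, ht i⟩⟯ (S i))
    (fun i => by
      haveI := hfin i
      exact (S i).toSubmodule.finrank_le) hsum).1
  intro i
  haveI := hfin i
  have h1 : Subalgebra.toSubmodule (S i).toSubalgebra = ⊤ :=
    Submodule.eq_top_of_finrank_eq (h i).symm
  rw [eq_top_iff]
  intro x _
  have h2 : x ∈ Subalgebra.toSubmodule (S i).toSubalgebra := by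
    rw [h1]
    trivial
  exact h2

end Param

end Fermat.Agent.S34x.Gauss2Squeeze
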