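/-
P-S34 (T2), helper81: the Kummer form of "inertia at `ℓ ∥ Nℓ` acts unipotently on the torsion of
`J₀(Nℓ)`".

Setting: `L` algebraically closed, algebraic over `ℚ`; `A` a valuation subring of `L`; level `N * ℓ`
with `ℓ ∤ N` prime.  The function field `F_{Nℓ}` has two embeddings into `L((q))`: the natural one
and helper44's second embedding `ι₀` (`S34x/TwoVal/Iota0`), whose image is again `F_{Nℓ}`
(`ι₀` is the Atkin-Lehner involution `wAL` followed by the natural embedding).

Everything is stated with the FIELD-FREE reduction relation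
`GRed A π y yb : y ∈ gaussRing A π ∧ gaussRed y = yb` on Laurent series (`Gateway/Red/Defs`), so
for `f : F_M` it says `f ∈ Ov A π F_M ∧ redV f = yb` and for `ι₀ w` it says
`w ∈ Ov0 ∧ red0 w = yb` (helper44's two Gauss rings); both are independent of the level.

* `GaussNormalisableOv M A`: every nonzero function of level `M` has a constant multiple in the
  Gauss ring with nonzero reduction (weak form of `Kummer.GaussNormalisable`).
* `KummerInertiaTrivial N ℓ A m`: for a Kummer function `w` (all orders divisible by `m`) with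
  nonzero CONSTANT reductions at BOTH embeddings, `τ w / w` is a constant times an `m`-th power,
  for every `τ` in the inertia group.  (= Theorem B of the plan, in Kummer form.)
* `unipotent_of_torsion`: under `GaussNormalisableOv (N * ℓ) A` and `KummerInertiaTrivial`,
  `τ' • (τ • x - x) = τ • x - x` for `τ τ'` in the inertia group and `x` of `m`-torsion; hence
  `semistable_of_torsion : τ • τ • x - 2 • (τ • x) + x = 0`.
-/
import Fermat.Agent.S34x.TwoVal.Iota0Level
import Fermat.Agent.Gateway.Kummer.RedBridge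

set_option autoImplicit false
set_option linter.style.haveILetI false
set_option linter.unusedSectionVars false

noncomputable section

namespace Fermat.Agent.S34x.KummerSS

open ModularCurve AlgebraicCurve HahnSeries IntermediateField
open Fermat.Agent.Gateway.Kummer Fermat.Agent.Gateway.Hecke Fermat.Agent.Gateway.ESC
open Fermat.Agent.Gateway.Red Fermat.Agent.S34x.TwoVal

/-! ### Elements of the decomposition group preserve the valuation -/

section Unit

variable {L : Type*} [Field L] [Algebra ℚ L] (A : ValuationSubring L)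

/-- every element algebraic over `ℚ` is fixed by a positive power of `σ` -/
theorem exists_pow_apply_eq [Algebra.IsAlgebraic ℚ L] (σ : L ≃ₐ[ℚ] L) (d : L) :
    ∃ n : ℕ, 0 < n ∧ (σ ^ n) d = d := by
  have hint : IsIntegral ℚ d := (Algebra.IsAlgebraic.isAlgebraic d).isIntegral
  have hfin : ((minpoly ℚ d).rootSet L).Finite := Polynomial.rootSet_finite _ _
  have hmem : ∀ i : ℕ, (σ ^ i) d ∈ (minpoly ℚ d).rootSet L := by
    intro i
    rw [Polynomial.mem_rootSet]
    refine ⟨minpoly.ne_zero hint, ?_⟩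
    have := Polynomial.aeval_algHom_apply ((σ ^ i : L ≃ₐ[ℚ] L) : L →ₐ[ℚ] L) d (minpoly ℚ d)
    rw [minpoly.aeval, map_zero] at this
    exact this
  obtain ⟨i, j, hij, h⟩ := hfin.exists_lt_map_eq_of_forall_mem hmem
  refine ⟨j - i, Nat.sub_pos_of_lt hij, ?_⟩
  have hj : j = i + (j - i) := by omega
  rw [hj, _root_.pow_add, AlgEquiv.mul_apply] at h
  exact ((σ ^ i).injective h).symm

variable {A}

theorem apply_mem_of_mem_decomposition {σ : L ≃ₐ[ℚ] L} (hσ : σ ∈ A.decompositionSubgroup ℚ)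
    {y : L} (hy : y ∈ A) : σ y ∈ A :=
  ((⟨σ, hσ⟩ : A.decompositionSubgroup ℚ) • (⟨y, hy⟩ : A)).2

theorem apply_mem_nonunits {σ : L ≃ₐ[ℚ] L} (hσ : σ ∈ A.decompositionSubgroup ℚ)
    {y : L} (hy : y ∈ A.nonunits) : σ y ∈ A.nonunits := by
  rw [ValuationSubring.mem_nonunits_iff_exists_mem_maximalIdeal] at hy ⊢
  obtain ⟨hyA, hym⟩ := hy
  refine ⟨apply_mem_of_mem_decomposition hσ hyA, ?_⟩
  rw [IsLocalRing.mem_maximalIdeal, mem_nonunits_iff] at hym ⊢
  intro hu
  apply hym
  have h1 : IsUnit ((⟨σ, hσ⟩ : A.decompositionSubgroup ℚ) • (⟨y, hyA⟩ : A)) := hu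
  have h2 := h1.map (MulSemiringAction.toRingHom (A.decompositionSubgroup ℚ) A
    (⟨σ, hσ⟩ : A.decompositionSubgroup ℚ)⁻¹)
  rwa [MulSemiringAction.toRingHom_apply, inv_smul_smul] at h2

/-- `σ d / d` is not in the maximal ideal, for `σ` in the decomposition group -/
theorem apply_div_not_mem_nonunits [Algebra.IsAlgebraic ℚ L] {σ : L ≃ₐ[ℚ] L}
    (hσ : σ ∈ A.decompositionSubgroup ℚ) {d : L} (hd : d ≠ 0) : σ d / d ∉ A.nonunits := by
  intro ha
  have hstep : ∀ n : ℕ, (σ ^ (n + 1)) d / d ∈ A.nonunits := by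
    intro n
    induction n with
    | zero => simpa using ha
    | succ n ih =>
      have h1 := apply_mem_nonunits hσ ih
      have h2 := mul_mem h1 ha
      have hσd : σ d ≠ 0 := (map_ne_zero _).mpr hd
      have e : σ ((σ ^ (n + 1)) d / d) * (σ d / d) = (σ ^ (n + 1 + 1)) d / d := by
        rw [map_div₀, pow_succ' σ (n + 1), AlgEquiv.mul_apply]
        field_simp
      rwa [e] at h2
  obtain ⟨n, hn, hfix⟩ := exists_pow_apply_eq σ d
  obtain ⟨n, rfl⟩ : ∃ k, n = k + 1 := ⟨n - 1, by omega⟩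
  have := hstep n
  rw [hfix, div_self hd, ValuationSubring.mem_nonunits_iff, map_one] at this
  exact lt_irrefl _ this

/-- for `σ` in the decomposition group of `A` and `d ≠ 0` (algebraic over `ℚ`), `σ d / d` is a
unit of `A` -/
theorem exists_unit_eq_apply_div [Algebra.IsAlgebraic ℚ L] {σ : L ≃ₐ[ℚ] L}
    (hσ : σ ∈ A.decompositionSubgroup ℚ) {d : L} (hd : d ≠ 0) :
    ∃ a : Aˣ, ((a : A) : L) = σ d / d := by
  have h1 := apply_div_not_mem_nonunits hσ hd
  have h2 := apply_div_not_mem_nonunits hσ (inv_ne_zero hd)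
  have e : σ d⁻¹ / d⁻¹ = (σ d / d)⁻¹ := by
    rw [map_inv₀, inv_div, div_eq_mul_inv, inv_inv, mul_comm, div_eq_mul_inv]
  rw [e] at h2
  rw [ValuationSubring.mem_nonunits_iff, not_lt] at h1 h2
  rw [map_inv₀] at h2
  have hne : σ d / d ≠ 0 := div_ne_zero ((map_ne_zero _).mpr hd) hd
  have hv0 : A.valuation (σ d / d) ≠ 0 := (Valuation.ne_zero_iff _).mpr hne
  have h3 : A.valuation (σ d / d) ≤ 1 := (one_le_inv₀ (zero_lt_iff.mpr hv0)).mp h2
  have h4 : A.valuation (σ d / d) = 1 := le_antisymm h3 h1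
  have hmem : σ d / d ∈ A := (A.valuation_le_one_iff _).mp h3
  have hunit : IsUnit (⟨σ d / d, hmem⟩ : A) := (A.valuation_eq_one_iff _).mpr h4
  exact ⟨hunit.unit, rfl⟩

/-- a field identity used to compare two rescalings of a Kummer function -/
theorem field_rescale {F : Type*} [Field F] {X u₀ C C' T T' : F} (hC : C ≠ 0) (hC' : C' ≠ 0)
    (hT : T ≠ 0) (hT' : T' ≠ 0) (hu₀ : u₀ ≠ 0) (hX : X ≠ 0) :
    (T * X) / (C * u₀) = ((T / T') / (C / C')) * ((T' * X) / (C' * u₀)) := by
  field_simp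

theorem inertiaSubgroupIn_le_decomposition :
    A.inertiaSubgroupIn ℚ ≤ A.decompositionSubgroup ℚ := by
  rintro _ ⟨τ, _, rfl⟩
  exact τ.2

end Unit

/-! ### The field-free reduction relation -/

section GRed

variable {L : Type*} [Field L] (A : ValuationSubring L) {k : Type*} [Field k] (π : A →+* k)

/-- `y` lies in the Gauss ring of `L((q))` and reduces to `yb` -/
def GRed (y : LaurentSeries L) (yb : LaurentSeries k) : Prop :=
  ∃ hy : y ∈ gaussRing A π, gaussRed A π ⟨y, hy⟩ = yb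

variable {A π}

theorem gRed_one : GRed A π 1 1 := by
  have h1 : (1 : LaurentSeries L) ∈ gaussRing A π := (gaussRing A π).one_mem
  refine ⟨h1, ?_⟩
  have e : (⟨1, h1⟩ : gaussRing A π) = 1 := Subtype.ext rfl
  rw [e, map_one]

theorem GRed.mul {u v : LaurentSeries L} {ū vb : LaurentSeries k} (hu : GRed A π u ū)
    (hv : GRed A π v vb) : GRed A π (u * v) (ū * vb) := by
  obtain ⟨h1, e1⟩ := hu
  obtain ⟨h2, e2⟩ := hv
  have h12 : u * v ∈ gaussRing A π := (gaussRing A π).mul_mem h1 h2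
  refine ⟨h12, ?_⟩
  have e : (⟨u * v, h12⟩ : gaussRing A π) = ⟨u, h1⟩ * ⟨v, h2⟩ := Subtype.ext rfl
  rw [e, map_mul, e1, e2]

theorem GRed.ne_zero {u : LaurentSeries L} {ū : LaurentSeries k} (hu : GRed A π u ū)
    (hū : ū ≠ 0) : u ≠ 0 := by
  rintro rfl
  obtain ⟨h1, h2⟩ := hu
  apply hū
  have e : (⟨0, h1⟩ : gaussRing A π) = 0 := Subtype.ext rfl
  rw [← h2, e, map_zero]

theorem GRed.inv {u : LaurentSeries L} {ū : LaurentSeries k} (hu : GRed A π u ū)
    (hū : ū ≠ 0) : GRed A π u⁻¹ ū⁻¹ := by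
  have hu0 := hu.ne_zero hū
  obtain ⟨h1, rfl⟩ := hu
  have h2 := inv_mem_gaussRing A π h1 hū
  exact ⟨h2, gaussRed_inv A π h1 h2 hu0⟩

theorem GRed.div {u v : LaurentSeries L} {ū vb : LaurentSeries k} (hu : GRed A π u ū)
    (hv : GRed A π v vb) (hvb : vb ≠ 0) : GRed A π (u / v) (ū / vb) := by
  rw [div_eq_mul_inv, div_eq_mul_inv]
  exact hu.mul (hv.inv hvb)

theorem GRed.unique {u : LaurentSeries L} {ū ū' : LaurentSeries k} (h : GRed A π u ū)
    (h' : GRed A π u ū') : ū = ū' := by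
  obtain ⟨h1, rfl⟩ := h
  obtain ⟨h2, rfl⟩ := h'
  rfl

/-- integral constants reduce to their residue classes -/
theorem gRed_C (a : A) : GRed A π (HahnSeries.C (a : L)) (HahnSeries.C (π a)) := by
  have h1 : (HahnSeries.C (a : L) : LaurentSeries L) = embA A (HahnSeries.C a) := (embA_C A a).symm
  have hy : (HahnSeries.C (a : L) : LaurentSeries L) ∈ gaussRing A π := by
    rw [h1]
    exact embA_mem_gaussRing A π _
  refine ⟨hy, ?_⟩
  rw [gaussRed_of_eq_embA A π ⟨_, hy⟩ h1, redA_C]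

/-- `Kummer.RedRel` implies `GRed` (forget that numerator and denominator lie in `F`) -/
theorem _root_.Fermat.Agent.Gateway.Kummer.RedRel.gRed
    {F : IntermediateField L (LaurentSeries L)} {u : LaurentSeries L} {ū : LaurentSeries k}
    (h : RedRel A π F u ū) : GRed A π u ū := by
  obtain ⟨hu, hr⟩ := RedRel.mem_Ov_and_redV A π F (u := ⟨u, h.mem⟩) h
  exact ⟨hu, hr⟩

/-- for `f` in a subfield `F` of `L((q))`, `GRed` is membership in the Gauss ring `Ov` of `F`
together with the value of `redV` -/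
theorem gRed_coe_iff {F : IntermediateField L (LaurentSeries L)} {f : F}
    {ū : LaurentSeries k} :
    GRed A π (f : LaurentSeries L) ū ↔ ∃ hf : f ∈ Ov A π F, redV A π F ⟨f, hf⟩ = ū :=
  Iff.rfl

/-- transport along a ring endomorphism of `L` preserving `A`, inducing `τb` on `k` -/
theorem GRed.map {u : LaurentSeries L} {ū : LaurentSeries k} (hu : GRed A π u ū)
    (τ : L →+* L) (τA : A →+* A) (τb : k →+* k)
    (hτA : ∀ a : A, ((τA a : A) : L) = τ (a : L)) (hτb : ∀ a : A, π (τA a) = τb (π a)) :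
    GRed A π (coeffMap τ u) (coeffMap τb ū) := by
  obtain ⟨hy, rfl⟩ := hu
  obtain ⟨a, b, hb, h⟩ := hy
  have hsub : ∀ y : LaurentSeries A, embA A (coeffMap τA y) = coeffMap τ (embA A y) := by
    intro y
    ext n
    simp only [embA, coeffMap_coeff]
    exact hτA _
  have hpi : ∀ y : LaurentSeries A, redA A π (coeffMap τA y) = coeffMap τb (redA A π y) := by
    intro y
    ext n
    simp only [redA, coeffMap_coeff]
    exact hτb _
  have hb' : redA A π (coeffMap τA b) ≠ 0 := by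
    rw [hpi]
    exact coeffMap_ne_zero τb.injective hb
  have h' : coeffMap τ u * embA A (coeffMap τA b) = embA A (coeffMap τA a) := by
    rw [hsub, hsub, ← map_mul, h]
  have hmem : coeffMap τ u ∈ gaussRing A π := ⟨_, _, hb', h'⟩
  refine ⟨hmem, ?_⟩
  rw [gaussRed_eq_div A π ⟨_, hmem⟩ hb' h', gaussRed_eq_div A π ⟨u, ⟨a, b, hb, h⟩⟩ hb h,
    hpi, hpi, map_div₀]

end GRed

section GRedGalois

variable {L : Type*} [Field L] [Algebra ℚ L] {A : ValuationSubring L}

/-- an element of the inertia group acts trivially on reductions -/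
theorem GRed.inertia (σ : L ≃ₐ[ℚ] L) (hσ : σ ∈ A.inertiaSubgroupIn ℚ)
    {u : LaurentSeries L} {ū : LaurentSeries (IsLocalRing.ResidueField A)}
    (hu : GRed A (IsLocalRing.residue A) u ū) :
    GRed A (IsLocalRing.residue A) (coeffMap (σ : L →+* L) u) ū := by
  obtain ⟨τ, hτ, rfl⟩ := hσ
  have h := hu.map ((τ : L ≃ₐ[ℚ] L) : L →+* L)
    (MulSemiringAction.toRingHom (A.decompositionSubgroup ℚ) A τ)
    (MulSemiringAction.toRingHom (A.decompositionSubgroup ℚ) (IsLocalRing.ResidueField A) τ)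
    (fun _ => rfl) (fun _ => rfl)
  have he : MulSemiringAction.toRingHom (A.decompositionSubgroup ℚ)
      (IsLocalRing.ResidueField A) τ = RingHom.id _ := by
    ext x
    have := (MonoidHom.mem_ker).mp hτ
    have h2 := congrArg (fun e : RingAut (IsLocalRing.ResidueField A) => e x) this
    simpa using h2
  rw [he] at h
  simpa using h

end GRedGalois

/-! ### The second embedding as the Atkin-Lehner involution -/

section AtkinLehner

variable {L : Type} [Field L] [Algebra ℚ L] [IsAlgClosed L]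
variable {N ℓ : ℕ} [NeZero N] [NeZero ℓ]
variable (hdeg : finrankAlong L (heckeAlphaBar L N ℓ) = ℓ + 1) (hℓ : ℓ.Prime) (hℓN : ¬ ℓ ∣ N)

/-- the second embedding takes values in `F_{Nℓ}` -/
theorem iota0_mem (x : FL L (N * ℓ)) : iota0 L N ℓ hdeg hℓ hℓN x ∈ FL L (N * ℓ) := by
  let E' : IntermediateField L (FL L (N * ℓ)) :=
    { (FL L (N * ℓ)).toSubfield.comap (iota0 L N ℓ hdeg hℓ hℓN) with
      algebraMap_mem' := fun c => by
        show iota0 L N ℓ hdeg hℓ hℓN (algebraMap L (FL L (N * ℓ)) c) ∈ (FL L (N * ℓ)).toSubfield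
        rw [iota0_algebraMap]
        have h2 : (HahnSeries.C c : LaurentSeries L) = algebraMap L (LaurentSeries L) c :=
          (algebraMap_laurentSeries_eq_single L c).symm
        rw [h2]
        exact (FL L (N * ℓ)).algebraMap_mem c }
  have hE : ∀ y, y ∈ E' ↔ iota0 L N ℓ hdeg hℓ hℓN y ∈ FL L (N * ℓ) := fun _ => Iff.rfl
  have hle : IntermediateField.adjoin L (genSetF L (N * ℓ)) ≤ E' := by
    rw [IntermediateField.adjoin_le_iff]
    rintro y ⟨d, hd0, hd, rfl⟩
    rw [SetLike.mem_coe, hE]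
    obtain ⟨d', hd'0, hd', h | h⟩ := gen_Nℓ_cases L N ℓ hℓ d hd
    · rw [h, iota0_alpha]
      exact (heckeBetaBar L N ℓ (genS L N hd'0 hd')).2
    · rw [h, iota0_beta]
      have := (heckeAlphaBar L N ℓ (genS L N hd'0 hd')).2
      rwa [coe_heckeAlphaBar] at this
  rw [adjoin_genSetF] at hle
  exact (hE x).mp (hle IntermediateField.mem_top)

/-- the Atkin-Lehner endomorphism of `F_{Nℓ}`: the second embedding, with values in `F_{Nℓ}` -/
def wAL : FL L (N * ℓ) →+* FL L (N * ℓ) :=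
  (iota0 L N ℓ hdeg hℓ hℓN).codRestrict (FL L (N * ℓ)) (iota0_mem hdeg hℓ hℓN)

theorem coe_wAL (x : FL L (N * ℓ)) :
    ((wAL hdeg hℓ hℓN x : FL L (N * ℓ)) : LaurentSeries L) = iota0 L N ℓ hdeg hℓ hℓN x := rfl

theorem wAL_alpha (v : FL L N) :
    wAL hdeg hℓ hℓN (heckeAlphaBar L N ℓ v) = heckeBetaBar L N ℓ v :=
  Subtype.ext (by rw [coe_wAL, iota0_alpha, coe_heckeBetaBar])

theorem wAL_beta (v : FL L N) :
    wAL hdeg hℓ hℓN (heckeBetaBar L N ℓ v) = heckeAlphaBar L N ℓ v :=
  Subtype.ext (by rw [coe_wAL, iota0_beta, coe_heckeAlphaBar])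

theorem wAL_algebraMap (c : L) :
    wAL hdeg hℓ hℓN (algebraMap L (FL L (N * ℓ)) c) = algebraMap L (FL L (N * ℓ)) c := by
  refine Subtype.ext ?_
  rw [coe_wAL, iota0_algebraMap]
  exact (algebraMap_laurentSeries_eq_single L c).symm

/-- the Atkin-Lehner endomorphism is an involution -/
theorem wAL_wAL (x : FL L (N * ℓ)) : wAL hdeg hℓ hℓN (wAL hdeg hℓ hℓN x) = x := by
  have key : (wAL hdeg hℓ hℓN).comp (wAL hdeg hℓ hℓN) = RingHom.id _ :=
    ringHom_ext_alpha_beta L N ℓ hℓ _ _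
      (fun v => by
        rw [RingHom.comp_apply, wAL_alpha, wAL_beta, RingHom.id_apply])
      (fun v => by
        rw [RingHom.comp_apply, wAL_beta, wAL_alpha, RingHom.id_apply])
  have := congrFun (congrArg DFunLike.coe key) x
  simpa using this

theorem wAL_ne_zero {x : FL L (N * ℓ)} (hx : x ≠ 0) : wAL hdeg hℓ hℓN x ≠ 0 :=
  (map_ne_zero (wAL hdeg hℓ hℓN)).mpr hx

variable (A : ValuationSubring L) {k : Type} [Field k] (π : A →+* k)

/-- for the second embedding, `GRed` is membership in helper44's second Gauss ring `Ov0`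
together with the value of `red0` -/
theorem gRed_iota0_iff {w : FL L (N * ℓ)} {ū : LaurentSeries k} :
    GRed A π (iota0 L N ℓ hdeg hℓ hℓN w) ū ↔
      ∃ hw : w ∈ Ov0 A π N ℓ hdeg hℓ hℓN, red0 A π N ℓ hdeg hℓ hℓN ⟨w, hw⟩ = ū :=
  Iff.rfl

end AtkinLehner

/-! ### Normalisability -/

section Normalisable

variable {L : Type} [Field L] [Algebra ℚ L] (M : ℕ) [NeZero M] (A : ValuationSubring L)

/-- (Hnorm), weak form: every nonzero function of level `M` has a constant multiple lying in the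
Gauss ring, with nonzero reduction. -/
def GaussNormalisableOv : Prop :=
  ∀ u : FF L M, u ≠ 0 → ∃ c : L, c ≠ 0 ∧ ∃ ū : LaurentSeries (IsLocalRing.ResidueField A), ū ≠ 0 ∧
    GRed A (IsLocalRing.residue A)
      (((algebraMap L (FF L M) c * u : FF L M)) : LaurentSeries L) ū

variable {M A}

theorem gaussNormalisableOv_iff :
    GaussNormalisableOv M A ↔ ∀ u : FF L M, u ≠ 0 → ∃ c : L, c ≠ 0 ∧
      ∃ h : algebraMap L (FF L M) c * u ∈ Ov A (IsLocalRing.residue A) (FF L M),
        redV A (IsLocalRing.residue A) (FF L M) ⟨_, h⟩ ≠ 0 := by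
  constructor
  · intro H u hu
    obtain ⟨c, hc, ū, hū, h, hr⟩ := H u hu
    exact ⟨c, hc, h, fun h0 => hū (hr.symm.trans h0)⟩
  · intro H u hu
    obtain ⟨c, hc, h, hr⟩ := H u hu
    exact ⟨c, hc, _, hr, h, rfl⟩

theorem GaussNormalisable.ov (h : GaussNormalisable M A) : GaussNormalisableOv M A := by
  intro u hu
  obtain ⟨c, hc, ū, hū, hr⟩ := h u hu
  exact ⟨c, hc, ū, hū, hr.gRed⟩

/-- normalisability passes to lower levels -/
theorem GaussNormalisableOv.of_dvd {M' : ℕ} [NeZero M'] (hMM' : M ∣ M')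
    (h : GaussNormalisableOv M' A) : GaussNormalisableOv M A := by
  intro u hu
  have hle : FF L M ≤ FF L M' := FL_le_of_dvd hMM'
  have hu' : IntermediateField.inclusion hle u ≠ 0 := by
    intro h0
    exact hu (IntermediateField.inclusion_injective hle (h0.trans (map_zero _).symm))
  obtain ⟨c, hc, ū, hū, hr⟩ := h (IntermediateField.inclusion hle u) hu'
  have e : ((algebraMap L (FF L M') c * IntermediateField.inclusion hle u : FF L M') :
      LaurentSeries L) = ((algebraMap L (FF L M) c * u : FF L M) : LaurentSeries L) := by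
    rw [IntermediateField.coe_mul, IntermediateField.coe_mul,
      IntermediateField.coe_algebraMap_apply, IntermediateField.coe_algebraMap_apply,
      IntermediateField.coe_inclusion]
  rw [e] at hr
  exact ⟨c, hc, ū, hū, hr⟩

end Normalisable

/-! ### Rescaling Kummer functions -/

section Rescale

variable {L : Type} [Field L] [Algebra ℚ L] {M : ℕ} [NeZero M]

/-- the effect of rescaling `u₀` on `g u / u`, for a semilinear automorphism `g` -/
theorem smul_div_self_rescale (g : SemilinearAut L (FF L M)) {u₀ : FF L M}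
    (hu₀ : u₀ ≠ 0) {c c' : L} (hc : c ≠ 0) (hc' : c' ≠ 0) :
    (g • (algebraMap L (FF L M) c * u₀)) / (algebraMap L (FF L M) c * u₀) =
      algebraMap L (FF L M) (SemilinearAut.baseAut g (c / c') / (c / c')) *
        ((g • (algebraMap L (FF L M) c' * u₀)) / (algebraMap L (FF L M) c' * u₀)) := by
  have hgc : ∀ e : L, g • (algebraMap L (FF L M) e * u₀) =
      algebraMap L (FF L M) (SemilinearAut.baseAut g e) * (g • u₀) := by
    intro e
    rw [smul_mul', SemilinearAut.smul_algebraMap]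
  have hgu₀ : g • u₀ ≠ 0 := by
    rw [SemilinearAut.smul_def]
    exact (map_ne_zero _).mpr hu₀
  have e1 : algebraMap L (FF L M) c ≠ 0 := (map_ne_zero _).mpr hc
  have e2 : algebraMap L (FF L M) c' ≠ 0 := (map_ne_zero _).mpr hc'
  have e3 : algebraMap L (FF L M) (SemilinearAut.baseAut g c) ≠ 0 :=
    (map_ne_zero _).mpr ((map_ne_zero _).mpr hc)
  have e4 : algebraMap L (FF L M) (SemilinearAut.baseAut g c') ≠ 0 :=
    (map_ne_zero _).mpr ((map_ne_zero _).mpr hc')
  have hA : algebraMap L (FF L M) (SemilinearAut.baseAut g (c / c') / (c / c')) =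
      (algebraMap L (FF L M) (SemilinearAut.baseAut g c) /
          algebraMap L (FF L M) (SemilinearAut.baseAut g c')) /
        (algebraMap L (FF L M) c / algebraMap L (FF L M) c') := by
    rw [map_div₀ (SemilinearAut.baseAut g), map_div₀ (algebraMap L (FF L M)),
      map_div₀ (algebraMap L (FF L M)), map_div₀ (algebraMap L (FF L M))]
  rw [hgc, hgc, hA]
  exact field_rescale e1 e2 e3 e4 hu₀ hgu₀

end Rescale

/-! ### The main statement -/

section Main

variable {L : Type} [Field L] [Algebra ℚ L] [IsAlgClosed L]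
variable (N ℓ : ℕ) [NeZero N] [NeZero ℓ]
variable (hdeg : finrankAlong L (heckeAlphaBar L N ℓ) = ℓ + 1) (hℓ : ℓ.Prime) (hℓN : ¬ ℓ ∣ N)
variable (A : ValuationSubring L)

/-- **Theorem B in Kummer form** (to be proved by the two-component `C0` argument): a Kummer
function of exponent `m` at level `N * ℓ` whose reductions at BOTH embeddings are nonzero constants
is moved by every element of the inertia group by a constant times an `m`-th power. -/
def KummerInertiaTrivial (m : ℕ) : Prop :=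
  ∀ w : FF L (N * ℓ), w ≠ 0 → (∀ P : Place L (FF L (N * ℓ)), (m : ℤ) ∣ P.ord w) →
    (∃ c₁ : IsLocalRing.ResidueField A, c₁ ≠ 0 ∧
      GRed A (IsLocalRing.residue A) (w : LaurentSeries L) (HahnSeries.C c₁)) →
    (∃ c₂ : IsLocalRing.ResidueField A, c₂ ≠ 0 ∧
      GRed A (IsLocalRing.residue A) (iota0 L N ℓ hdeg hℓ hℓN w) (HahnSeries.C c₂)) →
    ∀ τ ∈ A.inertiaSubgroupIn ℚ, ∃ (c : L) (v : FF L (N * ℓ)),
      (arithmeticGalois (modularFunctionFieldFull (N * ℓ)) τ • w) / w =
        algebraMap L (FF L (N * ℓ)) c * v ^ m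

variable {N ℓ hdeg hℓ hℓN A}

/-- `KummerInertiaTrivial` in terms of the two Gauss rings `Ov`, `Ov0` and their reduction maps
`redV`, `red0` -/
theorem kummerInertiaTrivial_iff {m : ℕ} :
    KummerInertiaTrivial N ℓ hdeg hℓ hℓN A m ↔
      ∀ w : FF L (N * ℓ), w ≠ 0 → (∀ P : Place L (FF L (N * ℓ)), (m : ℤ) ∣ P.ord w) →
        (∃ c₁ : IsLocalRing.ResidueField A, c₁ ≠ 0 ∧
          ∃ hw : w ∈ Ov A (IsLocalRing.residue A) (FF L (N * ℓ)),
            redV A (IsLocalRing.residue A) (FF L (N * ℓ)) ⟨w, hw⟩ = HahnSeries.C c₁) →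
        (∃ c₂ : IsLocalRing.ResidueField A, c₂ ≠ 0 ∧
          ∃ hw : w ∈ Ov0 A (IsLocalRing.residue A) N ℓ hdeg hℓ hℓN,
            red0 A (IsLocalRing.residue A) N ℓ hdeg hℓ hℓN ⟨w, hw⟩ = HahnSeries.C c₂) →
        ∀ τ ∈ A.inertiaSubgroupIn ℚ, ∃ (c : L) (v : FF L (N * ℓ)),
          (arithmeticGalois (modularFunctionFieldFull (N * ℓ)) τ • w) / w =
            algebraMap L (FF L (N * ℓ)) c * v ^ m :=
  Iff.rfl

/-- Gauss normalisability for the second embedding follows from Gauss normalisability (for the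
natural embedding) at the same level, through the Atkin-Lehner involution -/
theorem gaussNormalisableZero (hnorm : GaussNormalisableOv (N * ℓ) A) (u : FF L (N * ℓ))
    (hu : u ≠ 0) :
    ∃ c : L, c ≠ 0 ∧ ∃ ū : LaurentSeries (IsLocalRing.ResidueField A), ū ≠ 0 ∧
      GRed A (IsLocalRing.residue A)
        (iota0 L N ℓ hdeg hℓ hℓN (algebraMap L (FF L (N * ℓ)) c * u)) ū := by
  obtain ⟨c, hc, ū, hū, h⟩ := hnorm (wAL hdeg hℓ hℓN u) (wAL_ne_zero hdeg hℓ hℓN hu)
  refine ⟨c, hc, ū, hū, ?_⟩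
  rw [← coe_wAL, map_mul, wAL_algebraMap]
  exact h

/-- the natural embedding: if `u` reduces to `ū ≠ 0` then `τ u / u` reduces to `1`, for `τ` in
the inertia group -/
theorem gRed_smul_div_self (τ : L ≃ₐ[ℚ] L) (hτ : τ ∈ A.inertiaSubgroupIn ℚ)
    {u : FF L (N * ℓ)} {ū : LaurentSeries (IsLocalRing.ResidueField A)} (hū : ū ≠ 0)
    (hred : GRed A (IsLocalRing.residue A) (u : LaurentSeries L) ū) :
    GRed A (IsLocalRing.residue A)
      (((arithmeticGalois (modularFunctionFieldFull (N * ℓ)) τ • u) / u : FF L (N * ℓ)) :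
        LaurentSeries L) 1 := by
  have h1 : GRed A (IsLocalRing.residue A)
      ((arithmeticGalois (modularFunctionFieldFull (N * ℓ)) τ • u : FF L (N * ℓ)) :
        LaurentSeries L) ū := by
    rw [coe_arithmeticGalois_smul]
    exact hred.inertia τ hτ
  have h2 := h1.div hred hū
  rw [div_self hū] at h2
  rw [IntermediateField.coe_div]
  exact h2

/-- the second embedding: if `ι₀ u` reduces to `ū ≠ 0` then `ι₀ (τ u / u)` reduces to `1`, for `τ`
in the inertia group -/
theorem gRed_iota0_smul_div_self (τ : L ≃ₐ[ℚ] L) (hτ : τ ∈ A.inertiaSubgroupIn ℚ)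
    {u : FF L (N * ℓ)} {ū : LaurentSeries (IsLocalRing.ResidueField A)} (hū : ū ≠ 0)
    (hred : GRed A (IsLocalRing.residue A) (iota0 L N ℓ hdeg hℓ hℓN u) ū) :
    GRed A (IsLocalRing.residue A)
      (iota0 L N ℓ hdeg hℓ hℓN
        ((arithmeticGalois (modularFunctionFieldFull (N * ℓ)) τ • u) / u)) 1 := by
  have h1 : GRed A (IsLocalRing.residue A)
      (iota0 L N ℓ hdeg hℓ hℓN (arithmeticGalois (modularFunctionFieldFull (N * ℓ)) τ • u))
      ū := by
    rw [iota0_galois]
    exact hred.inertia τ hτ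
  have h2 := h1.div hred hū
  rw [div_self hū] at h2
  rw [map_div₀]
  exact h2

/-- **Both reductions of `τ u / u` are nonzero constants**, for a suitable constant multiple `u`
of any nonzero function `u₀`. -/
theorem exists_rescale_constant_reductions [Algebra.IsAlgebraic ℚ L]
    (hnorm : GaussNormalisableOv (N * ℓ) A) (τ : L ≃ₐ[ℚ] L) (hτ : τ ∈ A.inertiaSubgroupIn ℚ)
    {u₀ : FF L (N * ℓ)} (hu₀ : u₀ ≠ 0) :
    ∃ c : L, c ≠ 0 ∧
      GRed A (IsLocalRing.residue A)
        (((arithmeticGalois (modularFunctionFieldFull (N * ℓ)) τ •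
          (algebraMap L (FF L (N * ℓ)) c * u₀)) / (algebraMap L (FF L (N * ℓ)) c * u₀) :
            FF L (N * ℓ)) : LaurentSeries L) (HahnSeries.C 1) ∧
      ∃ c₂ : IsLocalRing.ResidueField A, c₂ ≠ 0 ∧
        GRed A (IsLocalRing.residue A)
          (iota0 L N ℓ hdeg hℓ hℓN
            ((arithmeticGalois (modularFunctionFieldFull (N * ℓ)) τ •
              (algebraMap L (FF L (N * ℓ)) c * u₀)) / (algebraMap L (FF L (N * ℓ)) c * u₀)))
          (HahnSeries.C c₂) := by
  obtain ⟨c, hc, ū, hū, hred⟩ := hnorm u₀ hu₀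
  obtain ⟨c', hc', ū', hū', hred'⟩ :=
    gaussNormalisableZero (hdeg := hdeg) (hℓ := hℓ) (hℓN := hℓN) hnorm u₀ hu₀
  refine ⟨c, hc, ?_, ?_⟩
  · rw [map_one]
    exact gRed_smul_div_self τ hτ hū hred
  · obtain ⟨a, ha⟩ := exists_unit_eq_apply_div (inertiaSubgroupIn_le_decomposition hτ)
      (div_ne_zero hc hc')
    have hres : IsLocalRing.residue A (a : A) ≠ 0 := by
      rw [Ne, IsLocalRing.residue_eq_zero_iff, IsLocalRing.mem_maximalIdeal, mem_nonunits_iff,
        not_not]
      exact a.isUnit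
    refine ⟨IsLocalRing.residue A (a : A), hres, ?_⟩
    have h1 := gRed_iota0_smul_div_self (hdeg := hdeg) (hℓ := hℓ) (hℓN := hℓN) τ hτ hū' hred'
    have h2 := (gRed_C (π := IsLocalRing.residue A) (a : A)).mul h1
    rw [mul_one] at h2
    obtain ⟨g, hg⟩ : ∃ g : SemilinearAut L (FF L (N * ℓ)),
        g = arithmeticGalois (modularFunctionFieldFull (N * ℓ)) τ := ⟨_, rfl⟩
    have hbase : SemilinearAut.baseAut g (c / c') = τ (c / c') := by
      rw [hg]
      rfl
    rw [← hg] at h2 ⊢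
    rw [smul_div_self_rescale g hu₀ hc hc', hbase, ← ha, map_mul, iota0_algebraMap]
    exact h2

/-- **Inertia at `ℓ ∥ Nℓ` acts unipotently on `m`-torsion**: `(τ' - 1)(τ - 1) = 0`. -/
theorem unipotent_of_torsion [Algebra.IsAlgebraic ℚ L] {m : ℕ} (hm : m ≠ 0)
    (hnorm : GaussNormalisableOv (N * ℓ) A) (hB : KummerInertiaTrivial N ℓ hdeg hℓ hℓN A m)
    (τ : L ≃ₐ[ℚ] L) (hτ : τ ∈ A.inertiaSubgroupIn ℚ)
    (τ' : L ≃ₐ[ℚ] L) (hτ' : τ' ∈ A.inertiaSubgroupIn ℚ)
    {x : Pic0 L (FF L (N * ℓ))} (hx : (m : ℤ) • x = 0) :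
    τ' • (τ • x - x) = τ • x - x := by
  obtain ⟨g, hg⟩ : ∃ g : SemilinearAut L (FF L (N * ℓ)),
      g = arithmeticGalois (modularFunctionFieldFull (N * ℓ)) τ := ⟨_, rfl⟩
  obtain ⟨g', hg'⟩ : ∃ g' : SemilinearAut L (FF L (N * ℓ)),
      g' = arithmeticGalois (modularFunctionFieldFull (N * ℓ)) τ' := ⟨_, rfl⟩
  have hgx : ∀ y : Pic0 L (FF L (N * ℓ)), τ • y = g • y := fun y => by
    rw [hg, galois_smul_pic0_def]
  have hg'x : ∀ y : Pic0 L (FF L (N * ℓ)), τ' • y = g' • y := fun y => by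
    rw [hg', galois_smul_pic0_def]
  rw [hg'x, hgx]
  obtain ⟨u₀, hu₀⟩ := exists_isKummerRep hx
  obtain ⟨c, hc, hinf, c₂, hc₂, hzero⟩ :=
    exists_rescale_constant_reductions (hdeg := hdeg) (hℓ := hℓ) (hℓN := hℓN) hnorm τ hτ
      hu₀.ne_zero
  rw [← hg] at hinf hzero
  have hu := hu₀.const_mul hc
  obtain ⟨u, hudef⟩ : ∃ u : FF L (N * ℓ), u = algebraMap L (FF L (N * ℓ)) c * u₀ := ⟨_, rfl⟩
  rw [← hudef] at hinf hzero hu
  have h4 : IsKummerRep m (g • x - x) ((g • u) / u) := (hu.smul g).div hu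
  obtain ⟨c'', v, hcv⟩ := hB _ h4.ne_zero (fun P => h4.dvd_ord P) ⟨1, one_ne_zero, hinf⟩
    ⟨c₂, hc₂, hzero⟩ τ' hτ'
  rw [← hg'] at hcv
  have h5 : IsKummerRep m (g' • (g • x - x) - (g • x - x))
      ((g' • ((g • u) / u)) / ((g • u) / u)) := (h4.smul g').div h4
  exact sub_eq_zero.mp (h5.eq_zero_of_eq_const_mul_pow hm hcv)

/-- **Semistability on `m`-torsion**: `(τ - 1)² = 0` for `τ` in the inertia group at `ℓ ∥ Nℓ`,
in the shape of the export `TorsionSemistable`. -/
theorem semistable_of_torsion [Algebra.IsAlgebraic ℚ L] {m : ℕ} (hm : m ≠ 0)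
    (hnorm : GaussNormalisableOv (N * ℓ) A) (hB : KummerInertiaTrivial N ℓ hdeg hℓ hℓN A m)
    (τ : L ≃ₐ[ℚ] L) (hτ : τ ∈ A.inertiaSubgroupIn ℚ)
    {x : Pic0 L (FF L (N * ℓ))} (hx : m • x = 0) :
    τ • τ • x - 2 • (τ • x) + x = 0 := by
  have hx' : (m : ℤ) • x = 0 := by rw [natCast_zsmul]; exact hx
  have h := unipotent_of_torsion hm hnorm hB τ hτ τ hτ hx'
  rw [smul_sub] at h
  rw [two_nsmul]
  have : τ • τ • x - (τ • x + τ • x) + x = (τ • τ • x - τ • x) - (τ • x - x) := by abel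
  rw [this, h, sub_self]

end Main

end Fermat.Agent.S34x.KummerSS
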