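/-
P-S34, helper81: the FREE STEP (I) in the shape of helper54's `Target.kummerSemistable_of_inertiaTrivial`:
for EVERY nonzero `u ∈ F_{Nℓ}` and every `τ` in the inertia group, both reductions of `τ u / u` are
nonzero constants (`RedC`), under Gauss normalisability at level `N * ℓ`.
-/
import Fermat.Agent.S34x.KummerSS

set_option autoImplicit false
set_option linter.style.haveILetI false
set_option linter.unusedSectionVars false

noncomputable section

namespace Fermat.Agent.S34x.KummerSS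

open ModularCurve AlgebraicCurve HahnSeries IntermediateField
open Fermat.Agent.Gateway.Kummer Fermat.Agent.Gateway.Hecke Fermat.Agent.Gateway.ESC
open Fermat.Agent.Gateway.Red Fermat.Agent.S34x.TwoVal

section RescaleConst

variable {L : Type} [Field L] [Algebra ℚ L] {M : ℕ} [NeZero M]

/-- the effect of multiplying `u` by a constant on `g u / u` -/
theorem smul_div_self_const (g : SemilinearAut L (FF L M)) {u : FF L M} (hu : u ≠ 0) {c : L}
    (hc : c ≠ 0) :
    (g • (algebraMap L (FF L M) c * u)) / (algebraMap L (FF L M) c * u) =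
      algebraMap L (FF L M) (SemilinearAut.baseAut g c / c) * ((g • u) / u) := by
  have e1 : algebraMap L (FF L M) c ≠ 0 := (map_ne_zero _).mpr hc
  rw [smul_mul', SemilinearAut.smul_algebraMap, map_div₀ (algebraMap L (FF L M))]
  field_simp

end RescaleConst

section Free

variable {L : Type} [Field L] [Algebra ℚ L] [IsAlgClosed L]
variable (N ℓ : ℕ) [NeZero N] [NeZero ℓ]
variable (hdeg : finrankAlong L (heckeAlphaBar L N ℓ) = ℓ + 1) (hℓ : ℓ.Prime) (hℓN : ¬ ℓ ∣ N)
variable (A : ValuationSubring L)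

/-- both reductions of `w` (natural embedding and second embedding) are nonzero constants -/
def RedC (w : FF L (N * ℓ)) : Prop :=
  (∃ c₁ : IsLocalRing.ResidueField A, c₁ ≠ 0 ∧
    GRed A (IsLocalRing.residue A) (w : LaurentSeries L) (HahnSeries.C c₁)) ∧
  (∃ c₂ : IsLocalRing.ResidueField A, c₂ ≠ 0 ∧
    GRed A (IsLocalRing.residue A) (iota0 L N ℓ hdeg hℓ hℓN w) (HahnSeries.C c₂))

variable {N ℓ hdeg hℓ hℓN A}

/-- `KummerInertiaTrivial` with the two reduction hypotheses packaged as `RedC` -/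
theorem kummerInertiaTrivial_iff_redC {m : ℕ} :
    KummerInertiaTrivial N ℓ hdeg hℓ hℓN A m ↔
      ∀ w : FF L (N * ℓ), w ≠ 0 → (∀ P : Place L (FF L (N * ℓ)), (m : ℤ) ∣ P.ord w) →
        RedC N ℓ hdeg hℓ hℓN A w →
        ∀ τ ∈ A.inertiaSubgroupIn ℚ, ∃ (c : L) (v : FF L (N * ℓ)),
          (arithmeticGalois (modularFunctionFieldFull (N * ℓ)) τ • w) / w =
            algebraMap L (FF L (N * ℓ)) c * v ^ m :=
  ⟨fun h w hw hdiv hred => h w hw hdiv hred.1 hred.2,
    fun h w hw hdiv h1 h2 => h w hw hdiv ⟨h1, h2⟩⟩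

/-- multiplying by a unit constant preserves `RedC` -/
theorem RedC.const_mul {w : FF L (N * ℓ)} (h : RedC N ℓ hdeg hℓ hℓN A w) (b : Aˣ) :
    RedC N ℓ hdeg hℓ hℓN A (algebraMap L (FF L (N * ℓ)) ((b : A) : L) * w) := by
  have hres : IsLocalRing.residue A (b : A) ≠ 0 := by
    rw [Ne, IsLocalRing.residue_eq_zero_iff, IsLocalRing.mem_maximalIdeal, mem_nonunits_iff,
      not_not]
    exact b.isUnit
  obtain ⟨⟨c₁, hc₁, h1⟩, ⟨c₂, hc₂, h2⟩⟩ := h
  constructor
  · refine ⟨IsLocalRing.residue A (b : A) * c₁, mul_ne_zero hres hc₁, ?_⟩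
    have e : ((algebraMap L (FF L (N * ℓ)) ((b : A) : L) * w : FF L (N * ℓ)) : LaurentSeries L) =
        HahnSeries.C ((b : A) : L) * (w : LaurentSeries L) := by
      rw [IntermediateField.coe_mul, IntermediateField.coe_algebraMap_apply,
        algebraMap_laurentSeries_eq_single]
      rfl
    rw [e, map_mul]
    exact (gRed_C (π := IsLocalRing.residue A) (b : A)).mul h1
  · refine ⟨IsLocalRing.residue A (b : A) * c₂, mul_ne_zero hres hc₂, ?_⟩
    rw [map_mul (iota0 L N ℓ hdeg hℓ hℓN), iota0_algebraMap, map_mul HahnSeries.C]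
    exact (gRed_C (π := IsLocalRing.residue A) (b : A)).mul h2

/-- **The free step (I)**: for every nonzero `u` and every `τ` in the inertia group, both
reductions of `τ u / u` are nonzero constants. -/
theorem redC_smul_div_self [Algebra.IsAlgebraic ℚ L] (hnorm : GaussNormalisableOv (N * ℓ) A)
    (τ : L ≃ₐ[ℚ] L) (hτ : τ ∈ A.inertiaSubgroupIn ℚ) {u : FF L (N * ℓ)} (hu : u ≠ 0) :
    RedC N ℓ hdeg hℓ hℓN A
      ((arithmeticGalois (modularFunctionFieldFull (N * ℓ)) τ • u) / u) := by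
  obtain ⟨c, hc, hinf, c₂, hc₂, hzero⟩ :=
    exists_rescale_constant_reductions (hdeg := hdeg) (hℓ := hℓ) (hℓN := hℓN) hnorm τ hτ hu
  have hC : RedC N ℓ hdeg hℓ hℓN A
      ((arithmeticGalois (modularFunctionFieldFull (N * ℓ)) τ •
        (algebraMap L (FF L (N * ℓ)) c * u)) / (algebraMap L (FF L (N * ℓ)) c * u)) :=
    ⟨⟨1, one_ne_zero, hinf⟩, ⟨c₂, hc₂, hzero⟩⟩
  obtain ⟨a, ha⟩ := exists_unit_eq_apply_div (inertiaSubgroupIn_le_decomposition hτ) hc
  obtain ⟨g, hg⟩ : ∃ g : SemilinearAut L (FF L (N * ℓ)),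
      g = arithmeticGalois (modularFunctionFieldFull (N * ℓ)) τ := ⟨_, rfl⟩
  have hbase : SemilinearAut.baseAut g c = τ c := by
    rw [hg]
    rfl
  rw [← hg] at hC ⊢
  rw [smul_div_self_const g hu hc, hbase, ← ha] at hC
  have h2 := hC.const_mul a⁻¹
  have e : algebraMap L (FF L (N * ℓ)) (((a⁻¹ : Aˣ) : A) : L) *
      (algebraMap L (FF L (N * ℓ)) ((a : A) : L) * ((g • u) / u)) = (g • u) / u := by
    rw [← mul_assoc, ← map_mul]
    have h1 : ((((a⁻¹ : Aˣ) : A) : L)) * ((a : A) : L) = 1 :=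
      congrArg Subtype.val (Units.inv_mul a)
    rw [h1, map_one, one_mul]
  rwa [e] at h2

end Free

end Fermat.Agent.S34x.KummerSS
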