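/-
P-S34, helper81: the bridge from Theorem B in Kummer form (`KummerSS.KummerInertiaTrivial`) to
helper54's final Kummer statement `Target.KummerSemistable`, over `Q̄`:
* the free step (I) is `KummerSS.redC_smul_div_self`,
* Gauss normalisability at level `N * ℓ` for `A` over `ℓ` is helper60's (R3)
  (`TwoVal.exists_normalise_infty_residue`),
* the degree hypothesis `hdeg` of the second embedding is `ESC.finrank_along_alpha` (from S24).
So the SINGLE remaining input of S34 (`Target.KummerSemistableAtGoodLevels`) follows from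
`KummerInertiaTrivial` at the good levels.
-/
import Fermat.Agent.S34x.KummerSSFree
import Fermat.Agent.S34x.Target
import Fermat.Agent.S34x.TwoVal.Normalise2
import Fermat.Agent.Gateway.ESC.DegreeS24

set_option autoImplicit false
set_option linter.style.haveILetI false
set_option linter.unusedSectionVars false

noncomputable section

namespace Fermat.Agent.S34x.KummerSSTarget

open ModularCurve AlgebraicCurve
open Fermat.Agent.Gateway.Kummer Fermat.Agent.S34x.KummerSS Fermat.Agent.S34x.TwoVal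

local notation "Qb" => AlgebraicClosure ℚ

section Bridge

variable {N ℓ : ℕ} [NeZero N] [NeZero ℓ]

/-- the degree of `α : F_N → F_{Nℓ}` over `Q̄` is `ℓ + 1` -/
theorem hdeg_Qb (hℓ : ℓ.Prime) (hℓN : ¬ ℓ ∣ N) :
    finrankAlong Qb (heckeAlphaBar Qb N ℓ) = ℓ + 1 :=
  Fermat.Agent.Gateway.ESC.finrank_along_alpha N ℓ hℓ hℓN

/-- Gauss normalisability at the level `N * ℓ` for a valuation subring over `ℓ` -/
theorem gaussNormalisableOv_mul (hℓ : ℓ.Prime) (hℓN : ¬ ℓ ∣ N) (A : ValuationSubring Qb)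
    (hA : A.LiesOverPrime ℓ) : GaussNormalisableOv (N * ℓ) A := by
  haveI : Fact ℓ.Prime := ⟨hℓ⟩
  haveI : Algebra.IsAlgebraic ℚ Qb := AlgebraicClosure.isAlgebraic ℚ
  exact gaussNormalisableOv_iff.mpr fun u hu =>
    exists_normalise_infty_residue A N ℓ (hdeg_Qb hℓ hℓN) hℓ hℓN hA u hu

/-- **The final Kummer statement of S34 at level `N * ℓ` from Theorem B in Kummer form.** -/
theorem kummerSemistable_of_inertiaTrivial (hℓ : ℓ.Prime) (hℓN : ¬ ℓ ∣ N)
    (A : ValuationSubring Qb) (hA : A.LiesOverPrime ℓ) {m : ℕ}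
    (hB : KummerInertiaTrivial N ℓ (hdeg_Qb hℓ hℓN) hℓ hℓN A m) :
    Fermat.Agent.S34x.Target.KummerSemistable (N * ℓ) A m := by
  haveI : Algebra.IsAlgebraic ℚ Qb := AlgebraicClosure.isAlgebraic ℚ
  exact Fermat.Agent.S34x.Target.kummerSemistable_of_inertiaTrivial
    (RedC N ℓ (hdeg_Qb hℓ hℓN) hℓ hℓN A)
    (fun τ hτ u hu => redC_smul_div_self (gaussNormalisableOv_mul hℓ hℓN A hA) τ hτ hu)
    (kummerInertiaTrivial_iff_redC.mp hB)

end Bridge

/-- **The single remaining input of S34** (`Target.KummerSemistableAtGoodLevels`) from Theorem B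
in Kummer form at the good levels `M₀ q`, `q ∤ M₀`, `4 ∣ M₀` (`q` odd) or `9 ∣ M₀` (`q = 2`). -/
theorem kummerSemistableAtGoodLevels
    (h : ∀ (M₀ q m : ℕ) [NeZero M₀] [NeZero q], 0 < m → ∀ (hq : q.Prime), ¬ q ∣ m →
      ∀ (hqM : ¬ q ∣ M₀), ((q ≠ 2 ∧ 4 ∣ M₀) ∨ (q = 2 ∧ 9 ∣ M₀)) →
      ∀ A : ValuationSubring Qb, A.LiesOverPrime q →
        KummerInertiaTrivial M₀ q (hdeg_Qb hq hqM) hq hqM A m) :
    Fermat.Agent.S34x.Target.KummerSemistableAtGoodLevels := by
  intro M₀ q m _ _ hm hq hqm hqM hgood A hA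
  exact kummerSemistable_of_inertiaTrivial hq hqM A hA (h M₀ q m hm hq hqm hqM hgood A hA)

end Fermat.Agent.S34x.KummerSSTarget
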