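/-
Copyright (c) 2026. Released under Apache 2.0 license as described in the file LICENSE.
-/
import Fermat.Agent.S34x.TheoremB
import Fermat.Agent.S34x.ExistsOne
import Fermat.Agent.S34x.Inst.DivGalois

/-!
# P-S34 (T4), abstract core: Theorem B for a semilinear automorphism

Glue of `TheoremB.exists_const_mul_pow` (helper71, (T5)), `ExistsOne.exists_one` (helper43, (T6)) and
the divisor computations of `Inst/DivGalois.lean`.

Setting: `R : RedSetup2 A S k κ` (two Gauss valuations, `κ = κ_∞ × κ_0`), a chart function `t`,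
`g : SemilinearAut K F` (an element of the inertia group acting on `F`) with `g • t = t`,
`g • O = O`, `res ∘ g = res`; `w ∈ Oˣ` with `res w = 1` and `div w = m D`.

* `exists_const_mul_pow_of_exists_one`: if the two local sections exist
  (`g₁ ∈ L(E + n C∞) ∩ O`, `g₂ ∈ L(E + n C₀) ∩ O` with reduction `1`, `E = g • D - D`), then
  `(g • w) / w = c * v ^ m`.
* `exists_const_mul_pow_of_charts`: the local sections are produced by (N2)+(N3) on the two charts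
  from the Goursat data of the reduced chart rings and the codimension bounds (`hcodim`), for
  `N = red ⋃_b Lam(D + b C∞)`, `N' = red ⋃_b Lam((m-1) D + b C∞)` (and the same on the chart `0`).
-/

set_option autoImplicit false
set_option linter.unusedSectionVars false

noncomputable section

namespace Fermat.Agent.S34x.TheoremBInst

open AlgebraicCurve Module IntermediateField
open Fermat.Agent.Gateway.C0 Fermat.Agent.S34x.C0two Fermat.Agent.S34x.Inst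

variable {K : Type*} [Field K] [IsAlgClosed K] [CharZero K] {A : ValuationSubring K}
  {F : Type*} [Field F] [Algebra K F] {S : SmallRing F}
  {k κ : Type*} [Field k] [CommRing κ] [Algebra k κ] [Nontrivial κ]
  (R : RedSetup2 A S k κ)
  {t : F} (ht : Transcendental K t) [FiniteDimensional K⟮t⟯ F]
  {Dt : Divisor K F} (hDt : ∀ v : Place K F, Dt v = v.ord t)
  (htO : t ∈ S.O) (htiO : t⁻¹ ∈ S.O)
  (hcart : ∀ V : Submodule K F, FiniteDimensional K V → (R.lat V).FG)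
  (P : ℕ → Submodule k κ) [∀ b, FiniteDimensional k (P b)] {b₀ : ℕ}
  (hgen : ∀ b, b₀ ≤ b → ∀ x ∈ P (b + 1), ∃ y ∈ P b, ∃ z ∈ P b, x = y + R.res ⟨t, htO⟩ * z)
  {m : ℕ}
  (hSC : ∀ (b : ℕ) (f : F) (hf : f ∈ S.O), f ∈ (TwoCharts.ofDivisor Dt).LN 0 b →
    R.res ⟨f, hf⟩ ∈ P b)
  (hrad : ∀ (b : ℕ) (x : κ), x ^ m ∈ P (m * b) → x ∈ P b)
  (hm : IsUnit ((m : ℕ) : A))
  (g : SemilinearAut K F) (hgt : g • t = t) (hgO : ∀ f ∈ S.O, g • f ∈ S.O)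
  (hgres : ∀ (f : F) (hf : f ∈ S.O), R.res ⟨g • f, hgO f hf⟩ = R.res ⟨f, hf⟩)
  {w : F} (hw0 : w ≠ 0) (hwO : w ∈ S.O) (hwiO : w⁻¹ ∈ S.O) (hw1 : R.res ⟨w, hwO⟩ = 1)
  {D : Divisor K F} (hD : ∀ v : Place K F, (m : ℤ) * D v = v.ord w)

include hw0 hwiO hw1 hgres in
/-- `(g • w) / w ∈ O` reduces to `1`. -/
theorem res_smul_div_self :
    ∃ huO : g • w / w ∈ S.O, R.res ⟨g • w / w, huO⟩ = 1 := by
  have hgwO : g • w ∈ S.O := hgO w hwO
  have huO : g • w / w ∈ S.O := by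
    rw [div_eq_mul_inv]
    exact S.O.mul_mem hgwO hwiO
  refine ⟨huO, ?_⟩
  have h1 : (⟨g • w / w, huO⟩ : S.O) = ⟨g • w, hgwO⟩ * ⟨w⁻¹, hwiO⟩ :=
    Subtype.ext (div_eq_mul_inv _ _)
  have h2 : (⟨w, hwO⟩ : S.O) * ⟨w⁻¹, hwiO⟩ = 1 := Subtype.ext (mul_inv_cancel₀ hw0)
  have h3 : R.res ⟨w⁻¹, hwiO⟩ = 1 := by
    have := congrArg R.res h2
    rwa [map_mul, map_one, hw1, one_mul] at this
  rw [h1, map_mul, hgres w hwO, hw1, h3, one_mul]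

include ht hDt htiO hcart hgen hSC hrad hm hgres hw0 hwiO hw1 hD in
/-- **(T4) core, from the two local sections.** -/
theorem exists_const_mul_pow_of_exists_one
    (hone : ∃ (n : ℕ) (g₁ : F), g₁ ∈ (TwoCharts.ofDivisor Dt).LM (g • D - D) 0 n ∧
      ∃ hg : g₁ ∈ S.O, R.res ⟨g₁, hg⟩ = 1)
    (hone' : ∃ (n : ℕ) (g₂ : F), g₂ ∈ (TwoCharts.ofDivisor Dt).LM (g • D - D) n 0 ∧
      ∃ hg : g₂ ∈ S.O, R.res ⟨g₂, hg⟩ = 1) :
    ∃ (c : K) (v : F), g • w / w = algebraMap K F c * v ^ m := by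
  obtain ⟨huO, hu1⟩ := res_smul_div_self R g hgO hgres hw0 hwO hwiO hw1
  have hone₁ : ∃ (n : ℕ) (g₁ : F) (hg : g₁ ∈ S.O),
      g₁ ∈ (TwoCharts.ofDivisor Dt).LM (g • D - D) 0 n ∧ R.res ⟨g₁, hg⟩ = 1 := by
    obtain ⟨n, g₁, h1, hg, h2⟩ := hone
    exact ⟨n, g₁, hg, h1, h2⟩
  have hone₂ : ∃ (n : ℕ) (g₂ : F) (hg : g₂ ∈ S.O),
      g₂ ∈ (TwoCharts.ofDivisor Dt).LM (g • D - D) n 0 ∧ R.res ⟨g₂, hg⟩ = 1 := by
    obtain ⟨n, g₂, h1, hg, h2⟩ := hone'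
    exact ⟨n, g₂, hg, h1, h2⟩
  exact TheoremB.exists_const_mul_pow R ht hDt htO htiO hcart P hgen hSC hrad hm
    (DivGalois.smul_div_ne_zero g hw0) huO hu1 (DivGalois.ord_smul_div g hw0 hD) hone₁ hone₂
    (DivGalois.degree_smul_sub g D)

section Charts

variable [IsAlgClosed k]
  {B₁ B₂ : Type*} [CommRing B₁] [CommRing B₂] [Algebra k B₁] [Algebra k B₂]
  {B₁' B₂' : Type*} [CommRing B₁'] [CommRing B₂'] [Algebra k B₁'] [Algebra k B₂']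

include ht hDt htiO hcart hgen hSC hrad hm hgt hgres hw0 hwiO hw1 hD in
/-- **(T4) core, from the (N2) data of the two charts.**  Chart `∞`: `j, Bbar, N, N'`;
chart `0`: `j₀, Bbar₀, N₀, N₀'`. -/
theorem exists_const_mul_pow_of_charts (hm0 : 0 < m)
    -- chart `∞`
    (j : (B₁ × B₂) →ₐ[k] κ) (Bbar : Subalgebra k κ) (N N' : Submodule k κ)
    (h₁ : ∀ f : B₁, ∃ g : B₂, j (f, g) ∈ Bbar) (h₂ : ∀ g : B₂, ∃ f : B₁, j (f, g) ∈ Bbar)
    [Module.Finite k ((B₁ × B₂) ⧸ Subalgebra.toSubmodule (Bbar.comap j))]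
    {p : ℕ} (hp : 2 ≤ p) (hpth : ∀ g : B₂, ∃ g' : B₂, j ((0 : B₁), g - g' ^ p) ∈ Bbar)
    [Module.Finite k ((B₁ × B₂) ⧸ N.comap j.toLinearMap)]
    [Module.Finite k ((B₁ × B₂) ⧸ N'.comap j.toLinearMap)]
    (hcodim : finrank k ((B₁ × B₂) ⧸ N.comap j.toLinearMap) ≤
      finrank k ((B₁ × B₂) ⧸ Subalgebra.toSubmodule (Bbar.comap j)))
    (hcodim' : finrank k ((B₁ × B₂) ⧸ N'.comap j.toLinearMap) ≤
      finrank k ((B₁ × B₂) ⧸ Subalgebra.toSubmodule (Bbar.comap j)))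
    (hpow : ∀ n ∈ N, n ^ m ∈ Bbar) (hpow' : ∀ n ∈ N', n ^ m ∈ Bbar)
    (hmul : ∀ n ∈ N, ∀ n' ∈ N', n * n' ∈ Bbar)
    (hN : ∀ x ∈ N, ∃ b, x ∈ R.redLat ((TwoCharts.ofDivisor Dt).LM D 0 b))
    (hN' : ∀ y ∈ N', ∃ b, y ∈ R.redLat ((TwoCharts.ofDivisor Dt).LM ((m - 1) • D) 0 b))
    -- chart `0`
    (j₀ : (B₁' × B₂') →ₐ[k] κ) (Bbar₀ : Subalgebra k κ) (N₀ N₀' : Submodule k κ)
    (h₁₀ : ∀ f : B₁', ∃ g : B₂', j₀ (f, g) ∈ Bbar₀)
    (h₂₀ : ∀ g : B₂', ∃ f : B₁', j₀ (f, g) ∈ Bbar₀)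
    [Module.Finite k ((B₁' × B₂') ⧸ Subalgebra.toSubmodule (Bbar₀.comap j₀))]
    {p₀ : ℕ} (hp₀ : 2 ≤ p₀)
    (hpth₀ : ∀ g : B₂', ∃ g' : B₂', j₀ ((0 : B₁'), g - g' ^ p₀) ∈ Bbar₀)
    [Module.Finite k ((B₁' × B₂') ⧸ N₀.comap j₀.toLinearMap)]
    [Module.Finite k ((B₁' × B₂') ⧸ N₀'.comap j₀.toLinearMap)]
    (hcodim₀ : finrank k ((B₁' × B₂') ⧸ N₀.comap j₀.toLinearMap) ≤
      finrank k ((B₁' × B₂') ⧸ Subalgebra.toSubmodule (Bbar₀.comap j₀)))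
    (hcodim₀' : finrank k ((B₁' × B₂') ⧸ N₀'.comap j₀.toLinearMap) ≤
      finrank k ((B₁' × B₂') ⧸ Subalgebra.toSubmodule (Bbar₀.comap j₀)))
    (hpow₀ : ∀ n ∈ N₀, n ^ m ∈ Bbar₀) (hpow₀' : ∀ n ∈ N₀', n ^ m ∈ Bbar₀)
    (hmul₀ : ∀ n ∈ N₀, ∀ n' ∈ N₀', n * n' ∈ Bbar₀)
    (hN₀ : ∀ x ∈ N₀, ∃ a, x ∈ R.redLat ((TwoCharts.ofDivisor Dt).LM D a 0))
    (hN₀' : ∀ y ∈ N₀', ∃ a, y ∈ R.redLat ((TwoCharts.ofDivisor Dt).LM ((m - 1) • D) a 0)) :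
    ∃ (c : K) (v : F), g • w / w = algebraMap K F c * v ^ m := by
  have hgDt : g • Dt = Dt := DivGalois.smul_divisor_eq_of_smul_eq g hgt hDt
  have hm' : m ≠ 0 := hm0.ne'
  refine exists_const_mul_pow_of_exists_one R ht hDt htO htiO hcart P hgen hSC hrad hm g hgO hgres
    hw0 hwO hwiO hw1 hD ?_ ?_
  · -- chart `∞`
    refine ExistsOne.exists_one R j Bbar N N' h₁ h₂ hp hpth hcodim hcodim' hm' hm' hpow hpow' hmul
      (V := fun b => (TwoCharts.ofDivisor Dt).LM D 0 b)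
      (V' := fun b => (TwoCharts.ofDivisor Dt).LM ((m - 1) • D) 0 b)
      (M := fun n => (TwoCharts.ofDivisor Dt).LM (g • D - D) 0 n)
      (fun _ _ h => (TwoCharts.ofDivisor Dt).LM_mono _ le_rfl h) hN hN' (fun f => g • f) hgO hgres
      hwO hw1 ?_
    intro b b' f f' hf _ hf' _
    have := DivGalois.smul_mul_mul_mem_LM g hgDt hm0 hD hf hf'
    simpa using this
  · -- chart `0`
    refine ExistsOne.exists_one R j₀ Bbar₀ N₀ N₀' h₁₀ h₂₀ hp₀ hpth₀ hcodim₀ hcodim₀' hm' hm' hpow₀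
      hpow₀' hmul₀
      (V := fun a => (TwoCharts.ofDivisor Dt).LM D a 0)
      (V' := fun a => (TwoCharts.ofDivisor Dt).LM ((m - 1) • D) a 0)
      (M := fun n => (TwoCharts.ofDivisor Dt).LM (g • D - D) n 0)
      (fun _ _ h => (TwoCharts.ofDivisor Dt).LM_mono _ h le_rfl) hN₀ hN₀' (fun f => g • f) hgO hgres
      hwO hw1 ?_
    intro a a' f f' hf _ hf' _
    have := DivGalois.smul_mul_mul_mem_LM g hgDt hm0 hD hf hf'
    simpa using this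

end Charts

end Fermat.Agent.S34x.TheoremBInst
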