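import Fermat.Agent.S34x.TheoremB

/-!
# P-S34 (T5), second layer: Theorem B for a twisted pair `(σ, w)`

Setting of `S34x/TheoremB.lean`.  Let `w ∈ O`, `res w = 1`, `div w = m D_w`, and let
`σ : F →+* F` be a ring endomorphism preserving `O` and every `L(a C₀ + b C∞)` (no action of `σ`
on places or divisors is needed).  Let `Q e i' : ℕ` with `m e = Q + i'` (Theorem B proper:
`Q = 1`, `e = 1`, `i' = m - 1`) and `u := σ w / w ^ Q ∈ O`, `res u = 1`, `div u = m E`.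

* `mul_mem_LM_of_sigma` (the computation (N3)): for `x ∈ L(D_w + a C₀ + b C∞)`,
  `y ∈ L(i' D_w + a' C₀ + b' C∞)` the product `σ x * y * w ^ e` lies in
  `L(E + (a + a') C₀ + (b + b') C∞)`; membership is checked by the radical criterion
  `u g ^ m ∈ L(m a C₀ + m b C∞)`, using `u g ^ m = σ (w x ^ m) * (w ^ i' y ^ m)`.
* `exists_one_of_sum`: finitely many such `x_j`, `y_j` in `O` with
  `∑ res (σ x_j) * res (y_j) = 1` give a section `g` of the `E`-twisted lattice with `res g = 1`.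
* `exists_const_mul_pow_of_sigma`: **Theorem B** (and its Frobenius variant B'):
  `σ w / w ^ Q = c v ^ m`.
-/

set_option autoImplicit false
set_option linter.unusedSectionVars false
set_option linter.style.haveILetI false

noncomputable section

namespace Fermat.Agent.S34x.TheoremB

open AlgebraicCurve WithZero Module IntermediateField IsLocalRing
open Fermat.Agent.Gateway.C0 Fermat.Agent.S34x.C0two

/-! ### Divisor calculus -/

section divisor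

variable {K F : Type*} [Field K] [Field F] [Algebra K F] (T : TwoCharts K F)

/-- Radical criterion for the twisted spaces: if `div u = m E` and
`u z ^ m ∈ L(m a C₀ + m b C∞)` then `z ∈ L(E + a C₀ + b C∞)`. -/
theorem mem_LM_of_mul_pow_mem {m : ℕ} (hm : 0 < m) {u : F} (hu0 : u ≠ 0) {E : Divisor K F}
    (hE : ∀ v : Place K F, (m : ℤ) * E v = v.ord u) {a b : ℕ} {z : F}
    (hz : u * z ^ m ∈ T.LN (m * a) (m * b)) : z ∈ T.LM E a b := by
  by_cases hz0 : z = 0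
  · subst hz0
    exact Submodule.zero_mem _
  rw [TwoCharts.LN, mem_riemannRochSpace_iff] at hz
  rw [TwoCharts.LM, mem_riemannRochSpace_iff]
  intro v
  right
  have h := (hz v).resolve_left (mul_ne_zero hu0 (pow_ne_zero _ hz0))
  rw [v.ord_mul hu0 (pow_ne_zero _ hz0), ← zpow_natCast, v.ord_zpow, ← hE v,
    TwoCharts.dv_apply] at h
  rw [Finsupp.add_apply, TwoCharts.dv_apply]
  have hm' : (0 : ℤ) < m := by exact_mod_cast hm
  push_cast at h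
  nlinarith

/-- `w ^ i y ^ m ∈ L(m a C₀ + m b C∞)` for `y ∈ L(i D_w + a C₀ + b C∞)`, `div w = m D_w`. -/
theorem pow_mul_pow_mem_LN {m : ℕ} {w : F} (hw0 : w ≠ 0) {Dw : Divisor K F}
    (hDw : ∀ v : Place K F, (m : ℤ) * Dw v = v.ord w) (i : ℕ) {a b : ℕ} {y : F}
    (hy : y ∈ T.LM (i • Dw) a b) : w ^ i * y ^ m ∈ T.LN (m * a) (m * b) := by
  by_cases hy0 : y = 0
  · subst hy0
    rcases Nat.eq_zero_or_pos m with rfl | hm
    · -- `m = 0`: then `ord w = 0` everywhere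
      rw [pow_zero, mul_one, zero_mul, zero_mul, TwoCharts.LN, mem_riemannRochSpace_iff]
      intro v
      right
      have := hDw v
      rw [Nat.cast_zero, zero_mul] at this
      rw [← zpow_natCast, v.ord_zpow, ← this, TwoCharts.dv_zero]
      simp
    · rw [zero_pow hm.ne', mul_zero]
      exact Submodule.zero_mem _
  rw [TwoCharts.LM, mem_riemannRochSpace_iff] at hy
  rw [TwoCharts.LN, mem_riemannRochSpace_iff]
  intro v
  right
  have h := (hy v).resolve_left hy0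
  rw [Finsupp.add_apply, Finsupp.smul_apply, TwoCharts.dv_apply, nsmul_eq_mul] at h
  rw [v.ord_mul (pow_ne_zero _ hw0) (pow_ne_zero _ hy0), ← zpow_natCast, v.ord_zpow,
    ← zpow_natCast, v.ord_zpow, ← hDw v, TwoCharts.dv_apply]
  have hm' : (0 : ℤ) ≤ m := Int.natCast_nonneg m
  push_cast
  nlinarith

/-- **The computation (N3).**  `σ` preserves the spaces `L(a C₀ + b C∞)`, `div w = m D_w`,
`m e = Q + i'`, `u = σ w / w ^ Q`, `div u = m E`.  Then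
`σ x * y * w ^ e ∈ L(E + (a + a') C₀ + (b + b') C∞)` for `x ∈ L(D_w + a C₀ + b C∞)`,
`y ∈ L(i' D_w + a' C₀ + b' C∞)`. -/
theorem mul_mem_LM_of_sigma {m : ℕ} (hm : 0 < m) {σ : F →+* F}
    (hσ : ∀ (a b : ℕ) (x : F), x ∈ T.LN a b → σ x ∈ T.LN a b)
    {w : F} (hw0 : w ≠ 0) {Dw : Divisor K F} (hDw : ∀ v : Place K F, (m : ℤ) * Dw v = v.ord w)
    {Q e i' : ℕ} (hQ : m * e = Q + i') {E : Divisor K F}
    (hE : ∀ v : Place K F, (m : ℤ) * E v = v.ord (σ w / w ^ Q))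
    {a b a' b' : ℕ} {x y : F} (hx : x ∈ T.LM Dw a b) (hy : y ∈ T.LM (i' • Dw) a' b') :
    σ x * y * w ^ e ∈ T.LM E (a + a') (b + b') := by
  have hσw0 : σ w ≠ 0 := (map_ne_zero σ).mpr hw0
  have hu0 : σ w / w ^ Q ≠ 0 := div_ne_zero hσw0 (pow_ne_zero _ hw0)
  apply mem_LM_of_mul_pow_mem T hm hu0 hE
  have h1 : w * x ^ m ∈ T.LN (m * a) (m * b) := by
    have := T.prod_LM hw0 hDw m 0 (add_zero m) hx hx
    rwa [pow_zero, mul_one] at this
  have h2 := hσ _ _ _ h1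
  have h3 := pow_mul_pow_mem_LN T hw0 hDw i' hy
  have h4 := T.LN_mul h2 h3
  rw [← mul_add, ← mul_add] at h4
  have e1 : σ w / w ^ Q * (σ x * y * w ^ e) ^ m = σ (w * x ^ m) * (w ^ i' * y ^ m) := by
    rw [map_mul, map_pow, mul_pow, mul_pow, ← pow_mul, mul_comm e m, hQ, pow_add]
    field_simp
  rw [e1]
  exact h4

end divisor

/-! ### Local sections from sums -/

section sums

variable {K : Type*} [Field K] {A : ValuationSubring K}
  {F : Type*} [Field F] [Algebra K F] {S : SmallRing F}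
  {k κ : Type*} [Field k] [CommRing κ] [Algebra k κ]
  (R : RedSetup2 A S k κ) (T : TwoCharts K F)

/-- **(N3).**  Finitely many `x_j ∈ L(D_w + a C₀ + b C∞) ∩ O`, `y_j ∈ L(i' D_w + a' C₀ + b' C∞) ∩ O`
with `∑ res (σ x_j) * res (y_j) = 1` give `g = ∑ σ x_j * y_j * w ^ e` in the `E`-twisted lattice
with `res g = 1`. -/
theorem exists_one_of_sum {m : ℕ} (hm : 0 < m) {σ : F →+* F}
    (hσ : ∀ (a b : ℕ) (x : F), x ∈ T.LN a b → σ x ∈ T.LN a b)
    (hσO : ∀ x ∈ S.O, σ x ∈ S.O)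
    {w : F} (hw0 : w ≠ 0) (hwO : w ∈ S.O) (hw1 : R.res ⟨w, hwO⟩ = 1)
    {Dw : Divisor K F} (hDw : ∀ v : Place K F, (m : ℤ) * Dw v = v.ord w)
    {Q e i' : ℕ} (hQ : m * e = Q + i') {E : Divisor K F}
    (hE : ∀ v : Place K F, (m : ℤ) * E v = v.ord (σ w / w ^ Q))
    {a b a' b' r : ℕ} (x y : Fin r → F) (hxO : ∀ j, x j ∈ S.O) (hyO : ∀ j, y j ∈ S.O)
    (hx : ∀ j, x j ∈ T.LM Dw a b) (hy : ∀ j, y j ∈ T.LM (i' • Dw) a' b')
    (hsum : ∑ j, R.res ⟨σ (x j), hσO _ (hxO j)⟩ * R.res ⟨y j, hyO j⟩ = 1) :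
    ∃ (g : F) (hg : g ∈ S.O), g ∈ T.LM E (a + a') (b + b') ∧ R.res ⟨g, hg⟩ = 1 := by
  have hterm : ∀ j, σ (x j) * y j * w ^ e ∈ S.O := fun j =>
    S.O.mul_mem (S.O.mul_mem (hσO _ (hxO j)) (hyO j)) (S.O.pow_mem hwO e)
  have hg : ∑ j, σ (x j) * y j * w ^ e ∈ S.O := S.O.sum_mem fun j _ => hterm j
  refine ⟨∑ j, σ (x j) * y j * w ^ e, hg, ?_, ?_⟩
  · exact Submodule.sum_mem _ fun j _ =>
      mul_mem_LM_of_sigma T hm hσ hw0 hDw hQ hE (hx j) (hy j)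
  · rw [R.res_sum _ _ hterm hg, ← hsum]
    refine Finset.sum_congr rfl fun j _ => ?_
    have e1 : (⟨σ (x j) * y j * w ^ e, hterm j⟩ : S.O)
        = ⟨σ (x j), hσO _ (hxO j)⟩ * ⟨y j, hyO j⟩ * ⟨w, hwO⟩ ^ e := rfl
    rw [e1, map_mul, map_mul, map_pow, hw1, one_pow, mul_one]

end sums

/-! ### Theorem B for a twisted pair -/

section sigma

open Fermat.Agent.Lib.RiemannRoch

variable {K : Type*} [Field K] [IsAlgClosed K] [CharZero K] {A : ValuationSubring K}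
  {F : Type*} [Field F] [Algebra K F] {S : SmallRing F}
  {k κ : Type*} [Field k] [CommRing κ] [Algebra k κ] [Nontrivial κ]
  (R : RedSetup2 A S k κ)
  {t : F} (ht : Transcendental K t) [FiniteDimensional K⟮t⟯ F]
  {Dt : Divisor K F} (hDt : ∀ v : Place K F, Dt v = v.ord t)
  (htO : t ∈ S.O) (htiO : t⁻¹ ∈ S.O)
  (hcart : ∀ V : Submodule K F, FiniteDimensional K V → (R.lat V).FG)
  (P : ℕ → Submodule k κ) [∀ b, FiniteDimensional k (P b)] {b₀ : ℕ}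
  (hgen : ∀ b, b₀ ≤ b → ∀ x ∈ P (b + 1), ∃ y ∈ P b, ∃ z ∈ P b, x = y + R.res ⟨t, htO⟩ * z)
  {m : ℕ}
  (hSC : ∀ (b : ℕ) (f : F) (hf : f ∈ S.O), f ∈ (TwoCharts.ofDivisor Dt).LN 0 b →
    R.res ⟨f, hf⟩ ∈ P b)
  (hrad : ∀ (b : ℕ) (x : κ), x ^ m ∈ P (m * b) → x ∈ P b)
  (hmA : IsUnit ((m : ℕ) : A))
  {σ : F →+* F}
  (hσLN : ∀ (a b : ℕ) (x : F), x ∈ (TwoCharts.ofDivisor Dt).LN a b →
    σ x ∈ (TwoCharts.ofDivisor Dt).LN a b)
  (hσO : ∀ x ∈ S.O, σ x ∈ S.O)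
  {w : F} (hw0 : w ≠ 0) (hwO : w ∈ S.O) (hw1 : R.res ⟨w, hwO⟩ = 1)
  {Dw : Divisor K F} (hDw : ∀ v : Place K F, (m : ℤ) * Dw v = v.ord w)
  (hdiv : ∀ v : Place K F, (m : ℤ) ∣ v.ord (σ w))
  {Q e i' : ℕ} (hQ : m * e = Q + i')
  (huO : σ w / w ^ Q ∈ S.O) (hu1 : R.res ⟨σ w / w ^ Q, huO⟩ = 1)

include ht hw0 hDw hdiv in
/-- The divisor `E` with `m E = div (σ w / w ^ Q)`; it has degree `0`.  (In the application
`E = σ D_w - Q D_w`.) -/
theorem exists_root_divisor_of_sigma (hm : 0 < m) (Q : ℕ) :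
    ∃ E : Divisor K F, (∀ v : Place K F, (m : ℤ) * E v = v.ord (σ w / w ^ Q)) ∧
      Divisor.degree E = 0 := by
  have hσw0 : σ w ≠ 0 := (map_ne_zero σ).mpr hw0
  have hu0 : σ w / w ^ Q ≠ 0 := div_ne_zero hσw0 (pow_ne_zero _ hw0)
  have hdivu : ∀ v : Place K F, (m : ℤ) ∣ v.ord (σ w / w ^ Q) := by
    intro v
    rw [div_eq_mul_inv, v.ord_mul hσw0 (inv_ne_zero (pow_ne_zero _ hw0)), v.ord_inv,
      ← zpow_natCast, v.ord_zpow, ← hDw v]
    exact dvd_add (hdiv v) (Dvd.dvd.neg_right (Dvd.dvd.mul_left (dvd_mul_right _ _) _))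
  exact exists_root_divisor ht hm hu0 hdivu

include ht hDt htiO hcart hgen hSC hrad hmA hσLN hw0 hw1 hDw hdiv hQ hu1 in
/-- **Theorem B** (`Q = 1`, `e = 1`, `i' = m - 1`) and its Frobenius variant **B'**: if on each of
the two charts finitely many lifts `x_j`, `y_j` of the `D_w`- resp. `i' D_w`-twisted lattices
satisfy `∑ res (σ x_j) res (y_j) = 1`, then `σ w / w ^ Q` is a constant times an `m`-th power. -/
theorem exists_const_mul_pow_of_sigma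
    (hinf : ∃ (r b b' : ℕ) (x y : Fin r → F) (hxO : ∀ j, x j ∈ S.O) (hyO : ∀ j, y j ∈ S.O),
      (∀ j, x j ∈ (TwoCharts.ofDivisor Dt).LM Dw 0 b) ∧
      (∀ j, y j ∈ (TwoCharts.ofDivisor Dt).LM (i' • Dw) 0 b') ∧
      ∑ j, R.res ⟨σ (x j), hσO _ (hxO j)⟩ * R.res ⟨y j, hyO j⟩ = 1)
    (hzero : ∃ (r a a' : ℕ) (x y : Fin r → F) (hxO : ∀ j, x j ∈ S.O) (hyO : ∀ j, y j ∈ S.O),
      (∀ j, x j ∈ (TwoCharts.ofDivisor Dt).LM Dw a 0) ∧
      (∀ j, y j ∈ (TwoCharts.ofDivisor Dt).LM (i' • Dw) a' 0) ∧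
      ∑ j, R.res ⟨σ (x j), hσO _ (hxO j)⟩ * R.res ⟨y j, hyO j⟩ = 1) :
    ∃ (c : K) (v : F), σ w / w ^ Q = algebraMap K F c * v ^ m := by
  have hm : 0 < m := by
    rcases Nat.eq_zero_or_pos m with h | h
    · exfalso
      subst h
      rw [Nat.cast_zero] at hmA
      exact not_isUnit_zero hmA
    · exact h
  have hσw0 : σ w ≠ 0 := (map_ne_zero σ).mpr hw0
  have hu0 : σ w / w ^ Q ≠ 0 := div_ne_zero hσw0 (pow_ne_zero _ hw0)
  obtain ⟨E, hE, hdegE⟩ := exists_root_divisor_of_sigma ht hw0 hDw hdiv hm Q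
  refine exists_const_mul_pow R ht hDt htO htiO hcart P hgen hSC hrad hmA hu0 huO hu1 hE ?_ ?_
    hdegE
  · obtain ⟨r, b, b', x, y, hxO, hyO, hx, hy, hsum⟩ := hinf
    obtain ⟨g, hg, hgM, hg1⟩ := exists_one_of_sum R (TwoCharts.ofDivisor Dt) hm hσLN hσO hw0 hwO
      hw1 hDw hQ hE x y hxO hyO hx hy hsum
    exact ⟨b + b', g, hg, by simpa using hgM, hg1⟩
  · obtain ⟨r, a, a', x, y, hxO, hyO, hx, hy, hsum⟩ := hzero
    obtain ⟨g, hg, hgM, hg1⟩ := exists_one_of_sum R (TwoCharts.ofDivisor Dt) hm hσLN hσO hw0 hwO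
      hw1 hDw hQ hE x y hxO hyO hx hy hsum
    exact ⟨a + a', g, hg, by simpa using hgM, hg1⟩

include ht hDt htiO hcart hgen hSC hrad hmA hσLN hw0 hw1 hDw hdiv in
/-- **Theorem B** in the form consumed by (T4): `Q = 1`, `e = 1`, `i' = m - 1`. -/
theorem exists_const_mul_pow_of_sigma_one
    (huO : σ w / w ∈ S.O) (hu1 : R.res ⟨σ w / w, huO⟩ = 1)
    (hinf : ∃ (r b b' : ℕ) (x y : Fin r → F) (hxO : ∀ j, x j ∈ S.O) (hyO : ∀ j, y j ∈ S.O),
      (∀ j, x j ∈ (TwoCharts.ofDivisor Dt).LM Dw 0 b) ∧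
      (∀ j, y j ∈ (TwoCharts.ofDivisor Dt).LM ((m - 1) • Dw) 0 b') ∧
      ∑ j, R.res ⟨σ (x j), hσO _ (hxO j)⟩ * R.res ⟨y j, hyO j⟩ = 1)
    (hzero : ∃ (r a a' : ℕ) (x y : Fin r → F) (hxO : ∀ j, x j ∈ S.O) (hyO : ∀ j, y j ∈ S.O),
      (∀ j, x j ∈ (TwoCharts.ofDivisor Dt).LM Dw a 0) ∧
      (∀ j, y j ∈ (TwoCharts.ofDivisor Dt).LM ((m - 1) • Dw) a' 0) ∧
      ∑ j, R.res ⟨σ (x j), hσO _ (hxO j)⟩ * R.res ⟨y j, hyO j⟩ = 1) :
    ∃ (c : K) (v : F), σ w / w = algebraMap K F c * v ^ m := by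
  have hm : 0 < m := by
    rcases Nat.eq_zero_or_pos m with h | h
    · exfalso
      subst h
      rw [Nat.cast_zero] at hmA
      exact not_isUnit_zero hmA
    · exact h
  have hQ : m * 1 = 1 + (m - 1) := by omega
  have e1 : σ w / w ^ 1 = σ w / w := by rw [pow_one]
  have huO' : σ w / w ^ 1 ∈ S.O := by rw [e1]; exact huO
  have hu1' : R.res ⟨σ w / w ^ 1, huO'⟩ = 1 := by
    rw [← hu1]
    congr 1
    exact Subtype.ext e1
  have := exists_const_mul_pow_of_sigma R ht hDt htO htiO hcart P hgen hSC hrad hmA hσLN hσO hw0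
    hwO hw1 hDw hdiv hQ huO' hu1' hinf hzero
  rwa [e1] at this

end sigma

end Fermat.Agent.S34x.TheoremB
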