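/-
helper65 (P-S34, (T3)): LEVEL GLUE for the semistable Kummer statement.

"Inertia acts trivially on Kummer elements with constant reductions" at the good level
`M = lcm N 4` or `M = lcm N 9` implies the same at level `N`, along the inclusion `F_N ⊆ F_M`
(helper38's Kummer descent `Descent.kummer_descent`), exactly as `Kummer/LevelGlue` does for
`KummerRedInj`.

The two reduction conditions (`t`-expansion at `∞`, second embedding `ι₀` at `0`) enter only through
an abstract predicate `Cond` on the function field, which has to be monotone along the inclusion;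
the monotonicity of the two concrete conditions is `RedRel.mono` (at `∞`) and helper44's
`TwoVal.iota0_inclusion` (at `0`), packaged below as `redRelZero_incl`.
-/
import Fermat.Agent.S34x.TwoVal.Iota0Level
import Fermat.Agent.Gateway.Kummer.LevelGlue

set_option autoImplicit false
set_option linter.style.haveILetI false
set_option linter.unusedSectionVars false

noncomputable section

namespace Fermat.Agent.S34x.LevelGlueSS

open ModularCurve AlgebraicCurve HahnSeries IntermediateField
open Fermat.Agent.Gateway.Hecke Fermat.Agent.Gateway.Kummer Fermat.Agent.Gateway.Descent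
open Fermat.Agent.S34x.TwoVal Fermat.Agent.Gateway.Red Fermat.Agent.Gateway.GoodRed

/-- `Qb = AlgebraicClosure ℚ` -/
local notation "Qb" => AlgebraicClosure ℚ

section Abstract

variable (N : ℕ) [NeZero N]

/-- Abstract shape of `KummerInertiaTrivial`: for every nonzero `w ∈ F_N` all of whose orders are
divisible by `m` and which satisfies the (reduction) condition `Cond`, every `τ` in the inertia group
of `A` moves `w` by a constant times an `m`-th power. -/
def InertiaTrivialAt (A : ValuationSubring Qb) (m : ℕ) (Cond : FF Qb N → Prop) : Prop :=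
  ∀ w : FF Qb N, w ≠ 0 → (∀ P : Place Qb (FF Qb N), (m : ℤ) ∣ P.ord w) → Cond w →
    ∀ τ ∈ A.inertiaSubgroupIn ℚ, ∃ (c : Qb) (v : FF Qb N),
      (arithmeticGalois (modularFunctionFieldFull N) τ • w) / w = algebraMap Qb (FF Qb N) c * v ^ m

end Abstract

section Glue

variable {N M : ℕ} [NeZero N] [NeZero M]

/-- the inclusion `F_N ⊆ F_M` commutes with the arithmetic Galois action -/
theorem incl_arithmeticGalois_smul (hNM : N ∣ M) (τ : Qb ≃ₐ[ℚ] Qb) (w : FF Qb N) :
    Incl.incl hNM (arithmeticGalois (modularFunctionFieldFull N) τ • w) =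
      arithmeticGalois (modularFunctionFieldFull M) τ • Incl.incl hNM w := by
  apply Subtype.ext
  rw [Incl.coe_incl, coe_arithmeticGalois_smul', coe_arithmeticGalois_smul', Incl.coe_incl]

/-- orders of a Galois translate -/
theorem dvd_ord_arithmeticGalois_smul (τ : Qb ≃ₐ[ℚ] Qb) {m : ℕ} {w : FF Qb N}
    (hdiv : ∀ P : Place Qb (FF Qb N), (m : ℤ) ∣ P.ord w) (P : Place Qb (FF Qb N)) :
    (m : ℤ) ∣ P.ord (arithmeticGalois (modularFunctionFieldFull N) τ • w) := by
  set g := arithmeticGalois (modularFunctionFieldFull N) τ with hg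
  have h := SemilinearAut.ord_smul g (g⁻¹ • P) w
  rw [smul_inv_smul] at h
  rw [h]
  exact hdiv _

/-- **Level glue, abstract form.** -/
theorem inertiaTrivialAt_of_level (hM : M = Nat.lcm N 4 ∨ M = Nat.lcm N 9)
    (A : ValuationSubring Qb) {m : ℕ} (hm : 0 < m)
    {CondN : FF Qb N → Prop} {CondM : FF Qb M → Prop}
    (hmono : ∀ w : FF Qb N, CondN w → CondM (Incl.incl (dvd_of_eq_lcm_or hM) w))
    (h : InertiaTrivialAt M A m CondM) : InertiaTrivialAt N A m CondN := by
  intro w hw hdiv hcond τ hτ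
  have hNM : N ∣ M := dvd_of_eq_lcm_or hM
  set gN := arithmeticGalois (modularFunctionFieldFull N) τ with hgN
  set gM := arithmeticGalois (modularFunctionFieldFull M) τ with hgM
  have hinj : Function.Injective (Incl.incl hNM) := (Incl.incl hNM).toRingHom.injective
  -- transport to level `M`
  have hw' : Incl.incl hNM w ≠ 0 := by
    intro h0
    exact hw (hinj (by rw [h0, map_zero]))
  have hdiv' : ∀ P : Place Qb (FF Qb M), (m : ℤ) ∣ P.ord (Incl.incl hNM w) := by
    intro P
    rw [Place.ord_restrictAlong (Incl.incl hNM) (Incl.isIntegral_incl hNM).isIntegral P w]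
    exact Dvd.dvd.mul_left (hdiv _) _
  obtain ⟨c, v, hcv⟩ := h (Incl.incl hNM w) hw' hdiv' (hmono w hcond) τ hτ
  -- the Kummer element at level `N`
  have hgw : gN • w ≠ 0 := by simpa using hw
  have hu : (gN • w) / w ≠ 0 := div_ne_zero hgw hw
  have hdivu : ∀ P : Place Qb (FF Qb N), (m : ℤ) ∣ P.ord ((gN • w) / w) := by
    intro P
    rw [div_eq_mul_inv, P.ord_mul hgw (inv_ne_zero hw), P.ord_inv]
    exact dvd_add (dvd_ord_arithmeticGalois_smul τ hdiv P) (Dvd.dvd.neg_right (hdiv P))
  have hincl : Incl.incl hNM ((gN • w) / w) = algebraMap Qb (FF Qb M) c * v ^ m := by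
    rw [map_div₀, incl_arithmeticGalois_smul, hcv]
  have hc : c ≠ 0 := by
    rintro rfl
    have h0 : Incl.incl hNM ((gN • w) / w) = 0 := by rw [hincl, map_zero, zero_mul]
    exact hu (hinj (by rw [h0, map_zero]))
  obtain ⟨c', v', -, hcv'⟩ := kummer_descent hM m hm ((gN • w) / w) hu hdivu ⟨c, v, hc, hincl⟩
  exact ⟨c', v', hcv'⟩

end Glue

section Arith

/-- `lcm (N q) r = lcm N r * q` for `q` coprime to `r` -/
theorem lcm_mul_of_coprime (N : ℕ) {q r : ℕ} (hr : 0 < r) (h : Nat.Coprime q r) :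
    Nat.lcm (N * q) r = Nat.lcm N r * q := by
  have hg : Nat.gcd (N * q) r = Nat.gcd N r := Nat.Coprime.gcd_mul_right_cancel N h
  have hpos : 0 < Nat.gcd N r := Nat.gcd_pos_of_pos_right _ hr
  apply Nat.eq_of_mul_eq_mul_left hpos
  calc Nat.gcd N r * Nat.lcm (N * q) r = Nat.gcd (N * q) r * Nat.lcm (N * q) r := by rw [hg]
    _ = N * q * r := Nat.gcd_mul_lcm _ _
    _ = (N * r) * q := by ring
    _ = Nat.gcd N r * Nat.lcm N r * q := by rw [Nat.gcd_mul_lcm]
    _ = Nat.gcd N r * (Nat.lcm N r * q) := by ring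

/-- the good level of `N q` is (the good level of `N`) times `q` -/
theorem mul_eq_lcm_or {N M q : ℕ} (hq : q.Prime) (hqM : ¬ q ∣ M)
    (hM : M = Nat.lcm N 4 ∨ M = Nat.lcm N 9) :
    M * q = Nat.lcm (N * q) 4 ∨ M * q = Nat.lcm (N * q) 9 := by
  rcases hM with h | h
  · left
    have hc : Nat.Coprime q 4 := by
      have h4 : ¬ q ∣ 4 := fun hd => hqM (h ▸ hd.trans (Nat.dvd_lcm_right N 4))
      have : Nat.Coprime q (2 ^ 2) := Nat.Coprime.pow_right 2
        ((Nat.Prime.coprime_iff_not_dvd hq).mpr fun hd => h4 (hd.trans (by norm_num)))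
      simpa using this
    rw [lcm_mul_of_coprime N (by norm_num) hc, h]
  · right
    have hc : Nat.Coprime q 9 := by
      have h9 : ¬ q ∣ 9 := fun hd => hqM (h ▸ hd.trans (Nat.dvd_lcm_right N 9))
      have : Nat.Coprime q (3 ^ 2) := Nat.Coprime.pow_right 2
        ((Nat.Prime.coprime_iff_not_dvd hq).mpr fun hd => h9 (hd.trans (by norm_num)))
      simpa using this
    rw [lcm_mul_of_coprime N (by norm_num) hc, h]

end Arith

section Cond

variable {L : Type} [Field L] [Algebra ℚ L] [IsAlgClosed L]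

omit [Algebra ℚ L] [IsAlgClosed L] in
/-- `y` lies in the Gauss ring of `L((t))` and reduces to `yb` (field-free form of the reduction
relation; for `f ∈ F` it says `f ∈ Ov` and `redV f = yb`, for `ι₀ w` it says `w ∈ Ov0` and
`red0 w = yb`). -/
def GaussRedTo (A : ValuationSubring L) {k : Type} [Field k] (π : A →+* k)
    (y : LaurentSeries L) (yb : LaurentSeries k) : Prop :=
  ∃ hy : y ∈ gaussRing A π, gaussRed A π ⟨y, hy⟩ = yb

variable (N ℓ : ℕ) [NeZero N] [NeZero ℓ]
variable (hdeg : finrankAlong L (heckeAlphaBar L N ℓ) = ℓ + 1) (hℓ : ℓ.Prime) (hℓN : ¬ ℓ ∣ N)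
variable (A : ValuationSubring L)

/-- The two reduction conditions of the semistable Kummer statement, in Gauss-ring form:
`w` reduces to a nonzero constant both for the natural embedding (`t`-expansion at `∞`) and for the
second embedding `ι₀` (expansion at `0`). -/
def CondSS (w : FF L (N * ℓ)) : Prop :=
  (∃ c₁ : IsLocalRing.ResidueField A, c₁ ≠ 0 ∧
    GaussRedTo A (IsLocalRing.residue A) (w : LaurentSeries L) (HahnSeries.C c₁)) ∧
  (∃ c₂ : IsLocalRing.ResidueField A, c₂ ≠ 0 ∧
    GaussRedTo A (IsLocalRing.residue A) (iota0 L N ℓ hdeg hℓ hℓN w) (HahnSeries.C c₂))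

variable {N ℓ}
variable {M : ℕ} [NeZero M] (hNM : N ∣ M)
  (hdegM : finrankAlong L (heckeAlphaBar L M ℓ) = ℓ + 1) (hℓM : ¬ ℓ ∣ M)

/-- `CondSS` is monotone along the inclusion `F_{Nℓ} ⊆ F_{Mℓ}`, `N ∣ M`, `ℓ ∤ M` -/
theorem CondSS.inclusion {w : FF L (N * ℓ)} (hw : CondSS N ℓ hdeg hℓ hℓN A w) :
    CondSS M ℓ hdegM hℓ hℓM A
      (IntermediateField.inclusion (FL_le_of_dvd (L := L) (mul_dvd_mul_right hNM ℓ)) w) := by
  obtain ⟨⟨c₁, hc₁, h₁⟩, ⟨c₂, hc₂, h₂⟩⟩ := hw
  refine ⟨⟨c₁, hc₁, ?_⟩, ⟨c₂, hc₂, ?_⟩⟩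
  · have e : ((IntermediateField.inclusion
        (FL_le_of_dvd (L := L) (mul_dvd_mul_right hNM ℓ)) w : FL L (M * ℓ)) : LaurentSeries L) =
        (w : LaurentSeries L) := IntermediateField.coe_inclusion _ w
    rw [e]
    exact h₁
  · rw [iota0_inclusion hNM hdeg hdegM hℓ hℓN hℓM w]
    exact h₂

end Cond

section Main

variable {N M q : ℕ} [NeZero N] [NeZero M] [NeZero q]

/-- **(T3), raw form**: the semistable Kummer statement (inertia at `q` moves Kummer elements with
constant reductions at both cusps by constants times `m`-th powers) descends from the good level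
`M q`, `M = lcm N 4` or `lcm N 9`, to level `N q`. -/
theorem inertiaTrivialAt_condSS_of_level
    (hM : M = Nat.lcm N 4 ∨ M = Nat.lcm N 9) (hq : q.Prime) (hqN : ¬ q ∣ N) (hqM : ¬ q ∣ M)
    (hdegN : finrankAlong Qb (heckeAlphaBar Qb N q) = q + 1)
    (hdegM : finrankAlong Qb (heckeAlphaBar Qb M q) = q + 1)
    (A : ValuationSubring Qb) {m : ℕ} (hm : 0 < m)
    (h : InertiaTrivialAt (M * q) A m (CondSS M q hdegM hq hqM A)) :
    InertiaTrivialAt (N * q) A m (CondSS N q hdegN hq hqN A) := by
  refine inertiaTrivialAt_of_level (mul_eq_lcm_or hq hqM hM) A hm (fun w hw => ?_) h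
  exact hw.inclusion hdegN hq hqN A (dvd_of_eq_lcm_or hM) hdegM hqM

end Main

end Fermat.Agent.S34x.LevelGlueSS
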