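/-
P-S34, WP4-inst (helper70): the elements `F_h = β h - (α h₁) ^ q` of the board plan `S34_PLAN`,
idea (N1), in hypothesis style.

`F'` is the function field of level `M`, `F` the one of level `M q`, `α β : F' →+* F` the two
degeneracy maps, `B' ⊆ F'`, `B ⊆ F` the chart rings, `red' : B' → κ` the reduction at level `M`,
`red∞ red₀ : B → κ` the two reductions at level `M q`, and `Φ : κ → κ` the coefficientwise inverse
Frobenius.  The Kronecker congruences (K1) read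

  `red∞ (α h) = red' h`,  `red∞ (β h) = (Φ (red' h)) ^ q`,
  `red₀ (β h) = red' h`,  `red₀ (α h) = (Φ (red' h)) ^ q`.

If moreover `Φ (red' h)` is again a reduction (`hΦ`; either because `B'` is stable under a lift of
the inverse Frobenius of the residue field, or because the reduced chart ring is stable under the
coefficientwise Frobenius and every element of it lifts), then for every `h ∈ B'` there is
`h₂ ∈ B'` and `f ∈ B` with `red∞ f = 0` and `red₀ f = red' h - (red' h₂) ^ (q ^ 2)`.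

`forall_exists_pow_mem` restates this as the hypothesis `hpow` of `Goursat.isReduced_R` (with
`p = q ^ 2`): every element of the second factor is a `q ^ 2`-th power modulo the glueing ideal.
-/
import Mathlib
import Fermat.Agent.S34x.Goursat

set_option autoImplicit false

namespace Fermat.Agent.S34x.NodeInst

section Core

variable {F' F κ : Type*} [CommRing F'] [CommRing F] [CommRing κ]
  (q : ℕ) (α β : F' →+* F) (B' : Subring F') (B : Subring F)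
  (hα : ∀ h ∈ B', α h ∈ B) (hβ : ∀ h ∈ B', β h ∈ B)
  (red' : B' →+* κ) (redInf red0 : B →+* κ) (Φ : κ → κ)

/-- The element `F_h = β h - (α h₁) ^ q` of the chart ring `B`. -/
def glueElt (h h₁ : B') : B :=
  ⟨β h, hβ h h.2⟩ - ⟨α h₁, hα h₁ h₁.2⟩ ^ q

theorem coe_glueElt (h h₁ : B') :
    ((glueElt q α β B' B hα hβ h h₁ : B) : F) = β h - (α h₁) ^ q := rfl

variable {q α β B' B hα hβ red' redInf red0 Φ}

/-- `red∞ F_h = 0` as soon as `red' h₁ = Φ (red' h)`. -/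
theorem redInf_glueElt
    (K1a : ∀ h : B', redInf ⟨α h, hα h h.2⟩ = red' h)
    (K1b : ∀ h : B', redInf ⟨β h, hβ h h.2⟩ = (Φ (red' h)) ^ q)
    {h h₁ : B'} (h1 : red' h₁ = Φ (red' h)) :
    redInf (glueElt q α β B' B hα hβ h h₁) = 0 := by
  rw [glueElt, map_sub, map_pow, K1b, K1a, h1, sub_self]

/-- `red₀ F_h = red' h - (red' h₂) ^ (q ^ 2)` as soon as `red' h₂ = Φ (red' h₁)`. -/
theorem red0_glueElt
    (K1c : ∀ h : B', red0 ⟨β h, hβ h h.2⟩ = red' h)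
    (K1d : ∀ h : B', red0 ⟨α h, hα h h.2⟩ = (Φ (red' h)) ^ q)
    {h h₁ h₂ : B'} (h2 : red' h₂ = Φ (red' h₁)) :
    red0 (glueElt q α β B' B hα hβ h h₁) = red' h - (red' h₂) ^ (q ^ 2) := by
  rw [glueElt, map_sub, map_pow, K1c, K1d, ← h2, ← pow_mul, sq]

/-- **(N1), the elements `F_h`.** -/
theorem exists_glue
    (K1a : ∀ h : B', redInf ⟨α h, hα h h.2⟩ = red' h)
    (K1b : ∀ h : B', redInf ⟨β h, hβ h h.2⟩ = (Φ (red' h)) ^ q)
    (K1c : ∀ h : B', red0 ⟨β h, hβ h h.2⟩ = red' h)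
    (K1d : ∀ h : B', red0 ⟨α h, hα h h.2⟩ = (Φ (red' h)) ^ q)
    (hΦ : ∀ h : B', ∃ h₁ : B', red' h₁ = Φ (red' h)) (h : B') :
    ∃ (h₂ : B') (f : B), redInf f = 0 ∧ red0 f = red' h - (red' h₂) ^ (q ^ 2) := by
  obtain ⟨h₁, h1⟩ := hΦ h
  obtain ⟨h₂, h2⟩ := hΦ h₁
  exact ⟨h₂, glueElt q α β B' B hα hβ h h₁, redInf_glueElt K1a K1b h1,
    red0_glueElt K1c K1d h2⟩

end Core

section Goursat

variable {k F' F κ B1 B2 : Type*} [Field k] [CommRing F'] [CommRing F] [CommRing κ]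
  [CommRing B1] [CommRing B2] [Algebra k B1] [Algebra k B2]
  {q : ℕ} {α β : F' →+* F} {B' : Subring F'} {B : Subring F}
  {hα : ∀ h ∈ B', α h ∈ B} {hβ : ∀ h ∈ B', β h ∈ B}
  {red' : B' →+* κ} {redInf red0 : B →+* κ} {Φ : κ → κ}

/-- **The hypothesis `hpow` of `Goursat.isReduced_R`** (with `p = q ^ 2`).  `Bb ≤ B1 × B2` is the
reduced chart ring of level `M q` inside the product of the two reduced chart rings
`j1 : B1 ↪ κ`, `j2 : B2 ↪ κ`; it contains the pairs of reductions of elements of `B` (`hBb`);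
every element of `B2` is the reduction of an element of `B'` (`hlift`, = (EQ) at level `M`) and
reductions of elements of `B'` lie in `B2` (`hmem`). -/
theorem forall_exists_pow_mem
    (K1a : ∀ h : B', redInf ⟨α h, hα h h.2⟩ = red' h)
    (K1b : ∀ h : B', redInf ⟨β h, hβ h h.2⟩ = (Φ (red' h)) ^ q)
    (K1c : ∀ h : B', red0 ⟨β h, hβ h h.2⟩ = red' h)
    (K1d : ∀ h : B', red0 ⟨α h, hα h h.2⟩ = (Φ (red' h)) ^ q)
    (hΦ : ∀ h : B', ∃ h₁ : B', red' h₁ = Φ (red' h))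
    (Bb : Subalgebra k (B1 × B2)) (j1 : B1 →+* κ) (j2 : B2 →+* κ)
    (hj1 : Function.Injective j1) (hj2 : Function.Injective j2)
    (hBb : ∀ f : B, ∃ x ∈ Bb, j1 x.1 = redInf f ∧ j2 x.2 = red0 f)
    (hlift : ∀ g : B2, ∃ h : B', red' h = j2 g)
    (hmem : ∀ h : B', ∃ g : B2, j2 g = red' h) (g : B2) :
    ∃ g' : B2, ((0 : B1), g - g' ^ (q ^ 2)) ∈ Bb := by
  obtain ⟨h, hh⟩ := hlift g
  obtain ⟨h₂, f, hf1, hf2⟩ :=
    exists_glue (hα := hα) (hβ := hβ) K1a K1b K1c K1d hΦ h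
  obtain ⟨g', hg'⟩ := hmem h₂
  obtain ⟨x, hx, hx1, hx2⟩ := hBb f
  refine ⟨g', ?_⟩
  have e1 : x.1 = 0 := hj1 (by rw [hx1, hf1, map_zero])
  have e2 : x.2 = g - g' ^ (q ^ 2) :=
    hj2 (by rw [hx2, hf2, map_sub, map_pow, hg', hh])
  have : x = ((0 : B1), g - g' ^ (q ^ 2)) := Prod.ext e1 e2
  rwa [this] at hx

/-- **(N1) for the level `M q` chart ring**: the glueing ring `R = B2 ⧸ I2` of `Bb` is reduced,
i.e. the two components of the special fibre cross transversally. -/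
theorem isReduced_R [IsAlgClosed k] (hq : 2 ≤ q)
    (K1a : ∀ h : B', redInf ⟨α h, hα h h.2⟩ = red' h)
    (K1b : ∀ h : B', redInf ⟨β h, hβ h h.2⟩ = (Φ (red' h)) ^ q)
    (K1c : ∀ h : B', red0 ⟨β h, hβ h h.2⟩ = red' h)
    (K1d : ∀ h : B', red0 ⟨α h, hα h h.2⟩ = (Φ (red' h)) ^ q)
    (hΦ : ∀ h : B', ∃ h₁ : B', red' h₁ = Φ (red' h))
    (Bb : Subalgebra k (B1 × B2))
    (h1 : ∀ f : B1, ∃ g : B2, (f, g) ∈ Bb) (h2 : ∀ g : B2, ∃ f : B1, (f, g) ∈ Bb)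
    [Module.Finite k ((B1 × B2) ⧸ Subalgebra.toSubmodule Bb)]
    (j1 : B1 →+* κ) (j2 : B2 →+* κ)
    (hj1 : Function.Injective j1) (hj2 : Function.Injective j2)
    (hBb : ∀ f : B, ∃ x ∈ Bb, j1 x.1 = redInf f ∧ j2 x.2 = red0 f)
    (hlift : ∀ g : B2, ∃ h : B', red' h = j2 g)
    (hmem : ∀ h : B', ∃ g : B2, j2 g = red' h) :
    IsReduced (Goursat.R Bb h2) := by
  have hq2 : 2 ≤ q ^ 2 := by nlinarith
  exact Goursat.isReduced_R Bb h1 h2 (q ^ 2) hq2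
    (forall_exists_pow_mem (hα := hα) (hβ := hβ) K1a K1b K1c K1d hΦ Bb j1 j2 hj1 hj2 hBb
      hlift hmem)

end Goursat

/-! ### Explicit witnesses, both components, and the congruence `(CONG)` of phase 2 -/

section Explicit

variable {k F' F κ B1 B2 : Type*} [Field k] [CommRing F'] [CommRing F] [CommRing κ]
  [CommRing B1] [CommRing B2] [Algebra k B1] [Algebra k B2]
  {q : ℕ} {α β : F' →+* F} {B' : Subring F'} {B : Subring F}
  {hα : ∀ h ∈ B', α h ∈ B} {hβ : ∀ h ∈ B', β h ∈ B}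
  {red' : B' →+* κ} {redInf red0 : B →+* κ} {Φ : κ → κ}

/-- Explicit witness, second component: if `g, g' : B2` are the reductions of `h, h₂ ∈ B'` with
`red' h₂ = Φ (Φ (red' h))` (through `h₁`), then `(0, g - g' ^ (q ^ 2)) ∈ Bb`. -/
theorem zero_pair_mem
    (K1a : ∀ h : B', redInf ⟨α h, hα h h.2⟩ = red' h)
    (K1b : ∀ h : B', redInf ⟨β h, hβ h h.2⟩ = (Φ (red' h)) ^ q)
    (K1c : ∀ h : B', red0 ⟨β h, hβ h h.2⟩ = red' h)
    (K1d : ∀ h : B', red0 ⟨α h, hα h h.2⟩ = (Φ (red' h)) ^ q)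
    (Bb : Subalgebra k (B1 × B2)) (j1 : B1 →+* κ) (j2 : B2 →+* κ)
    (hj1 : Function.Injective j1) (hj2 : Function.Injective j2)
    (hBb : ∀ f : B, ∃ x ∈ Bb, j1 x.1 = redInf f ∧ j2 x.2 = red0 f)
    {h h₁ h₂ : B'} (e1 : red' h₁ = Φ (red' h)) (e2 : red' h₂ = Φ (red' h₁))
    {g g' : B2} (hg : j2 g = red' h) (hg' : j2 g' = red' h₂) :
    ((0 : B1), g - g' ^ (q ^ 2)) ∈ Bb := by
  obtain ⟨x, hx, hx1, hx2⟩ := hBb (glueElt q α β B' B hα hβ h h₁)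
  have e1' : x.1 = 0 := hj1 (by rw [hx1, redInf_glueElt K1a K1b e1, map_zero])
  have e2' : x.2 = g - g' ^ (q ^ 2) :=
    hj2 (by rw [hx2, red0_glueElt K1c K1d e2, map_sub, map_pow, hg', hg])
  have : x = ((0 : B1), g - g' ^ (q ^ 2)) := Prod.ext e1' e2'
  rwa [this] at hx

/-- Explicit witness, first component (the mirrored element `α h - (β h₁) ^ q`): if
`f, f' : B1` are the reductions of `h, h₂ ∈ B'` with `red' h₂ = Φ (Φ (red' h))`, then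
`(f - f' ^ (q ^ 2), 0) ∈ Bb`. -/
theorem pair_zero_mem
    (K1a : ∀ h : B', redInf ⟨α h, hα h h.2⟩ = red' h)
    (K1b : ∀ h : B', redInf ⟨β h, hβ h h.2⟩ = (Φ (red' h)) ^ q)
    (K1c : ∀ h : B', red0 ⟨β h, hβ h h.2⟩ = red' h)
    (K1d : ∀ h : B', red0 ⟨α h, hα h h.2⟩ = (Φ (red' h)) ^ q)
    (Bb : Subalgebra k (B1 × B2)) (j1 : B1 →+* κ) (j2 : B2 →+* κ)
    (hj1 : Function.Injective j1) (hj2 : Function.Injective j2)
    (hBb : ∀ f : B, ∃ x ∈ Bb, j1 x.1 = redInf f ∧ j2 x.2 = red0 f)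
    {h h₁ h₂ : B'} (e1 : red' h₁ = Φ (red' h)) (e2 : red' h₂ = Φ (red' h₁))
    {f f' : B1} (hf : j1 f = red' h) (hf' : j1 f' = red' h₂) :
    (f - f' ^ (q ^ 2), (0 : B2)) ∈ Bb := by
  obtain ⟨x, hx, hx1, hx2⟩ := hBb (glueElt q β α B' B hβ hα h h₁)
  have e2' : x.2 = 0 :=
    hj2 (by rw [hx2, redInf_glueElt (redInf := red0) (hα := hβ) (hβ := hα) K1c K1d e1, map_zero])
  have e1' : x.1 = f - f' ^ (q ^ 2) :=
    hj1 (by
      rw [hx1, red0_glueElt (red0 := redInf) (hα := hβ) (hβ := hα) K1a K1b e2, map_sub, map_pow,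
        hf', hf])
  have : x = (f - f' ^ (q ^ 2), (0 : B2)) := Prod.ext e1' e2'
  rwa [this] at hx

/-- **`(CONG)`, second component** (phase 2): `Ψ` is the coefficientwise Frobenius squared
(`Φ (Φ (Ψ x)) = x`).  If `j2 g = Ψ (j2 y)` then `(0, g - y ^ (q ^ 2)) ∈ Bb`. -/
theorem zero_cong_mem
    (K1a : ∀ h : B', redInf ⟨α h, hα h h.2⟩ = red' h)
    (K1b : ∀ h : B', redInf ⟨β h, hβ h h.2⟩ = (Φ (red' h)) ^ q)
    (K1c : ∀ h : B', red0 ⟨β h, hβ h h.2⟩ = red' h)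
    (K1d : ∀ h : B', red0 ⟨α h, hα h h.2⟩ = (Φ (red' h)) ^ q)
    (hΦ : ∀ h : B', ∃ h₁ : B', red' h₁ = Φ (red' h))
    (Bb : Subalgebra k (B1 × B2)) (j1 : B1 →+* κ) (j2 : B2 →+* κ)
    (hj1 : Function.Injective j1) (hj2 : Function.Injective j2)
    (hBb : ∀ f : B, ∃ x ∈ Bb, j1 x.1 = redInf f ∧ j2 x.2 = red0 f)
    (hlift : ∀ g : B2, ∃ h : B', red' h = j2 g)
    (Ψ : κ → κ) (hΨ : ∀ x, Φ (Φ (Ψ x)) = x) {g y : B2} (hgy : j2 g = Ψ (j2 y)) :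
    ((0 : B1), g - y ^ (q ^ 2)) ∈ Bb := by
  obtain ⟨h, hh⟩ := hlift g
  obtain ⟨h₁, e1⟩ := hΦ h
  obtain ⟨h₂, e2⟩ := hΦ h₁
  refine zero_pair_mem (hα := hα) (hβ := hβ) K1a K1b K1c K1d Bb j1 j2 hj1 hj2 hBb e1 e2 hh.symm ?_
  rw [e2, e1, hh, hgy, hΨ]

/-- **`(CONG)`, first component** (phase 2): if `j1 f = Ψ (j1 y)` then
`(f - y ^ (q ^ 2), 0) ∈ Bb`. -/
theorem cong_zero_mem
    (K1a : ∀ h : B', redInf ⟨α h, hα h h.2⟩ = red' h)
    (K1b : ∀ h : B', redInf ⟨β h, hβ h h.2⟩ = (Φ (red' h)) ^ q)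
    (K1c : ∀ h : B', red0 ⟨β h, hβ h h.2⟩ = red' h)
    (K1d : ∀ h : B', red0 ⟨α h, hα h h.2⟩ = (Φ (red' h)) ^ q)
    (hΦ : ∀ h : B', ∃ h₁ : B', red' h₁ = Φ (red' h))
    (Bb : Subalgebra k (B1 × B2)) (j1 : B1 →+* κ) (j2 : B2 →+* κ)
    (hj1 : Function.Injective j1) (hj2 : Function.Injective j2)
    (hBb : ∀ f : B, ∃ x ∈ Bb, j1 x.1 = redInf f ∧ j2 x.2 = red0 f)
    (hlift : ∀ f : B1, ∃ h : B', red' h = j1 f)
    (Ψ : κ → κ) (hΨ : ∀ x, Φ (Φ (Ψ x)) = x) {f y : B1} (hfy : j1 f = Ψ (j1 y)) :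
    (f - y ^ (q ^ 2), (0 : B2)) ∈ Bb := by
  obtain ⟨h, hh⟩ := hlift f
  obtain ⟨h₁, e1⟩ := hΦ h
  obtain ⟨h₂, e2⟩ := hΦ h₁
  refine pair_zero_mem (hα := hα) (hβ := hβ) K1a K1b K1c K1d Bb j1 j2 hj1 hj2 hBb e1 e2 hh.symm ?_
  rw [e2, e1, hh, hfy, hΨ]

/-- The mirrored form of `forall_exists_pow_mem`: every element of the FIRST factor is a
`q ^ 2`-th power modulo the glueing ideal `I1`. -/
theorem forall_exists_pow_mem'
    (K1a : ∀ h : B', redInf ⟨α h, hα h h.2⟩ = red' h)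
    (K1b : ∀ h : B', redInf ⟨β h, hβ h h.2⟩ = (Φ (red' h)) ^ q)
    (K1c : ∀ h : B', red0 ⟨β h, hβ h h.2⟩ = red' h)
    (K1d : ∀ h : B', red0 ⟨α h, hα h h.2⟩ = (Φ (red' h)) ^ q)
    (hΦ : ∀ h : B', ∃ h₁ : B', red' h₁ = Φ (red' h))
    (Bb : Subalgebra k (B1 × B2)) (j1 : B1 →+* κ) (j2 : B2 →+* κ)
    (hj1 : Function.Injective j1) (hj2 : Function.Injective j2)
    (hBb : ∀ f : B, ∃ x ∈ Bb, j1 x.1 = redInf f ∧ j2 x.2 = red0 f)
    (hlift : ∀ f : B1, ∃ h : B', red' h = j1 f)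
    (hmem : ∀ h : B', ∃ f : B1, j1 f = red' h) (f : B1) :
    ∃ f' : B1, (f - f' ^ (q ^ 2), (0 : B2)) ∈ Bb := by
  obtain ⟨h, hh⟩ := hlift f
  obtain ⟨h₁, e1⟩ := hΦ h
  obtain ⟨h₂, e2⟩ := hΦ h₁
  obtain ⟨f', hf'⟩ := hmem h₂
  exact ⟨f', pair_zero_mem (hα := hα) (hβ := hβ) K1a K1b K1c K1d Bb j1 j2 hj1 hj2 hBb e1 e2
    hh.symm hf'⟩

end Explicit

end Fermat.Agent.S34x.NodeInst
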