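import Fermat.Agent.S34x.Saturation
import Fermat.Agent.S34x.ReesFG

/-!
# P-S34, WP-UB: saturation, unconditional form

helper26.  `Saturation.exists_saturation_of_rees` with its hypothesis `hrees` discharged by
helper7's `ReesFG.exists_forall_succ_eq_add`: the reductions `red ρ (L b)` lie in a filtration
`P b` of `Ω` by finite-dimensional `k`-subspaces with `P (b+1) = P b + T P b` for `b ≥ b₀`
(`T = ρ t`), e.g. the Riemann-Roch spaces of the normalised special fibre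
(`Lattice2/Dim.Pb_eq_sup_map`).
-/

set_option autoImplicit false
set_option linter.unusedSectionVars false

noncomputable section

namespace Fermat.Agent.S34x.Saturation

open IsLocalRing

variable {A : Type*} [CommRing A] [IsLocalRing A]
variable {O : Type*} [CommRing O] [Algebra A O]
variable {Ω : Type*} [CommRing Ω] [Algebra A Ω] [Algebra (ResidueField A) Ω]
  [IsScalarTower A (ResidueField A) Ω]
variable (ρ : O →ₐ[A] Ω) (t : Oˣ) {L : ℕ → Submodule A O}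

/-- The Rees-module step (F1) for the reductions `red ρ (L b)`. -/
theorem exists_rees (hmono : Monotone L) (htL : ∀ b, ∀ f ∈ L b, (t : O) * f ∈ L (b + 1))
    (P : ℕ → Submodule (ResidueField A) Ω) (hPmono : Monotone P)
    (hTP : ∀ b, ∀ p ∈ P b, ρ (t : O) * p ∈ P (b + 1))
    (hPfin : ∀ b, Module.Finite (ResidueField A) (P b))
    (hLP : ∀ b, ∀ f ∈ L b, ρ f ∈ P b) (b₀ : ℕ)
    (hP : ∀ b, b₀ ≤ b → ∀ p ∈ P (b + 1), ∃ p₁ ∈ P b, ∃ p₂ ∈ P b, p = p₁ + ρ (t : O) * p₂) :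
    ∃ b1, ∀ b, b1 ≤ b → ∀ v ∈ red ρ (L (b + 1)),
      ∃ v₁ ∈ red ρ (L b), ∃ v₂ ∈ red ρ (L b), v = v₁ + ρ (t : O) * v₂ := by
  refine ReesFG.exists_forall_succ_eq_add (ρ (t : O)) P (fun b => red ρ (L b)) hPmono
    (fun b b' h => red_mono ρ (hmono h)) (fun b => ?_) hTP (fun b => ?_) hPfin b₀ hP
  · rintro _ ⟨f, hf, rfl⟩
    exact hLP b f hf
  · rintro _ ⟨f, hf, rfl⟩
    exact ⟨(t : O) * f, htL b f hf, map_mul ρ _ _⟩

/-- **Saturation, unconditional form** (S1)+(S2)+(S3): there is `b1` such that for all `b ≥ b1`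
* `L (b+1) = L b ⊔ t • L b`,
* `t⁻ᵃ • L c ≤ B ⊔ tᵇ • B'` for all `a c`, and `Bx = B ⊔ tᵇ • B'`,
* if `B ⊓ tᵇ • B' ≤ L b` and `ker ρ ∩ Bx = 𝔪 • Bx` then `ρ B ⊓ ρ (tᵇ • B') ≤ ρ (L b)`. -/
theorem exists_saturation (hmono : Monotone L)
    (htL : ∀ b, ∀ f ∈ L b, (t : O) * f ∈ L (b + 1)) (hfg : ∀ b, (L b).FG)
    (hker : ∀ b, ∀ f ∈ L b, ρ f = 0 → f ∈ maximalIdeal A • L b)
    (P : ℕ → Submodule (ResidueField A) Ω) (hPmono : Monotone P)
    (hTP : ∀ b, ∀ p ∈ P b, ρ (t : O) * p ∈ P (b + 1))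
    (hPfin : ∀ b, Module.Finite (ResidueField A) (P b))
    (hLP : ∀ b, ∀ f ∈ L b, ρ f ∈ P b) (b₀ : ℕ)
    (hP : ∀ b, b₀ ≤ b → ∀ p ∈ P (b + 1), ∃ p₁ ∈ P b, ∃ p₂ ∈ P b, p = p₁ + ρ (t : O) * p₂) :
    ∃ b1 : ℕ,
      (∀ b, b1 ≤ b → L (b + 1) = L b ⊔ tw A t 1 (L b)) ∧
      (∀ b, b1 ≤ b → ∀ a c : ℕ,
        tw A t (-(a : ℤ)) (L c) ≤ chartB L ⊔ tw A t b (chartB' t L)) ∧
      (∀ b, b1 ≤ b → chartBx t L = chartB L ⊔ tw A t b (chartB' t L)) ∧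
      (∀ b, b1 ≤ b → chartB L ⊓ tw A t b (chartB' t L) ≤ L b →
        (∀ z ∈ chartBx t L, ρ z = 0 → z ∈ maximalIdeal A • chartBx t L) →
        red ρ (chartB L) ⊓ red ρ (tw A t b (chartB' t L)) ≤ red ρ (L b)) :=
  exists_saturation_of_rees ρ t hmono htL hfg hker
    (exists_rees ρ t hmono htL P hPmono hTP hPfin hLP b₀ hP)

end Fermat.Agent.S34x.Saturation
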