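/-
P-S34 (T4)/(T6) glue (helper43): Theorem B for a twisted family, phase-1 form.

The case `Q = 1`, `e = 1`, `i' = m - 1`, `φ = id`, `θ = id`, `φV = id` of
`S35x/SigmaNbar.exists_const_mul_pow_of_twistFam`: for `R : RedSetup2 A S k (κ₁ × κ₂)`, a chart
coordinate `C`, a twisted family `W : TwistFam C m` with `W.L 1 a b = T.LM Dw a b`,
`W.L (m-1) a b = T.LM ((m-1) • Dw) a b` (e.g. `TwistFam.ofDivisor`), `σ` with `res ∘ σ = res`
preserving `O` and all `L(a C₀ + b C∞)`, and on BOTH charts `C`, `C.swap`: (L2), the node condition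
(N1) and the codimension bounds for `N_1`, `N_{m-1}`:   `σ w / w = c v ^ m`.
-/
import Fermat.Agent.S35x.SigmaNbar

set_option autoImplicit false
set_option linter.unusedSectionVars false

noncomputable section

namespace Fermat.Agent.S34x.TheoremBTwist

open Module AlgebraicCurve IntermediateField
open Fermat.Agent.Gateway.C0 Fermat.Agent.S34x Fermat.Agent.S34x.C0two Fermat.Agent.S34x.Lattice2

variable {K : Type*} [Field K] [IsAlgClosed K] [CharZero K] {A : ValuationSubring K}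
  {F : Type*} [Field F] [Algebra K F] {S : SmallRing F}
  {k κ₁ κ₂ : Type*} [Field k] [IsAlgClosed k] [CommRing κ₁] [CommRing κ₂] [Algebra k κ₁]
  [Algebra k κ₂] [Nontrivial (κ₁ × κ₂)]
  (R : RedSetup2 A S k (κ₁ × κ₂))
  {t : F} (ht : Transcendental K t) [FiniteDimensional K⟮t⟯ F]
  {Dt : Divisor K F} (hDt : ∀ v : Place K F, Dt v = v.ord t)
  (htO : t ∈ S.O) (htiO : t⁻¹ ∈ S.O)
  (hcart : ∀ V : Submodule K F, FiniteDimensional K V → (R.lat V).FG)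
  (P : ℕ → Submodule k (κ₁ × κ₂)) [∀ b, FiniteDimensional k (P b)] {b₀ : ℕ}
  (hgen : ∀ b, b₀ ≤ b → ∀ x ∈ P (b + 1), ∃ y ∈ P b, ∃ z ∈ P b, x = y + R.res ⟨t, htO⟩ * z)
  {m : ℕ}
  (hSC : ∀ (b : ℕ) (f : F) (hf : f ∈ S.O), f ∈ (TwoCharts.ofDivisor Dt).LN 0 b →
    R.res ⟨f, hf⟩ ∈ P b)
  (hrad : ∀ (b : ℕ) (x : κ₁ × κ₂), x ^ m ∈ P (m * b) → x ∈ P b)
  (hmA : IsUnit ((m : ℕ) : A))
  {σ : F →+* F}
  (hσLN : ∀ (a b : ℕ) (x : F), x ∈ (TwoCharts.ofDivisor Dt).LN a b →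
    σ x ∈ (TwoCharts.ofDivisor Dt).LN a b)
  (hσO : ∀ x ∈ S.O, σ x ∈ S.O)
  (hσres : ∀ (f : F) (hf : f ∈ S.O), R.res ⟨σ f, hσO f hf⟩ = R.res ⟨f, hf⟩)
  {w : F} (hw0 : w ≠ 0) (hwO : w ∈ S.O) (hw1 : R.res ⟨w, hwO⟩ = 1)
  {Dw : Divisor K F} (hDw : ∀ v : Place K F, (m : ℤ) * Dw v = v.ord w)
  (hdiv : ∀ v : Place K F, (m : ℤ) ∣ v.ord (σ w))
  (huO : σ w / w ∈ S.O) (hu1 : R.res ⟨σ w / w, huO⟩ = 1)

include ht hDt htiO hcart hgen hSC hrad hmA hσLN hσres hw0 hw1 hDw hdiv hu1 in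
/-- **Theorem B for a twisted family** (phase 1: `res ∘ σ = res`). -/
theorem exists_const_mul_pow_of_twistFam (hm : 0 < m) {C : ChartCoord R} (W : TwistFam C m)
    (hW1 : ∀ a b, W.L 1 a b = (TwoCharts.ofDivisor Dt).LM Dw a b)
    (hWi : ∀ a b, W.L (m - 1) a b = (TwoCharts.ofDivisor Dt).LM ((m - 1) • Dw) a b)
    -- chart `∞`
    (hL2 : C.IsL2)
    [Module.Finite k ((C.B₁ × C.B₂) ⧸ Subalgebra.toSubmodule C.BbarT)]
    {p : ℕ} (hp : 2 ≤ p)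
    (hN1 : ∀ g : C.B₂, ∃ g' : C.B₂, ((0 : C.B₁), g - g' ^ p) ∈ C.BbarT)
    [Module.Finite k ((C.B₁ × C.B₂) ⧸ W.NbarT 1)]
    [Module.Finite k ((C.B₁ × C.B₂) ⧸ W.NbarT (m - 1))]
    (hcodim : finrank k ((C.B₁ × C.B₂) ⧸ W.NbarT 1) ≤
      finrank k ((C.B₁ × C.B₂) ⧸ Subalgebra.toSubmodule C.BbarT))
    (hcodim' : finrank k ((C.B₁ × C.B₂) ⧸ W.NbarT (m - 1)) ≤
      finrank k ((C.B₁ × C.B₂) ⧸ Subalgebra.toSubmodule C.BbarT))
    -- chart `0`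
    (hL2₀ : C.swap.IsL2)
    [Module.Finite k ((C.swap.B₁ × C.swap.B₂) ⧸ Subalgebra.toSubmodule C.swap.BbarT)]
    {p₀ : ℕ} (hp₀ : 2 ≤ p₀)
    (hN1₀ : ∀ g : C.swap.B₂, ∃ g' : C.swap.B₂, ((0 : C.swap.B₁), g - g' ^ p₀) ∈ C.swap.BbarT)
    [Module.Finite k ((C.swap.B₁ × C.swap.B₂) ⧸ W.swap.NbarT 1)]
    [Module.Finite k ((C.swap.B₁ × C.swap.B₂) ⧸ W.swap.NbarT (m - 1))]
    (hcodim₀ : finrank k ((C.swap.B₁ × C.swap.B₂) ⧸ W.swap.NbarT 1) ≤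
      finrank k ((C.swap.B₁ × C.swap.B₂) ⧸ Subalgebra.toSubmodule C.swap.BbarT))
    (hcodim₀' : finrank k ((C.swap.B₁ × C.swap.B₂) ⧸ W.swap.NbarT (m - 1)) ≤
      finrank k ((C.swap.B₁ × C.swap.B₂) ⧸ Subalgebra.toSubmodule C.swap.BbarT)) :
    ∃ (c : K) (v : F), σ w / w = algebraMap K F c * v ^ m := by
  have hQ : m * 1 = 1 + (m - 1) := by omega
  have huO' : σ w / w ^ 1 ∈ S.O := by rw [pow_one]; exact huO
  have hu1' : R.res ⟨σ w / w ^ 1, huO'⟩ = 1 := by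
    rw [← hu1]
    exact res_congr R (by rw [pow_one]) _ _
  have key := S35x.SigmaNbar.exists_const_mul_pow_of_twistFam R ht hDt htO htiO hcart P hgen hSC
    hrad hmA hσLN hσO hw0 hwO hw1 hDw hdiv hQ huO' hu1' (RingEquiv.refl k) (RingHom.id _)
    (fun _ _ => rfl) (fun f hf => hσres f hf) hm W hW1 hWi
    hL2 hp hN1 hcodim hcodim' (RingHom.id _) Function.surjective_id (fun _ _ => rfl)
    (fun _ => rfl) (fun y hy => hy)
    (fun z => by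
      have e0 : (RingHom.id (C.B₁ × C.B₂)) z - z ^ 1 = 0 := by simp
      rw [e0]
      exact ⟨C.BbarT.zero_mem, C.BbarT.zero_mem⟩)
    hL2₀ hp₀ hN1₀ hcodim₀ hcodim₀' (RingHom.id _) Function.surjective_id (fun _ _ => rfl)
    (fun _ => rfl) (fun y hy => hy)
    (fun z => by
      have e0 : (RingHom.id (C.swap.B₁ × C.swap.B₂)) z - z ^ 1 = 0 := by simp
      rw [e0]
      exact ⟨C.swap.BbarT.zero_mem, C.swap.BbarT.zero_mem⟩)
  simpa only [pow_one] using key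

end Fermat.Agent.S34x.TheoremBTwist
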