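/-
P-S34 (I8), abstract final assembly (helper43): Theorem B from the raw outputs of the `Inst/` files.

`TheoremBTwist.exists_const_mul_pow_of_twistFam` (chart-level Theorem B) fed with
`TwistFam.ofDivisor` (helper50, `Lattice2/OfDivisor.lean`) and the codimension bounds
`TwistFam.codim_main_of_isL2` (helper7, `Lattice2/UBBridge.lean`).  The hypothesis list is the
union of the outputs of (I1)-(I7):

* `R : RedSetup2 A S k (κ₁ × κ₂)`, `C : ChartCoord R` (`t = C.t` transcendental), cartesian (G0);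
* `P b = C.Pk 0 b` finite-dimensional, generated in degree one from `b₀` on;
* (L2) for `C` and `C.swap`, the two cusp-separating elements, (N1) `hN1` on both charts;
* the counts `dim P b = dim red Lam(b C∞) + δ`, `dim P b ≤ dim red Lam(i D_w + b C∞) + δ`
  (`i = 1, m - 1`);
* `σ : F →+* F` preserving `O` and all `L(a C₀ + b C∞)`, `res ∘ σ = res`;
  `w` a unit of `O` with `res w = 1`, `div w = m D_w`, `m ∣ div (σ w)`.
Conclusion: `σ w / w = c v ^ m`.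
-/
import Fermat.Agent.S34x.TheoremBTwist
import Fermat.Agent.S34x.Lattice2.OfDivisor
import Fermat.Agent.S34x.Lattice2.UBBridge

set_option autoImplicit false
set_option linter.unusedSectionVars false

noncomputable section

namespace Fermat.Agent.S34x.TheoremBAssemble

open Module AlgebraicCurve IntermediateField
open Fermat.Agent.Gateway.C0 Fermat.Agent.S34x Fermat.Agent.S34x.C0two Fermat.Agent.S34x.Lattice2

variable {K : Type*} [Field K] [IsAlgClosed K] [CharZero K] {A : ValuationSubring K}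
  {F : Type*} [Field F] [Algebra K F] {S : SmallRing F}
  {k κ₁ κ₂ : Type*} [Field k] [IsAlgClosed k] [CommRing κ₁] [CommRing κ₂] [Algebra k κ₁]
  [Algebra k κ₂] [Nontrivial (κ₁ × κ₂)]
  {R : RedSetup2 A S k (κ₁ × κ₂)} (C : ChartCoord R)
  (ht : Transcendental K C.t) [FiniteDimensional K⟮C.t⟯ F] [Algebra.IsSeparable K⟮C.t⟯ F]
  {Dt : Divisor K F} (hDt : ∀ v : Place K F, Dt v = v.ord C.t)
  (hcart : ∀ V : Submodule K F, FiniteDimensional K V → (R.lat V).FG)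
  (hPfin : ∀ b, Module.Finite k (C.Pk 0 b)) (b₀ : ℕ)
  (hP : ∀ b, b₀ ≤ b → ∀ p ∈ C.Pk 0 (b + 1), ∃ p₁ ∈ C.Pk 0 b, ∃ p₂ ∈ C.Pk 0 b,
    p = p₁ + C.T * p₂)
  {m : ℕ} (hmA : IsUnit ((m : ℕ) : A))
  {σ : F →+* F}
  (hσLN : ∀ (a b : ℕ) (x : F), x ∈ (TwoCharts.ofDivisor Dt).LN a b →
    σ x ∈ (TwoCharts.ofDivisor Dt).LN a b)
  (hσO : ∀ x ∈ S.O, σ x ∈ S.O)
  (hσres : ∀ (f : F) (hf : f ∈ S.O), R.res ⟨σ f, hσO f hf⟩ = R.res ⟨f, hf⟩)
  {w : F} (hw0 : w ≠ 0) (hwO : w ∈ S.O) (hwiO : w⁻¹ ∈ S.O) (hw1 : R.res ⟨w, hwO⟩ = 1)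
  {Dw : Divisor K F} (hDw : ∀ v : Place K F, (m : ℤ) * Dw v = v.ord w)
  (hdiv : ∀ v : Place K F, (m : ℤ) ∣ v.ord (σ w))

include hσres hw0 hwiO hw1 in
/-- `σ w / w ∈ O` reduces to `1`. -/
theorem res_sigma_div_self : ∃ huO : σ w / w ∈ S.O, R.res ⟨σ w / w, huO⟩ = 1 := by
  have hgwO : σ w ∈ S.O := hσO w hwO
  have huO : σ w / w ∈ S.O := by
    rw [div_eq_mul_inv]
    exact S.O.mul_mem hgwO hwiO
  refine ⟨huO, ?_⟩
  have h1 : (⟨σ w / w, huO⟩ : S.O) = ⟨σ w, hgwO⟩ * ⟨w⁻¹, hwiO⟩ :=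
    Subtype.ext (div_eq_mul_inv _ _)
  have h2 : (⟨w, hwO⟩ : S.O) * ⟨w⁻¹, hwiO⟩ = 1 := Subtype.ext (mul_inv_cancel₀ hw0)
  have h3 : R.res ⟨w⁻¹, hwiO⟩ = 1 := by
    have := congrArg R.res h2
    rwa [map_mul, map_one, hw1, one_mul] at this
  rw [h1, map_mul, hσres w hwO, hw1, h3, one_mul]

include ht hDt hcart hPfin hP hmA hσLN hσres hw0 hwiO hw1 hDw hdiv in
/-- **Theorem B, abstract final assembly (phase 1).** -/
theorem exists_const_mul_pow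
    (hL2 : C.IsL2) (hL2' : C.swap.IsL2)
    (he : ∃ c : κ₂, IsIntegral (Algebra.adjoin k {C.T.2}) c ∧ ((1 : κ₁), c * C.T.2) ∈ C.Bbar)
    (he' : ∃ c : κ₂, IsIntegral (Algebra.adjoin k {C.Ti.2}) c ∧
      ((1 : κ₁), c * C.Ti.2) ∈ C.swap.Bbar)
    {p : ℕ} (hp : 2 ≤ p)
    (hN1 : ∀ g : C.B₂, ∃ g' : C.B₂, ((0 : C.B₁), g - g' ^ p) ∈ C.BbarT)
    {p₀ : ℕ} (hp₀ : 2 ≤ p₀)
    (hN1₀ : ∀ g : C.swap.B₂, ∃ g' : C.swap.B₂, ((0 : C.swap.B₁), g - g' ^ p₀) ∈ C.swap.BbarT)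
    (δ b₂ : ℕ)
    (hdimS : ∀ b, b₂ ≤ b → finrank k (C.Pk 0 b) = finrank k (R.redLat (C.LN 0 b)) + δ)
    (hdimN : ∀ b, b₂ ≤ b → finrank k (C.Pk 0 b) ≤
      finrank k (R.redLat ((TwoCharts.ofDivisor Dt).LM Dw 0 b)) + δ)
    (hdimN' : ∀ b, b₂ ≤ b → finrank k (C.Pk 0 b) ≤
      finrank k (R.redLat ((TwoCharts.ofDivisor Dt).LM ((m - 1) • Dw) 0 b)) + δ) :
    ∃ (c : K) (v : F), σ w / w = algebraMap K F c * v ^ m := by
  have hm : 0 < m := by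
    rcases Nat.eq_zero_or_pos m with h | h
    · exfalso
      subst h
      rw [Nat.cast_zero] at hmA
      exact not_isUnit_zero hmA
    · exact h
  obtain ⟨huO, hu1⟩ := res_sigma_div_self hσO hσres hw0 hwO hwiO hw1
  let W : TwistFam C m := TwistFam.ofDivisor C ht hDt Dw hw0 hwO hwiO hw1 hDw
  have hW1 : ∀ a b, W.L 1 a b = (TwoCharts.ofDivisor Dt).LM Dw a b :=
    fun a b => TwistFam.ofDivisor_L_one C ht hDt Dw hw0 hwO hwiO hw1 hDw a b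
  have hWi : ∀ a b, W.L (m - 1) a b = (TwoCharts.ofDivisor Dt).LM ((m - 1) • Dw) a b :=
    fun a b => rfl
  have hcartLN : ∀ b, (R.lat (C.LN 0 b)).FG := by
    intro b
    rw [← LN_eq C ht hDt]
    exact hcart _ ((TwoCharts.ofDivisor Dt).LN_finite ht 0 b)
  have hdimN1 : ∀ b, b₂ ≤ b → finrank k (C.Pk 0 b) ≤ finrank k (R.redLat (W.L 1 0 b)) + δ := by
    intro b hb
    rw [hW1]
    exact hdimN b hb
  obtain ⟨⟨hf1, hfB, -, hc1⟩, ⟨hf1', hfB', -, hc1'⟩⟩ := W.codim_main_of_isL2 hm hcartLN hPfin b₀ hP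
    hL2 hL2' he he' δ b₂ hdimS 1 hdimN1
  obtain ⟨⟨hf2, -, -, hc2⟩, ⟨hf2', -, -, hc2'⟩⟩ := W.codim_main_of_isL2 hm hcartLN hPfin b₀ hP
    hL2 hL2' he he' δ b₂ hdimS (m - 1) hdimN'
  have : ∀ b, FiniteDimensional k ((fun b => C.Pk 0 b) b) := hPfin
  have hSC : ∀ (b : ℕ) (f : F) (hf : f ∈ S.O), f ∈ (TwoCharts.ofDivisor Dt).LN 0 b →
      R.res ⟨f, hf⟩ ∈ (fun b => C.Pk 0 b) b := by
    intro b f hf hfL
    rw [LN_eq C ht hDt] at hfL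
    exact C.SC 0 b f hf hfL
  have hrad : ∀ (b : ℕ) (x : κ₁ × κ₂), x ^ m ∈ (fun b => C.Pk 0 b) (m * b) →
      x ∈ (fun b => C.Pk 0 b) b := by
    intro b x hx
    refine twoPole_radical hm 0 b x ?_
    rw [Nat.mul_zero]
    exact hx
  exact TheoremBTwist.exists_const_mul_pow_of_twistFam R ht hDt C.t_mem C.tinv_mem hcart
    (fun b => C.Pk 0 b) hP hSC hrad hmA hσLN hσO hσres hw0 hwO hw1 hDw hdiv huO hu1 hm W hW1 hWi
    hL2 hp hN1 hc1 hc2 hL2' hp₀ hN1₀ hc1' hc2'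

end Fermat.Agent.S34x.TheoremBAssemble
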