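import Fermat.Agent.S34x.ChartOK
import Fermat.Agent.S34x.Normalise
import Fermat.Agent.S34x.TwoVal.GaloisRed

/-!
# P-S34 (T4), Kummer layer: `KummerInertiaTrivial` from one list of hypotheses

Level `N * l` (`l ∤ N` prime, the residue characteristic), `F := FL L (N * l)`, the two Gauss rings
`Ov_∞ := Ov A π (FBar L (N * l))`, `Ov0` (helper44) with their reductions `redV`, `red0` into
`k((t))`, `g_τ := arithmeticGalois (modularFunctionFieldFull (N * l)) τ`.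

* `kummerInertiaTrivial_of_normalised` (K1): from a residue setup
  `R : RedSetup2 A S k (κ₁ × κ₂)` on `F` with `S.O = Ov_∞ ⊓ Ov0` and `R.res` compatible with
  `(redV, red0)` on constants, the normalisation inputs of `S34x/Normalise.lean`, and **Theorem B
  for normalised functions** (`hB`: `g_τ • w' / w' = c v ^ m` for `w'` a unit of `S.O` with
  `res w' = 1`, `m ∣ div w'`), deduce the body of `KummerSS.KummerInertiaTrivial` (Ov-form):
  the same conclusion for every `w` with nonzero CONSTANT reductions `(c₁, c₂)`.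
* `ChartBase`, `ChartOK`: the `w`-independent and the `w`-dependent inputs of (N2)+(N3) on one
  chart, exactly the hypotheses of `TheoremBInst.exists_const_mul_pow_of_charts`.
* `normalised_of_charts` (K2): `hB` from the chart inputs.
* `kummerInertiaTrivial_of_charts`: (K1) ∘ (K2).
-/

set_option autoImplicit false
set_option linter.unusedSectionVars false
set_option linter.style.haveILetI false

noncomputable section

namespace Fermat.Agent.S34x.TheoremBInstK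

open ModularCurve AlgebraicCurve IntermediateField Module HahnSeries
open Fermat.Agent.Gateway.Hecke Fermat.Agent.Gateway.Red Fermat.Agent.Gateway.GoodRed
open Fermat.Agent.Gateway.C0 Fermat.Agent.S34x.C0two Fermat.Agent.S34x.TwoVal

/-! ### (K1) from normalised functions to functions with constant reductions -/

section K1

variable {L : Type} [Field L] [Algebra ℚ L] [IsAlgClosed L] (N l : ℕ) [NeZero N] [NeZero l]
  (hdeg : finrankAlong L (heckeAlphaBar L N l) = l + 1) (hl : l.Prime) (hlN : ¬ l ∣ N)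
  (A : ValuationSubring L) {k : Type} [Field k] [IsAlgClosed k] (π : A →+* k)
  {S : SmallRing (FL L (N * l))} {κ₁ κ₂ : Type*} [Field κ₁] [Field κ₂] [Algebra k κ₁]
  [Algebra k κ₂] (R : RedSetup2 A S k (κ₁ × κ₂))

/-- **(K1).**  Theorem B for normalised functions implies the body of `KummerInertiaTrivial`. -/
theorem kummerInertiaTrivial_of_normalised {m : ℕ} (hm : 0 < m)
    (hS : ∀ x : FL L (N * l), x ∈ S.O ↔
      x ∈ Ov A π (FBar L (N * l)) ∧ x ∈ Ov0 A π N l hdeg hl hlN)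
    (hconst : ∀ (x : FL L (N * l)) (hx : x ∈ S.O) (c₁ c₂ : k),
      redV A π (FBar L (N * l)) ⟨x, ((hS x).mp hx).1⟩ = C c₁ →
      red0 A π N l hdeg hl hlN ⟨x, ((hS x).mp hx).2⟩ = C c₂ →
      R.res ⟨x, hx⟩ = (algebraMap k κ₁ c₁, algebraMap k κ₂ c₂))
    (hinv : ∀ x : S.O, (R.res x).1 ≠ 0 → (R.res x).2 ≠ 0 → ((x : FL L (N * l)))⁻¹ ∈ S.O)
    (hsep : ∃ s : S.O, R.res s = (0, 1))
    (hB : ∀ τ ∈ A.inertiaSubgroupIn ℚ, ∀ w' : FL L (N * l), w' ≠ 0 → ∀ hO : w' ∈ S.O,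
      w'⁻¹ ∈ S.O → R.res ⟨w', hO⟩ = 1 →
      (∀ P : Place L (FL L (N * l)), (m : ℤ) ∣ P.ord w') →
      ∃ (c : L) (v : FL L (N * l)),
        (arithmeticGalois (modularFunctionFieldFull (N * l)) τ • w') / w' =
          algebraMap L (FL L (N * l)) c * v ^ m)
    (w : FL L (N * l)) (hw0 : w ≠ 0)
    (hdiv : ∀ P : Place L (FL L (N * l)), (m : ℤ) ∣ P.ord w)
    (h₁ : ∃ c₁ : k, c₁ ≠ 0 ∧ ∃ hw : w ∈ Ov A π (FBar L (N * l)),
      redV A π (FBar L (N * l)) ⟨w, hw⟩ = C c₁)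
    (h₂ : ∃ c₂ : k, c₂ ≠ 0 ∧ ∃ hw : w ∈ Ov0 A π N l hdeg hl hlN,
      red0 A π N l hdeg hl hlN ⟨w, hw⟩ = C c₂)
    (τ : L ≃ₐ[ℚ] L) (hτ : τ ∈ A.inertiaSubgroupIn ℚ) :
    ∃ (c : L) (v : FL L (N * l)),
      (arithmeticGalois (modularFunctionFieldFull (N * l)) τ • w) / w =
        algebraMap L (FL L (N * l)) c * v ^ m := by
  obtain ⟨c₁, hc₁, hw₁, hred₁⟩ := h₁
  obtain ⟨c₂, hc₂, hw₂, hred₂⟩ := h₂
  have hwO : w ∈ S.O := (hS w).mpr ⟨hw₁, hw₂⟩
  have hres := hconst w hwO c₁ c₂ hred₁ hred₂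
  obtain ⟨e, he0, heO, heiO, hwe, hwe1⟩ :=
    Normalise.exists_normalise R hinv hsep hm hwO hc₁ hc₂ hres
  set w' : FL L (N * l) := w / e ^ m with hw'
  have hw'0 : w' ≠ 0 := Normalise.div_pow_ne_zero hw0 he0 m
  have hw'i : w'⁻¹ ∈ S.O := by
    apply hinv ⟨w', hwe⟩
    · rw [hwe1]; exact one_ne_zero
    · rw [hwe1]; exact one_ne_zero
  obtain ⟨c, v, hcv⟩ := hB τ hτ w' hw'0 hwe hw'i hwe1
    (fun P => Normalise.dvd_ord_div_pow P hw0 he0 m (hdiv P))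
  exact ⟨c, _, Normalise.smul_div_self_eq_const_mul_pow
    (arithmeticGalois (modularFunctionFieldFull (N * l)) τ) hw0 he0 m hcv⟩

end K1

/-! ### (K1) ∘ (K2): `KummerInertiaTrivial` from the chart inputs -/

section Final

variable {L : Type} [Field L] [Algebra ℚ L] [IsAlgClosed L] (N l : ℕ) [NeZero N] [NeZero l]
  (hdeg : finrankAlong L (heckeAlphaBar L N l) = l + 1) (hl : l.Prime) (hlN : ¬ l ∣ N)
  (A : ValuationSubring L) {k : Type} [Field k] [IsAlgClosed k] (π : A →+* k)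
  {S : SmallRing (FL L (N * l))} {κ₁ κ₂ : Type*} [Field κ₁] [Field κ₂] [Algebra k κ₁]
  [Algebra k κ₂] (R : RedSetup2 A S k (κ₁ × κ₂))

/-- The inertia group preserves `S.O = Ov_∞ ⊓ Ov0` ((K2), helper60's `GaloisRed`). -/
theorem smul_mem_O_of_mem_inertia (hπ : Function.Surjective π)
    (hS : ∀ x : FL L (N * l), x ∈ S.O ↔
      x ∈ Ov A π (FBar L (N * l)) ∧ x ∈ Ov0 A π N l hdeg hl hlN)
    {τ : L ≃ₐ[ℚ] L} (hτ : τ ∈ A.inertiaSubgroupIn ℚ) (f : FL L (N * l)) (hf : f ∈ S.O) :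
    arithmeticGalois (modularFunctionFieldFull (N * l)) τ • f ∈ S.O := by
  obtain ⟨h1, -⟩ := redV_smul_of_mem_inertia A π (N * l) hπ hτ ((hS f).mp hf).1
  obtain ⟨h2, -⟩ := red0_smul_of_mem_inertia A π N l hdeg hl hlN hπ hτ ((hS f).mp hf).2
  exact (hS _).mpr ⟨h1, h2⟩

/-- The inertia group acts trivially on the reductions ((K2)). -/
theorem res_smul_of_mem_inertia (hπ : Function.Surjective π)
    (hS : ∀ x : FL L (N * l), x ∈ S.O ↔
      x ∈ Ov A π (FBar L (N * l)) ∧ x ∈ Ov0 A π N l hdeg hl hlN)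
    (hext : ∀ (x y : FL L (N * l)) (hx : x ∈ S.O) (hy : y ∈ S.O),
      redV A π (FBar L (N * l)) ⟨x, ((hS x).mp hx).1⟩ =
        redV A π (FBar L (N * l)) ⟨y, ((hS y).mp hy).1⟩ →
      red0 A π N l hdeg hl hlN ⟨x, ((hS x).mp hx).2⟩ =
        red0 A π N l hdeg hl hlN ⟨y, ((hS y).mp hy).2⟩ →
      R.res ⟨x, hx⟩ = R.res ⟨y, hy⟩)
    {τ : L ≃ₐ[ℚ] L} (hτ : τ ∈ A.inertiaSubgroupIn ℚ) (f : FL L (N * l)) (hf : f ∈ S.O) :
    R.res ⟨arithmeticGalois (modularFunctionFieldFull (N * l)) τ • f,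
        smul_mem_O_of_mem_inertia N l hdeg hl hlN A π hπ hS hτ f hf⟩ = R.res ⟨f, hf⟩ := by
  obtain ⟨h1, e1⟩ := redV_smul_of_mem_inertia A π (N * l) hπ hτ ((hS f).mp hf).1
  obtain ⟨h2, e2⟩ := red0_smul_of_mem_inertia A π N l hdeg hl hlN hπ hτ ((hS f).mp hf).2
  exact hext _ _ _ _ e1 e2

variable
  {t : FL L (N * l)} (ht : Transcendental L t) [FiniteDimensional L⟮t⟯ (FL L (N * l))]
  {Dt : Divisor L (FL L (N * l))} (hDt : ∀ v : Place L (FL L (N * l)), Dt v = v.ord t)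
  (htO : t ∈ S.O) (htiO : t⁻¹ ∈ S.O)
  (hcart : Cartesian R)
  (P : ℕ → Submodule k (κ₁ × κ₂)) [∀ b, FiniteDimensional k (P b)] {b₀ : ℕ}
  (hgen : ∀ b, b₀ ≤ b → ∀ x ∈ P (b + 1), ∃ y ∈ P b, ∃ z ∈ P b, x = y + R.res ⟨t, htO⟩ * z)
  {m : ℕ}
  (hSC : ∀ (b : ℕ) (f : FL L (N * l)) (hf : f ∈ S.O), f ∈ (TwoCharts.ofDivisor Dt).LN 0 b →
    R.res ⟨f, hf⟩ ∈ P b)
  (hrad : ∀ (b : ℕ) (x : κ₁ × κ₂), x ^ m ∈ P (m * b) → x ∈ P b)
  (hmA : IsUnit ((m : ℕ) : A))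
  {B₁ B₂ : Type*} [CommRing B₁] [CommRing B₂] [Algebra k B₁] [Algebra k B₂]
  {B₁' B₂' : Type*} [CommRing B₁'] [CommRing B₂'] [Algebra k B₁'] [Algebra k B₂']
  (CB : ChartBase k (κ₁ × κ₂) B₁ B₂) (CB₀ : ChartBase k (κ₁ × κ₂) B₁' B₂')

include ht hDt htiO hcart hgen hSC hrad hmA in
/-- **(T4), Kummer form.**  The body of `KummerSS.KummerInertiaTrivial N l hdeg hl hlN A m`
(Ov-form, for a general surjective `π : A →+* k`) from:
* the residue setup `R` on `S.O = Ov_∞ ⊓ Ov0` with the bridge `hS`, `hext`, `hconst` to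
  `(redV, red0)` and the normalisation inputs `hinv`, `hsep`;
* the chart function `t` (fixed by Galois: `hgt`), `hcart` (G0), the pole filtration `P`
  (`hgen`, `hSC`, `hrad`);
* the (N2)-inputs `CB`, `CB₀`, `hcharts` of the two charts. -/
theorem kummerInertiaTrivial_of_charts (hπ : Function.Surjective π)
    (hS : ∀ x : FL L (N * l), x ∈ S.O ↔
      x ∈ Ov A π (FBar L (N * l)) ∧ x ∈ Ov0 A π N l hdeg hl hlN)
    (hext : ∀ (x y : FL L (N * l)) (hx : x ∈ S.O) (hy : y ∈ S.O),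
      redV A π (FBar L (N * l)) ⟨x, ((hS x).mp hx).1⟩ =
        redV A π (FBar L (N * l)) ⟨y, ((hS y).mp hy).1⟩ →
      red0 A π N l hdeg hl hlN ⟨x, ((hS x).mp hx).2⟩ =
        red0 A π N l hdeg hl hlN ⟨y, ((hS y).mp hy).2⟩ →
      R.res ⟨x, hx⟩ = R.res ⟨y, hy⟩)
    (hconst : ∀ (x : FL L (N * l)) (hx : x ∈ S.O) (c₁ c₂ : k),
      redV A π (FBar L (N * l)) ⟨x, ((hS x).mp hx).1⟩ = C c₁ →
      red0 A π N l hdeg hl hlN ⟨x, ((hS x).mp hx).2⟩ = C c₂ →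
      R.res ⟨x, hx⟩ = (algebraMap k κ₁ c₁, algebraMap k κ₂ c₂))
    (hinv : ∀ x : S.O, (R.res x).1 ≠ 0 → (R.res x).2 ≠ 0 → ((x : FL L (N * l)))⁻¹ ∈ S.O)
    (hsep : ∃ s : S.O, R.res s = (0, 1))
    (hgt : ∀ τ : L ≃ₐ[ℚ] L, arithmeticGalois (modularFunctionFieldFull (N * l)) τ • t = t)
    (hcharts : ∀ (w : FL L (N * l)) (D : Divisor L (FL L (N * l))), w ≠ 0 →
      ∀ hO : w ∈ S.O, w⁻¹ ∈ S.O → R.res ⟨w, hO⟩ = 1 →
      (∀ v : Place L (FL L (N * l)), (m : ℤ) * D v = v.ord w) →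
      ChartOK R CB m (fun b => (TwoCharts.ofDivisor Dt).LM D 0 b)
        (fun b => (TwoCharts.ofDivisor Dt).LM ((m - 1) • D) 0 b) ∧
      ChartOK R CB₀ m (fun a => (TwoCharts.ofDivisor Dt).LM D a 0)
        (fun a => (TwoCharts.ofDivisor Dt).LM ((m - 1) • D) a 0))
    (w : FL L (N * l)) (hw0 : w ≠ 0)
    (hdiv : ∀ P : Place L (FL L (N * l)), (m : ℤ) ∣ P.ord w)
    (h₁ : ∃ c₁ : k, c₁ ≠ 0 ∧ ∃ hw : w ∈ Ov A π (FBar L (N * l)),
      redV A π (FBar L (N * l)) ⟨w, hw⟩ = C c₁)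
    (h₂ : ∃ c₂ : k, c₂ ≠ 0 ∧ ∃ hw : w ∈ Ov0 A π N l hdeg hl hlN,
      red0 A π N l hdeg hl hlN ⟨w, hw⟩ = C c₂)
    (τ : L ≃ₐ[ℚ] L) (hτ : τ ∈ A.inertiaSubgroupIn ℚ) :
    ∃ (c : L) (v : FL L (N * l)),
      (arithmeticGalois (modularFunctionFieldFull (N * l)) τ • w) / w =
        algebraMap L (FL L (N * l)) c * v ^ m := by
  haveI : CharZero L := algebraRat.charZero L
  have hm0 : 0 < m := by
    rcases Nat.eq_zero_or_pos m with h | h
    · exfalso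
      subst h
      rw [Nat.cast_zero] at hmA
      exact not_isUnit_zero hmA
    · exact h
  refine kummerInertiaTrivial_of_normalised N l hdeg hl hlN A π R hm0 hS hconst hinv hsep ?_
    w hw0 hdiv h₁ h₂ τ hτ
  intro τ' hτ' w' hw'0 hO hiO hres1 hdiv'
  exact normalised_of_charts R ht hDt htO htiO hcart P hgen hSC hrad hmA
    (arithmeticGalois (modularFunctionFieldFull (N * l)) τ') (hgt τ')
    (smul_mem_O_of_mem_inertia N l hdeg hl hlN A π hπ hS hτ')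
    (res_smul_of_mem_inertia N l hdeg hl hlN A π R hπ hS hext hτ') CB CB₀ hw'0 hO hiO hres1 hdiv'
    (fun D hD => hcharts w' D hw'0 hO hiO hres1 hD)

end Final

end Fermat.Agent.S34x.TheoremBInstK
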